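import Mathlib
import Fermat.Prelude.Def_ModularForm_HeckeOperator
import Fermat.Prelude.Def_ModularForm_HeckeOperatorForms
import Fermat.Prelude.Thm_ModularFormClass_qCoeff_heckeU
import Fermat.Prelude.Thm_CongruenceSubgroup_one_mem_strictPeriods_Gamma0

/-!
# S16 shared infrastructure: conjugates of a level-`p` form, trace lemma in weight 2

`Γ₀(p)` (`p` prime) has the `p + 1` right coset representatives `1` and `S * T ^ b` (`b < p`) in
`SL(2, ℤ)`; this makes Mathlib's `ModularForm.trace` / `ModularForm.norm` to level one explicit.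
In weight `2` the trace vanishes, which gives the expansion of a form at the cusp `0` in terms of
`U_p`, and `U_p ^ 2 = 1`.
-/

set_option autoImplicit false

open UpperHalfPlane ModularForm CongruenceSubgroup Matrix
open scoped MatrixGroups ModularForm

namespace Fermat.Agent.S16

noncomputable section

/-- Coset representatives of `Γ₀(p)` in `SL(2, ℤ)`: `1` and `S * T ^ b`, `b < p`. -/
def tl_rep (p : ℕ) : Option (Fin p) → SL(2, ℤ)
  | none => 1
  | some b => ModularGroup.S * ModularGroup.T ^ (b : ℕ)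

theorem tl_coe_ST (b : ℕ) :
    ((ModularGroup.S * ModularGroup.T ^ b : SL(2, ℤ)) : Matrix (Fin 2) (Fin 2) ℤ) =
      !![0, -1; 1, (b : ℤ)] := by
  rw [← zpow_natCast, Matrix.SpecialLinearGroup.coe_mul, ModularGroup.coe_T_zpow, ModularGroup.coe_S]
  ext i j
  fin_cases i <;> fin_cases j <;> simp [Matrix.mul_apply, Fin.sum_univ_two]

theorem tl_mul_inv_ST_apply (g : SL(2, ℤ)) (b : ℕ) :
    ((g * (ModularGroup.S * ModularGroup.T ^ b)⁻¹ : SL(2, ℤ)) : Matrix (Fin 2) (Fin 2) ℤ) 1 0 =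
      (b : ℤ) * g 1 0 - g 1 1 := by
  rw [Matrix.SpecialLinearGroup.coe_mul, Matrix.SpecialLinearGroup.coe_inv, tl_coe_ST, Matrix.adjugate_fin_two]
  simp [Matrix.mul_apply, Fin.sum_univ_two]
  ring

theorem tl_mem_Gamma0_iff (p : ℕ) (g : SL(2, ℤ)) (b : ℕ) :
    g * (ModularGroup.S * ModularGroup.T ^ b)⁻¹ ∈ Gamma0 p ↔
      (((b : ℤ) * g 1 0 - g 1 1 : ℤ) : ZMod p) = 0 := by
  rw [Gamma0_mem, tl_mul_inv_ST_apply]

/-- The coset decomposition `SL(2, ℤ) = Γ₀(p) ⊔ ⨆ b, Γ₀(p) * S * T ^ b`. -/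
theorem tl_exists_rep (p : ℕ) [Fact p.Prime] (g : SL(2, ℤ)) :
    ∃ i : Option (Fin p), g * (tl_rep p i)⁻¹ ∈ Gamma0 p := by
  by_cases hc : ((g 1 0 : ℤ) : ZMod p) = 0
  · exact ⟨none, by simpa [tl_rep, Gamma0_mem] using hc⟩
  · set x : ZMod p := ((g 1 1 : ℤ) : ZMod p) / ((g 1 0 : ℤ) : ZMod p) with hx
    refine ⟨some ⟨x.val, ZMod.val_lt x⟩, ?_⟩
    show g * (ModularGroup.S * ModularGroup.T ^ x.val)⁻¹ ∈ Gamma0 p
    rw [tl_mem_Gamma0_iff]
    push_cast
    rw [ZMod.natCast_zmod_val, hx, div_mul_cancel₀ _ hc, sub_self]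

theorem tl_rep_mul_inv_mem_iff (p : ℕ) [Fact p.Prime] (i j : Option (Fin p)) :
    tl_rep p i * (tl_rep p j)⁻¹ ∈ Gamma0 p ↔ i = j := by
  have hp1 : (1 : ZMod p) ≠ 0 := one_ne_zero
  constructor
  · intro h
    rcases i with _ | b <;> rcases j with _ | b'
    · rfl
    · exfalso
      have h' : (1 : SL(2, ℤ)) * (ModularGroup.S * ModularGroup.T ^ (b' : ℕ))⁻¹ ∈ Gamma0 p := h
      rw [tl_mem_Gamma0_iff] at h'
      simp at h'
    · exfalso
      have h' : (ModularGroup.S * ModularGroup.T ^ (b : ℕ)) * (1 : SL(2, ℤ))⁻¹ ∈ Gamma0 p := h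
      rw [inv_one, mul_one, Gamma0_mem, tl_coe_ST] at h'
      simp at h'
    · have h' : (ModularGroup.S * ModularGroup.T ^ (b : ℕ)) *
          (ModularGroup.S * ModularGroup.T ^ (b' : ℕ))⁻¹ ∈ Gamma0 p := h
      rw [tl_mem_Gamma0_iff, tl_coe_ST] at h'
      simp only [Matrix.of_apply, Matrix.cons_val', Matrix.cons_val_one, Matrix.cons_val_zero,
        Matrix.cons_val_fin_one, mul_one] at h'
      have h2 : ((b' : ℕ) : ZMod p) = ((b : ℕ) : ZMod p) := by
        have := sub_eq_zero.mp (by simpa using h' : ((b' : ℕ) : ZMod p) - ((b : ℕ) : ZMod p) = 0)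
        exact this
      have h3 : (b' : ℕ) = (b : ℕ) := by
        have := (ZMod.natCast_eq_natCast_iff' _ _ _).mp h2
        rwa [Nat.mod_eq_of_lt b'.2, Nat.mod_eq_of_lt b.2] at this
      exact congrArg some (Fin.ext h3.symm)
  · rintro rfl
    simp [one_mem]

section quot

variable (p : ℕ) [Fact p.Prime]

/-- The quotient `SL(2, ℤ) / Γ₀(p)` (inside `GL(2, ℝ)`) used by Mathlib's trace and norm. -/
abbrev tl_Q : Type :=
  (𝒮ℒ : Subgroup (GL (Fin 2) ℝ)) ⧸
    ((Gamma0 p : Subgroup SL(2, ℤ)) : Subgroup (GL (Fin 2) ℝ)).subgroupOf 𝒮ℒ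

/-- The enumeration of the quotient by the explicit representatives. -/
def tl_e (i : Option (Fin p)) : tl_Q p :=
  QuotientGroup.mk ⟨Matrix.SpecialLinearGroup.mapGL ℝ (tl_rep p i)⁻¹, ⟨_, rfl⟩⟩

theorem tl_e_injective : Function.Injective (tl_e p) := by
  intro i j h
  rw [tl_e, tl_e, QuotientGroup.eq, Subgroup.mem_subgroupOf] at h
  have h2 : Matrix.SpecialLinearGroup.mapGL ℝ (tl_rep p i * (tl_rep p j)⁻¹) ∈
      ((Gamma0 p : Subgroup SL(2, ℤ)) : Subgroup (GL (Fin 2) ℝ)) := by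
    simpa using h
  rw [Subgroup.mem_map_iff_mem Matrix.SpecialLinearGroup.mapGL_injective] at h2
  exact (tl_rep_mul_inv_mem_iff p i j).mp h2

theorem tl_e_surjective : Function.Surjective (tl_e p) := by
  intro q
  induction q using QuotientGroup.induction_on with
  | H h =>
    obtain ⟨h, g, rfl⟩ := h
    obtain ⟨i, hi⟩ := tl_exists_rep p g⁻¹
    refine ⟨i, ?_⟩
    rw [tl_e, QuotientGroup.eq, Subgroup.mem_subgroupOf]
    have h2 : Matrix.SpecialLinearGroup.mapGL ℝ (tl_rep p i * g) ∈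
        ((Gamma0 p : Subgroup SL(2, ℤ)) : Subgroup (GL (Fin 2) ℝ)) := by
      rw [Subgroup.mem_map_iff_mem Matrix.SpecialLinearGroup.mapGL_injective]
      have := (Gamma0 p).inv_mem hi
      simpa using this
    simpa using h2

/-- The explicit enumeration of the cosets. -/
def tl_equiv : Option (Fin p) ≃ tl_Q p :=
  Equiv.ofBijective (tl_e p) ⟨tl_e_injective p, tl_e_surjective p⟩

theorem tl_card : Nat.card (tl_Q p) = p + 1 := by
  rw [← Nat.card_congr (tl_equiv p)]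
  simp

end quot

section tracenorm

variable {p : ℕ} [Fact p.Prime] {k : ℤ}

omit [Fact p.Prime] in
theorem tl_quotientFunc [NeZero p] (F : ModularForm (Gamma0 p) k) (i : Option (Fin p)) :
    SlashInvariantForm.quotientFunc (ℋ := 𝒮ℒ) F (tl_e p i) = ⇑F ∣[k] (tl_rep p i) := by
  show (⇑F ∣[k] ((⟨Matrix.SpecialLinearGroup.mapGL ℝ (tl_rep p i)⁻¹, ⟨_, rfl⟩⟩ :
    (𝒮ℒ : Subgroup (GL (Fin 2) ℝ))) : GL (Fin 2) ℝ)⁻¹) = _
  rw [SL_slash]
  simp only [inv_inv, map_inv]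
  rfl

theorem tl_trace_apply (F : ModularForm (Gamma0 p) k) (z : ℍ) :
    ModularForm.trace 𝒮ℒ F z =
      F z + ∑ b ∈ Finset.range p, (⇑F ∣[k] (ModularGroup.S * ModularGroup.T ^ b)) z := by
  let _ := Fintype.ofFinite (tl_Q p)
  rw [ModularForm.coe_trace, Finset.sum_apply,
    ← Fintype.sum_equiv (tl_equiv p) (fun i => (⇑F ∣[k] (tl_rep p i)) z)
      (fun q => SlashInvariantForm.quotientFunc (ℋ := 𝒮ℒ) F q z)
      (fun i => by rw [← tl_quotientFunc]; rfl),
    Fintype.sum_option, ← Fin.sum_univ_eq_sum_range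
      (fun b => (⇑F ∣[k] (ModularGroup.S * ModularGroup.T ^ b)) z) p]
  simp [tl_rep]

theorem tl_norm_apply (F : ModularForm (Gamma0 p) k) (z : ℍ) :
    ModularForm.norm 𝒮ℒ F z =
      F z * ∏ b ∈ Finset.range p, (⇑F ∣[k] (ModularGroup.S * ModularGroup.T ^ b)) z := by
  let _ := Fintype.ofFinite (tl_Q p)
  rw [ModularForm.coe_norm, Finset.prod_apply,
    ← Fintype.prod_equiv (tl_equiv p) (fun i => (⇑F ∣[k] (tl_rep p i)) z)
      (fun q => SlashInvariantForm.quotientFunc (ℋ := 𝒮ℒ) F q z)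
      (fun i => by rw [← tl_quotientFunc]; rfl),
    Fintype.prod_option, ← Fin.prod_univ_eq_prod_range
      (fun b => (⇑F ∣[k] (ModularGroup.S * ModularGroup.T ^ b)) z) p]
  simp [tl_rep]

end tracenorm

section fricke

variable {p : ℕ}

/-- The Fricke matrix `W_p = [[0, -1], [p, 0]] = S * diag(p, 1)`. -/
def tl_W (p : ℕ) : GL (Fin 2) ℝ :=
  Matrix.SpecialLinearGroup.mapGL ℝ ModularGroup.S * heckeDiagMatrix p

theorem tl_mapGL_apply (g : SL(2, ℤ)) (i j : Fin 2) :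
    ((Matrix.SpecialLinearGroup.mapGL ℝ g : GL (Fin 2) ℝ) : Matrix (Fin 2) (Fin 2) ℝ) i j =
      ((g i j : ℤ) : ℝ) := rfl

theorem tl_val_W (hp : p ≠ 0) :
    ((tl_W p : GL (Fin 2) ℝ) : Matrix (Fin 2) (Fin 2) ℝ) = !![0, -1; (p : ℝ), 0] := by
  rw [tl_W, Units.val_mul, val_heckeDiagMatrix hp]
  ext i j
  fin_cases i <;> fin_cases j <;>
    simp [Matrix.mul_apply, Fin.sum_univ_two, ModularGroup.coe_S]

/-- `W_p` normalises `Γ₀(p)`. -/
theorem tl_exists_conj (hp : p ≠ 0) (g : SL(2, ℤ)) (hg : g ∈ Gamma0 p) :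
    ∃ g' : SL(2, ℤ), g' ∈ Gamma0 p ∧
      tl_W p * Matrix.SpecialLinearGroup.mapGL ℝ g =
        Matrix.SpecialLinearGroup.mapGL ℝ g' * tl_W p := by
  rw [Gamma0_mem, ZMod.intCast_zmod_eq_zero_iff_dvd] at hg
  obtain ⟨c', hc'⟩ := hg
  have hdet : g 0 0 * g 1 1 - g 0 1 * g 1 0 = 1 := by
    have := g.det_coe
    rwa [Matrix.det_fin_two] at this
  obtain ⟨g', h00, h01, h10, h11⟩ : ∃ g' : SL(2, ℤ), g' 0 0 = g 1 1 ∧ g' 0 1 = -c' ∧
      g' 1 0 = -((p : ℤ) * g 0 1) ∧ g' 1 1 = g 0 0 := by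
    refine ⟨⟨!![g 1 1, -c'; -((p : ℤ) * g 0 1), g 0 0], ?_⟩, rfl, rfl, rfl, rfl⟩
    rw [Matrix.det_fin_two_of]
    rw [hc'] at hdet
    linear_combination hdet
  refine ⟨g', ?_, ?_⟩
  · rw [Gamma0_mem, h10]
    simp
  · apply Units.ext
    rw [Units.val_mul, Units.val_mul, tl_val_W hp]
    have hc'' : ((g 1 0 : ℤ) : ℝ) = (p : ℝ) * (c' : ℝ) := by exact_mod_cast hc'
    ext i j
    fin_cases i <;> fin_cases j <;>
      simp [Matrix.mul_apply, Fin.sum_univ_two, hc'', h00, h01, h10, h11] <;> ring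

variable [NeZero p] {k : ℤ}

open ConjAct Pointwise in
/-- The Fricke transform `F ∣[k] W_p` as a modular form on `Γ₀(p)`. -/
def tl_fricke (F : ModularForm (Gamma0 p) k) : ModularForm (Gamma0 p) k where
  toFun := ⇑F ∣[k] tl_W p
  slash_action_eq' γ hγ := by
    obtain ⟨g, hg, rfl⟩ := hγ
    obtain ⟨g', hg', h⟩ := tl_exists_conj (NeZero.ne p) g hg
    rw [← SlashAction.slash_mul, h, SlashAction.slash_mul]
    congr 1
    exact SlashInvariantFormClass.slash_action_eq F _ (Subgroup.mem_map_of_mem _ hg')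
  holo' := (ModularFormClass.holo F).slash k (tl_W p)
  bdd_at_cusps' {c} hc := by
    refine (ModularForm.translate F (tl_W p)).bdd_at_cusps' (hc.mono ?_)
    intro γ hγ
    obtain ⟨g, hg, rfl⟩ := hγ
    obtain ⟨g', hg', h⟩ := tl_exists_conj (NeZero.ne p) g hg
    rw [map_inv, Subgroup.mem_inv_pointwise_smul_iff, toConjAct_smul, h, mul_inv_cancel_right]
    exact Subgroup.mem_map_of_mem _ hg'

theorem tl_coe_fricke (F : ModularForm (Gamma0 p) k) : ⇑(tl_fricke F) = ⇑F ∣[k] tl_W p := rfl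

theorem tl_fricke_apply (F : ModularForm (Gamma0 p) k) (z : ℍ) :
    tl_fricke F z = (p : ℂ) ^ (k - 1) * (⇑F ∣[k] ModularGroup.S) (heckeDiagMatrix p • z) := by
  show (⇑F ∣[k] tl_W p) z = _
  rw [tl_W, SlashAction.slash_mul, slash_heckeDiagMatrix_apply k (NeZero.ne p)]
  rfl

omit [NeZero p] in
theorem tl_heckeDiag_heckeMatrix_smul (hp : p ≠ 0) (z : ℍ) :
    heckeDiagMatrix p • (heckeMatrix p 0 • z) = z := by
  apply UpperHalfPlane.ext
  rw [coe_heckeDiagMatrix_smul hp, coe_heckeMatrix_smul hp]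
  have : (p : ℂ) ≠ 0 := by exact_mod_cast hp
  field_simp
  simp

/-- The expansion of `F` at the cusp `0` is governed by the Fricke transform. -/
theorem tl_slash_S (F : ModularForm (Gamma0 p) k) (z : ℍ) :
    (⇑F ∣[k] ModularGroup.S) z = (p : ℂ) ^ (1 - k) * tl_fricke F (heckeMatrix p 0 • z) := by
  have hp : (p : ℂ) ≠ 0 := by exact_mod_cast NeZero.ne p
  rw [tl_fricke_apply, tl_heckeDiag_heckeMatrix_smul (NeZero.ne p), ← mul_assoc, ← zpow_add₀ hp,
    show 1 - k + (k - 1) = 0 by ring, zpow_zero, one_mul]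

omit [NeZero p] in
theorem tl_heckeMatrix_T_smul (hp : p ≠ 0) (b : ℕ) (z : ℍ) :
    heckeMatrix p 0 • (ModularGroup.T ^ b • z) = heckeMatrix p b • z := by
  apply UpperHalfPlane.ext
  rw [coe_heckeMatrix_smul hp, coe_heckeMatrix_smul hp, ← zpow_natCast,
    ModularGroup.coe_T_zpow_smul_eq]
  simp

/-- All the conjugates `F ∣ S T ^ b` in terms of the Fricke transform. -/
theorem tl_slash_ST (F : ModularForm (Gamma0 p) k) (b : ℕ) (z : ℍ) :
    (⇑F ∣[k] (ModularGroup.S * ModularGroup.T ^ b)) z =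
      (p : ℂ) ^ (1 - k) * tl_fricke F (heckeMatrix p b • z) := by
  rw [SlashAction.slash_mul, SL_slash_apply, tl_slash_S, tl_heckeMatrix_T_smul (NeZero.ne p)]
  have hden : denom (ModularGroup.T ^ b : SL(2, ℤ)) z = 1 := by
    rw [ModularGroup.denom_apply, ← zpow_natCast, ModularGroup.coe_T_zpow]
    simp
  rw [hden, _root_.one_zpow, mul_one]

omit [NeZero p] in
theorem tl_val_W_mul_W (hp : p ≠ 0) :
    ((tl_W p * tl_W p : GL (Fin 2) ℝ) : Matrix (Fin 2) (Fin 2) ℝ) =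
      !![-(p : ℝ), 0; 0, -(p : ℝ)] := by
  rw [Units.val_mul, tl_val_W hp]
  ext i j
  fin_cases i <;> fin_cases j <;> simp [Matrix.mul_apply, Fin.sum_univ_two]

omit [NeZero p] in
theorem tl_det_W_mul_W (hp : p ≠ 0) : ((tl_W p * tl_W p).det : ℝ) = (p : ℝ) ^ 2 := by
  rw [Matrix.GeneralLinearGroup.val_det_apply, tl_val_W_mul_W hp, Matrix.det_fin_two_of]
  ring

omit [NeZero p] in
theorem tl_slash_W_W (hp : p ≠ 0) (k : ℤ) (f : ℍ → ℂ) (z : ℍ) :
    (f ∣[k] (tl_W p * tl_W p)) z = f z * ((p : ℂ) ^ 2) ^ (k - 1) * (-(p : ℂ)) ^ (-k) := by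
  have hp' : (p : ℝ) ≠ 0 := by exact_mod_cast hp
  have hpc : (p : ℂ) ≠ 0 := by exact_mod_cast hp
  have hdet : 0 < ((tl_W p * tl_W p).det : ℝ) := by
    rw [tl_det_W_mul_W hp]; positivity
  have hσ : UpperHalfPlane.σ (tl_W p * tl_W p) = .refl ℝ ℂ := by
    rw [UpperHalfPlane.σ, if_pos hdet]
  have hden : UpperHalfPlane.denom (tl_W p * tl_W p) z = -(p : ℂ) := by
    simp [UpperHalfPlane.denom, tl_val_W_mul_W hp]
  have hsmul : (tl_W p * tl_W p) • z = z := by
    apply UpperHalfPlane.ext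
    rw [UpperHalfPlane.coe_smul_of_det_pos hdet, hden]
    simp [UpperHalfPlane.num, tl_val_W_mul_W hp]
    field_simp
  rw [ModularForm.slash_apply, hσ, hsmul, hden, tl_det_W_mul_W hp]
  simp

theorem tl_fricke_fricke_apply (F : ModularForm (Gamma0 p) k) (z : ℍ) :
    tl_fricke (tl_fricke F) z = F z * ((p : ℂ) ^ 2) ^ (k - 1) * (-(p : ℂ)) ^ (-k) := by
  rw [← tl_slash_W_W (NeZero.ne p) k ⇑F z, SlashAction.slash_mul]
  rfl

/-- In weight two the Fricke transform is an involution. -/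
theorem tl_fricke_fricke (F : ModularForm (Gamma0 p) 2) : tl_fricke (tl_fricke F) = F := by
  have hpc : (p : ℂ) ≠ 0 := by exact_mod_cast NeZero.ne p
  ext z
  rw [tl_fricke_fricke_apply]
  norm_num
  field_simp

end fricke

section weighttwo

variable {p : ℕ} [Fact p.Prime] {k : ℤ}

/-- The trace to level one in terms of `U_p` and the Fricke transform. -/
theorem tl_trace_eq (F : ModularForm (Gamma0 p) k) (z : ℍ) :
    ModularForm.trace 𝒮ℒ F z = F z + (p : ℂ) ^ (2 - k) * heckeU k p ⇑(tl_fricke F) z := by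
  have hp : (p : ℂ) ≠ 0 := by exact_mod_cast NeZero.ne p
  rw [tl_trace_apply, heckeU_apply k (NeZero.ne p), ← mul_assoc,
    show (p : ℂ) ^ (2 - k) * (p : ℂ)⁻¹ = (p : ℂ) ^ (1 - k) by
      rw [← _root_.zpow_neg_one, ← zpow_add₀ hp]; congr 1; ring,
    Finset.mul_sum]
  congr 1
  exact Finset.sum_congr rfl fun b _ => tl_slash_ST F b z

/-- There is no nonzero modular form of weight two and level one. -/
theorem tl_levelOne_weight_two (G : ModularForm 𝒮ℒ 2) : G = 0 := by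
  have hrank : Module.rank ℂ (ModularForm 𝒮ℒ 2) = 0 := by
    have h := dimension_level_one 2 ⟨1, rfl⟩
    simpa [Nat.ModEq] using h
  have := rank_zero_iff.mp hrank
  exact Subsingleton.elim _ _

/-- Weight-two trace lemma. -/
theorem tl_eq_neg_heckeU_fricke (F : ModularForm (Gamma0 p) 2) (z : ℍ) :
    F z = -heckeU 2 p ⇑(tl_fricke F) z := by
  have h := tl_trace_eq F z
  rw [tl_levelOne_weight_two (ModularForm.trace 𝒮ℒ F)] at h
  simp only [_root_.zero_apply, sub_self, zpow_zero, one_mul] at h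
  linear_combination -h

/-- `F ∣ W_p = - U_p F` in weight two. -/
theorem tl_fricke_eq_neg_heckeU (F : ModularForm (Gamma0 p) 2) (z : ℍ) :
    tl_fricke F z = -heckeU 2 p ⇑F z := by
  have := tl_eq_neg_heckeU_fricke (tl_fricke F) z
  rwa [tl_fricke_fricke] at this

/-- `U_p ^ 2 = 1` on modular forms of weight two and level `Γ₀(p)`. -/
theorem tl_heckeU_heckeU (F : ModularForm (Gamma0 p) 2) :
    heckeU 2 p (heckeU 2 p ⇑F) = ⇑F := by
  have h1 : ⇑(tl_fricke F) = -heckeU 2 p ⇑F := funext (tl_fricke_eq_neg_heckeU F)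
  funext z
  have h2 := tl_eq_neg_heckeU_fricke F z
  rw [h1, heckeU_neg] at h2
  simpa using h2.symm

/-- The conjugates of a weight-two form: `F ∣ S T ^ b = -(1/p) (U_p F)((z + b)/p)`. -/
theorem tl_slash_ST_two (F : ModularForm (Gamma0 p) 2) (b : ℕ) (z : ℍ) :
    (⇑F ∣[(2 : ℤ)] (ModularGroup.S * ModularGroup.T ^ b)) z =
      -(1 / (p : ℂ)) * heckeU 2 p ⇑F (heckeMatrix p b • z) := by
  rw [tl_slash_ST, tl_fricke_eq_neg_heckeU]
  norm_num

end weighttwo

section exports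

variable {p : ℕ} [Fact p.Prime] {k : ℤ}

/-- The norm to level one as a modular form of weight `k * (p + 1)` (cast-free). -/
def tl_norm (F : ModularForm (Gamma0 p) k) : ModularForm 𝒮ℒ (k * (p + 1)) :=
  ModularForm.mcast (by rw [tl_card]; push_cast; ring) (ModularForm.norm 𝒮ℒ F)

theorem tl_norm_eq (F : ModularForm (Gamma0 p) k) (z : ℍ) :
    tl_norm F z =
      F z * ∏ b ∈ Finset.range p, (⇑F ∣[k] (ModularGroup.S * ModularGroup.T ^ b)) z := by
  rw [← tl_norm_apply]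
  rfl

/-- The norm in terms of the Fricke transform. -/
theorem tl_norm_eq_fricke (F : ModularForm (Gamma0 p) k) (z : ℍ) :
    tl_norm F z =
      F z * ∏ b ∈ Finset.range p, ((p : ℂ) ^ (1 - k) * tl_fricke F (heckeMatrix p b • z)) := by
  rw [tl_norm_eq]
  congr 1
  exact Finset.prod_congr rfl fun b _ => tl_slash_ST F b z

/-- The trace to level one as a modular form. -/
def tl_trace (F : ModularForm (Gamma0 p) k) : ModularForm 𝒮ℒ k := ModularForm.trace 𝒮ℒ F

theorem tl_trace_eq' (F : ModularForm (Gamma0 p) k) (z : ℍ) :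
    tl_trace F z =
      F z + ∑ b ∈ Finset.range p, (⇑F ∣[k] (ModularGroup.S * ModularGroup.T ^ b)) z :=
  tl_trace_apply F z

/-- Every `SL(2, ℤ)`-translate of a form on `Γ₀(p)` is the form itself or one of the
`F ∣ S T ^ b`. -/
theorem tl_slash_eq (F : ModularForm (Gamma0 p) k) (g : SL(2, ℤ)) :
    (g ∈ Gamma0 p ∧ ⇑F ∣[k] g = ⇑F) ∨
      (g ∉ Gamma0 p ∧ ∃ b < p, ⇑F ∣[k] g = ⇑F ∣[k] (ModularGroup.S * ModularGroup.T ^ b)) := by
  have hinv : ∀ γ ∈ Gamma0 p, ⇑F ∣[k] γ = ⇑F := fun γ hγ =>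
    SlashInvariantFormClass.slash_action_eq F _ (Subgroup.mem_map_of_mem _ hγ)
  by_cases hg : g ∈ Gamma0 p
  · exact Or.inl ⟨hg, hinv g hg⟩
  · refine Or.inr ⟨hg, ?_⟩
    obtain ⟨i, hi⟩ := tl_exists_rep p g
    rcases i with _ | b
    · exact absurd (by simpa [tl_rep] using hi) hg
    · refine ⟨b, b.2, ?_⟩
      have h1 : g = (g * (tl_rep p (some b))⁻¹) * (ModularGroup.S * ModularGroup.T ^ (b : ℕ)) := by
        show g = (g * (ModularGroup.S * ModularGroup.T ^ (b : ℕ))⁻¹) *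
          (ModularGroup.S * ModularGroup.T ^ (b : ℕ))
        rw [inv_mul_cancel_right]
      conv_lhs => rw [h1]
      rw [SlashAction.slash_mul, hinv _ hi]

/-- `U_p F` as a modular form of weight two on `Γ₀(p)`. -/
def tl_U (F : ModularForm (Gamma0 p) 2) : ModularForm (Gamma0 p) 2 :=
  ModularForm.heckeULin 2 (dvd_refl p) F

theorem tl_coe_U (F : ModularForm (Gamma0 p) 2) : ⇑(tl_U F) = heckeU 2 p ⇑F := rfl

theorem tl_U_U (F : ModularForm (Gamma0 p) 2) : tl_U (tl_U F) = F :=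
  DFunLike.coe_injective (by rw [tl_coe_U, tl_coe_U, tl_heckeU_heckeU])

theorem tl_fricke_eq_neg_U (F : ModularForm (Gamma0 p) 2) : tl_fricke F = -tl_U F := by
  ext z
  rw [tl_fricke_eq_neg_heckeU]
  rfl

theorem tl_qExpansion_U_coeff (F : ModularForm (Gamma0 p) 2) (n : ℕ) :
    (qExpansion 1 (tl_U F)).coeff n = (qExpansion 1 F).coeff (n * p) :=
  ModularFormClass.qCoeff_heckeU F (CongruenceSubgroup.one_mem_strictPeriods_Gamma0 p)
    (NeZero.ne p) n

/-- The expansion at the cusp `0` in weight two: `(F ∣ S)(z) = -(1/p) (U_p F)(z/p)`. -/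
theorem tl_slash_S_two (F : ModularForm (Gamma0 p) 2) (z : ℍ) :
    (⇑F ∣[(2 : ℤ)] ModularGroup.S) z = -(1 / (p : ℂ)) * tl_U F (heckeMatrix p 0 • z) := by
  have h := tl_slash_ST_two F 0 z
  rwa [pow_zero, mul_one] at h

theorem tl_slash_ST_two' (F : ModularForm (Gamma0 p) 2) (b : ℕ) (z : ℍ) :
    (⇑F ∣[(2 : ℤ)] (ModularGroup.S * ModularGroup.T ^ b)) z =
      -(1 / (p : ℂ)) * tl_U F (heckeMatrix p b • z) :=
  tl_slash_ST_two F b z

end exports

end

end Fermat.Agent.S16
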