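import Mathlib
import Fermat.Agent.S16.TraceLemma

/-!
# S16 glue: a weight-two form on `Γ₀(p)` with vanishing constant term is a cusp form

For `p` prime the only cusps of `Γ₀(p)` are `∞` and `0`; in weight two the expansion at `0` is
`-(1/p) (U_p F)(z/p)` (trace lemma), whose constant term is again `a₀(F)`.
-/

set_option autoImplicit false

open UpperHalfPlane ModularForm CongruenceSubgroup Matrix OnePoint Filter
open scoped MatrixGroups ModularForm

namespace Fermat.Agent.S16

noncomputable section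

variable {p : ℕ}

/-- A form on `Γ₀(p)` with vanishing constant term tends to `0` at `i∞`. -/
theorem cp_isZeroAtImInfty {k : ℤ} (F : ModularForm (Gamma0 p) k)
    (h0 : (qExpansion 1 F).coeff 0 = 0) : IsZeroAtImInfty (⇑F) := by
  have h1 : (1 : ℝ) ∈ ((Gamma0 p : Subgroup SL(2, ℤ)) : Subgroup (GL (Fin 2) ℝ)).strictPeriods :=
    CongruenceSubgroup.one_mem_strictPeriods_Gamma0 p
  have hanal := ModularFormClass.analyticAt_cuspFunction_zero F one_pos h1
  have hper := SlashInvariantFormClass.periodic_comp_ofComplex F h1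
  have hval : valueAtInfty (⇑F) = 0 := by
    rw [← UpperHalfPlane.qExpansion_coeff_zero one_pos hanal hper]
    exact h0
  simp_rw [IsZeroAtImInfty, ZeroAtFilter, ← hval,
    ← UpperHalfPlane.cuspFunction_apply_zero one_pos hanal hper]
  exact (hanal.continuousAt.tendsto.comp (qParam_tendsto_atImInfty one_pos)).congr
    (fun τ ↦ SlashInvariantFormClass.eq_cuspFunction F τ h1 one_ne_zero)

variable [Fact p.Prime]

/-- `z ↦ (z + b)/p` tends to `i∞` at `i∞`. -/
theorem cp_tendsto_heckeMatrix (b : ℕ) :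
    Tendsto (fun z : ℍ => heckeMatrix p b • z) atImInfty atImInfty := by
  have hp : p ≠ 0 := (Fact.out : p.Prime).ne_zero
  rw [atImInfty, tendsto_comap_iff]
  have him : ∀ z : ℍ, (heckeMatrix p b • z).im = z.im / p := by
    intro z
    have h := coe_heckeMatrix_smul hp b z
    have : ((heckeMatrix p b • z : ℍ) : ℂ).im = (((z : ℂ) + b) / p).im := by rw [h]
    rw [UpperHalfPlane.coe_im] at this
    rw [this]
    have h2 : (((z : ℂ) + b) / p) = ((z : ℂ) + b) * ((p : ℝ)⁻¹ : ℝ) := by
      push_cast; rw [div_eq_mul_inv]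
    rw [h2, Complex.mul_im, Complex.ofReal_re, Complex.ofReal_im]
    simp [div_eq_mul_inv]
  have : (UpperHalfPlane.im ∘ fun z : ℍ => heckeMatrix p b • z) = fun z : ℍ => z.im / p := by
    funext z; exact him z
  rw [this]
  have hpos : (0 : ℝ) < p := by exact_mod_cast Nat.pos_of_ne_zero hp
  exact (tendsto_comap.atTop_div_const hpos)

/-- Every `SL(2, ℤ)`-translate of a weight-two form on `Γ₀(p)` with `a₀ = 0` vanishes at `i∞`. -/
theorem cp_isZeroAtImInfty_slash (F : ModularForm (Gamma0 p) 2)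
    (h0 : (qExpansion 1 F).coeff 0 = 0) (g : SL(2, ℤ)) :
    IsZeroAtImInfty (⇑F ∣[(2 : ℤ)] g) := by
  rcases tl_slash_eq F g with ⟨_, h⟩ | ⟨_, b, _, h⟩
  · rw [h]; exact cp_isZeroAtImInfty F h0
  · rw [h]
    have hU0 : (qExpansion 1 (tl_U F)).coeff 0 = 0 := by
      rw [tl_qExpansion_U_coeff]; simpa using h0
    have hU := cp_isZeroAtImInfty (tl_U F) hU0
    have hfun : (⇑F ∣[(2 : ℤ)] (ModularGroup.S * ModularGroup.T ^ b)) =
        fun z => -(1 / (p : ℂ)) * tl_U F (heckeMatrix p b • z) :=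
      funext (tl_slash_ST_two' F b)
    rw [hfun]
    have h2 : Tendsto (fun z : ℍ => tl_U F (heckeMatrix p b • z)) atImInfty (nhds 0) :=
      hU.comp (cp_tendsto_heckeMatrix b)
    have h3 := h2.const_mul (-(1 / (p : ℂ)))
    rw [mul_zero] at h3
    exact h3

/-- A weight-two modular form on `Γ₀(p)` (`p` prime) whose `q`-expansion has vanishing constant
term, as a cusp form. -/
def cp_cuspForm (F : ModularForm (Gamma0 p) 2) (h0 : (qExpansion 1 F).coeff 0 = 0) :
    CuspForm (Gamma0 p) 2 :=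
  { F with
    zero_at_cusps' := fun {c} hc => by
      rw [Subgroup.IsArithmetic.isCusp_iff_isCusp_SL2Z] at hc
      rw [OnePoint.isZeroAt_iff_forall_SL2Z hc]
      intro γ _
      exact cp_isZeroAtImInfty_slash F h0 γ }

@[simp] theorem cp_coe_cuspForm (F : ModularForm (Gamma0 p) 2)
    (h0 : (qExpansion 1 F).coeff 0 = 0) : (⇑(cp_cuspForm F h0) : ℍ → ℂ) = ⇑F := rfl

theorem cp_exists_cuspForm (F : ModularForm (Gamma0 p) 2)
    (h0 : (qExpansion 1 F).coeff 0 = 0) :
    ∃ f : CuspForm (Gamma0 p) 2, (⇑f : ℍ → ℂ) = ⇑F :=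
  ⟨cp_cuspForm F h0, rfl⟩

end

end Fermat.Agent.S16
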