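/-
S16 helper module (helper32): the weight-2 Eisenstein series of level `Γ₀(N)`,
  `eisP N = (N · E₂(N z) − E₂(z)) / 24`,
as a Mathlib `ModularForm`, with its `q`-expansion
  `(N − 1)/24 + ∑_{n ≥ 1} (∑_{d ∣ n, N ∤ d} d) qⁿ`.
Only Mathlib and two Prelude files are used.
-/
import Mathlib
import Fermat.Prelude.Def_ModularForm_HeckeOperator
import Fermat.Prelude.Def_ModularForm_HeckeOperatorForms
import Fermat.Prelude.Def_FLTPrelim_Modularity
import Fermat.Prelude.Thm_CongruenceSubgroup_one_mem_strictPeriods_Gamma0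
import Fermat.Prelude.Thm_ModularFormClass_qCoeff_heckeU
import Fermat.Prelude.Thm_UpperHalfPlane_eq_of_forall_qCoeff_eq

set_option autoImplicit false

open UpperHalfPlane ModularForm CongruenceSubgroup EisensteinSeries
open scoped MatrixGroups ModularForm Manifold Pointwise Real

noncomputable section

namespace Fermat.Agent.S16

/-- The raw function `z ↦ N · E₂(N z) − E₂(z)`. -/
def eisPRaw (N : ℕ) : ℍ → ℂ := E2 ∣[(2 : ℤ)] heckeDiagMatrix N - E2

theorem eisPRaw_apply (N : ℕ) (hN : N ≠ 0) (z : ℍ) :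
    eisPRaw N z = (N : ℂ) * E2 (heckeDiagMatrix N • z) - E2 z := by
  simp [eisPRaw, slash_heckeDiagMatrix_apply 2 hN]

/-- `D2 γ` is bounded at `i∞`. -/
theorem eisP_D2_bounded (γ : SL(2, ℤ)) : IsBoundedAtImInfty (D2 γ) := by
  rw [isBoundedAtImInfty_iff]
  refine ⟨2 * π, 1, fun z hz => ?_⟩
  simp only [D2]
  by_cases hc : γ 1 0 = 0
  · simp [hc, Real.pi_pos.le]
  · have hc' : (1 : ℝ) ≤ |((γ 1 0 : ℤ) : ℝ)| := by
      have : (1 : ℤ) ≤ |γ 1 0| := Int.one_le_abs hc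
      exact_mod_cast this
    have hden : |((γ 1 0 : ℤ) : ℝ)| ≤ ‖denom γ z‖ := by
      have h1 : (denom γ z).im = ((γ 1 0 : ℤ) : ℝ) * z.im := by
        rw [ModularGroup.denom_apply]
        simp
      calc |((γ 1 0 : ℤ) : ℝ)| ≤ |((γ 1 0 : ℤ) : ℝ)| * z.im := by
            nlinarith [abs_nonneg ((γ 1 0 : ℤ) : ℝ)]
        _ = |(denom γ z).im| := by rw [h1, abs_mul, abs_of_pos z.im_pos]
        _ ≤ ‖denom γ z‖ := Complex.abs_im_le_norm _
    have hpos : 0 < ‖denom γ z‖ := lt_of_lt_of_le (by linarith) hden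
    rw [norm_div, div_le_iff₀ hpos]
    have h2 : ‖(2 * (π : ℂ) * Complex.I * ((γ 1 0 : ℤ) : ℂ))‖ = 2 * π * |((γ 1 0 : ℤ) : ℝ)| := by
      simp [abs_of_pos Real.pi_pos]
    rw [h2]
    have := Real.pi_pos
    nlinarith


/-- `E₂ ∣[2] γ` is bounded at `i∞` for every `γ ∈ SL(2, ℤ)`. -/
theorem eisP_E2_slash_bounded (γ : SL(2, ℤ)) : IsBoundedAtImInfty (E2 ∣[(2 : ℤ)] γ) := by
  rw [E2_slash_action, sub_eq_add_neg]
  exact isBoundedAtImInfty_E2.add ((eisP_D2_bounded γ).smul _).neg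

/-- Hermite normal form: `diag(N, 1) · γ = γ' · β` with `γ' ∈ SL(2, ℤ)` and `β` upper
triangular. -/
theorem eisP_exists_decomp (N : ℕ) (hN : N ≠ 0) (γ : SL(2, ℤ)) :
    ∃ (γ' : SL(2, ℤ)) (β : GL (Fin 2) ℝ), β 1 0 = 0 ∧
      heckeDiagMatrix N * (γ : GL (Fin 2) ℝ) = (γ' : GL (Fin 2) ℝ) * β := by
  -- first column of `diag(N,1) γ` is `(N a, c)`
  set x : ℤ := N * γ 0 0 with hx
  set y : ℤ := γ 1 0 with hy
  have hxy : x ≠ 0 ∨ y ≠ 0 := by
    by_contra h
    push Not at h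
    have hdet := γ.det_coe
    rw [Matrix.det_fin_two] at hdet
    have hy0 : γ 1 0 = 0 := h.2
    have hx0 : γ 0 0 = 0 := by
      have : (N : ℤ) * γ 0 0 = 0 := h.1
      rcases mul_eq_zero.mp this with h' | h'
      · exact absurd (by exact_mod_cast h') hN
      · exact h'
    rw [hy0, hx0] at hdet
    simp at hdet
  have hg : (Int.gcd x y : ℤ) ≠ 0 := by
    have : Int.gcd x y ≠ 0 := by
      rw [Ne, Int.gcd_eq_zero_iff]
      rintro ⟨h1, h2⟩
      rcases hxy with h | h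
      · exact h h1
      · exact h h2
    exact_mod_cast this
  obtain ⟨x', hx'⟩ : (Int.gcd x y : ℤ) ∣ x := Int.gcd_dvd_left x y
  obtain ⟨y', hy'⟩ : (Int.gcd x y : ℤ) ∣ y := Int.gcd_dvd_right x y
  have hcop : IsCoprime (-y') x' := by
    have hb := Int.gcd_eq_gcd_ab x y
    generalize Int.gcdA x y = A at hb
    generalize Int.gcdB x y = B at hb
    generalize (Int.gcd x y : ℤ) = g at hb hx' hy' hg
    have h1 : g * (x' * A + y' * B) = g * 1 := by
      linear_combination -hb - A * hx' - B * hy'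
    have h2 := mul_left_cancel₀ hg h1
    exact ⟨-B, A, by linarith⟩
  obtain ⟨δ, hδ0, hδ1⟩ := hcop.exists_SL2_row 1
  refine ⟨δ⁻¹, (δ : GL (Fin 2) ℝ) * (heckeDiagMatrix N * (γ : GL (Fin 2) ℝ)), ?_, ?_⟩
  · have hx'' : ((γ 0 0 : ℤ) : ℝ) * N = (Int.gcd x y : ℝ) * x' := by
      have : (γ 0 0 : ℤ) * N = (Int.gcd x y : ℤ) * x' := by rw [← hx', hx]; ring
      exact_mod_cast this
    have hy'' : ((γ 1 0 : ℤ) : ℝ) = (Int.gcd x y : ℝ) * y' := by
      have : (γ 1 0 : ℤ) = (Int.gcd x y : ℤ) * y' := by rw [← hy']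
      exact_mod_cast this
    simp only [Matrix.GeneralLinearGroup.coe_mul, val_heckeDiagMatrix hN, Matrix.mul_apply,
      Fin.sum_univ_two]
    simp [hδ0, hδ1]
    linear_combination (-(y' : ℝ)) * hx'' + (x' : ℝ) * hy''
  · rw [← mul_assoc, ← map_mul]
    simp


/-- `eisPRaw N ∣[2] γ` is bounded at `i∞` for every `γ ∈ SL(2, ℤ)`. -/
theorem eisPRaw_slash_bounded (N : ℕ) (hN : N ≠ 0) (γ : SL(2, ℤ)) :
    IsBoundedAtImInfty (eisPRaw N ∣[(2 : ℤ)] γ) := by
  obtain ⟨γ', β, hβ, hdec⟩ := eisP_exists_decomp N hN γ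
  have h1 : (E2 ∣[(2 : ℤ)] heckeDiagMatrix N) ∣[(2 : ℤ)] γ
      = (E2 ∣[(2 : ℤ)] γ') ∣[(2 : ℤ)] β := by
    rw [SL_slash, ← SlashAction.slash_mul, hdec, SlashAction.slash_mul, ← SL_slash]
  rw [eisPRaw, sub_eq_add_neg, SlashAction.add_slash, SlashAction.neg_slash, h1]
  exact ((eisP_E2_slash_bounded γ').slash 2 hβ).add (eisP_E2_slash_bounded γ).neg

/-- `eisPRaw N` is invariant under `Γ₀(N)`. -/
theorem eisPRaw_slash_Gamma0 (N : ℕ) [NeZero N] (γ : SL(2, ℤ)) (hγ : γ ∈ Gamma0 N) :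
    eisPRaw N ∣[(2 : ℤ)] γ = eisPRaw N := by
  have hN : N ≠ 0 := NeZero.ne N
  have hNC : (N : ℂ) ≠ 0 := by exact_mod_cast hN
  rw [Gamma0_mem, ZMod.intCast_zmod_eq_zero_iff_dvd] at hγ
  obtain ⟨c', hc'⟩ := hγ
  have hdet : γ 0 0 * γ 1 1 - (N * γ 0 1) * c' = 1 := by
    have h1 := γ.det_coe
    rw [Matrix.det_fin_two, hc'] at h1
    linear_combination h1
  obtain ⟨γ', e00, e01, e10, e11⟩ : ∃ γ' : SL(2, ℤ), γ' 0 0 = γ 0 0 ∧ γ' 0 1 = N * γ 0 1 ∧
      γ' 1 0 = c' ∧ γ' 1 1 = γ 1 1 :=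
    ⟨⟨!![γ 0 0, N * γ 0 1; c', γ 1 1], by rw [Matrix.det_fin_two_of]; exact hdet⟩,
      rfl, rfl, rfl, rfl⟩
  have hdec : heckeDiagMatrix N * (γ : GL (Fin 2) ℝ) = (γ' : GL (Fin 2) ℝ) * heckeDiagMatrix N := by
    apply Matrix.GeneralLinearGroup.ext
    intro i j
    have hc'' : ((γ 1 0 : ℤ) : ℝ) = N * c' := by rw [hc']; push_cast; ring
    simp only [Matrix.GeneralLinearGroup.coe_mul, val_heckeDiagMatrix hN, Matrix.mul_apply,
      Fin.sum_univ_two]
    fin_cases i <;> fin_cases j <;> simp [hc'', e00, e01, e10, e11] <;> ring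
  have h1 : (E2 ∣[(2 : ℤ)] heckeDiagMatrix N) ∣[(2 : ℤ)] γ
      = E2 ∣[(2 : ℤ)] heckeDiagMatrix N - (1 / (2 * riemannZeta 2)) • D2 γ := by
    rw [SL_slash, ← SlashAction.slash_mul, hdec, SlashAction.slash_mul, ← SL_slash,
      E2_slash_action]
    ext z
    have hd : denom γ' ((heckeDiagMatrix N • z : ℍ) : ℂ)
        = ((c' : ℤ) : ℂ) * ((N : ℂ) * (z : ℂ)) + ((γ 1 1 : ℤ) : ℂ) := by
      rw [ModularGroup.denom_apply, coe_heckeDiagMatrix_smul hN, e10, e11]
    have hd2 : denom γ z = ((c' : ℤ) : ℂ) * ((N : ℂ) * (z : ℂ)) + ((γ 1 1 : ℤ) : ℂ) := by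
      rw [ModularGroup.denom_apply, hc']
      push_cast
      ring
    have hden : ((c' : ℤ) : ℂ) * ((N : ℂ) * (z : ℂ)) + ((γ 1 1 : ℤ) : ℂ) ≠ 0 := by
      rw [← hd2]
      exact denom_ne_zero γ z
    rw [slash_heckeDiagMatrix_apply 2 hN, Pi.sub_apply, Pi.sub_apply,
      slash_heckeDiagMatrix_apply 2 hN, Pi.smul_apply, Pi.smul_apply]
    simp only [D2, hd, hd2, e10, hc', smul_eq_mul]
    generalize ((c' : ℤ) : ℂ) * ((N : ℂ) * (z : ℂ)) + ((γ 1 1 : ℤ) : ℂ) = den at hden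
    push_cast
    norm_num
    field_simp
  rw [eisPRaw, sub_eq_add_neg, SlashAction.add_slash, SlashAction.neg_slash, h1, E2_slash_action]
  abel

/-- `N · E₂(N z) − E₂(z)` as a modular form of weight `2` on `Γ₀(N)`. -/
def eisPAux (N : ℕ) [NeZero N] : ModularForm (Gamma0 N) 2 where
  toFun := eisPRaw N
  slash_action_eq' := by
    rintro _ ⟨γ, hγ, rfl⟩
    exact eisPRaw_slash_Gamma0 N γ hγ
  holo' := (E2_mdifferentiable.slash 2 _).sub E2_mdifferentiable
  bdd_at_cusps' {c} hc := by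
    rw [Subgroup.IsArithmetic.isCusp_iff_isCusp_SL2Z] at hc
    rw [OnePoint.isBoundedAt_iff_forall_SL2Z hc]
    exact fun γ _ => eisPRaw_slash_bounded N (NeZero.ne N) γ

/-- The weight-2 Eisenstein series `(N · E₂(N z) − E₂(z)) / 24` of level `Γ₀(N)`. -/
def eisP (N : ℕ) [NeZero N] : ModularForm (Gamma0 N) 2 := ((24 : ℂ)⁻¹) • eisPAux N

theorem eisP_apply (N : ℕ) [NeZero N] (z : ℍ) :
    eisP N z = ((N : ℂ) * E2 (heckeDiagMatrix N • z) - E2 z) / 24 := by
  show ((24 : ℂ)⁻¹) • eisPRaw N z = _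
  rw [eisPRaw_apply N (NeZero.ne N), smul_eq_mul]
  ring


/-! ### The `q`-expansion -/

/-- The `q`-expansion coefficients of `E₂`. -/
def eisPE2Coeff (m : ℕ) : ℂ := if m = 0 then 1 else -24 * (ArithmeticFunction.sigma 1 m : ℂ)

/-- The `q`-expansion coefficients of `eisP N` (raw form). -/
def eisPCoeff (N n : ℕ) : ℂ :=
  ((N : ℂ) * (if N ∣ n then eisPE2Coeff (n / N) else 0) - eisPE2Coeff n) / 24

theorem eisP_qParam_heckeDiagMatrix_smul (N : ℕ) [NeZero N] (z : ℍ) :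
    Function.Periodic.qParam 1 ((heckeDiagMatrix N • z : ℍ) : ℂ) =
      Function.Periodic.qParam 1 (z : ℂ) ^ N := by
  rw [coe_heckeDiagMatrix_smul (NeZero.ne N), Function.Periodic.qParam,
    Function.Periodic.qParam, ← Complex.exp_nat_mul]
  congr 1
  push_cast
  ring

theorem eisP_hasSum_E2 (τ : ℍ) :
    HasSum (fun m : ℕ => eisPE2Coeff m • Function.Periodic.qParam 1 (τ : ℂ) ^ m) (E2 τ) := by
  have h := hasSum_qExpansion_E2 (z := τ)
  have hq : Function.Periodic.qParam 1 (τ : ℂ) = Complex.exp (2 * π * Complex.I * τ) := by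
    simp [Function.Periodic.qParam]
  rw [hq]
  exact h

theorem eisP_hasSum (N : ℕ) [NeZero N] (τ : ℍ) :
    HasSum (fun n : ℕ => eisPCoeff N n • Function.Periodic.qParam 1 (τ : ℂ) ^ n) (eisP N τ) := by
  have hN : N ≠ 0 := NeZero.ne N
  have h1 := eisP_hasSum_E2 τ
  have h2 := eisP_hasSum_E2 (heckeDiagMatrix N • τ)
  rw [eisP_qParam_heckeDiagMatrix_smul] at h2
  have hinj : Function.Injective (fun m : ℕ => N * m) :=
    fun a b hab => Nat.eq_of_mul_eq_mul_left (Nat.pos_of_ne_zero hN) hab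
  have h3 : HasSum (fun n : ℕ => (if N ∣ n then eisPE2Coeff (n / N) else 0) •
      Function.Periodic.qParam 1 (τ : ℂ) ^ n) (E2 (heckeDiagMatrix N • τ)) := by
    rw [← hinj.hasSum_iff]
    · convert h2 using 1
      funext m
      simp only [Function.comp_apply, dvd_mul_right, if_true, smul_eq_mul,
        Nat.mul_div_cancel_left m (Nat.pos_of_ne_zero hN), pow_mul]
    · intro n hn
      have hnd : ¬ N ∣ n := fun ⟨m, hm⟩ => hn ⟨m, hm.symm⟩
      simp [hnd]
  rw [eisP_apply]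
  have h4 := ((h3.mul_left (N : ℂ)).sub h1).div_const 24
  have h5 : (fun n : ℕ => eisPCoeff N n • Function.Periodic.qParam 1 (τ : ℂ) ^ n)
      = fun i : ℕ => ((N : ℂ) * ((if N ∣ i then eisPE2Coeff (i / N) else 0) •
          Function.Periodic.qParam 1 (τ : ℂ) ^ i) -
            eisPE2Coeff i • Function.Periodic.qParam 1 (τ : ℂ) ^ i) / 24 := by
    funext n
    simp only [eisPCoeff, smul_eq_mul]
    ring
  rw [h5]
  exact h4

theorem eisP_qExpansion_coeff_raw (N : ℕ) [NeZero N] (n : ℕ) :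
    (qExpansion 1 (eisP N)).coeff n = eisPCoeff N n :=
  (ModularFormClass.qExpansion_coeff_unique one_pos
    (CongruenceSubgroup.one_mem_strictPeriods_Gamma0 N) (eisP_hasSum N) n).symm

/-- Splitting the divisor sum according to divisibility by `N`. -/
theorem eisP_sigma_split (N n : ℕ) (hN : N ≠ 0) (hn : n ≠ 0) :
    ArithmeticFunction.sigma 1 n = (∑ d ∈ n.divisors with ¬ N ∣ d, d)
      + (if N ∣ n then N * ArithmeticFunction.sigma 1 (n / N) else 0) := by
  rw [ArithmeticFunction.sigma_one_apply, ← Finset.sum_filter_not_add_sum_filter _ (fun d => N ∣ d)]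
  congr 1
  split_ifs with h
  · obtain ⟨m, rfl⟩ := h
    have hm : m ≠ 0 := fun h0 => hn (by simp [h0])
    rw [Nat.mul_div_cancel_left m (Nat.pos_of_ne_zero hN), ArithmeticFunction.sigma_one_apply,
      Finset.mul_sum]
    refine Finset.sum_bij' (fun d _ => d / N) (fun e _ => N * e) ?_ ?_ ?_ ?_ ?_
    · intro d hd
      rw [Finset.mem_filter, Nat.mem_divisors] at hd
      obtain ⟨⟨hd1, _⟩, e, rfl⟩ := hd
      rw [Nat.mul_div_cancel_left e (Nat.pos_of_ne_zero hN), Nat.mem_divisors]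
      exact ⟨(Nat.mul_dvd_mul_iff_left (Nat.pos_of_ne_zero hN)).mp hd1, hm⟩
    · intro e he
      rw [Nat.mem_divisors] at he
      rw [Finset.mem_filter, Nat.mem_divisors]
      exact ⟨⟨Nat.mul_dvd_mul_left N he.1, hn⟩, dvd_mul_right N e⟩
    · intro d hd
      rw [Finset.mem_filter] at hd
      exact Nat.mul_div_cancel' hd.2
    · intro e _
      exact Nat.mul_div_cancel_left e (Nat.pos_of_ne_zero hN)
    · intro d hd
      rw [Finset.mem_filter] at hd
      exact (Nat.mul_div_cancel' hd.2).symm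
  · apply Finset.sum_eq_zero
    intro d hd
    rw [Finset.mem_filter, Nat.mem_divisors] at hd
    exact absurd (hd.2.trans hd.1.1) h

/-- The constant term of `eisP N` is `(N - 1) / 24`. -/
theorem eisP_coeff_zero (N : ℕ) [NeZero N] :
    (qExpansion 1 (eisP N)).coeff 0 = ((N : ℂ) - 1) / 24 := by
  rw [eisP_qExpansion_coeff_raw]
  simp [eisPCoeff, eisPE2Coeff]

/-- For `k ≥ 1`, the `k`-th `q`-coefficient of `eisP N` is the sum of the divisors of `k`
that are not divisible by `N`. -/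
theorem eisP_coeff (N : ℕ) [NeZero N] (k : ℕ) (hk : 0 < k) :
    (qExpansion 1 (eisP N)).coeff k = ((∑ d ∈ k.divisors with ¬ N ∣ d, d : ℕ) : ℂ) := by
  have hN : N ≠ 0 := NeZero.ne N
  rw [eisP_qExpansion_coeff_raw]
  have hsplit := eisP_sigma_split N k hN hk.ne'
  have hsplitC : ((ArithmeticFunction.sigma 1 k : ℕ) : ℂ)
      = ((∑ d ∈ k.divisors with ¬ N ∣ d, d : ℕ) : ℂ)
        + (if N ∣ k then (N : ℂ) * ((ArithmeticFunction.sigma 1 (k / N) : ℕ) : ℂ) else 0) := by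
    rw [hsplit]
    split_ifs <;> push_cast <;> ring
  simp only [eisPCoeff, eisPE2Coeff, if_neg hk.ne']
  rw [hsplitC]
  by_cases h : N ∣ k
  · have hkN : k / N ≠ 0 := by
      obtain ⟨m, rfl⟩ := h
      rw [Nat.mul_div_cancel_left m (Nat.pos_of_ne_zero hN)]
      rintro rfl
      simp at hk
    simp only [if_pos h, if_neg hkN]
    ring
  · simp only [if_neg h]
    ring


/-! ### `U_p` fixes the Eisenstein series of prime level -/

/-- For a prime `p`, the prime-to-`p` divisor sum is unchanged on multiplying by `p`. -/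
theorem eisP_sum_mul_prime (p : ℕ) (hp : p.Prime) (n : ℕ) (hn : n ≠ 0) :
    (∑ d ∈ (n * p).divisors with ¬ p ∣ d, d) = ∑ d ∈ n.divisors with ¬ p ∣ d, d := by
  apply Finset.sum_congr _ (fun _ _ => rfl)
  ext d
  simp only [Finset.mem_filter, Nat.mem_divisors]
  constructor
  · rintro ⟨⟨h1, _⟩, h2⟩
    refine ⟨⟨?_, hn⟩, h2⟩
    have hcop : Nat.Coprime d p := ((Nat.Prime.coprime_iff_not_dvd hp).mpr h2).symm
    exact hcop.dvd_of_dvd_mul_right h1
  · rintro ⟨⟨h1, _⟩, h2⟩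
    exact ⟨⟨h1.mul_right p, mul_ne_zero hn hp.ne_zero⟩, h2⟩

/-- `U_p (eisP p) = eisP p` for a prime `p`. -/
theorem eisP_heckeU (p : ℕ) [Fact p.Prime] : heckeU 2 p ⇑(eisP p) = ⇑(eisP p) := by
  have hp : p.Prime := Fact.out
  have hper := CongruenceSubgroup.one_mem_strictPeriods_Gamma0 p
  have hU : heckeU 2 p ⇑(eisP p) = ⇑(ModularForm.heckeULin 2 (dvd_refl p) (eisP p)) := rfl
  apply UpperHalfPlane.eq_of_forall_qCoeff_eq
  · rw [hU]
    exact SlashInvariantFormClass.periodic_comp_ofComplex _ hper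
  · rw [hU]
    exact ModularFormClass.holo _
  · rw [hU]
    exact ModularFormClass.bdd_at_infty _
  · exact SlashInvariantFormClass.periodic_comp_ofComplex _ hper
  · exact ModularFormClass.holo _
  · exact ModularFormClass.bdd_at_infty _
  · intro n
    rw [ModularFormClass.qCoeff_heckeU (eisP p) hper hp.ne_zero n, coeffHeckeU_apply]
    show (qExpansion 1 (eisP p)).coeff (n * p) = (qExpansion 1 (eisP p)).coeff n
    rcases Nat.eq_zero_or_pos n with rfl | hn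
    · simp
    · rw [eisP_coeff p (n * p) (Nat.mul_pos hn hp.pos), eisP_coeff p n hn,
        eisP_sum_mul_prime p hp n hn.ne']

end Fermat.Agent.S16
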