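/-
S16 (Eisenstein ideal index) — shared base for the duality modules (helper10).

* `sigmaP p k` : `σ'(k)`, the sum of the divisors of `k` prime to `p`, with the two Hecke
  recursions `sigmaP_mul_prime`, `sigmaP_mul_self`.
* `q`-coefficient bookkeeping for weight-2 cusp forms on `Γ₀(N)` (`h10_qCoeff_*`).
-/
import Fermat.Statements.S16
import Fermat.Prelude.Thm_CuspForm_intLattice_fg
import Fermat.Prelude.Thm_ModularFormClass_qCoeff_heckeT
import Fermat.Prelude.Thm_ModularFormClass_qCoeff_heckeU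
import Fermat.Prelude.Thm_CongruenceSubgroup_one_mem_strictPeriods_Gamma0

set_option autoImplicit false
open ModularCurve CuspForm ModularFormClass CongruenceSubgroup

namespace Fermat.Agent.S16

/-- `σ'(k)`: the sum of the divisors of `k` that are prime to `p`. -/
def sigmaP (p k : ℕ) : ℕ := ∑ d ∈ k.divisors with ¬ p ∣ d, d

theorem sigmaP_one (p : ℕ) (hp : p.Prime) : sigmaP p 1 = 1 := by
  have h : ¬ p ∣ 1 := hp.one_lt.ne' ∘ Nat.dvd_one.mp
  simp [sigmaP, Finset.filter_singleton, h]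

/-- `σ'(kp) = σ'(k)`. -/
theorem sigmaP_mul_self (p : ℕ) (hp : p.Prime) (k : ℕ) (hk : 0 < k) :
    sigmaP p (k * p) = sigmaP p k := by
  unfold sigmaP
  congr 1
  ext d
  simp only [Finset.mem_filter, Nat.mem_divisors]
  constructor
  · rintro ⟨⟨hd, -⟩, hpd⟩
    refine ⟨⟨?_, hk.ne'⟩, hpd⟩
    exact (Nat.Coprime.dvd_mul_right ((Nat.Prime.coprime_iff_not_dvd hp).mpr hpd).symm).mp hd
  · rintro ⟨⟨hd, -⟩, hpd⟩
    exact ⟨⟨Dvd.dvd.mul_right hd p, mul_ne_zero hk.ne' hp.ne_zero⟩, hpd⟩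

private theorem h10_sum_dvd (p l : ℕ) (hl : l.Prime) (hpl : p.Prime) (hne : l ≠ p) (k : ℕ)
    (hk : 0 < k) :
    (∑ d ∈ k.divisors with (¬ p ∣ d ∧ l ∣ d), d) =
      if l ∣ k then l * sigmaP p (k / l) else 0 := by
  split_ifs with hlk
  · unfold sigmaP
    rw [Finset.mul_sum]
    symm
    refine Finset.sum_bij (fun d _ => l * d) ?_ ?_ ?_ ?_
    · intro d hd
      simp only [Finset.mem_filter, Nat.mem_divisors] at hd ⊢
      refine ⟨⟨?_, hk.ne'⟩, ?_, dvd_mul_right l d⟩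
      · obtain ⟨c, rfl⟩ := hlk
        rw [Nat.mul_div_cancel_left c hl.pos] at hd
        exact mul_dvd_mul_left l hd.1.1
      · intro h
        rcases (Nat.Prime.dvd_mul hpl).mp h with h | h
        · exact hne ((Nat.prime_dvd_prime_iff_eq hpl hl).mp h).symm
        · exact hd.2 h
    · intro a _ b _ h
      exact Nat.eq_of_mul_eq_mul_left hl.pos h
    · intro d hd
      simp only [Finset.mem_filter, Nat.mem_divisors] at hd
      obtain ⟨⟨hdk, -⟩, hpd, c, rfl⟩ := hd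
      refine ⟨c, ?_, rfl⟩
      simp only [Finset.mem_filter, Nat.mem_divisors]
      refine ⟨⟨?_, ?_⟩, fun h => hpd (Dvd.dvd.mul_left h l)⟩
      · obtain ⟨e, rfl⟩ := hlk
        rw [Nat.mul_div_cancel_left e hl.pos]
        exact (Nat.mul_dvd_mul_iff_left hl.pos).mp hdk
      · exact (Nat.div_pos (Nat.le_of_dvd hk hlk) hl.pos).ne'
    · intro d _
      rfl
  · apply Finset.sum_eq_zero
    intro d hd
    simp only [Finset.mem_filter, Nat.mem_divisors] at hd
    exact absurd (dvd_trans hd.2.2 hd.1.1) hlk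

/-- `σ'(kl) + [l ∣ k]·l·σ'(k/l) = (1 + l)·σ'(k)` for a prime `l ≠ p`. -/
theorem sigmaP_mul_prime (p l : ℕ) (hp : p.Prime) (hl : l.Prime) (hne : l ≠ p) (k : ℕ)
    (hk : 0 < k) :
    sigmaP p (k * l) + (if l ∣ k then l * sigmaP p (k / l) else 0) = (1 + l) * sigmaP p k := by
  have hsplit : sigmaP p k = (∑ d ∈ k.divisors with (¬ p ∣ d ∧ ¬ l ∣ d), d) +
      (∑ d ∈ k.divisors with (¬ p ∣ d ∧ l ∣ d), d) := by
    unfold sigmaP
    rw [← Finset.sum_filter_add_sum_filter_not (k.divisors.filter (fun d => ¬ p ∣ d))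
      (fun d => ¬ l ∣ d), Finset.filter_filter, Finset.filter_filter]
    simp only [not_not]
  have hkl : sigmaP p (k * l) = (∑ d ∈ k.divisors with (¬ p ∣ d ∧ ¬ l ∣ d), d) +
      l * sigmaP p k := by
    have h1 : sigmaP p (k * l) = (∑ d ∈ (k * l).divisors with (¬ p ∣ d ∧ ¬ l ∣ d), d) +
        (∑ d ∈ (k * l).divisors with (¬ p ∣ d ∧ l ∣ d), d) := by
      unfold sigmaP
      rw [← Finset.sum_filter_add_sum_filter_not ((k * l).divisors.filter (fun d => ¬ p ∣ d))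
        (fun d => ¬ l ∣ d), Finset.filter_filter, Finset.filter_filter]
      simp only [not_not]
    have h2 : (∑ d ∈ (k * l).divisors with (¬ p ∣ d ∧ ¬ l ∣ d), d) =
        ∑ d ∈ k.divisors with (¬ p ∣ d ∧ ¬ l ∣ d), d := by
      congr 1
      ext d
      simp only [Finset.mem_filter, Nat.mem_divisors]
      constructor
      · rintro ⟨⟨hd, -⟩, hpd, hld⟩
        refine ⟨⟨?_, hk.ne'⟩, hpd, hld⟩
        exact (Nat.Coprime.dvd_mul_right
          ((Nat.Prime.coprime_iff_not_dvd hl).mpr hld).symm).mp hd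
      · rintro ⟨⟨hd, -⟩, hpd, hld⟩
        exact ⟨⟨Dvd.dvd.mul_right hd l, mul_ne_zero hk.ne' hl.ne_zero⟩, hpd, hld⟩
    have h3 := h10_sum_dvd p l hl hp hne (k * l) (Nat.mul_pos hk hl.pos)
    rw [if_pos (dvd_mul_left l k), Nat.mul_div_cancel k hl.pos] at h3
    rw [h1, h2, h3]
  have hd := h10_sum_dvd p l hl hp hne k hk
  rw [hkl, ← hd]
  rw [hsplit]
  ring

section QCoeff

open UpperHalfPlane

variable {N : ℕ}

theorem h10_one_mem_strictPeriods (N : ℕ) :
    (1 : ℝ) ∈ (Subgroup.map (Matrix.SpecialLinearGroup.mapGL ℝ) (Gamma0 N)).strictPeriods :=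
  CongruenceSubgroup.one_mem_strictPeriods_Gamma0 N

theorem h10_qCoeff_add (f g : CuspForm (Gamma0 N) 2) (n : ℕ) :
    qCoeff ⇑(f + g) n = qCoeff ⇑f n + qCoeff ⇑g n := by
  simp only [qCoeff, FunLike.coe_add]
  rw [ModularForm.qExpansion_add one_pos (h10_one_mem_strictPeriods N) f g, map_add]

theorem h10_qCoeff_smul (c : ℂ) (f : CuspForm (Gamma0 N) 2) (n : ℕ) :
    qCoeff ⇑(c • f) n = c * qCoeff ⇑f n := by
  simp only [qCoeff, FunLike.coe_smul]
  rw [ModularForm.qExpansion_smul one_pos (h10_one_mem_strictPeriods N) c f]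
  simp

/-- The `n`-th `q`-coefficient as a linear functional on cusp forms. -/
noncomputable def h10_qCoeffLin (N n : ℕ) : CuspForm (Gamma0 N) 2 →ₗ[ℂ] ℂ where
  toFun f := qCoeff ⇑f n
  map_add' f g := h10_qCoeff_add f g n
  map_smul' c f := by simpa using h10_qCoeff_smul c f n

theorem h10_qCoeffLin_apply (n : ℕ) (f : CuspForm (Gamma0 N) 2) :
    h10_qCoeffLin N n f = qCoeff ⇑f n := rfl

theorem h10_qCoeff_sub (f g : CuspForm (Gamma0 N) 2) (n : ℕ) :
    qCoeff ⇑(f - g) n = qCoeff ⇑f n - qCoeff ⇑g n :=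
  map_sub (h10_qCoeffLin N n) f g

theorem h10_qCoeff_zsmul (c : ℤ) (f : CuspForm (Gamma0 N) 2) (n : ℕ) :
    qCoeff ⇑(c • f) n = c * qCoeff ⇑f n := by
  rw [← Int.cast_smul_eq_zsmul ℂ c f]
  exact h10_qCoeff_smul (c : ℂ) f n

theorem h10_qCoeff_zero_eq (f : CuspForm (Gamma0 N) 2) : qCoeff ⇑f 0 = 0 :=
  CuspFormClass.qExpansion_coeff_zero f one_pos (h10_one_mem_strictPeriods N)

theorem h10_eq_zero_of_qCoeff (f : CuspForm (Gamma0 N) 2) (h : ∀ n, qCoeff ⇑f n = 0) :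
    f = 0 := by
  have hq : qExpansion 1 ⇑f = 0 := by
    ext n
    simpa [qCoeff] using h n
  have : Fact (IsCusp OnePoint.infty
      (Subgroup.map (Matrix.SpecialLinearGroup.mapGL ℝ) (Gamma0 N))) :=
    ⟨Subgroup.isCusp_of_mem_strictPeriods one_pos (h10_one_mem_strictPeriods N)⟩
  have h0 : (⇑f : ℍ → ℂ) = 0 :=
    (UpperHalfPlane.qExpansion_eq_zero_iff one_pos
      (SlashInvariantFormClass.periodic_comp_ofComplex f (h10_one_mem_strictPeriods N))
      (ModularFormClass.holo f) (ModularFormClass.bdd_at_infty f)).mp hq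
  exact DFunLike.coe_injective (h0.trans FunLike.coe_zero.symm)

theorem h10_qCoeff_heckeTLin {p : ℕ} (hp : p.Prime) (hpN : ¬ p ∣ N)
    (f : CuspForm (Gamma0 N) 2) (n : ℕ) :
    qCoeff ⇑(CuspForm.heckeTLin 2 hp hpN f) n =
      qCoeff ⇑f (n * p) + if p ∣ n then (p : ℂ) * qCoeff ⇑f (n / p) else 0 := by
  rw [CuspForm.coe_heckeTLin_apply,
    ModularFormClass.qCoeff_heckeT f (h10_one_mem_strictPeriods N) hp.ne_zero n,
    ModularForm.coeffHeckeT_apply]
  norm_num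

theorem h10_qCoeff_heckeULin [NeZero N] {p : ℕ} (hp : p.Prime) (hpN : p ∣ N)
    (f : CuspForm (Gamma0 N) 2) (n : ℕ) :
    qCoeff ⇑(CuspForm.heckeULin 2 hpN f) n = qCoeff ⇑f (n * p) := by
  rw [CuspForm.coe_heckeULin_apply,
    ModularFormClass.qCoeff_heckeU f (h10_one_mem_strictPeriods N) hp.ne_zero n,
    ModularForm.coeffHeckeU_apply]

theorem h10_mem_intLattice_iff (f : CuspForm (Gamma0 N) 2) :
    f ∈ CuspForm.intLattice N 2 ↔ ∀ n : ℕ, ∃ m : ℤ, qCoeff ⇑f n = (m : ℂ) :=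
  P2MW.S_CuspForm_intLattice_fg.W3WsD.mem_intLattice_iff f

end QCoeff

end Fermat.Agent.S16
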