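import Fermat.Statements.S16

/-!
# S16 — top-level algebraic reduction (helper36)

`T = heckeLatticeAlgebra p ∅`, `π : HeckeAlg →+* T`, `eis : HeckeAlg →+* ℤ` (the Eisenstein
character `X_ℓ ↦ 1 + ℓ`, `X_p ↦ 1`).  `T ⧸ map π (ker eis) ≃ ℤ ⧸ eis (ker π)`, so the cardinality is
`n` as soon as `n ∈ eis (ker π)` (upper bound) and `n ∣ eis P` for every `P ∈ ker π` (lower bound).
-/

set_option autoImplicit false
open ModularCurve CuspForm

namespace Fermat.Agent.S16

noncomputable section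

/-- The projection of the abstract Hecke algebra onto the lattice Hecke algebra of level `p`. -/
def h36_pi (p : ℕ) [Fact p.Prime] : HeckeAlg →+* ↥(heckeLatticeAlgebra p ∅) :=
  (latticeRestrictHom p ∅).toRingHom.comp (heckeEvalForms p 2)

/-- The Eisenstein character `X_ℓ ↦ 1 + ℓ` (`ℓ ≠ p`), `X_p ↦ 1`. -/
def h36_eis (p : ℕ) : HeckeAlg →+* ℤ :=
  (MvPolynomial.aeval (R := ℤ) (eisensteinSystem p)).toRingHom

theorem h36_eis_apply (p : ℕ) (P : HeckeAlg) :
    h36_eis p P = MvPolynomial.aeval (R := ℤ) (eisensteinSystem p) P := rfl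

theorem h36_eis_C (p : ℕ) (a : ℤ) : h36_eis p (MvPolynomial.C a) = a := by
  rw [h36_eis_apply, MvPolynomial.aeval_C]; rfl

theorem h36_mem_eisensteinIdeal (p : ℕ) (P : HeckeAlg) :
    P ∈ eisensteinIdeal p ↔ h36_eis p P = 0 :=
  mem_eigenIdeal_iff _ _

theorem h36_heckeEvalForms_surjective (N : ℕ) [NeZero N] (k : ℤ) :
    Function.Surjective (heckeEvalForms N k) := by
  intro x
  -- the range of `aeval gen` is `adjoin (range gen)`
  have hrange : (MvPolynomial.aeval (R := ℤ) (heckeFormsGen N k)).range =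
      Algebra.adjoin ℤ (Set.range (heckeFormsGen N k)) :=
    (Algebra.adjoin_range_eq_range_aeval ℤ (heckeFormsGen N k)).symm
  suffices h : x ∈ (MvPolynomial.aeval (R := ℤ) (heckeFormsGen N k)).range by
    obtain ⟨P, hP⟩ := h
    exact ⟨P, hP⟩
  rw [hrange]
  -- push forward along the inclusion into `End`
  have hle : heckeAlgebra N k ∅ ≤
      (Algebra.adjoin ℤ (Set.range (heckeFormsGen N k))).map (heckeAlgebra N k ∅).val := by
    refine Algebra.adjoin_le ?_
    rintro T (⟨ℓ, hℓ, hℓN, -, rfl⟩ | ⟨q, hqN, hq, -, rfl⟩)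
    · refine ⟨heckeFormsGen N k ⟨ℓ, hℓ⟩, Algebra.subset_adjoin ⟨⟨ℓ, hℓ⟩, rfl⟩, ?_⟩
      rw [heckeFormsGen_of_not_dvd (N := N) (k := k) (ℓ := ⟨ℓ, hℓ⟩) hℓN]
      rfl
    · refine ⟨heckeFormsGen N k ⟨q, hq⟩, Algebra.subset_adjoin ⟨⟨q, hq⟩, rfl⟩, ?_⟩
      rw [heckeFormsGen_of_dvd (N := N) (k := k) (q := ⟨q, hq⟩) hqN]
      rfl
  obtain ⟨y, hy, hyx⟩ := hle x.2
  have : y = x := Subtype.ext hyx
  rwa [this] at hy

theorem h36_pi_surjective (p : ℕ) [Fact p.Prime] : Function.Surjective (h36_pi p) :=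
  (latticeRestrictHom_surjective p ∅).comp (h36_heckeEvalForms_surjective p 2)

/-- `π P = 0` iff the operator `P(T_ℓ, U_p)` kills the integral lattice. -/
theorem h36_pi_eq_zero_iff (p : ℕ) [Fact p.Prime] (P : HeckeAlg) :
    h36_pi p P = 0 ↔
      ∀ f ∈ intLattice p 2,
        ((heckeEvalForms p 2 P : heckeAlgebra p 2 ∅) :
          Module.End ℂ (CuspForm (CongruenceSubgroup.Gamma0 p) 2)) f = 0 := by
  constructor
  · intro h f hf
    have h1 : ((h36_pi p P : ↥(heckeLatticeAlgebra p ∅)) :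
        Module.End ℤ ↥(intLattice p 2)) = 0 := by rw [h]; rfl
    have h2 := congrArg (fun g : Module.End ℤ ↥(intLattice p 2) =>
      ((g ⟨f, hf⟩ : ↥(intLattice p 2)) : CuspForm (CongruenceSubgroup.Gamma0 p) 2)) h1
    exact h2
  · intro h
    apply Subtype.ext
    refine LinearMap.ext fun f => Subtype.ext ?_
    exact h f.1 f.2

/-- With the integral structure (S23), `π P = 0` iff `P(T_ℓ, U_p) = 0` on all of `S₂(Γ₀(p))`. -/
theorem h36_pi_eq_zero_iff_of_hint (p : ℕ) [Fact p.Prime] (hint : HasIntegralStructure p 2)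
    (P : HeckeAlg) : h36_pi p P = 0 ↔ heckeEvalForms p 2 P = 0 := by
  constructor
  · intro h
    have := (latticeRestrictHom_bijective p ∅ hint).1
    apply this
    rw [map_zero]
    exact h
  · intro h
    show (latticeRestrictHom p ∅) (heckeEvalForms p 2 P) = 0
    rw [h, map_zero]

/-- Abstract form of the top-level reduction. -/
theorem h36_card_general {A T : Type*} [CommRing A] [CommRing T] (π : A →+* T)
    (hπ : Function.Surjective π) (eis : A →+* ℤ) (n : ℕ) (hn : 0 < n)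
    (hUB : ∃ P : A, π P = 0 ∧ eis P = (n : ℤ))
    (hLB : ∀ P : A, π P = 0 → (n : ℤ) ∣ eis P) :
    Nat.card (T ⧸ Ideal.map π (RingHom.ker eis)) = n := by
  have : NeZero n := ⟨hn.ne'⟩
  have heis : ∀ c : ℤ, ∃ a : A, π a = (c : T) ∧ eis a = c := fun c =>
    ⟨(c : A), map_intCast π c, by rw [map_intCast]; rfl⟩
  -- the character `A → ZMod n`
  set χ : A →+* ZMod n := (Int.castRingHom (ZMod n)).comp eis with hχ
  have hχ' : ∀ P, χ P = ((eis P : ℤ) : ZMod n) := fun P => rfl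
  have hker : RingHom.ker π ≤ RingHom.ker χ := by
    intro P hP
    rw [RingHom.mem_ker] at hP ⊢
    rw [hχ', ZMod.intCast_zmod_eq_zero_iff_dvd]
    exact hLB P hP
  set ψ : T →+* ZMod n := RingHom.liftOfSurjective π hπ ⟨χ, hker⟩ with hψ
  have hψπ : ∀ P, ψ (π P) = χ P := fun P =>
    RingHom.liftOfRightInverse_comp_apply _ _ _ ⟨χ, hker⟩ P
  have hψsurj : Function.Surjective ψ := by
    intro a
    obtain ⟨c, rfl⟩ := ZMod.intCast_surjective a
    obtain ⟨P, -, hP⟩ := heis c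
    exact ⟨π P, by rw [hψπ, hχ', hP]⟩
  have hJ : Ideal.map π (RingHom.ker eis) = RingHom.ker ψ := by
    apply le_antisymm
    · rw [Ideal.map_le_iff_le_comap]
      intro Q hQ
      rw [RingHom.mem_ker] at hQ
      rw [Ideal.mem_comap, RingHom.mem_ker, hψπ, hχ', hQ, Int.cast_zero]
    · intro t ht
      obtain ⟨Q, rfl⟩ := hπ t
      rw [RingHom.mem_ker, hψπ, hχ', ZMod.intCast_zmod_eq_zero_iff_dvd] at ht
      obtain ⟨c, hc⟩ := ht
      obtain ⟨P₀, hP₀, hP₀n⟩ := hUB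
      obtain ⟨C, hCπ, hCe⟩ := heis c
      have h1 : π (Q - C * P₀) = π Q := by
        rw [map_sub, map_mul, hP₀, mul_zero, sub_zero]
      have h2 : Q - C * P₀ ∈ RingHom.ker eis := by
        rw [RingHom.mem_ker, map_sub, map_mul, hCe, hP₀n, hc]
        ring
      rw [← h1]
      exact Ideal.mem_map_of_mem _ h2
  rw [hJ, Nat.card_congr (RingHom.quotientKerEquivOfSurjective hψsurj).toEquiv, Nat.card_zmod]

/-- **Top-level reduction.** -/
theorem h36_card_quot_eq (p : ℕ) [Fact p.Prime] (n : ℕ) (hn : 0 < n)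
    (hUB : ∃ P : HeckeAlg, h36_pi p P = 0 ∧ h36_eis p P = (n : ℤ))
    (hLB : ∀ P : HeckeAlg, h36_pi p P = 0 → (n : ℤ) ∣ h36_eis p P) :
    Nat.card (↥(heckeLatticeAlgebra p ∅) ⧸ Ideal.map (h36_pi p) (eisensteinIdeal p)) = n :=
  h36_card_general (h36_pi p) (h36_pi_surjective p) (h36_eis p) n hn hUB hLB

end

end Fermat.Agent.S16
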