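/-
S16 (Eisenstein ideal index) — module D-C (helper50): a cusp form congruent to the Eisenstein
series modulo `M` forces `M ∣ eis P` for every Hecke polynomial `P` killing the lattice.

`dvd_of_congruent_form`: if `δ ∈ S₂(Γ₀(p))` has integer `q`-coefficients with
`a_k(δ) ≡ σ'(k) (mod M)` for all `k ≥ 1`, then `M ∣ eis P` for all `P` with `π P = 0`.
-/
import Fermat.Agent.S16.Top
import Fermat.Agent.S16.SigmaP

set_option autoImplicit false
open ModularCurve CuspForm ModularFormClass CongruenceSubgroup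

namespace Fermat.Agent.S16

/-- Cusp forms all of whose `q`-coefficients lie in `M·ℤ`. -/
def h50_V (p M : ℕ) : AddSubgroup (CuspForm (Gamma0 p) 2) where
  carrier := {g | ∀ k : ℕ, ∃ z : ℤ, qCoeff ⇑g k = (M : ℂ) * z}
  zero_mem' := fun k => ⟨0, by
    have h := h10_qCoeff_zsmul (N := p) 0 (0 : CuspForm (Gamma0 p) 2) k
    rw [zero_smul] at h
    rw [h]; simp⟩
  add_mem' := by
    intro f g hf hg k
    obtain ⟨a, ha⟩ := hf k
    obtain ⟨b, hb⟩ := hg k
    exact ⟨a + b, by rw [h10_qCoeff_add, ha, hb]; push_cast; ring⟩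
  neg_mem' := by
    intro f hf k
    obtain ⟨a, ha⟩ := hf k
    refine ⟨-a, ?_⟩
    have h := h10_qCoeff_zsmul (N := p) (-1) f k
    rw [neg_one_zsmul] at h
    rw [h, ha]; push_cast; ring

theorem h50_mem_V (p M : ℕ) (g : CuspForm (Gamma0 p) 2) :
    g ∈ h50_V p M ↔ ∀ k : ℕ, ∃ z : ℤ, qCoeff ⇑g k = (M : ℂ) * z := Iff.rfl

theorem h50_V_zsmul (p M : ℕ) (c : ℤ) {g : CuspForm (Gamma0 p) 2} (hg : g ∈ h50_V p M) :
    c • g ∈ h50_V p M :=
  (h50_V p M).zsmul_mem hg c

/-- `V` is stable under the generators `T_ℓ`, `U_p`. -/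
theorem h50_V_gen (p : ℕ) [Fact p.Prime] (M : ℕ) (l : Nat.Primes)
    {g : CuspForm (Gamma0 p) 2} (hg : g ∈ h50_V p M) :
    ((heckeFormsGen p 2 l : heckeAlgebra p 2 ∅) :
      Module.End ℂ (CuspForm (Gamma0 p) 2)) g ∈ h50_V p M := by
  intro k
  by_cases hlp : (l : ℕ) ∣ p
  · rw [heckeFormsGen_of_dvd hlp, heckeAlgebra.coe_U, h10_qCoeff_heckeULin l.2 hlp]
    exact hg _
  · rw [heckeFormsGen_of_not_dvd hlp, heckeAlgebra.coe_T, h10_qCoeff_heckeTLin l.2 hlp]
    obtain ⟨a, ha⟩ := hg (k * l)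
    split_ifs with hlk
    · obtain ⟨b, hb⟩ := hg (k / l)
      exact ⟨a + l * b, by rw [ha, hb]; push_cast; ring⟩
    · exact ⟨a, by rw [ha, add_zero]⟩

/-- `V` is stable under every Hecke polynomial. -/
theorem h50_V_stable (p : ℕ) [Fact p.Prime] (M : ℕ) (P : HeckeAlg) :
    ∀ g : CuspForm (Gamma0 p) 2, g ∈ h50_V p M →
      ((heckeEvalForms p 2 P : heckeAlgebra p 2 ∅) :
        Module.End ℂ (CuspForm (Gamma0 p) 2)) g ∈ h50_V p M := by
  induction P using MvPolynomial.induction_on with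
  | C a =>
    intro g hg
    rw [heckeEvalForms_C]
    have : ((algebraMap ℤ (heckeAlgebra p 2 ∅) a : heckeAlgebra p 2 ∅) :
        Module.End ℂ (CuspForm (Gamma0 p) 2)) g = a • g := by
      rw [Subalgebra.coe_algebraMap, Algebra.algebraMap_eq_smul_one]
      rfl
    rw [this]
    exact h50_V_zsmul p M a hg
  | add P Q hP hQ =>
    intro g hg
    rw [map_add, Subalgebra.coe_add, LinearMap.add_apply]
    exact (h50_V p M).add_mem (hP g hg) (hQ g hg)
  | mul_X P l hP =>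
    intro g hg
    rw [map_mul, Subalgebra.coe_mul, Module.End.mul_apply]
    apply hP
    have h := h50_V_gen p M l hg
    rwa [← heckeEvalForms_heckeGen] at h

/-- Base case: `T_ℓ δ - (1+ℓ) δ` and `U_p δ - δ` lie in `V`. -/
theorem h50_gen_sub (p : ℕ) [Fact p.Prime] (M : ℕ) (δ : CuspForm (Gamma0 p) 2)
    (hcong : ∀ k, 0 < k → ∃ z : ℤ, qCoeff ⇑δ k = (sigmaP p k : ℂ) + M * z) (l : Nat.Primes) :
    ((heckeFormsGen p 2 l : heckeAlgebra p 2 ∅) :
      Module.End ℂ (CuspForm (Gamma0 p) 2)) δ - eisensteinSystem p l • δ ∈ h50_V p M := by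
  have hp : p.Prime := Fact.out
  intro k
  rw [h10_qCoeff_sub, h10_qCoeff_zsmul]
  by_cases hlp : (l : ℕ) ∣ p
  · rw [heckeFormsGen_of_dvd hlp, heckeAlgebra.coe_U, h10_qCoeff_heckeULin l.2 hlp,
      eisensteinSystem_of_dvd hlp]
    have hlp' : (l : ℕ) = p := (Nat.prime_dvd_prime_iff_eq l.2 hp).mp hlp
    rcases Nat.eq_zero_or_pos k with hk | hk
    · subst hk
      exact ⟨0, by simp⟩
    · obtain ⟨a, ha⟩ := hcong (k * l) (Nat.mul_pos hk l.2.pos)
      obtain ⟨b, hb⟩ := hcong k hk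
      refine ⟨a - b, ?_⟩
      rw [ha, hb, hlp', sigmaP_mul_self p hp k hk]
      push_cast; ring
  · rw [heckeFormsGen_of_not_dvd hlp, heckeAlgebra.coe_T, h10_qCoeff_heckeTLin l.2 hlp,
      eisensteinSystem_of_not_dvd hlp]
    have hne : (l : ℕ) ≠ p := fun h => hlp (h ▸ dvd_rfl)
    rcases Nat.eq_zero_or_pos k with hk | hk
    · subst hk
      refine ⟨0, ?_⟩
      simp only [zero_mul, dvd_zero, if_true, Nat.zero_div]
      push_cast; ring
    · obtain ⟨a, ha⟩ := hcong (k * l) (Nat.mul_pos hk l.2.pos)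
      obtain ⟨b, hb⟩ := hcong k hk
      have hs := sigmaP_mul_prime p l hp l.2 hne k hk
      have hs' : ((sigmaP p (k * l) : ℕ) : ℂ) +
          ((if (l : ℕ) ∣ k then (l : ℕ) * sigmaP p (k / l) else 0 : ℕ) : ℂ) =
          (1 + (l : ℕ) : ℂ) * (sigmaP p k : ℂ) := by
        exact_mod_cast congrArg (Nat.cast : ℕ → ℂ) hs
      split_ifs with hlk
      · rw [if_pos hlk] at hs'
        obtain ⟨c, hc⟩ := hcong (k / l) (Nat.div_pos (Nat.le_of_dvd hk hlk) l.2.pos)
        refine ⟨a + l * c - (1 + l) * b, ?_⟩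
        rw [ha, hb, hc]
        push_cast at hs' ⊢
        linear_combination hs'
      · rw [if_neg hlk] at hs'
        refine ⟨a - (1 + l) * b, ?_⟩
        rw [ha, hb]
        push_cast at hs' ⊢
        linear_combination hs'

/-- `P(T) δ - eis(P) δ ∈ V` for every Hecke polynomial `P`. -/
theorem h50_eval_sub (p : ℕ) [Fact p.Prime] (M : ℕ) (δ : CuspForm (Gamma0 p) 2)
    (hcong : ∀ k, 0 < k → ∃ z : ℤ, qCoeff ⇑δ k = (sigmaP p k : ℂ) + M * z) (P : HeckeAlg) :
    ((heckeEvalForms p 2 P : heckeAlgebra p 2 ∅) :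
      Module.End ℂ (CuspForm (Gamma0 p) 2)) δ - h36_eis p P • δ ∈ h50_V p M := by
  induction P using MvPolynomial.induction_on with
  | C a =>
    rw [heckeEvalForms_C, h36_eis_C]
    have : ((algebraMap ℤ (heckeAlgebra p 2 ∅) a : heckeAlgebra p 2 ∅) :
        Module.End ℂ (CuspForm (Gamma0 p) 2)) δ = a • δ := by
      rw [Subalgebra.coe_algebraMap, Algebra.algebraMap_eq_smul_one]
      rfl
    rw [this, sub_self]
    exact (h50_V p M).zero_mem
  | add P Q hP hQ =>
    rw [map_add, map_add, Subalgebra.coe_add, LinearMap.add_apply, add_smul]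
    have := (h50_V p M).add_mem hP hQ
    convert this using 1
    abel
  | mul_X P l hP =>
    have hX : h36_eis p (MvPolynomial.X l) = eisensteinSystem p l := by
      rw [h36_eis_apply, MvPolynomial.aeval_X]
    have hg := h50_gen_sub p M δ hcong l
    have h1 := h50_V_stable p M P _ hg
    have h2 := h50_V_zsmul p M (eisensteinSystem p l) hP
    have h3 := (h50_V p M).add_mem h1 h2
    rw [map_mul, map_mul, Subalgebra.coe_mul, Module.End.mul_apply, hX]
    have hXe : heckeEvalForms p 2 (MvPolynomial.X l) = heckeFormsGen p 2 l :=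
      heckeEvalForms_heckeGen p 2 l
    rw [hXe]
    convert h3 using 1
    rw [map_sub, map_zsmul, smul_sub, mul_smul, smul_comm (eisensteinSystem p l) (h36_eis p P) δ]
    abel

/-- **D-C.** A cusp form with integer coefficients congruent to `σ'` modulo `M` gives the
lower bound `M ∣ eis P` for every `P` in the kernel of `π`. -/
theorem dvd_of_congruent_form (p : ℕ) [Fact p.Prime] (M : ℕ) (δ : CuspForm (Gamma0 p) 2)
    (hint : ∀ k, ∃ z : ℤ, qCoeff ⇑δ k = z)
    (hcong : ∀ k, 0 < k → ∃ z : ℤ, qCoeff ⇑δ k = (sigmaP p k : ℂ) + M * z) :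
    ∀ P : HeckeAlg, h36_pi p P = 0 → (M : ℤ) ∣ h36_eis p P := by
  have hp : p.Prime := Fact.out
  intro P hP
  have hδ : δ ∈ intLattice p 2 := (h10_mem_intLattice_iff δ).mpr hint
  have h0 := (h36_pi_eq_zero_iff p P).mp hP δ hδ
  have h1 := h50_eval_sub p M δ hcong P
  rw [h0, zero_sub] at h1
  obtain ⟨z, hz⟩ := (h50_V p M).neg_mem h1 1
  rw [neg_neg, h10_qCoeff_zsmul] at hz
  obtain ⟨b, hb⟩ := hcong 1 one_pos
  rw [hb, sigmaP_one p hp] at hz
  refine ⟨z - h36_eis p P * b, ?_⟩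
  have : ((h36_eis p P : ℤ) : ℂ) = ((M : ℤ) * (z - h36_eis p P * b) : ℤ) := by
    push_cast
    push_cast at hz
    linear_combination hz
  exact_mod_cast this

end Fermat.Agent.S16
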