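import Mathlib
import Fermat.Agent.S16.CuspPack
import Fermat.Agent.S16.EisP
import Fermat.Agent.S16.LowerDual

/-!
# S16 glue (L-T-GLUE): an integral weight-two form `Ψ ≡ 1 (mod 2)` with `a₀ = 1` gives the
lower bound `n ∣ eis P`

With `g = gcd(p-1,12)`, `D = 12/g`, `n = (p-1)/g`: the form `D • E' - (n/2) • Ψ` has `a₀ = 0`,
integer coefficients `D σ'(k) - n z_k`, and `gcd(D, n) = 1`.
-/

set_option autoImplicit false

open UpperHalfPlane ModularForm CongruenceSubgroup ModularCurve CuspForm ModularFormClass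
open scoped MatrixGroups ModularForm

namespace Fermat.Agent.S16

noncomputable section

/-- `12 / gcd (p-1) 12`. -/
def lfp_D (p : ℕ) : ℕ := 12 / Nat.gcd (p - 1) 12

theorem lfp_coprime (p : ℕ) : Nat.Coprime (lfp_D p) (eisensteinNumerator p) := by
  unfold lfp_D eisensteinNumerator
  have h : 0 < Nat.gcd (p - 1) 12 := Nat.gcd_pos_of_pos_right _ (by norm_num)
  exact (Nat.coprime_div_gcd_div_gcd h).symm

theorem lfp_D_mul (p : ℕ) : lfp_D p * (p - 1) = 12 * eisensteinNumerator p := by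
  unfold lfp_D eisensteinNumerator
  obtain ⟨a, ha⟩ := Nat.gcd_dvd_left (p - 1) 12
  obtain ⟨b, hb⟩ := Nat.gcd_dvd_right (p - 1) 12
  have h : 0 < Nat.gcd (p - 1) 12 := Nat.gcd_pos_of_pos_right _ (by norm_num)
  set g := Nat.gcd (p - 1) 12 with hg
  have h1 : 12 / g = b := by
    conv_lhs => rw [hb]
    exact Nat.mul_div_cancel_left b h
  have h2 : (p - 1) / g = a := by
    conv_lhs => rw [ha]
    exact Nat.mul_div_cancel_left a h
  rw [h1, h2]
  conv_lhs => rw [ha]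
  conv_rhs => rw [hb]
  ring

variable (p : ℕ) [Fact p.Prime]

/-- `D • E' - (n/2) • Ψ`. -/
def lfp_G (Ψ : ModularForm (Gamma0 p) 2) : ModularForm (Gamma0 p) 2 :=
  (lfp_D p : ℂ) • eisP p - ((eisensteinNumerator p : ℂ) / 2) • Ψ

theorem lfp_G_coeff (Ψ : ModularForm (Gamma0 p) 2) (k : ℕ) :
    (qExpansion 1 (lfp_G p Ψ)).coeff k =
      (lfp_D p : ℂ) * (qExpansion 1 (eisP p)).coeff k -
        ((eisensteinNumerator p : ℂ) / 2) * (qExpansion 1 Ψ).coeff k := by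
  have hΓ := h10_one_mem_strictPeriods p
  have h1 : (⇑(lfp_G p Ψ) : ℍ → ℂ) =
      ⇑((lfp_D p : ℂ) • eisP p) - ⇑(((eisensteinNumerator p : ℂ) / 2) • Ψ) := rfl
  rw [h1, ModularForm.qExpansion_sub one_pos hΓ ((lfp_D p : ℂ) • eisP p)
    (((eisensteinNumerator p : ℂ) / 2) • Ψ)]
  have h2 : (⇑((lfp_D p : ℂ) • eisP p) : ℍ → ℂ) = (lfp_D p : ℂ) • ⇑(eisP p) := rfl
  have h3 : (⇑(((eisensteinNumerator p : ℂ) / 2) • Ψ) : ℍ → ℂ) =
      ((eisensteinNumerator p : ℂ) / 2) • ⇑Ψ := rfl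
  rw [h2, h3, ModularForm.qExpansion_smul one_pos hΓ, ModularForm.qExpansion_smul one_pos hΓ]
  simp

theorem lfp_G_coeff_zero (Ψ : ModularForm (Gamma0 p) 2)
    (h0 : (qExpansion 1 Ψ).coeff 0 = 1) : (qExpansion 1 (lfp_G p Ψ)).coeff 0 = 0 := by
  have hp : p.Prime := Fact.out
  rw [lfp_G_coeff, eisP_coeff_zero, h0]
  have h := lfp_D_mul p
  have h' : (lfp_D p : ℂ) * ((p : ℂ) - 1) = 12 * (eisensteinNumerator p : ℂ) := by
    have h1 : ((p - 1 : ℕ) : ℂ) = (p : ℂ) - 1 := by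
      rw [Nat.cast_sub hp.one_le]; simp
    rw [← h1]
    exact_mod_cast congrArg (Nat.cast : ℕ → ℂ) h
  linear_combination (1 / 24 : ℂ) * h'

theorem lfp_G_coeff_pos (Ψ : ModularForm (Gamma0 p) 2) (k : ℕ) (hk : 0 < k) (z : ℤ)
    (hz : (qExpansion 1 Ψ).coeff k = 2 * z) :
    (qExpansion 1 (lfp_G p Ψ)).coeff k =
      (lfp_D p : ℂ) * (sigmaP p k : ℂ) - (eisensteinNumerator p : ℂ) * z := by
  rw [lfp_G_coeff, eisP_coeff p k hk, hz]
  unfold sigmaP
  ring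

/-- **L-T-GLUE.** A weight-two form `Ψ` on `Γ₀(p)` with `a₀ = 1` and all higher coefficients
even integers forces `n ∣ eis P` for every Hecke polynomial `P` in the kernel of `π`. -/
theorem lower_of_psi (Ψ : ModularForm (Gamma0 p) 2)
    (h0 : (qExpansion 1 Ψ).coeff 0 = 1)
    (hev : ∀ k, 0 < k → ∃ z : ℤ, (qExpansion 1 Ψ).coeff k = 2 * z) :
    ∀ P : HeckeAlg, h36_pi p P = 0 → (eisensteinNumerator p : ℤ) ∣ h36_eis p P := by
  have hG0 := lfp_G_coeff_zero p Ψ h0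
  set δ1 : CuspForm (Gamma0 p) 2 := cp_cuspForm (lfp_G p Ψ) hG0 with hδ1
  have hq : ∀ k, qCoeff ⇑δ1 k = (qExpansion 1 (lfp_G p Ψ)).coeff k := fun k => rfl
  -- Bezout
  have hcop : IsCoprime (lfp_D p : ℤ) (eisensteinNumerator p : ℤ) :=
    Nat.isCoprime_iff_coprime.mpr (lfp_coprime p)
  obtain ⟨u, v, huv⟩ := hcop
  refine dvd_of_congruent_form p (eisensteinNumerator p) (u • δ1) ?_ ?_
  · intro k
    rcases Nat.eq_zero_or_pos k with rfl | hk
    · exact ⟨0, by rw [h10_qCoeff_zero_eq]; simp⟩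
    · obtain ⟨z, hz⟩ := hev k hk
      refine ⟨u * ((lfp_D p : ℤ) * (sigmaP p k : ℤ) - (eisensteinNumerator p : ℤ) * z), ?_⟩
      rw [h10_qCoeff_zsmul, hq, lfp_G_coeff_pos p Ψ k hk z hz]
      push_cast
      ring
  · intro k hk
    obtain ⟨z, hz⟩ := hev k hk
    refine ⟨-(v * (sigmaP p k : ℤ)) - u * z, ?_⟩
    rw [h10_qCoeff_zsmul, hq, lfp_G_coeff_pos p Ψ k hk z hz]
    have huvC : (u : ℂ) * (lfp_D p : ℂ) + (v : ℂ) * (eisensteinNumerator p : ℂ) = 1 := by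
      exact_mod_cast congrArg (Int.cast : ℤ → ℂ) huv
    push_cast
    linear_combination (sigmaP p k : ℂ) * huvC

end

end Fermat.Agent.S16
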