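/-
S16 helper module (helper32): packaging a holomorphic function on the upper half plane as a
Mathlib `ModularForm` from invariance under `Γ₀(N)` and a crude polynomial growth bound
`‖f z‖ ≤ C (1 + (im z)⁻ᵐ)`.  (Boundedness at all cusps then comes for free, by the removable
singularity theorem applied to the cusp function of every `SL(2, ℤ)`-translate.)
-/
import Mathlib
import Fermat.Prelude.Thm_Subgroup_IsArithmetic_exists_nat_mem_strictPeriods_conj

set_option autoImplicit false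

open UpperHalfPlane ModularForm CongruenceSubgroup Filter Function Asymptotics
open scoped MatrixGroups ModularForm Manifold Pointwise Real Topology

noncomputable section

namespace Fermat.Agent.S16

/-- `yᴹ e^{-a y} → 0`. -/
theorem pack_tendsto_pow_div_exp (M : ℕ) {a : ℝ} (ha : 0 < a) :
    Tendsto (fun y : ℝ => y ^ M / Real.exp (a * y)) atTop (𝓝 0) :=
  (isLittleO_pow_exp_pos_mul_atTop M ha).tendsto_div_nhds_zero

/-- A holomorphic, periodic function on the upper half plane with polynomial growth in `im z`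
on a vertical strip is bounded at `i∞`. -/
theorem pack_bounded_of_polyGrowth {g : ℍ → ℂ} (hol : MDiff g) {h : ℝ} (hh : 0 < h)
    (hper : Function.Periodic (g ∘ ofComplex) h) (C : ℝ) (M : ℕ)
    (hgr : ∀ z : ℍ, 1 ≤ z.im → |z.re| ≤ h → ‖g z‖ ≤ C * z.im ^ M) :
    IsBoundedAtImInfty g := by
  set G : ℂ → ℂ := Function.Periodic.cuspFunction h (g ∘ ofComplex) with hG
  have hd : ∀ᶠ q in 𝓝[≠] (0 : ℂ), DifferentiableAt ℂ G q :=
    Function.Periodic.eventually_differentiableAt_cuspFunction_nhds_ne_zero hh hper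
      (eventually_of_mem (preimage_mem_comap (Ioi_mem_atTop 0))
        (fun z hz ↦ UpperHalfPlane.mdifferentiableAt_iff.mp (hol ⟨z, hz⟩)))
  have hπ := Real.pi_pos
  set a : ℝ := 2 * π / h with ha
  have ha0 : 0 < a := by positivity
  -- the imaginary part of `invQParam h q`
  have hy : ∀ q : ℂ, (Function.Periodic.invQParam h q).im = -(Real.log ‖q‖) / a := by
    intro q
    rw [Function.Periodic.im_invQParam, ha]
    field_simp
  have hbound : ∀ q : ℂ, q ≠ 0 → ‖q‖ ≤ Real.exp (-a) →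
      ‖G q‖ ≤ C * (-(Real.log ‖q‖) / a) ^ M := by
    intro q hq hq'
    have hlog : Real.log ‖q‖ ≤ -a := by
      have := Real.log_le_log (norm_pos_iff.mpr hq) hq'
      rwa [Real.log_exp] at this
    have him : 1 ≤ (Function.Periodic.invQParam h q).im := by
      rw [hy, le_div_iff₀ ha0]
      linarith
    have hre : |(Function.Periodic.invQParam h q).re| ≤ h := by
      have hre' : (Function.Periodic.invQParam h q).re = h / (2 * π) * Complex.arg q := by
        simp only [Function.Periodic.invQParam]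
        have : (h : ℂ) / (2 * π * Complex.I) = ((h / (2 * π) : ℝ) : ℂ) * (-Complex.I) := by
          push_cast
          field_simp
          rw [Complex.I_sq]
          ring
        rw [this, mul_assoc, Complex.re_ofReal_mul]
        simp [Complex.log_im]
      rw [hre', abs_mul, abs_of_pos (by positivity : 0 < h / (2 * π))]
      have harg : |Complex.arg q| ≤ π := Complex.abs_arg_le_pi q
      calc h / (2 * π) * |Complex.arg q| ≤ h / (2 * π) * π := by gcongr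
        _ = h / 2 := by field_simp
        _ ≤ h := by linarith
    have hpos : 0 < (Function.Periodic.invQParam h q).im := by linarith
    have hval := hgr ⟨Function.Periodic.invQParam h q, hpos⟩ him hre
    rw [hG, Function.Periodic.cuspFunction_eq_of_nonzero _ _ hq, Function.comp_apply,
      ofComplex_apply_of_im_pos hpos]
    rw [← hy]
    exact hval
  -- `(G q - G 0) * q → 0`
  have hC : 0 ≤ C := by
    have := hgr UpperHalfPlane.I (by simp) (by simpa using hh.le)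
    rw [UpperHalfPlane.I_im, one_pow, mul_one] at this
    exact le_trans (norm_nonneg _) this
  have hmain : Tendsto (fun q : ℂ => (G q - G 0) * q) (𝓝[≠] 0) (𝓝 0) := by
    rw [tendsto_zero_iff_norm_tendsto_zero]
    -- the majorant
    have hφ : Tendsto (fun y : ℝ => C * (y ^ M / Real.exp (a * y)) + ‖G 0‖ * (y ^ 0 / Real.exp (a * y)))
        atTop (𝓝 0) := by
      have := ((pack_tendsto_pow_div_exp M ha0).const_mul C).add
        ((pack_tendsto_pow_div_exp 0 ha0).const_mul ‖G 0‖)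
      simpa using this
    have hytend : Tendsto (fun q : ℂ => -(Real.log ‖q‖) / a) (𝓝[≠] 0) atTop := by
      have h1 := Function.Periodic.invQParam_tendsto hh
      rw [tendsto_comap_iff] at h1
      refine h1.congr fun q => ?_
      simp [hy]
    have hcomp := hφ.comp hytend
    have hsmall : ∀ᶠ q in 𝓝[≠] (0 : ℂ), ‖q‖ ≤ Real.exp (-a) := by
      have : Metric.closedBall (0 : ℂ) (Real.exp (-a)) ∈ 𝓝 (0 : ℂ) :=
        Metric.closedBall_mem_nhds _ (Real.exp_pos _)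
      filter_upwards [nhdsWithin_le_nhds this] with q hq
      simpa using hq
    refine squeeze_zero' (Eventually.of_forall fun q => norm_nonneg _) ?_ hcomp
    filter_upwards [hsmall, self_mem_nhdsWithin] with q hq hq0
    have hq0' : q ≠ 0 := hq0
    have hqpos : 0 < ‖q‖ := norm_pos_iff.mpr hq0'
    have hexp : Real.exp (a * (-(Real.log ‖q‖) / a)) = ‖q‖⁻¹ := by
      rw [mul_div_cancel₀ _ ha0.ne', Real.exp_neg, Real.exp_log hqpos]
    simp only [Function.comp_apply, hexp, pow_zero]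
    rw [norm_mul]
    have h1 : ‖G q - G 0‖ ≤ C * (-(Real.log ‖q‖) / a) ^ M + ‖G 0‖ :=
      (norm_sub_le _ _).trans (add_le_add (hbound q hq0' hq) le_rfl)
    calc ‖G q - G 0‖ * ‖q‖ ≤ (C * (-(Real.log ‖q‖) / a) ^ M + ‖G 0‖) * ‖q‖ := by gcongr
      _ = C * ((-(Real.log ‖q‖) / a) ^ M / ‖q‖⁻¹) + ‖G 0‖ * (1 / ‖q‖⁻¹) := by
          field_simp
  have ho : (fun q => G q - G 0) =o[𝓝[≠] 0] fun q : ℂ => (q - 0)⁻¹ := by
    refine isLittleO_of_tendsto' ?_ ?_
    · filter_upwards [self_mem_nhdsWithin] with q hq hq'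
      have hq0 : q ≠ 0 := hq
      simp [hq0] at hq'
    · refine hmain.congr fun q => ?_
      simp
  have hlim := Complex.tendsto_limUnder_of_differentiable_on_punctured_nhds_of_isLittleO hd ho
  have hbdd : G =O[𝓝[≠] 0] (1 : ℂ → ℝ) := hlim.isBigO_one ℝ
  have htend : Tendsto (fun τ : ℍ => Function.Periodic.qParam h (τ : ℂ)) atImInfty (𝓝[≠] 0) :=
    (Function.Periodic.qParam_tendsto hh).comp tendsto_coe_atImInfty
  have hfin := hbdd.comp_tendsto htend
  have hGg : (G ∘ fun τ : ℍ => Function.Periodic.qParam h (τ : ℂ)) = g := by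
    funext τ
    simpa [UpperHalfPlane.cuspFunction, hG] using UpperHalfPlane.eq_cuspFunction τ hh.ne' hper
  rw [hGg] at hfin
  exact hfin


/-- Polynomial growth of the `SL(2, ℤ)`-translates of a function with a growth bound
`‖f z‖ ≤ C (1 + (im z)⁻ᵐ)`, on vertical strips. -/
theorem pack_slash_growth {f : ℍ → ℂ} (k : ℤ) (C : ℝ) (m : ℕ)
    (hgrowth : ∀ z : ℍ, ‖f z‖ ≤ C * (1 + (z.im)⁻¹ ^ m)) (γ : SL(2, ℤ)) (h : ℝ) (hh : 0 < h) :
    ∃ C' : ℝ, ∀ z : ℍ, 1 ≤ z.im → |z.re| ≤ h →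
      ‖(f ∣[k] γ) z‖ ≤ C' * z.im ^ (2 * m + k.natAbs) := by
  have hC : 0 ≤ C := by
    have h1 := hgrowth UpperHalfPlane.I
    have h2 : (0 : ℝ) < 1 + (UpperHalfPlane.I.im)⁻¹ ^ m := by
      rw [UpperHalfPlane.I_im]
      norm_num
    by_contra hneg
    push Not at hneg
    have : C * (1 + (UpperHalfPlane.I.im)⁻¹ ^ m) < 0 := mul_neg_of_neg_of_pos hneg h2
    linarith [norm_nonneg (f UpperHalfPlane.I)]
  set c : ℤ := γ 1 0 with hc
  set d : ℤ := γ 1 1 with hd
  set K : ℝ := |(c : ℝ)| * (h + 1) + |(d : ℝ)| with hK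
  have hK0 : 0 ≤ K := by positivity
  refine ⟨2 * C * K ^ (2 * m + k.natAbs), fun z hz1 hzre => ?_⟩
  set D : ℝ := ‖denom γ z‖ with hD
  have hden : denom γ z = (c : ℂ) * (z : ℂ) + (d : ℂ) := by
    rw [ModularGroup.denom_apply]
  -- lower bound `1 ≤ D`
  have hD1 : 1 ≤ D := by
    by_cases hc0 : c = 0
    · have hdet := γ.det_coe
      rw [Matrix.det_fin_two] at hdet
      have hc0' : γ 1 0 = 0 := hc0
      rw [hc0'] at hdet
      have hd1 : |d| = 1 := by
        have : γ 0 0 * d = 1 := by rw [hd]; linarith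
        exact Int.isUnit_iff_abs_eq.mp (IsUnit.of_mul_eq_one (γ 0 0) (by rw [mul_comm]; exact this))
      rw [hD, hden, hc0]
      simp only [Int.cast_zero, zero_mul, zero_add]
      rw [Complex.norm_intCast]
      have : |(d : ℝ)| = 1 := by exact_mod_cast hd1
      rw [this]
    · have hc1 : (1 : ℝ) ≤ |(c : ℝ)| := by
        have : (1 : ℤ) ≤ |c| := Int.one_le_abs hc0
        exact_mod_cast this
      have him : (denom γ z).im = (c : ℝ) * z.im := by
        rw [hden]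
        simp
      calc (1 : ℝ) ≤ |(c : ℝ)| * z.im := by nlinarith [abs_nonneg (c : ℝ)]
        _ = |(denom γ z).im| := by rw [him, abs_mul, abs_of_pos z.im_pos]
        _ ≤ D := Complex.abs_im_le_norm _
  -- upper bound `D ≤ K * im z`
  have hDK : D ≤ K * z.im := by
    have hz : ‖(z : ℂ)‖ ≤ |z.re| + z.im := by
      have := Complex.norm_le_abs_re_add_abs_im (z : ℂ)
      rwa [UpperHalfPlane.coe_re, UpperHalfPlane.coe_im, abs_of_pos z.im_pos] at this
    calc D = ‖(c : ℂ) * (z : ℂ) + (d : ℂ)‖ := by rw [hD, hden]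
      _ ≤ ‖(c : ℂ) * (z : ℂ)‖ + ‖(d : ℂ)‖ := norm_add_le _ _
      _ = |(c : ℝ)| * ‖(z : ℂ)‖ + |(d : ℝ)| := by
          rw [norm_mul, Complex.norm_intCast, Complex.norm_intCast]
      _ ≤ |(c : ℝ)| * (h + z.im) + |(d : ℝ)| * z.im := by
          have h1 : ‖(z : ℂ)‖ ≤ h + z.im := by linarith
          have h2 : |(d : ℝ)| ≤ |(d : ℝ)| * z.im := le_mul_of_one_le_right (abs_nonneg _) hz1
          have h3 := mul_le_mul_of_nonneg_left h1 (abs_nonneg (c : ℝ))
          linarith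
      _ ≤ K * z.im := by
          rw [hK]
          have : |(c : ℝ)| * h ≤ |(c : ℝ)| * h * z.im :=
            le_mul_of_one_le_right (by positivity) hz1
          nlinarith
  have hDpos : 0 < D := by linarith
  -- the value of the slash
  have hval : ‖(f ∣[k] γ) z‖ = ‖f (γ • z)‖ * D ^ (-k) := by
    rw [SL_slash_apply, norm_mul, norm_zpow]
  have him : ((γ • z : ℍ).im)⁻¹ = D ^ 2 / z.im := by
    rw [ModularGroup.im_smul_eq_div_normSq, inv_div, Complex.normSq_eq_norm_sq]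
  have h1 : ‖f (γ • z)‖ ≤ C * (2 * D ^ (2 * m)) := by
    refine (hgrowth (γ • z)).trans (mul_le_mul_of_nonneg_left ?_ hC)
    rw [him]
    have h2 : D ^ 2 / z.im ≤ D ^ 2 := div_le_self (by positivity) hz1
    have h3 : (D ^ 2 / z.im) ^ m ≤ (D ^ 2) ^ m := pow_le_pow_left₀ (by positivity) h2 m
    have h4 : (1 : ℝ) ≤ D ^ (2 * m) := one_le_pow₀ hD1
    rw [← pow_mul] at h3
    linarith
  have h2 : D ^ (-k) ≤ D ^ k.natAbs := by
    rw [← zpow_natCast]
    exact zpow_le_zpow_right₀ hD1 (by omega)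
  have h3 : D ^ (2 * m + k.natAbs) ≤ (K * z.im) ^ (2 * m + k.natAbs) :=
    pow_le_pow_left₀ hDpos.le hDK _
  rw [hval]
  calc ‖f (γ • z)‖ * D ^ (-k) ≤ C * (2 * D ^ (2 * m)) * D ^ k.natAbs := by
        apply mul_le_mul h1 h2 (by positivity) (by positivity)
    _ = 2 * C * D ^ (2 * m + k.natAbs) := by rw [pow_add]; ring
    _ ≤ 2 * C * (K * z.im) ^ (2 * m + k.natAbs) := by gcongr
    _ = 2 * C * K ^ (2 * m + k.natAbs) * z.im ^ (2 * m + k.natAbs) := by rw [mul_pow]; ring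

/-- **Packaging lemma.** A holomorphic function on the upper half plane which is invariant of
weight `k` under `Γ₀(N)` and satisfies `‖f z‖ ≤ C (1 + (im z)⁻ᵐ)` is a modular form. -/
theorem pack_exists_modularForm (N : ℕ) [NeZero N] (k : ℤ) (f : ℍ → ℂ) (hol : MDiff f)
    (hinv : ∀ γ : SL(2, ℤ), γ ∈ Gamma0 N → f ∣[k] γ = f)
    (C : ℝ) (m : ℕ) (hgrowth : ∀ z : ℍ, ‖f z‖ ≤ C * (1 + (z.im)⁻¹ ^ m)) :
    ∃ F : ModularForm (Gamma0 N) k, ⇑F = f := by
  let φ : SlashInvariantForm (Gamma0 N) k :=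
    { toFun := f
      slash_action_eq' := by
        rintro _ ⟨γ, hγ, rfl⟩
        exact hinv γ hγ }
  obtain ⟨Mper, hMpos, hMper⟩ := Subgroup.IsArithmetic.exists_nat_mem_strictPeriods_conj
    ((Gamma0 N : Subgroup SL(2, ℤ)).map (Matrix.SpecialLinearGroup.mapGL ℝ))
  refine ⟨{ toSlashInvariantForm := φ, holo' := hol, bdd_at_cusps' := ?_ }, rfl⟩
  intro c hc
  rw [Subgroup.IsArithmetic.isCusp_iff_isCusp_SL2Z] at hc
  rw [OnePoint.isBoundedAt_iff_forall_SL2Z hc]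
  intro γ _
  have hMR : (0 : ℝ) < (Mper : ℝ) := by exact_mod_cast hMpos
  have hper : Function.Periodic ((f ∣[k] γ) ∘ ofComplex) (Mper : ℝ) := by
    have h1 := hMper γ⁻¹
    rw [map_inv] at h1
    exact SlashInvariantFormClass.periodic_comp_ofComplex
      (SlashInvariantForm.translate φ (Matrix.SpecialLinearGroup.mapGL ℝ γ)) h1
  obtain ⟨C', hC'⟩ := pack_slash_growth k C m hgrowth γ Mper hMR
  exact pack_bounded_of_polyGrowth (hol.slash k _) hMR hper C' _ hC'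


/-! ### Bookkeeping for growth bounds -/

/-- A growth bound has a nonnegative constant. -/
theorem pack_growth_const_nonneg {f : ℍ → ℂ} {C : ℝ} {m : ℕ}
    (hf : ∀ z : ℍ, ‖f z‖ ≤ C * (1 + (z.im)⁻¹ ^ m)) : 0 ≤ C := by
  have h1 := hf UpperHalfPlane.I
  have h2 : (0 : ℝ) < 1 + (UpperHalfPlane.I.im)⁻¹ ^ m := by
    rw [UpperHalfPlane.I_im]
    norm_num
  by_contra hneg
  push Not at hneg
  have : C * (1 + (UpperHalfPlane.I.im)⁻¹ ^ m) < 0 := mul_neg_of_neg_of_pos hneg h2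
  linarith [norm_nonneg (f UpperHalfPlane.I)]

/-- Growth bounds multiply. -/
theorem pack_growth_mul {f g : ℍ → ℂ} {C₁ C₂ : ℝ} {m₁ m₂ : ℕ}
    (hf : ∀ z : ℍ, ‖f z‖ ≤ C₁ * (1 + (z.im)⁻¹ ^ m₁))
    (hg : ∀ z : ℍ, ‖g z‖ ≤ C₂ * (1 + (z.im)⁻¹ ^ m₂)) :
    ∀ z : ℍ, ‖(f * g) z‖ ≤ (3 * C₁ * C₂) * (1 + (z.im)⁻¹ ^ (m₁ + m₂)) := by
  intro z
  have hC₁ := pack_growth_const_nonneg hf
  have hC₂ := pack_growth_const_nonneg hg
  set a : ℝ := (z.im)⁻¹ with ha
  have ha0 : 0 ≤ a := inv_nonneg.mpr z.im_pos.le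
  have key : ∀ i j : ℕ, a ^ i ≤ 1 + a ^ (i + j) := by
    intro i j
    rcases le_total a 1 with h | h
    · have : a ^ i ≤ 1 := pow_le_one₀ ha0 h
      have : 0 ≤ a ^ (i + j) := by positivity
      linarith
    · have : a ^ i ≤ a ^ (i + j) := pow_le_pow_right₀ h (by omega)
      linarith
  have k1 := key m₁ m₂
  have k2 := key m₂ m₁
  rw [add_comm m₂ m₁] at k2
  have hprod : (1 + a ^ m₁) * (1 + a ^ m₂) ≤ 3 * (1 + a ^ (m₁ + m₂)) := by
    rw [pow_add]
    rw [pow_add] at k1 k2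
    nlinarith [pow_nonneg ha0 m₁, pow_nonneg ha0 m₂]
  rw [Pi.mul_apply, norm_mul]
  calc ‖f z‖ * ‖g z‖ ≤ (C₁ * (1 + a ^ m₁)) * (C₂ * (1 + a ^ m₂)) :=
        mul_le_mul (hf z) (hg z) (norm_nonneg _) (by positivity)
    _ = C₁ * C₂ * ((1 + a ^ m₁) * (1 + a ^ m₂)) := by ring
    _ ≤ C₁ * C₂ * (3 * (1 + a ^ (m₁ + m₂))) := by gcongr
    _ = 3 * C₁ * C₂ * (1 + a ^ (m₁ + m₂)) := by ring

/-- Growth bounds are inherited by `f ∘ σ` when `σ` does not decrease imaginary parts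
(e.g. `σ z = p z` with `p ≥ 1`). -/
theorem pack_growth_comp {f : ℍ → ℂ} {C : ℝ} {m : ℕ}
    (hf : ∀ z : ℍ, ‖f z‖ ≤ C * (1 + (z.im)⁻¹ ^ m)) (σ : ℍ → ℍ) (hσ : ∀ z : ℍ, z.im ≤ (σ z).im) :
    ∀ z : ℍ, ‖f (σ z)‖ ≤ C * (1 + (z.im)⁻¹ ^ m) := by
  intro z
  have hC := pack_growth_const_nonneg hf
  refine (hf (σ z)).trans (mul_le_mul_of_nonneg_left ?_ hC)
  have h1 : ((σ z).im)⁻¹ ≤ (z.im)⁻¹ := inv_anti₀ z.im_pos (hσ z)
  have h2 : ((σ z).im)⁻¹ ^ m ≤ (z.im)⁻¹ ^ m :=
    pow_le_pow_left₀ (inv_nonneg.mpr (σ z).im_pos.le) h1 m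
  linarith


/-! ### A crude growth bound for theta-like series over `ℤ × ℤ` -/

/-- `∑_{n ∈ ℤ} e^{-t |n|} ≤ 1 + 2 / t`. -/
theorem pack_hasSum_exp_abs {t : ℝ} (ht : 0 < t) :
    ∃ s : ℝ, HasSum (fun n : ℤ => Real.exp (-(t * |(n : ℝ)|))) s ∧ 0 ≤ s ∧ s ≤ 1 + 2 / t := by
  set r : ℝ := Real.exp (-t) with hr
  have hr0 : 0 < r := Real.exp_pos _
  have hr1 : r < 1 := by
    have : Real.exp (-t) < Real.exp 0 := Real.exp_lt_exp.mpr (by linarith)
    simpa [hr] using this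
  have hgeo := hasSum_geometric_of_lt_one hr0.le hr1
  have hpow : ∀ n : ℕ, Real.exp (-(t * (n : ℝ))) = r ^ n := by
    intro n
    rw [hr, ← Real.exp_nat_mul]
    congr 1
    ring
  have h1 : HasSum (fun n : ℕ => Real.exp (-(t * |(((n : ℕ) : ℤ) : ℝ)|))) (1 - r)⁻¹ := by
    have hfun : (fun n : ℕ => Real.exp (-(t * |(((n : ℕ) : ℤ) : ℝ)|))) = fun n : ℕ => r ^ n := by
      funext n
      have : |(((n : ℕ) : ℤ) : ℝ)| = (n : ℝ) := by
        push_cast
        exact abs_of_nonneg (by positivity)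
      rw [this, hpow n]
    rw [hfun]
    exact hgeo
  have h2 : HasSum (fun n : ℕ => Real.exp (-(t * |((-((n : ℤ) + 1) : ℤ) : ℝ)|)))
      (r * (1 - r)⁻¹) := by
    have hfun : (fun n : ℕ => Real.exp (-(t * |((-((n : ℤ) + 1) : ℤ) : ℝ)|)))
        = fun n : ℕ => r * r ^ n := by
      funext n
      have : |((-((n : ℤ) + 1) : ℤ) : ℝ)| = ((n + 1 : ℕ) : ℝ) := by
        push_cast
        rw [abs_neg, abs_of_nonneg (by positivity)]
      rw [this, hpow (n + 1), pow_succ']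
    rw [hfun]
    exact hgeo.mul_left r
  refine ⟨(1 - r)⁻¹ + r * (1 - r)⁻¹, HasSum.of_nat_of_neg_add_one h1 h2, ?_, ?_⟩
  · have : 0 < (1 - r)⁻¹ := inv_pos.mpr (by linarith)
    positivity
  · have h1r : 0 < 1 - r := by linarith
    have hexp : 1 + t ≤ Real.exp t := by linarith [Real.add_one_le_exp t]
    have hrt : r * (1 + t) ≤ 1 := by
      have : r * Real.exp t = 1 := by rw [hr, ← Real.exp_add]; simp
      nlinarith
    rw [← one_add_mul, ← div_eq_mul_inv, div_le_iff₀ h1r]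
    have : (1 + 2 / t) * (1 - r) = 1 - r + 2 * (1 - r) / t := by ring
    rw [this]
    have h3 : r ≤ (1 - r) / t := by
      rw [le_div_iff₀ ht]
      nlinarith
    have h4 : 2 * (1 - r) / t = 2 * ((1 - r) / t) := by ring
    rw [h4]
    linarith

/-- A family over `ℤ × ℤ` dominated by `e^{-2π y Q(v)}`, where `|v₁|, |v₂| ≤ 4 Q(v)`, is
summable with sum `≤ 18 (1 + y⁻²)`. -/
theorem pack_theta_growth (Q : ℤ × ℤ → ℤ) (hQ : ∀ v, |v.1| ≤ 4 * Q v ∧ |v.2| ≤ 4 * Q v)
    {y : ℝ} (hy : 0 < y) (c : ℤ × ℤ → ℂ)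
    (hc : ∀ v, ‖c v‖ ≤ Real.exp (-(2 * π * y * (Q v : ℝ)))) :
    Summable c ∧ ‖∑' v, c v‖ ≤ 18 * (1 + y⁻¹ ^ 2) := by
  have hπ := Real.pi_pos
  set t : ℝ := π * y / 4 with ht
  have ht0 : 0 < t := by positivity
  obtain ⟨s, hs, hs0, hs1⟩ := pack_hasSum_exp_abs ht0
  set e : ℤ → ℝ := fun n => Real.exp (-(t * |(n : ℝ)|)) with he
  have hprod : Summable fun v : ℤ × ℤ => e v.1 * e v.2 :=
    hs.summable.mul_of_nonneg hs.summable (fun n => (Real.exp_pos _).le)
      (fun n => (Real.exp_pos _).le)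
  have hdom : ∀ v : ℤ × ℤ, ‖c v‖ ≤ e v.1 * e v.2 := by
    intro v
    refine (hc v).trans ?_
    rw [he]
    simp only
    rw [← Real.exp_add, Real.exp_le_exp]
    have h1 : (|v.1| : ℤ) ≤ 4 * Q v := (hQ v).1
    have h2 : (|v.2| : ℤ) ≤ 4 * Q v := (hQ v).2
    have h1' : |(v.1 : ℝ)| ≤ 4 * (Q v : ℝ) := by exact_mod_cast h1
    have h2' : |(v.2 : ℝ)| ≤ 4 * (Q v : ℝ) := by exact_mod_cast h2
    rw [ht]
    have h3 : π * y / 4 * (|(v.1 : ℝ)| + |(v.2 : ℝ)|) ≤ π * y / 4 * (8 * (Q v : ℝ)) :=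
      mul_le_mul_of_nonneg_left (by linarith) (by positivity)
    nlinarith
  have hsum : Summable c := Summable.of_norm_bounded hprod hdom
  refine ⟨hsum, ?_⟩
  have hnorm : Summable fun v => ‖c v‖ :=
    Summable.of_nonneg_of_le (fun v => norm_nonneg _) hdom hprod
  have h1 : ‖∑' v, c v‖ ≤ ∑' v : ℤ × ℤ, e v.1 * e v.2 :=
    (norm_tsum_le_tsum_norm hnorm).trans (hnorm.tsum_le_tsum hdom hprod)
  have h2 : ∑' v : ℤ × ℤ, e v.1 * e v.2 = s * s := by
    rw [← hs.summable.tsum_mul_tsum hs.summable hprod, hs.tsum_eq]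
  rw [h2] at h1
  refine h1.trans ?_
  have h3 : s * s ≤ (1 + 2 / t) * (1 + 2 / t) := mul_le_mul hs1 hs1 hs0 (by positivity)
  refine h3.trans ?_
  have h4 : 2 / t ≤ 3 * y⁻¹ := by
    rw [ht, div_div_eq_mul_div, inv_eq_one_div, div_le_iff₀ (by positivity)]
    have : 3 * (1 / y) * (π * y) = 3 * π := by field_simp
    rw [this]
    nlinarith [Real.pi_gt_three]
  have hy' : 0 < y⁻¹ := inv_pos.mpr hy
  have h5 : 0 ≤ 2 / t := by positivity
  nlinarith [mul_le_mul h4 h4 h5 (by positivity : (0:ℝ) ≤ 3 * y⁻¹), sq_nonneg (y⁻¹ - 1)]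

end Fermat.Agent.S16
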