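import Mathlib

/-!
# Binary theta series of the norm form of discriminant `-q`, `q ≡ 3 mod 4` (helper47)

`thetaQ q t = ∑_{m ≡ n mod 2} e(t (m² + q n²)/4)` written as a finite sum of products of
one-dimensional theta series with congruence conditions (`thP`).
Main result: for `a d - b (q c₁) = 1`, `d > 0`:
`thetaQ q ((a z + b)/(q c₁ z + d)) = ((q c₁ z + d)/d) * (W₀/2) * thetaQ q z`
with the Gauss sum `W₀ = ∑_{α,β < 2d, α ≡ β (2)} e(b (α² + q β²)/(4d))`.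
-/

set_option autoImplicit false

open Complex Real Finset

namespace Fermat.Agent.S16

noncomputable section

/-- term of the one-dimensional theta series with congruence condition -/
def thPterm (t : ℂ) (α : ℤ) (M : ℕ) (m : ℤ) : ℂ :=
  cexp (2 * π * I * t * ((α : ℂ) + M * m) ^ 2 / 4)

/-- `∑_{x ≡ α mod M} e(t x²/4)` -/
def thP (t : ℂ) (α : ℤ) (M : ℕ) : ℂ := ∑' m : ℤ, thPterm t α M m

lemma thPterm_eq (t : ℂ) (α : ℤ) (M : ℕ) (m : ℤ) :
    thPterm t α M m = cexp (π * I * t * α ^ 2 / 2) *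
      jacobiTheta₂_term m (t * α * M / 2) (t * M ^ 2 / 2) := by
  unfold thPterm jacobiTheta₂_term
  rw [← Complex.exp_add]
  congr 1
  ring

lemma summable_thPterm {t : ℂ} (ht : 0 < t.im) (α : ℤ) {M : ℕ} (hM : 0 < M) :
    Summable (thPterm t α M) := by
  have h1 : 0 < (t * M ^ 2 / 2).im := by
    have : (t * (M : ℂ) ^ 2 / 2).im = t.im * (M : ℝ) ^ 2 / 2 := by
      have h2 : t * (M : ℂ) ^ 2 / 2 = t * (((M : ℝ) ^ 2 / 2 : ℝ) : ℂ) := by
        push_cast; ring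
      rw [h2, Complex.mul_im, Complex.ofReal_re, Complex.ofReal_im]
      ring
    rw [this]
    positivity
  have := ((summable_jacobiTheta₂_term_iff (t * α * M / 2) (t * M ^ 2 / 2)).mpr h1).mul_left
    (cexp (π * I * t * α ^ 2 / 2))
  refine this.congr (fun m => ?_)
  rw [thPterm_eq]

lemma thP_eq_jacobi (t : ℂ) (α : ℤ) (M : ℕ) :
    thP t α M = cexp (π * I * t * α ^ 2 / 2) *
      jacobiTheta₂ (t * α * M / 2) (t * M ^ 2 / 2) := by
  unfold thP jacobiTheta₂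
  rw [← tsum_mul_left]
  exact tsum_congr (fun m => thPterm_eq t α M m)

/-- splitting a sum over `ℤ` into residue classes -/
lemma h47_tsum_int_split (h : ℤ → ℂ) (hh : Summable h) (M : ℕ) (hM : 0 < M) :
    ∑' ν : ℤ, h ν = ∑ κ ∈ range M, ∑' m : ℤ, h (κ + M * m) := by
  have : NeZero M := ⟨hM.ne'⟩
  have h1 : ∑' ν : ℤ, h ν = ∑' p : ℤ × Fin M, h ((Int.divModEquiv M).symm p) :=
    ((Int.divModEquiv M).symm.tsum_eq h).symm
  have hs : Summable (fun p : ℤ × Fin M => h ((Int.divModEquiv M).symm p)) :=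
    (Int.divModEquiv M).symm.summable_iff.mpr hh
  rw [h1]
  have h2 : ∑' p : ℤ × Fin M, h ((Int.divModEquiv M).symm p) =
      ∑' p : Fin M × ℤ, h ((Int.divModEquiv M).symm (p.2, p.1)) :=
    ((Equiv.prodComm (Fin M) ℤ).tsum_eq
      (fun p : ℤ × Fin M => h ((Int.divModEquiv M).symm p))).symm
  have hs2 : Summable (fun p : Fin M × ℤ => h ((Int.divModEquiv M).symm (p.2, p.1))) :=
    (Equiv.prodComm (Fin M) ℤ).summable_iff.mpr hs
  rw [h2, hs2.tsum_prod, tsum_fintype, ← Fin.sum_univ_eq_sum_range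
    (fun κ => ∑' m : ℤ, h ((κ : ℤ) + M * m)) M]
  refine Finset.sum_congr rfl (fun κ _ => tsum_congr (fun m => ?_))
  congr 1
  simp [Int.divModEquiv]
  ring

lemma thP_split {t : ℂ} (ht : 0 < t.im) (α : ℤ) {M : ℕ} (hM : 0 < M) {d : ℕ} (hd : 0 < d) :
    thP t α M = ∑ j ∈ range d, thP t (α + M * j) (M * d) := by
  unfold thP
  rw [h47_tsum_int_split _ (summable_thPterm ht α hM) d hd]
  refine Finset.sum_congr rfl (fun j _ => tsum_congr (fun m => ?_))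
  unfold thPterm
  congr 1
  push_cast
  ring

lemma h47_exp_two_pi_int (n : ℤ) : cexp (2 * π * I * n) = 1 := by
  have := Complex.exp_int_mul_two_pi_mul_I n
  rw [← this]
  congr 1
  ring

lemma thP_phase (t : ℂ) (b : ℤ) {d : ℕ} (hd : 0 < d) (α : ℤ) :
    thP (t + b / d) α (2 * d) = cexp (2 * π * I * b * α ^ 2 / (4 * d)) * thP t α (2 * d) := by
  unfold thP
  rw [← tsum_mul_left]
  refine tsum_congr (fun m => ?_)
  unfold thPterm
  rw [← Complex.exp_add]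
  have hd' : (d : ℂ) ≠ 0 := by exact_mod_cast hd.ne'
  have key : 2 * π * I * (t + b / d) * ((α : ℂ) + ((2 * d : ℕ) : ℂ) * m) ^ 2 / 4 =
      (2 * π * I * b * α ^ 2 / (4 * d) +
        2 * π * I * t * ((α : ℂ) + ((2 * d : ℕ) : ℂ) * m) ^ 2 / 4) +
      2 * π * I * ((b * (α * m + d * m ^ 2) : ℤ) : ℂ) := by
    push_cast
    field_simp
    ring
  rw [key, Complex.exp_add, h47_exp_two_pi_int, mul_one]

lemma thP_S {t : ℂ} (ht : 0 < t.im) (α : ℤ) {M : ℕ} (hM : 0 < M) :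
    thP t α M = 1 / (-I * (t * M ^ 2 / 2)) ^ (1 / 2 : ℂ) *
      ∑ κ ∈ range M, cexp (2 * π * I * κ * α / M) * thP (-4 / (M ^ 2 * t)) κ M := by
  have hM' : (M : ℂ) ≠ 0 := by exact_mod_cast hM.ne'
  have ht0 : t ≠ 0 := by
    rintro rfl
    simp at ht
  have him : 0 < (-4 / ((M : ℂ) ^ 2 * t)).im := by
    have h1 : -4 / ((M : ℂ) ^ 2 * t) = (((4 : ℝ) / (M : ℝ) ^ 2 : ℝ) : ℂ) * (-t⁻¹) := by
      push_cast
      field_simp
    rw [h1, Complex.mul_im, Complex.ofReal_re, Complex.ofReal_im, zero_mul, add_zero,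
      Complex.neg_im, Complex.inv_im]
    have hn : 0 < Complex.normSq t := Complex.normSq_pos.mpr ht0
    have : 0 < -(-t.im / Complex.normSq t) := by
      rw [neg_div, neg_neg]
      positivity
    positivity
  rw [thP_eq_jacobi, jacobiTheta₂_functional_equation]
  have e1 : cexp (π * I * t * (α : ℂ) ^ 2 / 2) *
      (1 / (-I * (t * (M : ℂ) ^ 2 / 2)) ^ (1 / 2 : ℂ) *
        cexp (-π * I * (t * α * M / 2) ^ 2 / (t * M ^ 2 / 2)) *
        jacobiTheta₂ (t * α * M / 2 / (t * M ^ 2 / 2)) (-1 / (t * M ^ 2 / 2))) =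
      1 / (-I * (t * (M : ℂ) ^ 2 / 2)) ^ (1 / 2 : ℂ) *
        jacobiTheta₂ (t * α * M / 2 / (t * M ^ 2 / 2)) (-1 / (t * M ^ 2 / 2)) := by
    have : cexp (π * I * t * (α : ℂ) ^ 2 / 2) *
        cexp (-π * I * (t * α * M / 2) ^ 2 / (t * M ^ 2 / 2)) = 1 := by
      rw [← Complex.exp_add, ← Complex.exp_zero]
      congr 1
      field_simp
      ring
    calc _ = (cexp (π * I * t * (α : ℂ) ^ 2 / 2) *
        cexp (-π * I * (t * α * M / 2) ^ 2 / (t * M ^ 2 / 2))) *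
        (1 / (-I * (t * (M : ℂ) ^ 2 / 2)) ^ (1 / 2 : ℂ) *
        jacobiTheta₂ (t * α * M / 2 / (t * M ^ 2 / 2)) (-1 / (t * M ^ 2 / 2))) := by ring
      _ = _ := by rw [this, one_mul]
  rw [e1]
  congr 1
  -- the dual sum
  set h : ℤ → ℂ := fun ν => cexp (2 * π * I * ν * α / M) * thPterm (-4 / (M ^ 2 * t)) 0 1 ν
    with hh
  have hsum : Summable h := by
    have := (summable_thPterm him 0 (M := 1) one_pos)
    refine Summable.of_norm_bounded (this.norm) (fun ν => ?_)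
    rw [hh]
    simp only [norm_mul]
    have : ‖cexp (2 * π * I * ν * α / M)‖ = 1 := by
      have : 2 * π * I * (ν : ℂ) * α / M = ((2 * π * ν * α / M : ℝ) : ℂ) * I := by
        push_cast; ring
      rw [this, Complex.norm_exp_ofReal_mul_I]
    rw [this, one_mul]
  have hj : jacobiTheta₂ (t * α * M / 2 / (t * M ^ 2 / 2)) (-1 / (t * M ^ 2 / 2)) =
      ∑' ν : ℤ, h ν := by
    unfold jacobiTheta₂
    refine tsum_congr (fun ν => ?_)
    rw [hh]
    simp only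
    unfold jacobiTheta₂_term thPterm
    rw [← Complex.exp_add]
    congr 1
    push_cast
    field_simp
    ring
  rw [hj, h47_tsum_int_split h hsum M hM]
  refine Finset.sum_congr rfl (fun κ _ => ?_)
  unfold thP
  rw [← tsum_mul_left]
  refine tsum_congr (fun m => ?_)
  rw [hh]
  simp only
  unfold thPterm
  rw [← Complex.exp_add, ← Complex.exp_add]
  have key : 2 * π * I * (((κ : ℤ) + (M : ℤ) * m : ℤ) : ℂ) * α / M +
      2 * π * I * (-4 / ((M : ℂ) ^ 2 * t)) *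
        (((0 : ℤ) : ℂ) + ((1 : ℕ) : ℂ) * (((κ : ℤ) + (M : ℤ) * m : ℤ) : ℂ)) ^ 2 / 4 =
      (2 * π * I * κ * α / M + 2 * π * I * (-4 / ((M : ℂ) ^ 2 * t)) *
        ((((κ : ℕ) : ℤ) : ℂ) + (M : ℂ) * m) ^ 2 / 4) + 2 * π * I * ((m * α : ℤ) : ℂ) := by
    push_cast
    field_simp
    ring
  rw [key, Complex.exp_add, h47_exp_two_pi_int, mul_one]

/-! ### finite sums -/

lemma h47_sum_range_shift (N : ℕ) (f : ℤ → ℂ) (hf : ∀ x, f (x + N) = f x) (s : ℤ) :
    ∑ i ∈ range N, f (i + s) = ∑ i ∈ range N, f i := by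
  have step : ∀ g : ℤ → ℂ, (∀ x, g (x + N) = g x) →
      ∑ i ∈ range N, g (i + 1) = ∑ i ∈ range N, g i := by
    intro g hg
    have h1 := Finset.sum_range_succ (fun i : ℕ => g i) N
    have h2 := Finset.sum_range_succ' (fun i : ℕ => g i) N
    have h3 : g (N : ℕ) = g ((0 : ℕ) : ℤ) := by
      have := hg 0
      simpa using this
    have h4 : ∑ i ∈ range N, g ((i + 1 : ℕ) : ℤ) = ∑ i ∈ range N, g i := by
      have : ∑ i ∈ range N, g ((i + 1 : ℕ) : ℤ) + g ((0 : ℕ) : ℤ) =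
          ∑ i ∈ range N, g i + g (N : ℕ) := by rw [← h1, ← h2]
      rw [h3] at this
      exact add_right_cancel this
    rw [← h4]
    refine Finset.sum_congr rfl (fun i _ => ?_)
    push_cast
    rfl
  induction s using Int.induction_on with
  | zero => simp
  | succ n ih =>
    rw [← ih]
    have this' : ∑ i ∈ range N, f ((i : ℤ) + 1 + n) = ∑ i ∈ range N, f ((i : ℤ) + n) :=
      step (fun x => f (x + n)) (fun x => by
        have := hf (x + n)
        rw [← this]; congr 1; ring)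
    rw [← this']
    refine Finset.sum_congr rfl (fun i _ => ?_)
    congr 1; ring
  | pred n ih =>
    rw [← ih]
    have this' : ∑ i ∈ range N, f ((i : ℤ) + 1 + (-(n : ℤ) - 1)) =
        ∑ i ∈ range N, f ((i : ℤ) + (-(n : ℤ) - 1)) :=
      step (fun x => f (x + (-(n : ℤ) - 1))) (fun x => by
        have := hf (x + (-(n : ℤ) - 1))
        rw [← this]; congr 1; ring)
    rw [← this']
    refine Finset.sum_congr rfl (fun i _ => ?_)
    congr 1; ring

lemma h47_sum_range_two_mul (d : ℕ) (g : ℕ → ℂ) :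
    ∑ i ∈ range 2, ∑ j ∈ range d, g (i + 2 * j) = ∑ a ∈ range (2 * d), g a := by
  induction d with
  | zero => simp
  | succ d ih =>
    have e : ∀ h : ℕ → ℂ, ∑ i ∈ range 2, h i = h 0 + h 1 := fun h => by
      simp [Finset.sum_range_succ]
    rw [e] at ih ⊢
    rw [show 2 * (d + 1) = 2 * d + 1 + 1 by ring, Finset.sum_range_succ _ (2 * d + 1),
      Finset.sum_range_succ _ (2 * d), ← ih, Finset.sum_range_succ, Finset.sum_range_succ]
    ring_nf

/-- parity indicator -/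
def h47_ind (x y : ℤ) : ℂ := if (2 : ℤ) ∣ x - y then 1 else 0

lemma h47_ind_symm (x y : ℤ) : h47_ind x y = h47_ind y x := by
  unfold h47_ind
  have : (2 : ℤ) ∣ x - y ↔ (2 : ℤ) ∣ y - x := by
    rw [← dvd_neg]; simp
  simp [this]

lemma h47_ind_add (x y u v : ℤ) (h : (2 : ℤ) ∣ u - v) : h47_ind (x + u) (y + v) = h47_ind x y := by
  unfold h47_ind
  have : (2 : ℤ) ∣ x + u - (y + v) ↔ (2 : ℤ) ∣ x - y := by
    have e : x + u - (y + v) = (x - y) + (u - v) := by ring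
    rw [e]
    exact (Int.dvd_add_left h)
  simp [this]

/-- the binary theta series `∑_{m ≡ n (2)} e(t (m² + q n²)/4)` -/
def thetaQ (q : ℕ) (t : ℂ) : ℂ :=
  ∑ α ∈ range 2, ∑ β ∈ range 2, h47_ind α β * (thP t α 2 * thP (q * t) β 2)

lemma thetaQ_level (q : ℕ) (hq : 0 < q) {t : ℂ} (ht : 0 < t.im) {d : ℕ} (hd : 0 < d) :
    thetaQ q t = ∑ α ∈ range (2 * d), ∑ β ∈ range (2 * d),
      h47_ind α β * (thP t α (2 * d) * thP (q * t) β (2 * d)) := by
  have hqt : 0 < ((q : ℂ) * t).im := by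
    have : ((q : ℂ) * t).im = q * t.im := by
      rw [show (q : ℂ) = ((q : ℝ) : ℂ) by push_cast; rfl, Complex.mul_im]
      simp
    rw [this]
    positivity
  unfold thetaQ
  set F : ℕ → ℕ → ℂ := fun a b => h47_ind a b * (thP t a (2 * d) * thP (q * t) b (2 * d)) with hF
  have h1 : ∀ α β : ℕ, h47_ind α β * (thP t α 2 * thP (q * t) β 2) =
      ∑ j ∈ range d, ∑ j' ∈ range d, F (α + 2 * j) (β + 2 * j') := by
    intro α β
    rw [thP_split ht α (M := 2) two_pos hd, thP_split hqt β (M := 2) two_pos hd,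
      Finset.sum_mul_sum, Finset.mul_sum]
    refine Finset.sum_congr rfl (fun j _ => ?_)
    rw [Finset.mul_sum]
    refine Finset.sum_congr rfl (fun j' _ => ?_)
    rw [hF]
    simp only
    have : h47_ind ((α + 2 * j : ℕ) : ℤ) ((β + 2 * j' : ℕ) : ℤ) = h47_ind α β := by
      push_cast
      exact h47_ind_add _ _ _ _ ⟨j - j', by ring⟩
    rw [this]
    push_cast
    rfl
  calc ∑ α ∈ range 2, ∑ β ∈ range 2, h47_ind α β * (thP t α 2 * thP (q * t) β 2)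
      = ∑ α ∈ range 2, ∑ β ∈ range 2, ∑ j ∈ range d, ∑ j' ∈ range d,
          F (α + 2 * j) (β + 2 * j') := by
        refine Finset.sum_congr rfl (fun α _ => Finset.sum_congr rfl (fun β _ => ?_))
        exact h1 α β
    _ = ∑ α ∈ range 2, ∑ j ∈ range d, ∑ β ∈ range 2, ∑ j' ∈ range d,
          F (α + 2 * j) (β + 2 * j') := by
        refine Finset.sum_congr rfl (fun α _ => ?_)
        rw [Finset.sum_comm]
    _ = ∑ α ∈ range 2, ∑ j ∈ range d, ∑ b ∈ range (2 * d), F (α + 2 * j) b := by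
        refine Finset.sum_congr rfl (fun α _ => Finset.sum_congr rfl (fun j _ => ?_))
        exact h47_sum_range_two_mul d (fun b => F (α + 2 * j) b)
    _ = ∑ a ∈ range (2 * d), ∑ b ∈ range (2 * d), F a b :=
        h47_sum_range_two_mul d (fun a => ∑ b ∈ range (2 * d), F a b)

/-! ### the Gauss sum -/

/-- summand of the twisted Gauss sum -/
def gF (q : ℕ) (b : ℤ) (d : ℕ) (κ lam : ℤ) (x y : ℤ) : ℂ :=
  h47_ind x y * cexp (2 * π * I *
    (b * ((x : ℂ) ^ 2 + q * (y : ℂ) ^ 2) + 2 * κ * x + 2 * lam * y) / (4 * d))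

/-- the Gauss sum `∑_{α,β < 2d, α ≡ β (2)} e(b (α² + q β²)/(4d))` -/
def gaussW (q : ℕ) (b : ℤ) (d : ℕ) : ℂ :=
  ∑ α ∈ range (2 * d), ∑ β ∈ range (2 * d), gF q b d 0 0 α β

lemma h47_sum_range_shift2 (N : ℕ) (F : ℤ → ℤ → ℂ) (h1 : ∀ x y, F (x + N) y = F x y)
    (h2 : ∀ x y, F x (y + N) = F x y) (s s' : ℤ) :
    ∑ α ∈ range N, ∑ β ∈ range N, F (α + s) (β + s') =
      ∑ α ∈ range N, ∑ β ∈ range N, F α β := by
  have e1 : ∀ x : ℤ, ∑ β ∈ range N, F x (β + s') = ∑ β ∈ range N, F x β :=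
    fun x => h47_sum_range_shift N (F x) (h2 x) s'
  simp only [e1]
  exact h47_sum_range_shift N (fun x => ∑ β ∈ range N, F x β)
    (fun x => Finset.sum_congr rfl (fun β _ => h1 x β)) s

lemma gF_per1 (q : ℕ) (b : ℤ) {d : ℕ} (hd : 0 < d) (κ lam x y : ℤ) :
    gF q b d κ lam (x + (2 * d : ℕ)) y = gF q b d κ lam x y := by
  have hd' : (d : ℂ) ≠ 0 := by exact_mod_cast hd.ne'
  unfold gF
  have hi : h47_ind (x + (2 * d : ℕ)) y = h47_ind x y := by
    have := h47_ind_add x y (2 * d : ℕ) 0 ⟨d, by push_cast; ring⟩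
    simpa using this
  rw [hi]
  congr 1
  have key : 2 * π * I * (b * (((x + (2 * d : ℕ) : ℤ) : ℂ) ^ 2 + q * (y : ℂ) ^ 2) +
        2 * κ * ((x + (2 * d : ℕ) : ℤ) : ℂ) + 2 * lam * y) / (4 * d) =
      2 * π * I * (b * ((x : ℂ) ^ 2 + q * (y : ℂ) ^ 2) + 2 * κ * x + 2 * lam * y) / (4 * d) +
      2 * π * I * ((b * (x + d) + κ : ℤ) : ℂ) := by
    push_cast
    field_simp
    ring
  rw [key, Complex.exp_add, h47_exp_two_pi_int, mul_one]

lemma gF_per2 (q : ℕ) (b : ℤ) {d : ℕ} (hd : 0 < d) (κ lam x y : ℤ) :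
    gF q b d κ lam x (y + (2 * d : ℕ)) = gF q b d κ lam x y := by
  have hd' : (d : ℂ) ≠ 0 := by exact_mod_cast hd.ne'
  unfold gF
  have hi : h47_ind x (y + (2 * d : ℕ)) = h47_ind x y := by
    have := h47_ind_add x y 0 (2 * d : ℕ) ⟨-d, by push_cast; ring⟩
    simpa using this
  rw [hi]
  congr 1
  have key : 2 * π * I * (b * ((x : ℂ) ^ 2 + q * ((y + (2 * d : ℕ) : ℤ) : ℂ) ^ 2) +
        2 * κ * x + 2 * lam * ((y + (2 * d : ℕ) : ℤ) : ℂ)) / (4 * d) =
      2 * π * I * (b * ((x : ℂ) ^ 2 + q * (y : ℂ) ^ 2) + 2 * κ * x + 2 * lam * y) / (4 * d) +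
      2 * π * I * ((b * q * (y + d) + lam : ℤ) : ℂ) := by
    push_cast
    field_simp
    ring
  rw [key, Complex.exp_add, h47_exp_two_pi_int, mul_one]

lemma gF_half {q k : ℕ} (hq : q + 1 = 4 * k) (b : ℤ) {d : ℕ} (hd : 0 < d) {κ lam : ℤ}
    (hodd : ¬ (2 : ℤ) ∣ κ - lam) (x y : ℤ) :
    gF q b d κ lam (x + d) (y + d) = - gF q b d κ lam x y := by
  have hd' : (d : ℂ) ≠ 0 := by exact_mod_cast hd.ne'
  have hqC : (q : ℂ) = 4 * k - 1 := by
    have : ((q + 1 : ℕ) : ℂ) = ((4 * k : ℕ) : ℂ) := by rw [hq]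
    push_cast at this
    linear_combination this
  unfold gF
  have hi : h47_ind (x + d) (y + d) = h47_ind x y := h47_ind_add x y d d ⟨0, by ring⟩
  rw [hi]
  by_cases hxy : (2 : ℤ) ∣ x - y
  · obtain ⟨s, hs⟩ := hxy
    have hx : x = y + 2 * s := by linarith
    obtain ⟨m, hm⟩ : ∃ m, κ - lam = 2 * m + 1 := by
      have : Odd (κ - lam) := by
        rw [← Int.not_even_iff_odd, even_iff_two_dvd]
        exact hodd
      exact this
    have hκ : κ = lam + 2 * m + 1 := by linarith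
    subst hx
    subst hκ
    have key : 2 * π * I * (b * ((((y + 2 * s) + d : ℤ) : ℂ) ^ 2 + q * (((y + d : ℤ)) : ℂ) ^ 2) +
          2 * ((lam + 2 * m + 1 : ℤ) : ℂ) * (((y + 2 * s) + d : ℤ) : ℂ) +
          2 * lam * ((y + d : ℤ) : ℂ)) / (4 * d) =
        2 * π * I * (b * (((y + 2 * s : ℤ) : ℂ) ^ 2 + q * (y : ℂ) ^ 2) +
          2 * ((lam + 2 * m + 1 : ℤ) : ℂ) * ((y + 2 * s : ℤ) : ℂ) + 2 * lam * y) / (4 * d) +
        2 * π * I * ((b * (s + 2 * k * y) + b * d * k + lam + m : ℤ) : ℂ) + π * I := by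
      rw [hqC]
      push_cast
      field_simp
      ring
    rw [key, Complex.exp_add, Complex.exp_add, h47_exp_two_pi_int, Complex.exp_pi_mul_I]
    ring
  · have : h47_ind x y = 0 := by
      unfold h47_ind
      simp [hxy]
    rw [this]
    simp

lemma gF_shift {q k : ℕ} (hq : q + 1 = 4 * k) {a b c₁ : ℤ} {d : ℕ} (hd : 0 < d)
    (hdet : a * d - b * (q * c₁) = 1) {κ lam : ℤ} (heven : (2 : ℤ) ∣ κ - lam) (x y : ℤ) :
    gF q b d κ lam x y *
        cexp (-(2 * π * I * (q * c₁ * (κ : ℂ) ^ 2 + c₁ * (lam : ℂ) ^ 2) / (4 * d))) =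
      gF q b d 0 0 (x - q * c₁ * κ) (y - c₁ * lam) := by
  have hd' : (d : ℂ) ≠ 0 := by exact_mod_cast hd.ne'
  have hqC : (q : ℂ) = 4 * k - 1 := by
    have : ((q + 1 : ℕ) : ℂ) = ((4 * k : ℕ) : ℂ) := by rw [hq]
    push_cast at this
    linear_combination this
  have hqZ : (q : ℤ) = 4 * k - 1 := by
    have : ((q + 1 : ℕ) : ℤ) = ((4 * k : ℕ) : ℤ) := by rw [hq]
    push_cast at this
    linarith
  have hdetC : (a : ℂ) * d - b * (q * c₁) = 1 := by exact_mod_cast hdet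
  obtain ⟨m, hm⟩ := heven
  have hκ : κ = lam + 2 * m := by linarith
  subst hκ
  unfold gF
  have hi : h47_ind (x - q * c₁ * (lam + 2 * m)) (y - c₁ * lam) = h47_ind x y := by
    have := h47_ind_add x y (-(q * c₁ * (lam + 2 * m))) (-(c₁ * lam))
      ⟨-(2 * k * c₁ * (lam + 2 * m)) + c₁ * lam + c₁ * m, by rw [hqZ]; ring⟩
    rw [← this]
    rfl
  rw [hi]
  by_cases hxy : (2 : ℤ) ∣ x - y
  · obtain ⟨s, hs⟩ := hxy
    have hx : x = y + 2 * s := by linarith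
    subst hx
    rw [mul_assoc, ← Complex.exp_add]
    have key : 2 * π * I * (b * (((y + 2 * s : ℤ) : ℂ) ^ 2 + q * (y : ℂ) ^ 2) +
          ((a : ℂ) * d - b * (q * c₁)) *
            (2 * ((lam + 2 * m : ℤ) : ℂ) * ((y + 2 * s : ℤ) : ℂ) + 2 * lam * y)) / (4 * d) +
        -(2 * π * I * (((a : ℂ) * d - b * (q * c₁)) *
            (q * c₁ * ((lam + 2 * m : ℤ) : ℂ) ^ 2 + c₁ * (lam : ℂ) ^ 2)) / (4 * d)) =
        2 * π * I * (b * ((((y + 2 * s) - q * c₁ * (lam + 2 * m) : ℤ) : ℂ) ^ 2 +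
            q * ((y - c₁ * lam : ℤ) : ℂ) ^ 2) +
          2 * ((0 : ℤ) : ℂ) * (((y + 2 * s) - q * c₁ * (lam + 2 * m) : ℤ) : ℂ) +
          2 * ((0 : ℤ) : ℂ) * ((y - c₁ * lam : ℤ) : ℂ)) / (4 * d) +
        2 * π * I * ((a * (lam * y + lam * s + m * y + 2 * m * s) -
          a * c₁ * (k * (lam + 2 * m) ^ 2 - lam * m - m ^ 2) : ℤ) : ℂ) := by
      push_cast
      rw [hqC]
      field_simp
      ring
    have key2 : 2 * π * I * (b * (((y + 2 * s : ℤ) : ℂ) ^ 2 + q * (y : ℂ) ^ 2) +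
          2 * ((lam + 2 * m : ℤ) : ℂ) * ((y + 2 * s : ℤ) : ℂ) + 2 * lam * y) / (4 * d) +
        -(2 * π * I * (q * c₁ * ((lam + 2 * m : ℤ) : ℂ) ^ 2 + c₁ * (lam : ℂ) ^ 2) / (4 * d)) =
        2 * π * I * (b * (((y + 2 * s : ℤ) : ℂ) ^ 2 + q * (y : ℂ) ^ 2) +
          ((a : ℂ) * d - b * (q * c₁)) *
            (2 * ((lam + 2 * m : ℤ) : ℂ) * ((y + 2 * s : ℤ) : ℂ) + 2 * lam * y)) / (4 * d) +
        -(2 * π * I * (((a : ℂ) * d - b * (q * c₁)) *
            (q * c₁ * ((lam + 2 * m : ℤ) : ℂ) ^ 2 + c₁ * (lam : ℂ) ^ 2)) / (4 * d)) := by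
      rw [hdetC]
      ring
    rw [key2, key, Complex.exp_add, h47_exp_two_pi_int, mul_one]
  · have : h47_ind x y = 0 := by
      unfold h47_ind
      simp [hxy]
    rw [this]
    simp

lemma gauss_twist {q k : ℕ} (hq : q + 1 = 4 * k) {a b c₁ : ℤ} {d : ℕ} (hd : 0 < d)
    (hdet : a * d - b * (q * c₁) = 1) (κ lam : ℤ) :
    (∑ α ∈ range (2 * d), ∑ β ∈ range (2 * d), gF q b d κ lam α β) *
        cexp (-(2 * π * I * (q * c₁ * (κ : ℂ) ^ 2 + c₁ * (lam : ℂ) ^ 2) / (4 * d))) =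
      h47_ind κ lam * gaussW q b d := by
  by_cases h : (2 : ℤ) ∣ κ - lam
  · have hi : h47_ind κ lam = 1 := by unfold h47_ind; simp [h]
    rw [hi, one_mul, Finset.sum_mul]
    unfold gaussW
    have := h47_sum_range_shift2 (2 * d) (gF q b d 0 0) (fun x y => gF_per1 q b hd 0 0 x y)
      (fun x y => gF_per2 q b hd 0 0 x y) (-(q * c₁ * κ)) (-(c₁ * lam))
    rw [← this]
    refine Finset.sum_congr rfl (fun α _ => ?_)
    rw [Finset.sum_mul]
    refine Finset.sum_congr rfl (fun β _ => ?_)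
    rw [gF_shift hq hd hdet h]
    rfl
  · have hi : h47_ind κ lam = 0 := by unfold h47_ind; simp [h]
    rw [hi, zero_mul]
    have hS : ∑ α ∈ range (2 * d), ∑ β ∈ range (2 * d), gF q b d κ lam α β = 0 := by
      have h1 := h47_sum_range_shift2 (2 * d) (gF q b d κ lam)
        (fun x y => gF_per1 q b hd κ lam x y) (fun x y => gF_per2 q b hd κ lam x y) d d
      have h2 : ∑ α ∈ range (2 * d), ∑ β ∈ range (2 * d),
            gF q b d κ lam ((α : ℤ) + d) ((β : ℤ) + d) =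
          - ∑ α ∈ range (2 * d), ∑ β ∈ range (2 * d), gF q b d κ lam α β := by
        rw [← Finset.sum_neg_distrib]
        refine Finset.sum_congr rfl (fun α _ => ?_)
        rw [← Finset.sum_neg_distrib]
        exact Finset.sum_congr rfl (fun β _ => gF_half hq b hd h α β)
      rw [h2] at h1
      exact self_eq_neg.mp h1.symm
    rw [hS, zero_mul]

lemma gaussW_zero_one (q : ℕ) : gaussW q 0 1 = 2 := by
  have h00 : h47_ind 0 0 = 1 := by unfold h47_ind; simp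
  have h11 : h47_ind 1 1 = 1 := by unfold h47_ind; simp
  have h01 : h47_ind 0 1 = 0 := by unfold h47_ind; norm_num
  have h10 : h47_ind 1 0 = 0 := by unfold h47_ind; norm_num
  unfold gaussW gF
  simp [Finset.sum_range_succ, h00, h11, h01, h10]
  norm_num

/-! ### the transformation formula -/

lemma h47_four_sum (N : ℕ) (I4 A B : ℕ → ℕ → ℂ) (E1 E2 P1 P2 : ℕ → ℂ) (C1 C2 : ℂ) :
    ∑ α ∈ range N, ∑ β ∈ range N, I4 α β *
        ((E1 α * (C1 * ∑ κ ∈ range N, A κ α * P1 κ)) *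
          (E2 β * (C2 * ∑ l ∈ range N, B l β * P2 l))) =
      C1 * C2 * ∑ κ ∈ range N, ∑ l ∈ range N,
        (∑ α ∈ range N, ∑ β ∈ range N, I4 α β * (E1 α * E2 β * A κ α * B l β)) *
          (P1 κ * P2 l) := by
  have h1 : ∀ α β : ℕ, I4 α β * ((E1 α * (C1 * ∑ κ ∈ range N, A κ α * P1 κ)) *
          (E2 β * (C2 * ∑ l ∈ range N, B l β * P2 l))) =
      ∑ κ ∈ range N, ∑ l ∈ range N,
        C1 * C2 * ((I4 α β * (E1 α * E2 β * A κ α * B l β)) * (P1 κ * P2 l)) := by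
    intro α β
    have : I4 α β * ((E1 α * (C1 * ∑ κ ∈ range N, A κ α * P1 κ)) *
          (E2 β * (C2 * ∑ l ∈ range N, B l β * P2 l))) =
        (I4 α β * E1 α * E2 β * C1 * C2) *
          ((∑ κ ∈ range N, A κ α * P1 κ) * (∑ l ∈ range N, B l β * P2 l)) := by ring
    rw [this, Finset.sum_mul_sum, Finset.mul_sum]
    refine Finset.sum_congr rfl (fun κ _ => ?_)
    rw [Finset.mul_sum]
    refine Finset.sum_congr rfl (fun l _ => ?_)
    ring
  simp only [h1]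
  have h2 : ∑ α ∈ range N, ∑ β ∈ range N, ∑ κ ∈ range N, ∑ l ∈ range N,
        C1 * C2 * ((I4 α β * (E1 α * E2 β * A κ α * B l β)) * (P1 κ * P2 l)) =
      ∑ κ ∈ range N, ∑ l ∈ range N, ∑ α ∈ range N, ∑ β ∈ range N,
        C1 * C2 * ((I4 α β * (E1 α * E2 β * A κ α * B l β)) * (P1 κ * P2 l)) := by
    calc _ = ∑ α ∈ range N, ∑ κ ∈ range N, ∑ β ∈ range N, ∑ l ∈ range N,
        C1 * C2 * ((I4 α β * (E1 α * E2 β * A κ α * B l β)) * (P1 κ * P2 l)) :=
          Finset.sum_congr rfl (fun α _ => Finset.sum_comm)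
      _ = ∑ κ ∈ range N, ∑ α ∈ range N, ∑ β ∈ range N, ∑ l ∈ range N,
        C1 * C2 * ((I4 α β * (E1 α * E2 β * A κ α * B l β)) * (P1 κ * P2 l)) :=
          Finset.sum_comm
      _ = ∑ κ ∈ range N, ∑ α ∈ range N, ∑ l ∈ range N, ∑ β ∈ range N,
        C1 * C2 * ((I4 α β * (E1 α * E2 β * A κ α * B l β)) * (P1 κ * P2 l)) :=
          Finset.sum_congr rfl (fun κ _ => Finset.sum_congr rfl (fun α _ => Finset.sum_comm))
      _ = _ := Finset.sum_congr rfl (fun κ _ => Finset.sum_comm)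
  rw [h2, Finset.mul_sum]
  refine Finset.sum_congr rfl (fun κ _ => ?_)
  rw [Finset.mul_sum]
  refine Finset.sum_congr rfl (fun l _ => ?_)
  rw [Finset.sum_mul, Finset.mul_sum]
  refine Finset.sum_congr rfl (fun α _ => ?_)
  rw [Finset.sum_mul, Finset.mul_sum]

lemma h47_im_neg_one_div_pos {w : ℂ} (hw : 0 < w.im) : 0 < (-1 / w).im := by
  have hw0 : w ≠ 0 := by rintro rfl; simp at hw
  rw [neg_div, Complex.neg_im, one_div, Complex.inv_im, neg_div, neg_neg]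
  exact div_pos hw (Complex.normSq_pos.mpr hw0)

lemma h47_im_real_mul_pos {r : ℝ} (hr : 0 < r) {w : ℂ} (hw : 0 < w.im) : 0 < ((r : ℂ) * w).im := by
  rw [Complex.mul_im, Complex.ofReal_re, Complex.ofReal_im, zero_mul, add_zero]
  positivity

lemma h47_im_add_real (w : ℂ) (r : ℝ) : (w + (r : ℂ)).im = w.im := by
  rw [Complex.add_im, Complex.ofReal_im, add_zero]

lemma h47_cpow_half_mul {x : ℂ} (hx0 : x ≠ 0) {q : ℕ} (hq : 0 < q) :
    x ^ (1 / 2 : ℂ) * ((q : ℂ) * x) ^ (1 / 2 : ℂ) = (Real.sqrt q : ℂ) * x := by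
  have hqr : (0 : ℝ) < q := by exact_mod_cast hq
  have h1 : ((q : ℂ) * x) ^ (1 / 2 : ℂ) = (Real.sqrt q : ℂ) * x ^ (1 / 2 : ℂ) := by
    rw [show (q : ℂ) = ((q : ℝ) : ℂ) by simp]
    rw [Complex.cpow_def_of_ne_zero (mul_ne_zero (by exact_mod_cast hqr.ne') hx0),
      Complex.log_ofReal_mul hqr hx0, Complex.cpow_def_of_ne_zero hx0, add_mul, Complex.exp_add]
    congr 1
    rw [Real.sqrt_eq_rpow, Real.rpow_def_of_pos hqr]
    push_cast
    ring_nf
  rw [h1]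
  have h2 : x ^ (1 / 2 : ℂ) * x ^ (1 / 2 : ℂ) = x := by
    rw [← Complex.cpow_add _ _ hx0]
    norm_num
  calc _ = (Real.sqrt q : ℂ) * (x ^ (1 / 2 : ℂ) * x ^ (1 / 2 : ℂ)) := by ring
    _ = _ := by rw [h2]

lemma thetaQ_dual {q k : ℕ} (hq : q + 1 = 4 * k) {a b c₁ : ℤ} {d : ℕ} (hd : 0 < d)
    (hdet : a * d - b * (q * c₁) = 1) {z : ℂ} (hz : 0 < z.im) :
    thetaQ q (z / (d * (q * c₁ * z + d)) + b / d) =
      1 / (-I * (z / (d * (q * c₁ * z + d)) * ((2 * d : ℕ) : ℂ) ^ 2 / 2)) ^ (1 / 2 : ℂ) *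
      (1 / (-I * (q * (z / (d * (q * c₁ * z + d))) * ((2 * d : ℕ) : ℂ) ^ 2 / 2)) ^ (1 / 2 : ℂ)) *
      (gaussW q b d * thetaQ q (-1 / (q * z))) := by
  have hq0 : 0 < q := by omega
  have hd' : (d : ℂ) ≠ 0 := by exact_mod_cast hd.ne'
  have hq' : (q : ℂ) ≠ 0 := by exact_mod_cast hq0.ne'
  have hz0 : z ≠ 0 := by rintro rfl; simp at hz
  have hmz : 0 < (-1 / z).im := h47_im_neg_one_div_pos hz
  have hqz : 0 < ((q : ℂ) * z).im := by
    have := h47_im_real_mul_pos (r := (q : ℝ)) (by exact_mod_cast hq0) hz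
    simpa using this
  have hmqz : 0 < (-1 / ((q : ℂ) * z)).im := h47_im_neg_one_div_pos hqz
  set t₁ : ℂ := -1 / z + ((-(q * c₁) : ℤ) : ℂ) / d with ht₁
  have ht₁im : 0 < t₁.im := by
    have : t₁ = -1 / z + ((((-(q * c₁) : ℤ) : ℝ) / d : ℝ) : ℂ) := by
      rw [ht₁]; push_cast; ring
    rw [this, h47_im_add_real]; exact hmz
  have ht₁0 : t₁ ≠ 0 := by
    intro h; rw [h] at ht₁im; simp at ht₁im
  set D : ℂ := q * c₁ * z + d with hD
  have hDt : D = -(d * z) * t₁ := by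
    rw [ht₁, hD]; push_cast; field_simp; ring
  have hD0 : D ≠ 0 := by
    rw [hDt]
    exact mul_ne_zero (neg_ne_zero.mpr (mul_ne_zero hd' hz0)) ht₁0
  set u : ℂ := z / (d * D) with hu
  have hu1 : u = (((1 : ℝ) / (d : ℝ) ^ 2 : ℝ) : ℂ) * (-1 / t₁) := by
    rw [hu, hDt]; push_cast; field_simp
  have hu_im : 0 < u.im := by
    rw [hu1]
    exact h47_im_real_mul_pos (by positivity) (h47_im_neg_one_div_pos ht₁im)
  have hub : 0 < (u + b / d).im := by
    have : u + (b : ℂ) / d = u + (((b : ℝ) / d : ℝ) : ℂ) := by push_cast; ring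
    rw [this, h47_im_add_real]; exact hu_im
  have hqu : 0 < ((q : ℂ) * u).im := by
    have := h47_im_real_mul_pos (r := (q : ℝ)) (by exact_mod_cast hq0) hu_im
    simpa using this
  have hT1 : -4 / (((2 * d : ℕ) : ℂ) ^ 2 * u) = t₁ := by
    have : t₁ = -D / (d * z) := by rw [hDt]; field_simp
    rw [this, hu]; push_cast; field_simp; ring
  have hT2 : -4 / (((2 * d : ℕ) : ℂ) ^ 2 * ((q : ℂ) * u)) =
      -1 / ((q : ℂ) * z) + ((-c₁ : ℤ) : ℂ) / d := by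
    rw [hu, hD]; push_cast; field_simp; ring
  have h2d : 0 < 2 * d := by omega
  -- expand both theta values at level `2d`
  rw [thetaQ_level q hq0 hub hd, thetaQ_level q hq0 hmqz hd]
  have e1 : ∀ α : ℕ, thP (u + b / d) α (2 * d) =
      cexp (2 * π * I * b * ((α : ℤ) : ℂ) ^ 2 / (4 * d)) *
        (1 / (-I * (u * ((2 * d : ℕ) : ℂ) ^ 2 / 2)) ^ (1 / 2 : ℂ) *
          ∑ κ ∈ range (2 * d), cexp (2 * π * I * κ * ((α : ℤ) : ℂ) / ((2 * d : ℕ) : ℂ)) *
            (cexp (2 * π * I * ((-(q * c₁) : ℤ) : ℂ) * ((κ : ℤ) : ℂ) ^ 2 / (4 * d)) *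
              thP (-1 / z) κ (2 * d))) := by
    intro α
    rw [thP_phase u b hd α, thP_S hu_im α h2d, hT1]
    congr 2
    refine Finset.sum_congr rfl (fun κ _ => ?_)
    rw [ht₁, thP_phase (-1 / z) (-(q * c₁)) hd κ]
  have e2 : ∀ β : ℕ, thP ((q : ℂ) * (u + b / d)) β (2 * d) =
      cexp (2 * π * I * ((q * b : ℤ) : ℂ) * ((β : ℤ) : ℂ) ^ 2 / (4 * d)) *
        (1 / (-I * ((q : ℂ) * u * ((2 * d : ℕ) : ℂ) ^ 2 / 2)) ^ (1 / 2 : ℂ) *
          ∑ l ∈ range (2 * d), cexp (2 * π * I * l * ((β : ℤ) : ℂ) / ((2 * d : ℕ) : ℂ)) *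
            (cexp (2 * π * I * ((-c₁ : ℤ) : ℂ) * ((l : ℤ) : ℂ) ^ 2 / (4 * d)) *
              thP (-1 / ((q : ℂ) * z)) l (2 * d))) := by
    intro β
    have : (q : ℂ) * (u + b / d) = (q : ℂ) * u + ((q * b : ℤ) : ℂ) / d := by
      push_cast; ring
    rw [this, thP_phase ((q : ℂ) * u) (q * b) hd β, thP_S hqu β h2d, hT2]
    congr 2
    refine Finset.sum_congr rfl (fun l _ => ?_)
    rw [thP_phase (-1 / ((q : ℂ) * z)) (-c₁) hd l]
  simp only [e1, e2]
  rw [h47_four_sum]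
  have hzz : (q : ℂ) * (-1 / ((q : ℂ) * z)) = -1 / z := by field_simp
  rw [hzz]
  have e3 : ∀ κ l : ℕ,
      (∑ α ∈ range (2 * d), ∑ β ∈ range (2 * d), h47_ind α β *
        (cexp (2 * π * I * b * ((α : ℤ) : ℂ) ^ 2 / (4 * d)) *
          cexp (2 * π * I * ((q * b : ℤ) : ℂ) * ((β : ℤ) : ℂ) ^ 2 / (4 * d)) *
          cexp (2 * π * I * κ * ((α : ℤ) : ℂ) / ((2 * d : ℕ) : ℂ)) *
          cexp (2 * π * I * l * ((β : ℤ) : ℂ) / ((2 * d : ℕ) : ℂ)))) *
      (cexp (2 * π * I * ((-(q * c₁) : ℤ) : ℂ) * ((κ : ℤ) : ℂ) ^ 2 / (4 * d)) *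
          thP (-1 / z) κ (2 * d) *
        (cexp (2 * π * I * ((-c₁ : ℤ) : ℂ) * ((l : ℤ) : ℂ) ^ 2 / (4 * d)) *
          thP (-1 / ((q : ℂ) * z)) l (2 * d))) =
      gaussW q b d * (h47_ind l κ * (thP (-1 / ((q : ℂ) * z)) l (2 * d) * thP (-1 / z) κ (2 * d))) := by
    intro κ l
    have hg := gauss_twist hq hd hdet (κ : ℤ) (l : ℤ)
    have hsum : (∑ α ∈ range (2 * d), ∑ β ∈ range (2 * d), h47_ind α β *
        (cexp (2 * π * I * b * ((α : ℤ) : ℂ) ^ 2 / (4 * d)) *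
          cexp (2 * π * I * ((q * b : ℤ) : ℂ) * ((β : ℤ) : ℂ) ^ 2 / (4 * d)) *
          cexp (2 * π * I * κ * ((α : ℤ) : ℂ) / ((2 * d : ℕ) : ℂ)) *
          cexp (2 * π * I * l * ((β : ℤ) : ℂ) / ((2 * d : ℕ) : ℂ)))) =
        ∑ α ∈ range (2 * d), ∑ β ∈ range (2 * d), gF q b d κ l α β := by
      refine Finset.sum_congr rfl (fun α _ => Finset.sum_congr rfl (fun β _ => ?_))
      unfold gF
      congr 1
      rw [← Complex.exp_add, ← Complex.exp_add, ← Complex.exp_add]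
      congr 1
      push_cast
      field_simp
      ring
    have hph : cexp (2 * π * I * ((-(q * c₁) : ℤ) : ℂ) * ((κ : ℤ) : ℂ) ^ 2 / (4 * d)) *
        cexp (2 * π * I * ((-c₁ : ℤ) : ℂ) * ((l : ℤ) : ℂ) ^ 2 / (4 * d)) =
        cexp (-(2 * π * I * (q * c₁ * (((κ : ℤ) : ℂ)) ^ 2 + c₁ * (((l : ℤ) : ℂ)) ^ 2) /
          (4 * d))) := by
      rw [← Complex.exp_add]
      congr 1
      push_cast
      ring
    rw [hsum]
    calc _ = ((∑ α ∈ range (2 * d), ∑ β ∈ range (2 * d), gF q b d κ l α β) *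
          (cexp (2 * π * I * ((-(q * c₁) : ℤ) : ℂ) * ((κ : ℤ) : ℂ) ^ 2 / (4 * d)) *
            cexp (2 * π * I * ((-c₁ : ℤ) : ℂ) * ((l : ℤ) : ℂ) ^ 2 / (4 * d)))) *
          (thP (-1 / z) κ (2 * d) * thP (-1 / ((q : ℂ) * z)) l (2 * d)) := by ring
      _ = _ := by
        rw [hph, hg, h47_ind_symm]
        ring
  simp only [e3]
  rw [Finset.sum_comm]
  simp only [← Finset.mul_sum]

/-- `thetaQ q z = (I / (√q z)) * thetaQ q (-1/(q z))` (Fricke involution) -/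
theorem thetaQ_fricke {q k : ℕ} (hq : q + 1 = 4 * k) {z : ℂ} (hz : 0 < z.im) :
    thetaQ q (-1 / (q * z)) = -I * (Real.sqrt q : ℂ) * z * thetaQ q z := by
  have hq0 : 0 < q := by omega
  have hz0 : z ≠ 0 := by rintro rfl; simp at hz
  have hsq : (Real.sqrt q : ℂ) ≠ 0 := by
    have : (0 : ℝ) < Real.sqrt q := Real.sqrt_pos.mpr (by exact_mod_cast hq0)
    exact_mod_cast this.ne'
  have h0 := thetaQ_dual hq (a := 1) (b := 0) (c₁ := 0) (d := 1) one_pos (by simp) hz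
  have hx0 : -I * (z * ((2 * 1 : ℕ) : ℂ) ^ 2 / 2) ≠ 0 := by
    push_cast
    simp [hz0, Complex.I_ne_zero]
  have hC := h47_cpow_half_mul hx0 hq0
  have e0 : z / (((1 : ℕ) : ℂ) * ((q : ℂ) * ((0 : ℤ) : ℂ) * z + ((1 : ℕ) : ℂ))) = z := by
    simp
  have e1 : z + ((0 : ℤ) : ℂ) / ((1 : ℕ) : ℂ) = z := by
    simp
  rw [e0, e1] at h0
  have e2 : -I * ((q : ℂ) * z * ((2 * 1 : ℕ) : ℂ) ^ 2 / 2) =
      (q : ℂ) * (-I * (z * ((2 * 1 : ℕ) : ℂ) ^ 2 / 2)) := by ring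
  rw [e2, gaussW_zero_one, one_div_mul_one_div, hC] at h0
  rw [h0]
  push_cast
  field_simp

/-- transformation of the binary theta series under `Γ₀(q)`, with the Gauss sum as multiplier -/
theorem thetaQ_transform {q k : ℕ} (hq : q + 1 = 4 * k) {a b c₁ : ℤ} {d : ℕ} (hd : 0 < d)
    (hdet : a * d - b * (q * c₁) = 1) {z : ℂ} (hz : 0 < z.im) :
    thetaQ q ((a * z + b) / (q * c₁ * z + d)) =
      (q * c₁ * z + d) / d * (gaussW q b d / 2) * thetaQ q z := by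
  have hq0 : 0 < q := by omega
  have hd' : (d : ℂ) ≠ 0 := by exact_mod_cast hd.ne'
  have hz0 : z ≠ 0 := by rintro rfl; simp at hz
  have hsq : (Real.sqrt q : ℂ) ≠ 0 := by
    have : (0 : ℝ) < Real.sqrt q := Real.sqrt_pos.mpr (by exact_mod_cast hq0)
    exact_mod_cast this.ne'
  have hmz : 0 < (-1 / z).im := h47_im_neg_one_div_pos hz
  set t₁ : ℂ := -1 / z + ((-(q * c₁) : ℤ) : ℂ) / d with ht₁
  have ht₁im : 0 < t₁.im := by
    have : t₁ = -1 / z + ((((-(q * c₁) : ℤ) : ℝ) / d : ℝ) : ℂ) := by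
      rw [ht₁]; push_cast; ring
    rw [this, h47_im_add_real]; exact hmz
  have ht₁0 : t₁ ≠ 0 := by
    intro h; rw [h] at ht₁im; simp at ht₁im
  set D : ℂ := q * c₁ * z + d with hD
  have hDt : D = -(d * z) * t₁ := by
    rw [ht₁, hD]; push_cast; field_simp; ring
  have hD0 : D ≠ 0 := by
    rw [hDt]
    exact mul_ne_zero (neg_ne_zero.mpr (mul_ne_zero hd' hz0)) ht₁0
  have hdetC : (a : ℂ) * d - b * (q * c₁) = 1 := by exact_mod_cast hdet
  have harg : (a * z + b) / D = z / (d * D) + b / d := by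
    rw [div_add_div _ _ (mul_ne_zero hd' hD0) hd',
      div_eq_div_iff hD0 (mul_ne_zero (mul_ne_zero hd' hD0) hd')]
    linear_combination (d * D * z) * hdetC - (d * D * b) * hD
  have h1 := thetaQ_dual hq hd hdet hz
  rw [← hD] at h1
  have hfr := thetaQ_fricke hq hz
  rw [harg, h1, hfr]
  have hx0 : -I * (z / (d * D) * ((2 * d : ℕ) : ℂ) ^ 2 / 2) ≠ 0 := by
    push_cast
    have : z / (d * D) ≠ 0 := div_ne_zero hz0 (mul_ne_zero hd' hD0)
    simp [this, Complex.I_ne_zero, hd']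
  have hC := h47_cpow_half_mul hx0 hq0
  have e2 : -I * ((q : ℂ) * (z / (d * D)) * ((2 * d : ℕ) : ℂ) ^ 2 / 2) =
      (q : ℂ) * (-I * (z / (d * D) * ((2 * d : ℕ) : ℂ) ^ 2 / 2)) := by ring
  rw [e2, one_div_mul_one_div, hC]
  push_cast
  field_simp

end

end Fermat.Agent.S16

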