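import Mathlib

/-!
# S16 / lower bound (II): representation numbers of `N(x) + p N(y)`

`rc_Q m (x, y) = x² + x y + m y²` is the norm form of `ℤ[(1 + √-q)/2]` when `4 m = q + 1`.
`rc_R m p n` is the number of `(v, w) ∈ ℤ² × ℤ²` with `rc_Q m v + p * rc_Q m w = n`, i.e. the
`n`-th coefficient of `th(z) * th(p z)`.  We show `rc_R m p 0 = 1` and, for `q ≠ p` primes and
`n ≥ 1`, that `4 ∣ rc_R m p n + rc_R m p (q n)`; hence `(f + U_q f) / 2` has integer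
coefficients, constant term `1`, and all other coefficients even.
-/

namespace Fermat.Agent.S16

/-- The binary quadratic form `x² + x y + m y²`. -/
def rc_Q (m : ℤ) (v : ℤ × ℤ) : ℤ := v.1 ^ 2 + v.1 * v.2 + m * v.2 ^ 2

/-- The number of representations of `n` by `rc_Q m v + p * rc_Q m w`. -/
noncomputable def rc_R (m : ℤ) (p : ℕ) (n : ℤ) : ℕ :=
  Nat.card {vw : (ℤ × ℤ) × (ℤ × ℤ) // rc_Q m vw.1 + p * rc_Q m vw.2 = n}

theorem rc_four_mul (m : ℤ) (v : ℤ × ℤ) :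
    4 * rc_Q m v = (2 * v.1 + v.2) ^ 2 + (4 * m - 1) * v.2 ^ 2 := by
  unfold rc_Q; ring

theorem rc_Q_zero (m : ℤ) : rc_Q m 0 = 0 := by simp [rc_Q]

theorem rc_Q_nonneg {m : ℤ} (hm : 1 ≤ m) (v : ℤ × ℤ) : 0 ≤ rc_Q m v := by
  have h := rc_four_mul m v
  nlinarith [sq_nonneg (2 * v.1 + v.2), sq_nonneg v.2,
    mul_nonneg (by linarith : (0 : ℤ) ≤ 4 * m - 1) (sq_nonneg v.2)]

theorem rc_bound {m : ℤ} (hm : 1 ≤ m) (v : ℤ × ℤ) :
    |v.1| ≤ 4 * rc_Q m v ∧ |v.2| ≤ 4 * rc_Q m v := by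
  have h := rc_four_mul m v
  have h1 : 0 ≤ (2 * v.1 + v.2) ^ 2 := sq_nonneg _
  have h2 : 0 ≤ (4 * m - 1) * v.2 ^ 2 := mul_nonneg (by linarith) (sq_nonneg _)
  have h3 : v.2 ^ 2 ≤ (4 * m - 1) * v.2 ^ 2 := by nlinarith [sq_nonneg v.2]
  have h4 : |v.2| ≤ v.2 ^ 2 := by
    have := Int.le_self_sq |v.2|
    rwa [sq_abs] at this
  have h5 : |2 * v.1 + v.2| ≤ (2 * v.1 + v.2) ^ 2 := by
    have := Int.le_self_sq |2 * v.1 + v.2|
    rwa [sq_abs] at this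
  have h6 : |v.2| ≤ 4 * rc_Q m v := by linarith
  refine ⟨?_, h6⟩
  have h7 : |2 * v.1 + v.2| + |v.2| ≤ 4 * rc_Q m v := by linarith
  have h8 : |2 * v.1| ≤ |2 * v.1 + v.2| + |v.2| := by
    have := abs_sub (2 * v.1 + v.2) v.2
    simpa using this
  have h9 : |2 * v.1| = 2 * |v.1| := by rw [abs_mul]; simp
  have h10 : 0 ≤ |v.1| := abs_nonneg _
  linarith

theorem rc_Q_eq_zero {m : ℤ} (hm : 1 ≤ m) {v : ℤ × ℤ} : rc_Q m v = 0 ↔ v = 0 := by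
  constructor
  · intro h0
    obtain ⟨h1, h2⟩ := rc_bound hm v
    rw [h0, mul_zero] at h1 h2
    exact Prod.ext (abs_nonpos_iff.mp h1) (abs_nonpos_iff.mp h2)
  · rintro rfl; exact rc_Q_zero m

theorem rc_Q_smul_unit (m : ℤ) (u : ℤˣ) (v : ℤ × ℤ) : rc_Q m ((u : ℤ) • v) = rc_Q m v := by
  rcases Int.units_eq_one_or u with rfl | rfl <;> simp [rc_Q]

/-- Sublevel sets of `rc_Q` are finite. -/
theorem rc_finite_le {m : ℤ} (hm : 1 ≤ m) (n : ℤ) : {v : ℤ × ℤ | rc_Q m v ≤ n}.Finite := by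
  refine ((Set.finite_Icc (-(4 * n)) (4 * n)).prod (Set.finite_Icc (-(4 * n)) (4 * n))).subset ?_
  intro v hv
  obtain ⟨h1, h2⟩ := rc_bound hm v
  have hv' : rc_Q m v ≤ n := hv
  exact ⟨abs_le.mp (by linarith), abs_le.mp (by linarith)⟩

/-- The representation sets are finite. -/
theorem rc_finite {m : ℤ} (hm : 1 ≤ m) (p : ℕ) (hp : 0 < p) (n : ℤ) :
    {vw : (ℤ × ℤ) × (ℤ × ℤ) | rc_Q m vw.1 + p * rc_Q m vw.2 = n}.Finite := by
  refine ((rc_finite_le hm n).prod (rc_finite_le hm n)).subset ?_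
  rintro ⟨v, w⟩ hvw
  have h : rc_Q m v + p * rc_Q m w = n := hvw
  have h1 := rc_Q_nonneg hm v
  have h2 := rc_Q_nonneg hm w
  have hp' : (1 : ℤ) ≤ p := by exact_mod_cast hp
  have h3 : rc_Q m w ≤ p * rc_Q m w := by nlinarith
  exact ⟨by show rc_Q m v ≤ n; nlinarith, by show rc_Q m w ≤ n; linarith⟩

theorem rc_R_zero {m : ℤ} (hm : 1 ≤ m) (p : ℕ) (hp : 0 < p) : rc_R m p 0 = 1 := by
  unfold rc_R
  rw [Nat.card_eq_one_iff_unique]
  have hp' : (1 : ℤ) ≤ p := by exact_mod_cast hp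
  have key : ∀ vw : (ℤ × ℤ) × (ℤ × ℤ), rc_Q m vw.1 + p * rc_Q m vw.2 = 0 → vw = 0 := by
    rintro ⟨v, w⟩ h
    have h1 := rc_Q_nonneg hm v
    have h2 := rc_Q_nonneg hm w
    have h3 : rc_Q m w ≤ p * rc_Q m w := by nlinarith
    have h4 : rc_Q m v = 0 := by
      have h : rc_Q m v + p * rc_Q m w = 0 := h
      linarith
    have h5 : rc_Q m w = 0 := by
      have h : rc_Q m v + p * rc_Q m w = 0 := h
      linarith
    exact Prod.ext ((rc_Q_eq_zero hm).mp h4) ((rc_Q_eq_zero hm).mp h5)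
  refine ⟨⟨fun a b => Subtype.ext ((key a.1 a.2).trans (key b.1 b.2).symm)⟩,
    ⟨⟨0, by simp [rc_Q_zero]⟩⟩⟩

/-! ### Multiplication by `√-q` -/

/-- Multiplication by `√-q = 2ω - 1` in the basis `1, ω`. -/
def rc_mu (m : ℤ) (v : ℤ × ℤ) : ℤ × ℤ := (-v.1 - 2 * m * v.2, 2 * v.1 + v.2)

theorem rc_Q_mu (m : ℤ) (v : ℤ × ℤ) : rc_Q m (rc_mu m v) = (4 * m - 1) * rc_Q m v := by
  unfold rc_Q rc_mu; ring

theorem rc_mu_injective {m : ℤ} (hm : 1 ≤ m) : Function.Injective (rc_mu m) := by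
  have hm' := hm
  rintro ⟨x, y⟩ ⟨x', y'⟩ h
  have h1 : -x - 2 * m * y = -x' - 2 * m * y' := congrArg Prod.fst h
  have h2 : 2 * x + y = 2 * x' + y' := congrArg Prod.snd h
  have h3 : (4 * m - 1) * (y - y') = 0 := by linear_combination (-2 : ℤ) * h1 - h2
  have h4 : y - y' = 0 := by
    rcases mul_eq_zero.mp h3 with h | h
    · omega
    · exact h
  have h5 : y = y' := by omega
  subst h5
  have h6 : x = x' := by omega
  subst h6
  rfl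

theorem rc_mu_surj {m : ℤ} {q : ℕ} (hq : q.Prime) (hmq : 4 * m = q + 1) (v : ℤ × ℤ)
    (h : (q : ℤ) ∣ rc_Q m v) : ∃ w, rc_mu m w = v := by
  have hq' : Prime (q : ℤ) := Nat.prime_iff_prime_int.mp hq
  have h4 := rc_four_mul m v
  have hqm : 4 * m - 1 = q := by linarith
  rw [hqm] at h4
  have h1 : (q : ℤ) ∣ (2 * v.1 + v.2) ^ 2 := by
    have : (q : ℤ) ∣ 4 * rc_Q m v := Dvd.dvd.mul_left h 4
    rw [h4] at this
    exact (Int.dvd_add_left (Dvd.intro _ rfl)).mp this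
  obtain ⟨s, hs⟩ := hq'.dvd_of_dvd_pow h1
  refine ⟨(2 * m * s - v.1, -s), ?_⟩
  unfold rc_mu
  refine Prod.ext ?_ ?_
  · simp only; ring
  · simp only
    have : 4 * m * s = q * s + s := by rw [hmq]; ring
    linarith

/-- `#{v | c * Q v = q n} = #{v | c * Q v = n}` when `q ∤ c`. -/
theorem rc_card_mul_q {m : ℤ} {q : ℕ} (hq : q.Prime) (hmq : 4 * m = q + 1) (hm : 1 ≤ m)
    (c : ℤ) (hc : ¬ (q : ℤ) ∣ c) (n : ℤ) :
    Nat.card {v : ℤ × ℤ // c * rc_Q m v = q * n} = Nat.card {v : ℤ × ℤ // c * rc_Q m v = n} := by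
  have hq' : Prime (q : ℤ) := Nat.prime_iff_prime_int.mp hq
  have hq0 : (q : ℤ) ≠ 0 := hq'.ne_zero
  have hqm : 4 * m - 1 = q := by linarith
  symm
  refine Nat.card_congr (Equiv.ofBijective
    (fun v => ⟨rc_mu m v.1, by
      have h := v.2
      rw [rc_Q_mu, hqm]
      linear_combination (q : ℤ) * h⟩) ⟨?_, ?_⟩)
  · intro a b hab
    exact Subtype.ext (rc_mu_injective hm (congrArg Subtype.val hab))
  · rintro ⟨v, hv⟩
    have hdvd : (q : ℤ) ∣ rc_Q m v := by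
      have : (q : ℤ) ∣ c * rc_Q m v := Dvd.intro _ hv.symm
      exact (hq'.dvd_or_dvd this).resolve_left hc
    obtain ⟨w, hw⟩ := rc_mu_surj hq hmq v hdvd
    refine ⟨⟨w, ?_⟩, Subtype.ext hw⟩
    have h1 : c * rc_Q m (rc_mu m w) = q * n := by rw [hw]; exact hv
    rw [rc_Q_mu, hqm] at h1
    have h2 : (q : ℤ) * (c * rc_Q m w) = q * n := by rw [← h1]; ring
    exact mul_left_cancel₀ hq0 h2

/-! ### Free actions -/

theorem rc_card_dvd_of_free {X G : Type*} [Group G] [MulAction G X]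
    (h : ∀ (g : G) (x : X), g • x = x → g = 1) : Nat.card G ∣ Nat.card X := by
  have h' : ∀ b : X, MulAction.stabilizer G b = ⊥ := fun b =>
    (Subgroup.eq_bot_iff_forall _).mpr (fun g hg => h g b hg)
  rw [Nat.card_congr (MulAction.selfEquivOrbitsQuotientProd h'), Nat.card_prod]
  exact dvd_mul_left _ _

theorem rc_unit_smul_eq {u : ℤˣ} {v : ℤ × ℤ} (hv : v ≠ 0) (h : (u : ℤ) • v = v) : u = 1 := by
  rcases Int.units_eq_one_or u with rfl | rfl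
  · rfl
  · exfalso
    apply hv
    have h1 : -v = v := by simpa using h
    have h2 : -v.1 = v.1 := congrArg Prod.fst h1
    have h3 : -v.2 = v.2 := congrArg Prod.snd h1
    exact Prod.ext (by simp only [Prod.fst_zero]; omega) (by simp only [Prod.snd_zero]; omega)

theorem rc_unit_smul_ne {u : ℤˣ} {v : ℤ × ℤ} (hv : v ≠ 0) : (u : ℤ) • v ≠ 0 := by
  rcases Int.units_eq_one_or u with rfl | rfl <;> simpa using hv

/-- `#{v | c * Q v = n}` is even for `n ≠ 0`. -/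
theorem rc_even_card {m : ℤ} (c : ℤ) {n : ℤ} (hn : n ≠ 0) :
    2 ∣ Nat.card {v : ℤ × ℤ // c * rc_Q m v = n} := by
  have hne : ∀ v : {v : ℤ × ℤ // c * rc_Q m v = n}, v.1 ≠ 0 := by
    rintro ⟨v, hv⟩ rfl
    rw [rc_Q_zero, mul_zero] at hv
    exact hn hv.symm
  letI : MulAction ℤˣ {v : ℤ × ℤ // c * rc_Q m v = n} :=
    { smul := fun u v => ⟨(u : ℤ) • v.1, by rw [rc_Q_smul_unit]; exact v.2⟩
      one_smul := fun v => Subtype.ext (by show ((1 : ℤˣ) : ℤ) • v.1 = v.1; simp)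
      mul_smul := fun u u' v => Subtype.ext (by
        show ((u * u' : ℤˣ) : ℤ) • v.1 = (u : ℤ) • ((u' : ℤ) • v.1)
        rw [Units.val_mul, mul_smul]) }
  have h := rc_card_dvd_of_free (G := ℤˣ) (X := {v : ℤ × ℤ // c * rc_Q m v = n})
    (fun u v huv => rc_unit_smul_eq (hne v) (congrArg Subtype.val huv))
  have h2 : Nat.card ℤˣ = 2 := by
    rw [Nat.card_eq_fintype_card]; rfl
  rwa [h2] at h

/-- The representations with both components nonzero come in groups of four. -/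
theorem rc_four_dvd_off_axes (m : ℤ) (p : ℕ) (n : ℤ) :
    4 ∣ Nat.card {vw : (ℤ × ℤ) × (ℤ × ℤ) //
      rc_Q m vw.1 + p * rc_Q m vw.2 = n ∧ vw.1 ≠ 0 ∧ vw.2 ≠ 0} := by
  letI : MulAction (ℤˣ × ℤˣ) {vw : (ℤ × ℤ) × (ℤ × ℤ) //
      rc_Q m vw.1 + p * rc_Q m vw.2 = n ∧ vw.1 ≠ 0 ∧ vw.2 ≠ 0} :=
    { smul := fun u vw => ⟨((u.1 : ℤ) • vw.1.1, (u.2 : ℤ) • vw.1.2), by
        refine ⟨?_, rc_unit_smul_ne vw.2.2.1, rc_unit_smul_ne vw.2.2.2⟩
        show rc_Q m ((u.1 : ℤ) • vw.1.1) + p * rc_Q m ((u.2 : ℤ) • vw.1.2) = n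
        rw [rc_Q_smul_unit, rc_Q_smul_unit]; exact vw.2.1⟩
      one_smul := fun vw => Subtype.ext (by
        show ((((1 : ℤˣ × ℤˣ).1 : ℤˣ) : ℤ) • vw.1.1, (((1 : ℤˣ × ℤˣ).2 : ℤˣ) : ℤ) • vw.1.2) = vw.1
        simp)
      mul_smul := fun u u' vw => Subtype.ext (by
        show ((((u * u').1 : ℤˣ) : ℤ) • vw.1.1, (((u * u').2 : ℤˣ) : ℤ) • vw.1.2) =
          ((u.1 : ℤ) • ((u'.1 : ℤ) • vw.1.1), (u.2 : ℤ) • ((u'.2 : ℤ) • vw.1.2))
        rw [Prod.fst_mul, Prod.snd_mul, Units.val_mul, Units.val_mul, mul_smul, mul_smul]) }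
  have h := rc_card_dvd_of_free (G := ℤˣ × ℤˣ) (X := {vw : (ℤ × ℤ) × (ℤ × ℤ) //
      rc_Q m vw.1 + p * rc_Q m vw.2 = n ∧ vw.1 ≠ 0 ∧ vw.2 ≠ 0})
    (fun u vw huv => by
      have h0 : ((u.1 : ℤ) • vw.1.1, (u.2 : ℤ) • vw.1.2) = vw.1 := congrArg Subtype.val huv
      have h1 : (u.1 : ℤ) • vw.1.1 = vw.1.1 := congrArg Prod.fst h0
      have h2 : (u.2 : ℤ) • vw.1.2 = vw.1.2 := congrArg Prod.snd h0
      exact Prod.ext (rc_unit_smul_eq vw.2.2.1 h1) (rc_unit_smul_eq vw.2.2.2 h2))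
  have h2 : Nat.card (ℤˣ × ℤˣ) = 4 := by
    rw [Nat.card_eq_fintype_card]; rfl
  rwa [h2] at h

/-- Splitting the representation set into the two axes and the rest. -/
theorem rc_R_split {m : ℤ} (hm : 1 ≤ m) (p : ℕ) (hp : 0 < p) {n : ℤ} (hn : n ≠ 0) :
    rc_R m p n =
      Nat.card {vw : (ℤ × ℤ) × (ℤ × ℤ) //
        rc_Q m vw.1 + p * rc_Q m vw.2 = n ∧ vw.1 ≠ 0 ∧ vw.2 ≠ 0} +
      Nat.card {v : ℤ × ℤ // 1 * rc_Q m v = n} +
      Nat.card {w : ℤ × ℤ // (p : ℤ) * rc_Q m w = n} := by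
  set X : Set ((ℤ × ℤ) × (ℤ × ℤ)) := {vw | rc_Q m vw.1 + p * rc_Q m vw.2 = n} with hX
  set B : Set ((ℤ × ℤ) × (ℤ × ℤ)) :=
    {vw | rc_Q m vw.1 + p * rc_Q m vw.2 = n ∧ vw.1 ≠ 0 ∧ vw.2 ≠ 0} with hB
  set S1 : Set (ℤ × ℤ) := {v | 1 * rc_Q m v = n} with hS1
  set S2 : Set (ℤ × ℤ) := {w | (p : ℤ) * rc_Q m w = n} with hS2
  have hXfin : X.Finite := rc_finite hm p hp n
  have e1 : rc_R m p n = X.ncard := Nat.card_coe_set_eq X
  have e2 : Nat.card {vw : (ℤ × ℤ) × (ℤ × ℤ) //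
      rc_Q m vw.1 + p * rc_Q m vw.2 = n ∧ vw.1 ≠ 0 ∧ vw.2 ≠ 0} = B.ncard :=
    Nat.card_coe_set_eq B
  have e3 : Nat.card {v : ℤ × ℤ // 1 * rc_Q m v = n} = S1.ncard := Nat.card_coe_set_eq S1
  have e4 : Nat.card {w : ℤ × ℤ // (p : ℤ) * rc_Q m w = n} = S2.ncard :=
    Nat.card_coe_set_eq S2
  rw [e1, e2, e3, e4]
  have i1 : Function.Injective (fun v : ℤ × ℤ => ((v, 0) : (ℤ × ℤ) × (ℤ × ℤ))) :=
    fun a b h => congrArg Prod.fst h
  have i2 : Function.Injective (fun w : ℤ × ℤ => ((0, w) : (ℤ × ℤ) × (ℤ × ℤ))) :=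
    fun a b h => congrArg Prod.snd h
  rw [← Set.ncard_image_of_injective S1 i1, ← Set.ncard_image_of_injective S2 i2]
  have hXeq : X = (B ∪ (fun v : ℤ × ℤ => ((v, 0) : (ℤ × ℤ) × (ℤ × ℤ))) '' S1) ∪
      (fun w : ℤ × ℤ => ((0, w) : (ℤ × ℤ) × (ℤ × ℤ))) '' S2 := by
    ext ⟨v, w⟩
    simp only [hX, hB, hS1, hS2, Set.mem_ofPred_eq, Set.mem_union, Set.mem_image, Prod.mk.injEq]
    constructor
    · intro h
      by_cases hv : v = 0
      · right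
        refine ⟨w, ?_, hv.symm, rfl⟩
        subst hv
        simpa [rc_Q_zero] using h
      · by_cases hw : w = 0
        · left; right
          refine ⟨v, ?_, rfl, hw.symm⟩
          subst hw
          simpa [rc_Q_zero] using h
        · left; left; exact ⟨h, hv, hw⟩
    · rintro ((⟨h, -, -⟩ | ⟨v', hv', rfl, rfl⟩) | ⟨w', hw', rfl, rfl⟩)
      · exact h
      · simpa [rc_Q_zero] using hv'
      · simpa [rc_Q_zero] using hw'
  have hd1 : Disjoint B ((fun v : ℤ × ℤ => ((v, 0) : (ℤ × ℤ) × (ℤ × ℤ))) '' S1) := by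
    rw [Set.disjoint_left]
    rintro x hxB ⟨v, -, rfl⟩
    exact hxB.2.2 rfl
  have hd2 : Disjoint (B ∪ (fun v : ℤ × ℤ => ((v, 0) : (ℤ × ℤ) × (ℤ × ℤ))) '' S1)
      ((fun w : ℤ × ℤ => ((0, w) : (ℤ × ℤ) × (ℤ × ℤ))) '' S2) := by
    rw [Set.disjoint_left]
    rintro x (hxB | ⟨v, -, rfl⟩) ⟨w, hw, hw'⟩
    · exact hxB.2.1 (by rw [← hw'])
    · have h1 : w = 0 := (congrArg Prod.snd hw')
      rw [h1] at hw
      have : (p : ℤ) * rc_Q m 0 = n := hw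
      rw [rc_Q_zero, mul_zero] at this
      exact hn this.symm
  have hsub1 : (B ∪ (fun v : ℤ × ℤ => ((v, 0) : (ℤ × ℤ) × (ℤ × ℤ))) '' S1) ⊆ X := by
    rw [hXeq]; exact Set.subset_union_left
  have hsub2 : ((fun w : ℤ × ℤ => ((0, w) : (ℤ × ℤ) × (ℤ × ℤ))) '' S2) ⊆ X := by
    rw [hXeq]; exact Set.subset_union_right
  have hsub3 : B ⊆ X := Set.subset_union_left.trans hsub1
  have hsub4 : ((fun v : ℤ × ℤ => ((v, 0) : (ℤ × ℤ) × (ℤ × ℤ))) '' S1) ⊆ X :=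
    Set.subset_union_right.trans hsub1
  have key : X.ncard = ((B ∪ (fun v : ℤ × ℤ => ((v, 0) : (ℤ × ℤ) × (ℤ × ℤ))) '' S1) ∪
      (fun w : ℤ × ℤ => ((0, w) : (ℤ × ℤ) × (ℤ × ℤ))) '' S2).ncard := congrArg Set.ncard hXeq
  rw [key, Set.ncard_union_eq hd2 (hXfin.subset hsub1) (hXfin.subset hsub2),
    Set.ncard_union_eq hd1 (hXfin.subset hsub3) (hXfin.subset hsub4)]

/-- **Main count.** For primes `q ≠ p` with `4 m = q + 1` and `n ≥ 1`: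
`rc_R m p n + rc_R m p (q n) ≡ 0 mod 4`. -/
theorem rc_four_dvd {q p : ℕ} (hq : q.Prime) (hp : p.Prime) (hpq : p ≠ q) {m : ℤ}
    (hmq : 4 * m = q + 1) {n : ℕ} (hn : 0 < n) :
    4 ∣ rc_R m p (n : ℤ) + rc_R m p ((q : ℤ) * n) := by
  have hq2 : (2 : ℤ) ≤ q := by exact_mod_cast hq.two_le
  have hm : 1 ≤ m := by omega
  have hn0 : (n : ℤ) ≠ 0 := by exact_mod_cast hn.ne'
  have hqn0 : (q : ℤ) * n ≠ 0 := mul_ne_zero (by omega) hn0
  rw [rc_R_split hm p hp.pos hn0, rc_R_split hm p hp.pos hqn0]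
  have a1 := rc_four_dvd_off_axes m p (n : ℤ)
  have a2 := rc_four_dvd_off_axes m p ((q : ℤ) * n)
  have hq1 : ¬ (q : ℤ) ∣ 1 := by
    intro h
    have := Int.le_of_dvd one_pos h
    omega
  have hqp : ¬ (q : ℤ) ∣ (p : ℤ) := by
    intro h
    exact hpq ((Nat.prime_dvd_prime_iff_eq hq hp).mp (Int.natCast_dvd_natCast.mp h)).symm
  have b1 := rc_card_mul_q hq hmq hm 1 hq1 (n : ℤ)
  have b2 := rc_card_mul_q hq hmq hm (p : ℤ) hqp (n : ℤ)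
  have c1 := rc_even_card (m := m) 1 hn0
  have c2 := rc_even_card (m := m) (p : ℤ) hn0
  rw [b1, b2]
  omega

/-- The coefficients `(rc_R n + rc_R (q n)) / 2` of `(f + U_q f) / 2` are integers, equal to `1`
at `n = 0` and even for `n ≥ 1`. -/
theorem rc_coeff {q p : ℕ} (hq : q.Prime) (hp : p.Prime) (hpq : p ≠ q) {m : ℤ}
    (hmq : 4 * m = q + 1) :
    ∃ c : ℕ → ℤ, c 0 = 1 ∧ (∀ n : ℕ, 0 < n → 2 ∣ c n) ∧
      ∀ n : ℕ, 2 * c n = (rc_R m p (n : ℤ) : ℤ) + (rc_R m p ((q : ℤ) * n) : ℤ) := by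
  have hq2 : (2 : ℤ) ≤ q := by exact_mod_cast hq.two_le
  have hm : 1 ≤ m := by omega
  have h0 : rc_R m p 0 = 1 := rc_R_zero hm p hp.pos
  have key : ∀ n : ℕ, 0 < n → ∃ k : ℤ, (rc_R m p (n : ℤ) : ℤ) + (rc_R m p ((q : ℤ) * n) : ℤ) =
      4 * k := by
    intro n hn
    obtain ⟨k, hk⟩ := rc_four_dvd hq hp hpq hmq hn
    exact ⟨k, by exact_mod_cast hk⟩
  refine ⟨fun n => if h : 0 < n then 2 * (key n h).choose else 1, by simp, ?_, ?_⟩
  · intro n hn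
    simp only [dif_pos hn]
    exact Dvd.intro _ rfl
  · intro n
    by_cases hn : 0 < n
    · simp only [dif_pos hn]
      have := (key n hn).choose_spec
      linarith
    · have hn' : n = 0 := by omega
      subst hn'
      simp [h0]

end Fermat.Agent.S16
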