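import Mathlib
import Fermat.Prelude.Thm_CongruenceSubgroup_one_mem_strictPeriods_Gamma0
import Fermat.Agent.S16.RepCount

/-!
# S16 / lower bound (II): the binary theta series `th` and the expansion of `th(z) * th(p z)`

`ts_th m z = ∑_{v ∈ ℤ²} exp(2πi z Q(v))`, `Q = rc_Q m` the norm form `x² + x y + m y²`.
For `1 ≤ m` it converges absolutely on the upper half plane, is holomorphic there, and
`ts_th m z * ts_th m (p z) = ∑_n rc_R m p n * exp(2πi z)^n`.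
-/

namespace Fermat.Agent.S16

open Complex

/-- The terms of the theta series. -/
noncomputable def ts_term (m : ℤ) (v : ℤ × ℤ) (z : ℂ) : ℂ :=
  cexp (2 * Real.pi * I * z * (rc_Q m v : ℂ))

/-- The binary theta series `∑_{v ∈ ℤ²} exp(2πi z (x² + x y + m y²))`. -/
noncomputable def ts_th (m : ℤ) (z : ℂ) : ℂ := ∑' v : ℤ × ℤ, ts_term m v z

theorem ts_norm_term (m : ℤ) (v : ℤ × ℤ) (z : ℂ) :
    ‖ts_term m v z‖ = Real.exp (-(2 * Real.pi * z.im * (rc_Q m v : ℝ))) := by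
  unfold ts_term
  rw [Complex.norm_exp]
  congr 1
  have : (2 * (Real.pi : ℂ) * I * z * (rc_Q m v : ℂ)) =
      ((2 * Real.pi * (rc_Q m v : ℝ) : ℝ) : ℂ) * (I * z) := by push_cast; ring
  rw [this, Complex.re_ofReal_mul]
  simp only [Complex.mul_re, Complex.I_re, Complex.I_im, zero_mul, one_mul, zero_sub]
  ring

/-- The majorant `exp(-c (|x| + |y|))`. -/
noncomputable def ts_maj (c : ℝ) (v : ℤ × ℤ) : ℝ :=
  Real.exp (-(c * |(v.1 : ℝ)|)) * Real.exp (-(c * |(v.2 : ℝ)|))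

theorem ts_summable_exp_abs {c : ℝ} (hc : 0 < c) :
    Summable (fun n : ℤ => Real.exp (-(c * |(n : ℝ)|))) := by
  have h := (Real.summable_exp_nat_mul_iff (a := -c)).mpr (by linarith)
  rw [summable_int_iff_summable_nat_and_neg]
  constructor
  · refine h.congr (fun n => ?_)
    congr 1
    simp only [Int.cast_natCast, Nat.abs_cast]
    ring
  · refine h.congr (fun n => ?_)
    congr 1
    simp only [Int.cast_neg, Int.cast_natCast, abs_neg, Nat.abs_cast]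
    ring

theorem ts_summable_maj {c : ℝ} (hc : 0 < c) : Summable (ts_maj c) :=
  (ts_summable_exp_abs hc).mul_of_nonneg (ts_summable_exp_abs hc)
    (fun _ => (Real.exp_pos _).le) (fun _ => (Real.exp_pos _).le)

theorem ts_norm_term_le {m : ℤ} (hm : 1 ≤ m) {δ : ℝ} (hδ : 0 < δ) {z : ℂ} (hz : δ ≤ z.im)
    (v : ℤ × ℤ) : ‖ts_term m v z‖ ≤ ts_maj (Real.pi * δ / 4) v := by
  rw [ts_norm_term, ts_maj, ← Real.exp_add, Real.exp_le_exp]
  obtain ⟨h1, h2⟩ := rc_bound hm v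
  have hQ : (0 : ℝ) ≤ (rc_Q m v : ℝ) := by exact_mod_cast rc_Q_nonneg hm v
  have h1' : |(v.1 : ℝ)| ≤ 4 * (rc_Q m v : ℝ) := by exact_mod_cast h1
  have h2' : |(v.2 : ℝ)| ≤ 4 * (rc_Q m v : ℝ) := by exact_mod_cast h2
  have hpi := Real.pi_pos
  have h3 : Real.pi * δ / 4 * (|(v.1 : ℝ)| + |(v.2 : ℝ)|) ≤ 2 * Real.pi * δ * (rc_Q m v : ℝ) := by
    have : Real.pi * δ / 4 * (|(v.1 : ℝ)| + |(v.2 : ℝ)|) ≤
        Real.pi * δ / 4 * (8 * (rc_Q m v : ℝ)) :=
      mul_le_mul_of_nonneg_left (by linarith) (by positivity)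
    linarith
  have h4 : 2 * Real.pi * δ * (rc_Q m v : ℝ) ≤ 2 * Real.pi * z.im * (rc_Q m v : ℝ) := by
    have : 2 * Real.pi * δ ≤ 2 * Real.pi * z.im := by nlinarith
    exact mul_le_mul_of_nonneg_right this hQ
  linarith

theorem ts_summable_norm {m : ℤ} (hm : 1 ≤ m) {z : ℂ} (hz : 0 < z.im) :
    Summable (fun v : ℤ × ℤ => ‖ts_term m v z‖) :=
  Summable.of_nonneg_of_le (fun _ => norm_nonneg _) (ts_norm_term_le hm hz le_rfl)
    (ts_summable_maj (by positivity))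

theorem ts_hasSum {m : ℤ} (hm : 1 ≤ m) {z : ℂ} (hz : 0 < z.im) :
    HasSum (fun v : ℤ × ℤ => ts_term m v z) (ts_th m z) :=
  (ts_summable_norm hm hz).of_norm.hasSum

/-- `th` is holomorphic on the upper half plane. -/
theorem ts_th_differentiableAt {m : ℤ} (hm : 1 ≤ m) {z : ℂ} (hz : 0 < z.im) :
    DifferentiableAt ℂ (ts_th m) z := by
  have hopen : IsOpen {w : ℂ | z.im / 2 < w.im} := isOpen_lt continuous_const Complex.continuous_im
  have hd : DifferentiableOn ℂ (fun w => ∑' v : ℤ × ℤ, ts_term m v w) {w : ℂ | z.im / 2 < w.im} := by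
    refine differentiableOn_tsum_of_summable_norm (u := ts_maj (Real.pi * (z.im / 2) / 4))
      (ts_summable_maj (by positivity)) (fun v => ?_) hopen (fun v w hw => ?_)
    · unfold ts_term
      fun_prop
    · exact ts_norm_term_le hm (by positivity) (le_of_lt hw) v
  exact hd.differentiableAt (hopen.mem_nhds (by show z.im / 2 < z.im; linarith))

theorem ts_rc_R_of_neg {m : ℤ} (hm : 1 ≤ m) (p : ℕ) {k : ℤ} (hk : k < 0) : rc_R m p k = 0 := by
  unfold rc_R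
  haveI : IsEmpty {vw : (ℤ × ℤ) × (ℤ × ℤ) // rc_Q m vw.1 + p * rc_Q m vw.2 = k} := by
    refine ⟨fun x => ?_⟩
    have h1 := rc_Q_nonneg hm x.1.1
    have h2 := rc_Q_nonneg hm x.1.2
    have h3 : (0 : ℤ) ≤ p * rc_Q m x.1.2 := mul_nonneg (by positivity) h2
    have := x.2
    omega
  exact Nat.card_of_isEmpty

/-- **Expansion of the product.** `th(z) * th(p z) = ∑_n rc_R m p n * exp(2πi z)^n`. -/
theorem ts_hasSum_mul {m : ℤ} (hm : 1 ≤ m) (p : ℕ) (hp : 0 < p) {z : ℂ} (hz : 0 < z.im) :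
    HasSum (fun n : ℕ => (rc_R m p (n : ℤ) : ℂ) * cexp (2 * Real.pi * I * z) ^ n)
      (ts_th m z * ts_th m (p * z)) := by
  have hpz : 0 < ((p : ℂ) * z).im := by
    have : ((p : ℂ) * z).im = p * z.im := by simp
    rw [this]; positivity
  have h1 := ts_summable_norm hm hz
  have h2 := ts_summable_norm hm hpz
  -- the double series
  have hprod : HasSum (fun vw : (ℤ × ℤ) × (ℤ × ℤ) => ts_term m vw.1 z * ts_term m vw.2 (p * z))
      (ts_th m z * ts_th m (p * z)) := by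
    unfold ts_th
    rw [tsum_mul_tsum_of_summable_norm h1 h2]
    exact (summable_mul_of_summable_norm h1 h2).hasSum
  -- rewrite the terms through the value of the quaternary form
  set F : (ℤ × ℤ) × (ℤ × ℤ) → ℤ := fun vw => rc_Q m vw.1 + p * rc_Q m vw.2 with hF
  set E : ℤ → ℂ := fun k => cexp (2 * Real.pi * I * z * (k : ℂ)) with hE
  have hterm : ∀ vw : (ℤ × ℤ) × (ℤ × ℤ),
      ts_term m vw.1 z * ts_term m vw.2 (p * z) = E (F vw) := by
    intro vw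
    simp only [ts_term, hE, hF, ← Complex.exp_add]
    congr 1
    push_cast
    ring
  have hprod' : HasSum (fun vw : (ℤ × ℤ) × (ℤ × ℤ) => E (F vw))
      (ts_th m z * ts_th m (p * z)) := by
    have : (fun vw : (ℤ × ℤ) × (ℤ × ℤ) => E (F vw)) =
        fun vw => ts_term m vw.1 z * ts_term m vw.2 (p * z) := funext (fun vw => (hterm vw).symm)
    rw [this]; exact hprod
  -- regroup along the fibres of `F`
  have hsig : HasSum (fun x : (Σ k : ℤ, {vw : (ℤ × ℤ) × (ℤ × ℤ) // F vw = k}) => E x.1)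
      (ts_th m z * ts_th m (p * z)) := by
    have h := (Equiv.sigmaFiberEquiv F).hasSum_iff.mpr hprod'
    have e : (fun x : (Σ k : ℤ, {vw : (ℤ × ℤ) × (ℤ × ℤ) // F vw = k}) => E x.1) =
        (fun vw => E (F vw)) ∘ ⇑(Equiv.sigmaFiberEquiv F) := by
      funext x
      show E x.1 = E (F x.2.1)
      rw [x.2.2]
    rw [e]; exact h
  have hfib : ∀ k : ℤ, HasSum (fun _ : {vw : (ℤ × ℤ) × (ℤ × ℤ) // F vw = k} => E k)
      ((rc_R m p k : ℂ) * E k) := by
    intro k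
    haveI : Finite {vw : (ℤ × ℤ) × (ℤ × ℤ) // F vw = k} := (rc_finite hm p hp k).to_subtype
    letI : Fintype {vw : (ℤ × ℤ) × (ℤ × ℤ) // F vw = k} := Fintype.ofFinite _
    have h := hasSum_fintype (fun _ : {vw : (ℤ × ℤ) × (ℤ × ℤ) // F vw = k} => E k)
    have e : (∑ _b : {vw : (ℤ × ℤ) × (ℤ × ℤ) // F vw = k}, E k) = (rc_R m p k : ℂ) * E k := by
      rw [Finset.sum_const, Finset.card_univ, nsmul_eq_mul, ← Nat.card_eq_fintype_card]
      rfl
    rw [e] at h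
    exact h
  have hZ : HasSum (fun k : ℤ => (rc_R m p k : ℂ) * E k) (ts_th m z * ts_th m (p * z)) :=
    hsig.sigma hfib
  have hN := (Nat.cast_injective (R := ℤ)).hasSum_iff (f := fun k : ℤ => (rc_R m p k : ℂ) * E k)
    (a := ts_th m z * ts_th m (p * z)) (fun k hk => by
      have hk' : k < 0 := by
        by_contra h
        exact hk ⟨k.toNat, by simp; omega⟩
      simp [ts_rc_R_of_neg hm p hk'])
  have hN' := hN.mpr hZ
  have e : (fun n : ℕ => (rc_R m p (n : ℤ) : ℂ) * cexp (2 * Real.pi * I * z) ^ n) =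
      (fun k : ℤ => (rc_R m p k : ℂ) * E k) ∘ (Nat.cast : ℕ → ℤ) := by
    funext n
    simp only [Function.comp, hE]
    congr 1
    rw [← Complex.exp_nat_mul]
    congr 1
    push_cast
    ring
  rw [e]; exact hN'

/-! ### The function `th(τ) * th(p τ)` on the upper half plane -/

/-- `τ ↦ th(τ) * th(p τ)` on the upper half plane. -/
noncomputable def ts_F (m : ℤ) (p : ℕ) (τ : UpperHalfPlane) : ℂ :=
  ts_th m (τ : ℂ) * ts_th m ((p : ℂ) * (τ : ℂ))

theorem ts_F_hasSum {m : ℤ} (hm : 1 ≤ m) (p : ℕ) (hp : 0 < p) (τ : UpperHalfPlane) :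
    HasSum (fun n : ℕ => (rc_R m p (n : ℤ) : ℂ) • Function.Periodic.qParam 1 (τ : ℂ) ^ n)
      (ts_F m p τ) := by
  have h := ts_hasSum_mul hm p hp (z := (τ : ℂ)) τ.im_pos
  have e : Function.Periodic.qParam 1 (τ : ℂ) = cexp (2 * Real.pi * I * (τ : ℂ)) := by
    simp [Function.Periodic.qParam]
  simp only [smul_eq_mul, e]
  exact h

theorem ts_F_isBoundedAtImInfty {m : ℤ} (hm : 1 ≤ m) (p : ℕ) (hp : 0 < p) :
    UpperHalfPlane.IsBoundedAtImInfty (ts_F m p) :=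
  UpperHalfPlane.isBoundedAtImInfty_of_hasSum_qExpansion one_pos (ts_F_hasSum hm p hp)

open scoped Manifold in
theorem ts_F_mdifferentiable {m : ℤ} (hm : 1 ≤ m) (p : ℕ) (hp : 0 < p) :
    MDifferentiable 𝓘(ℂ) 𝓘(ℂ) (ts_F m p) := by
  rw [UpperHalfPlane.mdifferentiable_iff]
  intro z hz
  have hz' : 0 < z.im := hz
  have hpz : 0 < ((p : ℂ) * z).im := by
    have : ((p : ℂ) * z).im = p * z.im := by simp
    rw [this]; positivity
  have h1 : DifferentiableAt ℂ (fun w : ℂ => ts_th m w * ts_th m ((p : ℂ) * w)) z := by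
    refine (ts_th_differentiableAt hm hz').mul ?_
    exact (ts_th_differentiableAt hm hpz).comp z (by fun_prop)
  refine h1.differentiableWithinAt.congr (fun w hw => ?_) ?_
  · have hw' : 0 < w.im := hw
    simp [ts_F, Function.comp, UpperHalfPlane.ofComplex_apply_of_im_pos hw']
  · simp [ts_F, Function.comp, UpperHalfPlane.ofComplex_apply_of_im_pos hz']

/-- Identification of the `q`-expansion coefficients of a modular form equal to `th(τ) th(pτ)`. -/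
theorem ts_qExpansion_coeff {Γ : Subgroup (GL (Fin 2) ℝ)} {k : ℤ} {𝓕 : Type*}
    [FunLike 𝓕 UpperHalfPlane ℂ] [ModularFormClass 𝓕 Γ k] (hΓ : (1 : ℝ) ∈ Γ.strictPeriods)
    {m : ℤ} (hm : 1 ≤ m) (p : ℕ) (hp : 0 < p) (f : 𝓕) (hf : ∀ τ : UpperHalfPlane, f τ = ts_F m p τ)
    (n : ℕ) : (UpperHalfPlane.qExpansion 1 f).coeff n = (rc_R m p (n : ℤ) : ℂ) :=
  (ModularFormClass.qExpansion_coeff_unique (c := fun n : ℕ => (rc_R m p (n : ℤ) : ℂ)) one_pos hΓ
    (f := f) (fun τ => (hf τ) ▸ ts_F_hasSum hm p hp τ) n).symm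

/-! ### Growth bound (for boundedness at the other cusps) -/

theorem ts_tsum_exp_abs {c : ℝ} (hc : 0 < c) :
    ∑' n : ℤ, Real.exp (-(c * |(n : ℝ)|)) ≤ 2 + 2 / c := by
  set r := Real.exp (-c) with hr
  have hr0 : 0 ≤ r := (Real.exp_pos _).le
  have hr1 : r < 1 := by
    rw [hr, ← Real.exp_zero]; exact Real.exp_lt_exp.mpr (by linarith)
  have hpow : ∀ n : ℕ, Real.exp (-(c * (n : ℝ))) = r ^ n := by
    intro n
    rw [hr, ← Real.exp_nat_mul]
    congr 1; ring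
  have h1 : HasSum (fun n : ℕ => Real.exp (-(c * |(((n : ℤ)) : ℝ)|))) (1 - r)⁻¹ := by
    have h := hasSum_geometric_of_lt_one hr0 hr1
    have e : (fun n : ℕ => Real.exp (-(c * |(((n : ℤ)) : ℝ)|))) = fun n : ℕ => r ^ n := by
      funext n
      rw [← hpow n]
      simp
    rw [e]; exact h
  have h2 : HasSum (fun n : ℕ => Real.exp (-(c * |((-((n : ℤ) + 1) : ℤ) : ℝ)|)))
      (r * (1 - r)⁻¹) := by
    have h := (hasSum_geometric_of_lt_one hr0 hr1).mul_left r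
    have e : (fun n : ℕ => Real.exp (-(c * |((-((n : ℤ) + 1) : ℤ) : ℝ)|))) =
        fun n : ℕ => r * r ^ n := by
      funext n
      have : |((-((n : ℤ) + 1) : ℤ) : ℝ)| = ((n + 1 : ℕ) : ℝ) := by
        push_cast
        rw [abs_neg, abs_of_nonneg (by positivity)]
      rw [this, hpow (n + 1), pow_succ, mul_comm]
    rw [e]; exact h
  have h := HasSum.of_nat_of_neg_add_one (f := fun n : ℤ => Real.exp (-(c * |(n : ℝ)|))) h1 h2
  rw [h.tsum_eq]
  have hexp : 1 + c ≤ Real.exp c := by linarith [Real.add_one_le_exp c]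
  have hr2 : r ≤ (1 + c)⁻¹ := by
    rw [hr, Real.exp_neg]
    exact inv_anti₀ (by positivity) hexp
  have h1r : c / (1 + c) ≤ 1 - r := by
    have : (1 + c)⁻¹ = 1 - c / (1 + c) := by field_simp; ring
    linarith
  have hpos : 0 < c / (1 + c) := by positivity
  have hinv : (1 - r)⁻¹ ≤ (1 + c) / c := by
    have := inv_anti₀ hpos h1r
    rwa [inv_div] at this
  have hinv0 : 0 ≤ (1 - r)⁻¹ := inv_nonneg.mpr (by linarith)
  have e2 : (1 + c) / c = 1 + 1 / c := by field_simp; ring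
  have : (1 - r)⁻¹ + r * (1 - r)⁻¹ ≤ 2 * (1 - r)⁻¹ := by nlinarith
  have e3 : 2 + 2 / c = 2 * (1 + 1 / c) := by ring
  rw [e3, ← e2]
  linarith

theorem ts_tsum_maj {c : ℝ} (hc : 0 < c) : ∑' v : ℤ × ℤ, ts_maj c v ≤ (2 + 2 / c) ^ 2 := by
  have hs := ts_summable_exp_abs hc
  have hn : Summable (fun n : ℤ => ‖Real.exp (-(c * |(n : ℝ)|))‖) := by
    simpa [Real.norm_eq_abs, abs_of_pos (Real.exp_pos _)] using hs
  have h := tsum_mul_tsum_of_summable_norm hn hn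
  have e : (∑' v : ℤ × ℤ, ts_maj c v) =
      (∑' n : ℤ, Real.exp (-(c * |(n : ℝ)|))) * ∑' n : ℤ, Real.exp (-(c * |(n : ℝ)|)) := by
    rw [h]; rfl
  rw [e, sq]
  have h0 : 0 ≤ ∑' n : ℤ, Real.exp (-(c * |(n : ℝ)|)) := tsum_nonneg (fun _ => (Real.exp_pos _).le)
  exact mul_le_mul (ts_tsum_exp_abs hc) (ts_tsum_exp_abs hc) h0 (by positivity)

theorem ts_th_norm_le {m : ℤ} (hm : 1 ≤ m) {z : ℂ} (hz : 0 < z.im) :
    ‖ts_th m z‖ ≤ (2 + 4 / z.im) ^ 2 := by
  have hc : 0 < Real.pi * z.im / 4 := by positivity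
  have h1 : ‖ts_th m z‖ ≤ ∑' v : ℤ × ℤ, ‖ts_term m v z‖ :=
    norm_tsum_le_tsum_norm (ts_summable_norm hm hz)
  have h2 : ∑' v : ℤ × ℤ, ‖ts_term m v z‖ ≤ ∑' v : ℤ × ℤ, ts_maj (Real.pi * z.im / 4) v :=
    Summable.tsum_le_tsum (ts_norm_term_le hm hz le_rfl) (ts_summable_norm hm hz)
      (ts_summable_maj hc)
  have h3 := ts_tsum_maj hc
  have h4 : 2 / (Real.pi * z.im / 4) ≤ 4 / z.im := by
    rw [div_le_div_iff₀ hc hz]
    nlinarith [Real.pi_gt_three]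
  have h5 : (2 + 2 / (Real.pi * z.im / 4)) ^ 2 ≤ (2 + 4 / z.im) ^ 2 := by
    have : 0 ≤ 2 / (Real.pi * z.im / 4) := by positivity
    exact pow_le_pow_left₀ (by positivity) (by linarith) 2
  linarith

/-- Crude growth bound: `‖th(τ) th(pτ)‖ ≤ 2048 (1 + (im τ)⁻⁴)`. -/
theorem ts_F_growth {m : ℤ} (hm : 1 ≤ m) (p : ℕ) (hp : 0 < p) (τ : UpperHalfPlane) :
    ‖ts_F m p τ‖ ≤ 2048 * (1 + (τ.im)⁻¹ ^ 4) := by
  have hy : 0 < τ.im := τ.im_pos
  have hpz : ((p : ℂ) * (τ : ℂ)).im = p * τ.im := by simp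
  have hp1 : (1 : ℝ) ≤ p := by exact_mod_cast hp
  have hpz0 : 0 < ((p : ℂ) * (τ : ℂ)).im := by rw [hpz]; positivity
  have h1 := ts_th_norm_le hm (z := (τ : ℂ)) hy
  have h2 := ts_th_norm_le hm (z := (p : ℂ) * (τ : ℂ)) hpz0
  set t := (τ.im)⁻¹ with ht
  have ht0 : 0 ≤ t := inv_nonneg.mpr hy.le
  have e1 : 4 / (τ : ℂ).im = 4 * t := by rw [ht, UpperHalfPlane.coe_im]; ring
  have e2 : 4 / ((p : ℂ) * (τ : ℂ)).im ≤ 4 * t := by
    rw [hpz, ht, div_eq_mul_inv, mul_inv]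
    have : (p : ℝ)⁻¹ ≤ 1 := inv_le_one_of_one_le₀ hp1
    have := mul_le_mul_of_nonneg_right this ht0
    rw [ht] at this
    linarith
  have h2' : ‖ts_th m ((p : ℂ) * (τ : ℂ))‖ ≤ (2 + 4 * t) ^ 2 := by
    refine h2.trans (pow_le_pow_left₀ ?_ (by linarith) 2)
    have : 0 ≤ 4 / ((p : ℂ) * (τ : ℂ)).im := by positivity
    linarith
  rw [e1] at h1
  have h3 : ‖ts_F m p τ‖ ≤ (2 + 4 * t) ^ 2 * (2 + 4 * t) ^ 2 := by
    unfold ts_F
    rw [norm_mul]
    exact mul_le_mul h1 h2' (norm_nonneg _) (by positivity)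
  have h4 : (2 + 4 * t) ^ 2 ≤ 8 * (1 + 4 * t ^ 2) := by nlinarith [sq_nonneg (1 - 2 * t)]
  have h5 : (1 + 4 * t ^ 2) ^ 2 ≤ 2 * (1 + 16 * t ^ 4) := by nlinarith [sq_nonneg (1 - 4 * t ^ 2)]
  have h6 : (2 + 4 * t) ^ 2 * (2 + 4 * t) ^ 2 ≤ (8 * (1 + 4 * t ^ 2)) * (8 * (1 + 4 * t ^ 2)) :=
    mul_le_mul h4 h4 (by positivity) (by positivity)
  have h7 : 0 ≤ t ^ 4 := by positivity
  nlinarith

/-- `ts_qExpansion_coeff` for forms on `Γ₀(N)`. -/
theorem ts_qExpansion_coeff_Gamma0 {N : ℕ} {k : ℤ} {m : ℤ} (hm : 1 ≤ m) (p : ℕ) (hp : 0 < p)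
    (f : ModularForm (CongruenceSubgroup.Gamma0 N) k)
    (hf : ∀ τ : UpperHalfPlane, f τ = ts_F m p τ) (n : ℕ) :
    (UpperHalfPlane.qExpansion 1 f).coeff n = (rc_R m p (n : ℤ) : ℂ) :=
  ts_qExpansion_coeff (CongruenceSubgroup.one_mem_strictPeriods_Gamma0 N) hm p hp f hf n

end Fermat.Agent.S16
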