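import Mathlib
import Fermat.Agent.S16.ThetaSeries
import Fermat.Agent.S16.ThetaBinary

/-!
# S16 / lower bound (II): bridge `ts_th = thetaQ`

The theta series `ts_th k` of the norm form `x² + x y + k y²` (`ThetaSeries.lean`) equals
helper47's `thetaQ q` (`ThetaBinary.lean`, `∑_{m ≡ n (2)} e(t (m² + q n²)/4)`) when `q + 1 = 4 k`,
via `(x, y) ↦ (2 x + y, y)`.
-/

open Complex Real Finset

namespace Fermat.Agent.S16

theorem tb_thetaQ_eq (q : ℕ) (t : ℂ) :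
    thetaQ q t = thP t 0 2 * thP (q * t) 0 2 + thP t 1 2 * thP (q * t) 1 2 := by
  unfold thetaQ
  have h00 : h47_ind ((0 : ℕ) : ℤ) ((0 : ℕ) : ℤ) = 1 := by simp [h47_ind]
  have h01 : h47_ind ((0 : ℕ) : ℤ) ((1 : ℕ) : ℤ) = 0 := by norm_num [h47_ind]
  have h10 : h47_ind ((1 : ℕ) : ℤ) ((0 : ℕ) : ℤ) = 0 := by norm_num [h47_ind]
  have h11 : h47_ind ((1 : ℕ) : ℤ) ((1 : ℕ) : ℤ) = 1 := by simp [h47_ind]
  simp only [Finset.sum_range_succ, Finset.sum_range_zero, zero_add, h00, h01, h10, h11,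
    one_mul, zero_mul, add_zero]
  simp

theorem tb_thP_shift (t : ℂ) (α b : ℤ) : thP t (α + 2 * b) 2 = thP t α 2 := by
  unfold thP
  rw [← (Equiv.addRight b).tsum_eq (thPterm t α 2)]
  refine tsum_congr (fun m => ?_)
  simp only [Equiv.coe_addRight]
  unfold thPterm
  congr 1
  push_cast
  ring

theorem tb_term_eq {q k : ℕ} (hq : q + 1 = 4 * k) (t : ℂ) (x y : ℤ) :
    ts_term (k : ℤ) (x, y) t = thPterm t y 2 x * cexp (2 * π * I * ((q : ℂ) * t) * (y : ℂ) ^ 2 / 4) := by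
  have hq' : (q : ℂ) + 1 = 4 * (k : ℂ) := by exact_mod_cast congrArg (Nat.cast : ℕ → ℂ) hq
  unfold ts_term thPterm rc_Q
  rw [← Complex.exp_add]
  congr 1
  push_cast
  linear_combination (-(2 * π * I * t * (y : ℂ) ^ 2 / 4)) * hq'

/-- **Bridge.** `ts_th k = thetaQ q` for `q + 1 = 4 k`. -/
theorem ts_th_eq_thetaQ {q k : ℕ} (hq : q + 1 = 4 * k) {t : ℂ} (ht : 0 < t.im) :
    ts_th (k : ℤ) t = thetaQ q t := by
  have hk : (1 : ℤ) ≤ (k : ℤ) := by omega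
  have hq0 : 0 < q := by omega
  have hqt : 0 < ((q : ℂ) * t).im := by
    have : ((q : ℂ) * t).im = q * t.im := by simp
    rw [this]; positivity
  have hsum : Summable (fun v : ℤ × ℤ => ts_term (k : ℤ) v t) := (ts_summable_norm hk ht).of_norm
  -- swap the coordinates and sum over `x` first
  have hsum' : Summable (fun w : ℤ × ℤ => ts_term (k : ℤ) (w.2, w.1) t) :=
    (Equiv.prodComm ℤ ℤ).summable_iff.mpr hsum
  have h1 : ts_th (k : ℤ) t = ∑' w : ℤ × ℤ, ts_term (k : ℤ) (w.2, w.1) t := by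
    unfold ts_th
    exact ((Equiv.prodComm ℤ ℤ).tsum_eq (fun v : ℤ × ℤ => ts_term (k : ℤ) v t)).symm
  have hinner : ∀ y : ℤ, ∑' x : ℤ, ts_term (k : ℤ) (x, y) t =
      thP t y 2 * cexp (2 * π * I * ((q : ℂ) * t) * (y : ℂ) ^ 2 / 4) := by
    intro y
    unfold thP
    rw [← tsum_mul_right]
    exact tsum_congr (fun x => tb_term_eq hq t x y)
  have h2 : ts_th (k : ℤ) t =
      ∑' y : ℤ, thP t y 2 * cexp (2 * π * I * ((q : ℂ) * t) * (y : ℂ) ^ 2 / 4) := by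
    rw [h1, hsum'.tsum_prod]
    exact tsum_congr hinner
  have hsy : Summable (fun y : ℤ =>
      thP t y 2 * cexp (2 * π * I * ((q : ℂ) * t) * (y : ℂ) ^ 2 / 4)) := by
    have := hsum'.prod
    refine this.congr (fun y => ?_)
    exact hinner y
  rw [h2, h47_tsum_int_split _ hsy 2 (by norm_num), tb_thetaQ_eq]
  have hκ : ∀ κ : ℕ, ∑' b : ℤ, thP t ((κ : ℤ) + ((2 : ℕ) : ℤ) * b) 2 *
      cexp (2 * π * I * ((q : ℂ) * t) * ((((κ : ℤ) + ((2 : ℕ) : ℤ) * b : ℤ)) : ℂ) ^ 2 / 4) =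
      thP t κ 2 * thP ((q : ℂ) * t) κ 2 := by
    intro κ
    have e : ∀ b : ℤ, thP t ((κ : ℤ) + ((2 : ℕ) : ℤ) * b) 2 *
        cexp (2 * π * I * ((q : ℂ) * t) * ((((κ : ℤ) + ((2 : ℕ) : ℤ) * b : ℤ)) : ℂ) ^ 2 / 4) =
        thP t κ 2 * thPterm ((q : ℂ) * t) κ 2 b := by
      intro b
      have := tb_thP_shift t κ b
      rw [show ((2 : ℕ) : ℤ) = 2 from rfl, this]
      congr 1
      unfold thPterm
      congr 1
      push_cast
      ring
    rw [tsum_congr e, tsum_mul_left]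
    rfl
  simp only [Finset.sum_range_succ, Finset.sum_range_zero, zero_add]
  rw [hκ 0, hκ 1]
  simp

end Fermat.Agent.S16
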