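import Mathlib
import Fermat.Agent.S16.ThetaBinary
import Fermat.Agent.S16.RepCount
import Fermat.Prelude.Thm_CongruenceSubgroup_one_mem_strictPeriods_Gamma0

/-!
# S16 / lower bound (II), L-T-FORM core (helper11)

`F(z) = thetaQ q z * thetaQ q (p z)` is a modular form of weight `2` on `Γ₀(p q)` with
`q`-expansion coefficients `rc_R m p n`.  This file proves it from the inputs of the other
modules (transformation law of `thetaQ`, series expansion, holomorphy, growth, packaging), each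
taken as an explicit hypothesis; `ThetaForm.lean` instantiates them.
-/

set_option autoImplicit false

open UpperHalfPlane ModularForm CongruenceSubgroup Complex
open scoped MatrixGroups ModularForm Manifold Real

noncomputable section

namespace Fermat.Agent.S16

/-- the function `z ↦ thetaQ q z * thetaQ q (p z)` on the upper half plane -/
def h11_tf (p q : ℕ) (z : ℍ) : ℂ := thetaQ q (z : ℂ) * thetaQ q ((p : ℂ) * (z : ℂ))

theorem h11_im_mul_pos {p : ℕ} (hp : 0 < p) {z : ℂ} (hz : 0 < z.im) : 0 < ((p : ℂ) * z).im := by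
  have : ((p : ℂ) * z).im = p * z.im := by simp
  rw [this]
  positivity

/-- holomorphy of `h11_tf` -/
theorem h11_tf_mdiff (p q : ℕ) (hp : 0 < p)
    (hdiff : DifferentiableOn ℂ (thetaQ q) {z : ℂ | 0 < z.im}) : MDiff (h11_tf p q) := by
  rw [UpperHalfPlane.mdifferentiable_iff]
  have h1 : DifferentiableOn ℂ (fun z : ℂ => thetaQ q z * thetaQ q ((p : ℂ) * z))
      {z : ℂ | 0 < z.im} := by
    refine hdiff.mul ?_
    refine hdiff.comp (f := fun z : ℂ => (p : ℂ) * z) ?_ ?_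
    · exact (differentiable_id.const_mul (p : ℂ)).differentiableOn
    · intro z hz
      exact h11_im_mul_pos hp hz
  refine h1.congr ?_
  intro z hz
  simp only [Function.comp_apply, h11_tf]
  rw [ofComplex_apply_of_im_pos hz]

/-- weight-2 invariance of `h11_tf` under `Γ₀(p q)` -/
theorem h11_tf_slash (p q : ℕ) (hp : 0 < p)
    (hmod : ∀ (a b c d : ℤ), a * d - b * c = 1 → (q : ℤ) ∣ c → ∀ z : ℂ, 0 < z.im →
      thetaQ q ((a * z + b) / (c * z + d)) = ((jacobiSym d q : ℤ) : ℂ) * (c * z + d) * thetaQ q z)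
    (γ : SL(2, ℤ)) (hγ : γ ∈ Gamma0 (p * q)) :
    h11_tf p q ∣[(2 : ℤ)] γ = h11_tf p q := by
  funext z
  rw [slash_action_eq'_iff]
  -- entries
  set a : ℤ := γ 0 0 with ha
  set b : ℤ := γ 0 1 with hb
  set c : ℤ := γ 1 0 with hc
  set d : ℤ := γ 1 1 with hd
  have hdet : a * d - b * c = 1 := by
    have := γ.det_coe
    rw [Matrix.det_fin_two] at this
    rw [ha, hb, hc, hd]
    linarith
  have hcdvd : ((p * q : ℕ) : ℤ) ∣ c := by
    rw [Gamma0_mem] at hγ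
    exact (ZMod.intCast_zmod_eq_zero_iff_dvd c (p * q)).1 hγ
  obtain ⟨c'', hc''⟩ := hcdvd
  have hc1 : c = p * (q * c'') := by rw [hc'']; push_cast; ring
  have hqc : (q : ℤ) ∣ c := ⟨p * c'', by rw [hc1]; ring⟩
  have hz : 0 < (z : ℂ).im := z.im_pos
  have hpz : 0 < ((p : ℂ) * (z : ℂ)).im := h11_im_mul_pos hp hz
  have hγz : ((γ • z : ℍ) : ℂ) = (a * z + b) / (c * z + d) := by
    rw [UpperHalfPlane.coe_specialLinearGroup_apply]
    simp [ha, hb, hc, hd]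
  have hden : (c : ℂ) * z + d ≠ 0 := by
    have := UpperHalfPlane.denom_ne_zero γ z
    simpa [UpperHalfPlane.denom, ha, hb, hc, hd] using this
  -- first factor
  have e1 := hmod a b c d hdet hqc (z : ℂ) hz
  -- second factor
  have hdet2 : a * d - (p * b) * (q * c'') = 1 := by
    rw [← hdet, hc1]; ring
  have e2 := hmod a (p * b) (q * c'') d hdet2 (Dvd.intro _ rfl) ((p : ℂ) * z) hpz
  have hp0 : (p : ℂ) ≠ 0 := by exact_mod_cast hp.ne'
  have harg : (p : ℂ) * ((a * z + b) / (c * z + d))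
      = (a * ((p : ℂ) * z) + ((p * b : ℤ) : ℂ)) / (((q * c'' : ℤ) : ℂ) * ((p : ℂ) * z) + d) := by
    have hden2 : ((q * c'' : ℤ) : ℂ) * ((p : ℂ) * z) + d = (c : ℂ) * z + d := by
      rw [hc1]; push_cast; ring
    rw [hden2]
    push_cast
    field_simp
  have hden3 : ((q * c'' : ℤ) : ℂ) * ((p : ℂ) * z) + d = (c : ℂ) * z + d := by
    rw [hc1]; push_cast; ring
  -- the character squares to one
  have hχ : ((jacobiSym d q : ℤ) : ℂ) ^ 2 = 1 := by
    have hgcd : d.gcd q = 1 := by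
      rw [← Int.isCoprime_iff_gcd_eq_one]
      exact ⟨a, -(b * (p * c'')), by rw [← hdet, hc1]; ring⟩
    have := jacobiSym.sq_one hgcd
    exact_mod_cast this
  show h11_tf p q (γ • z) = _
  unfold h11_tf
  rw [hγz, harg, e1, e2, hden3]
  have e3 : ((γ 1 0 : ℤ) : ℂ) * (z : ℂ) + ((γ 1 1 : ℤ) : ℂ) = (c : ℂ) * z + d := by
    rw [hc, hd]
  rw [e3, zpow_two]
  linear_combination (((c : ℂ) * z + d) ^ 2 * thetaQ q z * thetaQ q ((p : ℂ) * z)) * hχ

/-- polynomial growth of `h11_tf` towards the real axis -/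
theorem h11_tf_growth (p q : ℕ) (hp : 0 < p)
    (hgrowth : ∃ C : ℝ, ∀ z : ℂ, 0 < z.im → ‖thetaQ q z‖ ≤ C * (1 + (z.im)⁻¹ ^ 2)) :
    ∃ C : ℝ, ∀ z : ℍ, ‖h11_tf p q z‖ ≤ C * (1 + (z.im)⁻¹ ^ 4) := by
  obtain ⟨C, hC⟩ := hgrowth
  have hC0 : 0 ≤ C := by
    have h := hC Complex.I (by simp)
    have h2 : (0 : ℝ) ≤ C * (1 + (Complex.I.im)⁻¹ ^ 2) := le_trans (norm_nonneg _) h
    simp at h2
    linarith
  refine ⟨2 * C ^ 2, fun z => ?_⟩
  have hz : 0 < (z : ℂ).im := z.im_pos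
  have h1 := hC (z : ℂ) hz
  have h2 := hC ((p : ℂ) * z) (h11_im_mul_pos hp hz)
  have him : ((p : ℂ) * (z : ℂ)).im = p * (z : ℂ).im := by simp
  have hzim : (z : ℂ).im = z.im := rfl
  rw [him, hzim] at h2
  rw [hzim] at h1 hz
  set y : ℝ := z.im with hy
  have hp1 : (1 : ℝ) ≤ p := by exact_mod_cast hp
  have hyinv : 0 < y⁻¹ := inv_pos.mpr hz
  have h3 : ((p : ℝ) * y)⁻¹ ≤ y⁻¹ := by
    rw [mul_inv]
    have : (p : ℝ)⁻¹ ≤ 1 := inv_le_one_of_one_le₀ hp1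
    nlinarith
  have h3' : 0 ≤ ((p : ℝ) * y)⁻¹ := by positivity
  have h4 : ((p : ℝ) * y)⁻¹ ^ 2 ≤ y⁻¹ ^ 2 := pow_le_pow_left₀ h3' h3 2
  have h5 : ‖thetaQ q ((p : ℂ) * z)‖ ≤ C * (1 + y⁻¹ ^ 2) :=
    h2.trans (mul_le_mul_of_nonneg_left (by linarith) hC0)
  unfold h11_tf
  rw [norm_mul]
  have ht : 0 ≤ y⁻¹ ^ 2 := by positivity
  calc ‖thetaQ q (z : ℂ)‖ * ‖thetaQ q ((p : ℂ) * z)‖
      ≤ (C * (1 + y⁻¹ ^ 2)) * (C * (1 + y⁻¹ ^ 2)) :=
        mul_le_mul h1 h5 (norm_nonneg _) (by positivity)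
    _ ≤ 2 * C ^ 2 * (1 + y⁻¹ ^ 4) := by
        have e : y⁻¹ ^ 4 = (y⁻¹ ^ 2) ^ 2 := by ring
        rw [e]
        nlinarith [mul_nonneg (sq_nonneg C) (sq_nonneg (y⁻¹ ^ 2 - 1))]

/-- **L-T-FORM, conditional form**: `thetaQ q z * thetaQ q (p z)` is a modular form of weight `2`
on `Γ₀(p q)` with `n`-th `q`-expansion coefficient `rc_R m p n`, given the transformation law,
the series expansion, holomorphy and growth of `thetaQ` and the packaging lemma. -/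
theorem exists_thetaForm_of (p q : ℕ) (hp : 0 < p) (m : ℤ)
    (hmod : ∀ (a b c d : ℤ), a * d - b * c = 1 → (q : ℤ) ∣ c → ∀ z : ℂ, 0 < z.im →
      thetaQ q ((a * z + b) / (c * z + d)) = ((jacobiSym d q : ℤ) : ℂ) * (c * z + d) * thetaQ q z)
    (hsum : ∀ z : ℂ, 0 < z.im → HasSum (fun n : ℕ => (rc_R m p n : ℂ) * cexp (2 * π * Complex.I * z * n))
      (thetaQ q z * thetaQ q (p * z)))
    (hdiff : DifferentiableOn ℂ (thetaQ q) {z : ℂ | 0 < z.im})
    (hgrowth : ∃ C : ℝ, ∀ z : ℂ, 0 < z.im → ‖thetaQ q z‖ ≤ C * (1 + (z.im)⁻¹ ^ 2))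
    (hpack : ∀ f : ℍ → ℂ, MDiff f →
      (∀ γ : SL(2, ℤ), γ ∈ Gamma0 (p * q) → f ∣[(2 : ℤ)] γ = f) →
      ∀ (C : ℝ) (k : ℕ), (∀ z : ℍ, ‖f z‖ ≤ C * (1 + (z.im)⁻¹ ^ k)) →
      ∃ F : ModularForm (Gamma0 (p * q)) 2, ⇑F = f) :
    ∃ F : ModularForm (Gamma0 (p * q)) 2,
      (∀ z : ℍ, F z = thetaQ q z * thetaQ q (p * z)) ∧
      ∀ n : ℕ, (qExpansion 1 F).coeff n = (rc_R m p n : ℂ) := by
  obtain ⟨C, hC⟩ := h11_tf_growth p q hp hgrowth
  obtain ⟨F, hF⟩ := hpack (h11_tf p q) (h11_tf_mdiff p q hp hdiff) (h11_tf_slash p q hp hmod) C 4 hC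
  refine ⟨F, fun z => by rw [hF]; rfl, fun n => ?_⟩
  refine (ModularFormClass.qExpansion_coeff_unique one_pos
    (CongruenceSubgroup.one_mem_strictPeriods_Gamma0 (p * q)) (f := F)
    (c := fun n => (rc_R m p n : ℂ)) ?_ n).symm
  intro τ
  have h := hsum (τ : ℂ) τ.im_pos
  rw [hF]
  have e : (fun n : ℕ => (rc_R m p n : ℂ) • Function.Periodic.qParam 1 (τ : ℂ) ^ n)
      = fun n : ℕ => (rc_R m p n : ℂ) * cexp (2 * π * Complex.I * τ * n) := by
    funext n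
    rw [smul_eq_mul, Function.Periodic.qParam, ← Complex.exp_nat_mul]
    congr 2
    push_cast
    ring
  rw [e]
  exact h

end Fermat.Agent.S16
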