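import Fermat.Agent.S16.PsiCore
import Fermat.Agent.S16.ThetaFormCore
import Fermat.Agent.S16.ThetaBridge
import Fermat.Agent.S16.Pack

/-!
# S16 / lower bound (II): the form `Ψ` from the transformation law of `θ_q` alone (helper35)

`exists_psi_of_mod`: the only remaining hypothesis is `thetaQ_modular` (`ThetaChar`); the modular
form `F(z) = θ_q(z) θ_q(pz)` on `Γ₀(pq)` is obtained from `ThetaFormCore.exists_thetaForm_of`
(helper11) with the series inputs from `ThetaSeries`/`ThetaBridge` (helper94) and the packaging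
lemma `Pack.pack_exists_modularForm` (helper32).
-/

set_option autoImplicit false

open UpperHalfPlane ModularForm CongruenceSubgroup Complex
open scoped MatrixGroups ModularForm Manifold Pointwise Real

noncomputable section

namespace Fermat.Agent.S16

/-- `θ_q` is holomorphic on the upper half plane. -/
theorem psi_thetaQ_differentiableOn {q k : ℕ} (hq : q + 1 = 4 * k) (hk : 1 ≤ k) :
    DifferentiableOn ℂ (thetaQ q) {z : ℂ | 0 < z.im} := by
  have hk1 : (1 : ℤ) ≤ (k : ℤ) := by exact_mod_cast hk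
  have hopen : IsOpen {z : ℂ | 0 < z.im} := isOpen_lt continuous_const Complex.continuous_im
  intro z hz
  have hz' : 0 < z.im := hz
  have h1 : DifferentiableAt ℂ (ts_th (k : ℤ)) z := ts_th_differentiableAt hk1 hz'
  have h2 : thetaQ q =ᶠ[nhds z] ts_th (k : ℤ) := by
    filter_upwards [hopen.mem_nhds hz] with w hw
    exact (ts_th_eq_thetaQ hq hw).symm
  exact (h2.differentiableAt_iff.mpr h1).differentiableWithinAt

/-- growth of `θ_q` towards the real axis -/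
theorem psi_thetaQ_growth {q k : ℕ} (hq : q + 1 = 4 * k) (hk : 1 ≤ k) :
    ∃ C : ℝ, ∀ z : ℂ, 0 < z.im → ‖thetaQ q z‖ ≤ C * (1 + (z.im)⁻¹ ^ 2) := by
  have hk1 : (1 : ℤ) ≤ (k : ℤ) := by exact_mod_cast hk
  refine ⟨24, fun z hz => ?_⟩
  rw [← ts_th_eq_thetaQ hq hz]
  refine (ts_th_norm_le hk1 hz).trans ?_
  have hy : 0 < (z.im)⁻¹ := inv_pos.mpr hz
  have e : (4 : ℝ) / z.im = 4 * (z.im)⁻¹ := div_eq_mul_inv _ _
  rw [e]
  nlinarith [sq_nonneg ((z.im)⁻¹ - 1), sq_nonneg ((z.im)⁻¹)]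

/-- the `q`-expansion of `θ_q(z) θ_q(pz)` -/
theorem psi_thetaQ_hasSum {q k : ℕ} (hq : q + 1 = 4 * k) (hk : 1 ≤ k) (p : ℕ) (hp : 0 < p)
    {z : ℂ} (hz : 0 < z.im) :
    HasSum (fun n : ℕ => (rc_R (k : ℤ) p n : ℂ) * cexp (2 * π * Complex.I * z * n))
      (thetaQ q z * thetaQ q (p * z)) := by
  have hk1 : (1 : ℤ) ≤ (k : ℤ) := by exact_mod_cast hk
  have hpz : 0 < ((p : ℂ) * z).im := h11_im_mul_pos hp hz
  have h := ts_hasSum_mul hk1 p hp hz
  rw [ts_th_eq_thetaQ hq hz, ts_th_eq_thetaQ hq hpz] at h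
  have e : (fun n : ℕ => (rc_R (k : ℤ) p n : ℂ) * cexp (2 * π * Complex.I * z * n))
      = fun n : ℕ => (rc_R (k : ℤ) p (n : ℤ) : ℂ) * cexp (2 * π * Complex.I * z) ^ n := by
    funext n
    rw [← Complex.exp_nat_mul]
    congr 2
    ring
  rw [e]
  exact h

/-- `F(z) = θ_q(z) θ_q(pz)` as a modular form of weight `2` on `Γ₀(pq)`, from the transformation
law of `θ_q` (`hmod`). -/
theorem psi_exists_thetaForm (p q : ℕ) (hp : 0 < p) (hq : 0 < q) (k : ℕ) (hqk : q + 1 = 4 * k)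
    (hmod : ∀ {a b c d : ℤ}, a * d - b * c = 1 → (q : ℤ) ∣ c → ∀ {z : ℂ}, 0 < z.im →
      thetaQ q (((a : ℂ) * z + b) / ((c : ℂ) * z + d)) =
        ((jacobiSym d q : ℤ) : ℂ) * ((c : ℂ) * z + d) * thetaQ q z) :
    ∃ F : ModularForm (CongruenceSubgroup.Gamma0 (p * q)) 2,
      (∀ z : ℍ, F z = thetaQ q z * thetaQ q (p * z)) ∧
      ∀ n : ℕ, (qExpansion 1 F).coeff n = (rc_R (k : ℤ) p n : ℂ) := by
  have hk : 1 ≤ k := by omega
  haveI : NeZero (p * q) := ⟨Nat.mul_ne_zero hp.ne' hq.ne'⟩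
  exact exists_thetaForm_of p q hp (k : ℤ) (fun a b c d h hc z hz => hmod h hc hz)
    (fun z hz => psi_thetaQ_hasSum hqk hk p hp hz)
    (psi_thetaQ_differentiableOn hqk hk) (psi_thetaQ_growth hqk hk)
    (fun f hf hinv C e hg => pack_exists_modularForm (p * q) 2 f hf hinv C e hg)

/-- **The form `Ψ`, from `thetaQ_modular` alone.** -/
theorem exists_psi_of_mod (p : ℕ) (hp : p.Prime)
    (hmod : ∀ q : ℕ, q.Prime → q % 4 = 3 → ∀ {a b c d : ℤ}, a * d - b * c = 1 → (q : ℤ) ∣ c →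
      ∀ {z : ℂ}, 0 < z.im →
      thetaQ q (((a : ℂ) * z + b) / ((c : ℂ) * z + d)) =
        ((jacobiSym d q : ℤ) : ℂ) * ((c : ℂ) * z + d) * thetaQ q z) :
    ∃ Ψ : ModularForm (CongruenceSubgroup.Gamma0 p) 2,
      (qExpansion 1 Ψ).coeff 0 = 1 ∧
      ∀ k : ℕ, 0 < k → ∃ z : ℤ, (qExpansion 1 Ψ).coeff k = 2 * z := by
  refine exists_psi_of p hp hmod ?_
  intro q hq hq4 _ m hm
  obtain ⟨k, hk⟩ : ∃ k : ℕ, q + 1 = 4 * k := ⟨(q + 1) / 4, by omega⟩
  have hmk : m = (k : ℤ) := by omega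
  subst hmk
  exact psi_exists_thetaForm p q hp.pos hq.pos k hk (hmod q hq hq4)

end Fermat.Agent.S16
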