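import Fermat.Agent.S16.ThetaBinary

/-!
# The Gauss sum `gaussW q b r` for an odd prime `r` (helper22, row L-T-GAUSS)

`gaussW q b r = ∑_{α, β < 2r, α ≡ β (2)} e(b (α² + q β²)/(4r)) = 2 r (-q / r)` for an odd prime
`r ∤ q b`, where `q ≡ 3 mod 4`.
-/

set_option autoImplicit false

open Complex Real Finset

namespace Fermat.Agent.S16

noncomputable section

/-! ### sums over residues -/

lemma gp_sum_range_zmod (r : ℕ) [NeZero r] (f : ZMod r → ℂ) :
    ∑ i ∈ range r, f (i : ZMod r) = ∑ x : ZMod r, f x := by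
  refine Finset.sum_bij (fun i _ => (i : ZMod r)) (fun _ _ => Finset.mem_univ _) ?_ ?_
    (fun _ _ => rfl)
  · intro i hi j hj h
    have hi' := Finset.mem_range.mp hi
    have hj' := Finset.mem_range.mp hj
    have := (ZMod.natCast_eq_natCast_iff' i j r).mp h
    rwa [Nat.mod_eq_of_lt hi', Nat.mod_eq_of_lt hj'] at this
  · intro x _
    exact ⟨x.val, Finset.mem_range.mpr (ZMod.val_lt x), ZMod.natCast_zmod_val x⟩

lemma gp_sum_range_two_mul_zmod (r : ℕ) [NeZero r] (f : ZMod r → ℂ) :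
    ∑ i ∈ range (2 * r), f (i : ZMod r) = 2 * ∑ x : ZMod r, f x := by
  rw [two_mul r, Finset.sum_range_add, gp_sum_range_zmod]
  have : ∑ x ∈ range r, f ((r + x : ℕ) : ZMod r) = ∑ x : ZMod r, f x := by
    rw [← gp_sum_range_zmod]
    refine Finset.sum_congr rfl (fun i _ => ?_)
    rw [Nat.cast_add, ZMod.natCast_self, zero_add]
  rw [this]; ring

/-! ### the quadratic Gauss sum over `ZMod r` -/

/-- the complex-valued quadratic character -/
def gp_chi (r : ℕ) [Fact r.Prime] : MulChar (ZMod r) ℂ :=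
  (quadraticChar (ZMod r)).ringHomComp (Int.castRingHom ℂ)

lemma gp_chi_apply (r : ℕ) [Fact r.Prime] (a : ZMod r) :
    gp_chi r a = ((quadraticChar (ZMod r) a : ℤ) : ℂ) := rfl

/-- the quadratic Gauss sum `τ` -/
def gp_tau (r : ℕ) [Fact r.Prime] : ℂ := gaussSum (gp_chi r) ZMod.stdAddChar

lemma gp_tau_sq {r : ℕ} [Fact r.Prime] (hr2 : r ≠ 2) :
    gp_tau r ^ 2 = ((quadraticChar (ZMod r) (-1) : ℤ) : ℂ) * r := by
  have hF : ringChar (ZMod r) ≠ 2 := by rwa [ZMod.ringChar_zmod_n]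
  have h1 : gp_chi r ≠ 1 := by
    unfold gp_chi
    rw [Ne, MulChar.ringHomComp_eq_one_iff (Int.cast_injective)]
    exact quadraticChar_ne_one hF
  have h2 : (gp_chi r).IsQuadratic := (quadraticChar_isQuadratic (ZMod r)).comp _
  have := gaussSum_sq h1 h2 (ZMod.isPrimitive_stdAddChar r)
  rw [ZMod.card] at this
  exact this

/-- `∑_x ψ(t x²) = χ(t) τ` for `t ≠ 0` -/
lemma gp_quad_sum {r : ℕ} [Fact r.Prime] (hr2 : r ≠ 2) {t : ZMod r} (ht : t ≠ 0) :
    ∑ x : ZMod r, ZMod.stdAddChar (t * x ^ 2) =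
      ((quadraticChar (ZMod r) t : ℤ) : ℂ) * gp_tau r := by
  classical
  have hF : ringChar (ZMod r) ≠ 2 := by rwa [ZMod.ringChar_zmod_n]
  -- fiberwise over the value of the square
  have h1 : ∑ x : ZMod r, ZMod.stdAddChar (t * x ^ 2) =
      ∑ y : ZMod r, (((quadraticChar (ZMod r) y : ℤ) : ℂ) + 1) * ZMod.stdAddChar (t * y) := by
    rw [← Finset.sum_fiberwise (s := Finset.univ) (g := fun x : ZMod r => x ^ 2)]
    refine Finset.sum_congr rfl (fun y _ => ?_)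
    have hc : ∀ x ∈ Finset.univ.filter (fun x : ZMod r => x ^ 2 = y),
        ZMod.stdAddChar (t * x ^ 2) = (ZMod.stdAddChar (t * y) : ℂ) := by
      intro x hx
      rw [(Finset.mem_filter.mp hx).2]
    rw [Finset.sum_congr rfl hc, Finset.sum_const, nsmul_eq_mul]
    congr 1
    have h := quadraticChar_card_sqrts hF y
    have h' : ((Finset.univ.filter (fun x : ZMod r => x ^ 2 = y)).card : ℤ) =
        quadraticChar (ZMod r) y + 1 := by
      rw [← h]
      congr 2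
      ext x
      simp
    have h'' := congrArg (fun n : ℤ => (n : ℂ)) h'
    simpa using h''
  rw [h1]
  simp only [add_mul, one_mul, Finset.sum_add_distrib]
  have h2 : ∑ y : ZMod r, (ZMod.stdAddChar (t * y) : ℂ) = 0 := by
    have := AddChar.sum_mulShift (R := ZMod r) (R' := ℂ) t (ZMod.isPrimitive_stdAddChar r)
    rw [if_neg ht, Nat.cast_zero] at this
    rw [← this]
    refine Finset.sum_congr rfl (fun y _ => ?_)
    rw [mul_comm]
  rw [h2, add_zero]
  -- the twisted Gauss sum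
  have hu : IsUnit t := isUnit_iff_ne_zero.mpr ht
  obtain ⟨u, rfl⟩ := hu
  have h3 := gaussSum_mulShift (gp_chi r) ZMod.stdAddChar u
  have h4 : ∑ y : ZMod r, ((quadraticChar (ZMod r) y : ℤ) : ℂ) * ZMod.stdAddChar ((u : ZMod r) * y) =
      gaussSum (gp_chi r) (AddChar.mulShift ZMod.stdAddChar (u : ZMod r)) := by
    unfold gaussSum
    refine Finset.sum_congr rfl (fun y _ => ?_)
    rw [AddChar.mulShift_apply, gp_chi_apply]
  rw [h4]
  have h5 : ((quadraticChar (ZMod r) (u : ZMod r) : ℤ) : ℂ) ^ 2 = 1 := by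
    have := quadraticChar_sq_one (F := ZMod r) ht
    exact_mod_cast this
  unfold gp_tau
  rw [← h3, gp_chi_apply, ← mul_assoc, ← sq, h5, one_mul]

/-- the binary quadratic Gauss sum `∑_{s,y} ψ(b (s² + s y + k y²)) = r χ(-q)`, `4k = q + 1` -/
lemma gp_binary_sum {r : ℕ} [Fact r.Prime] (hr2 : r ≠ 2) {b k q : ZMod r} (hk : q + 1 = 4 * k)
    (hb : b ≠ 0) (hq : q ≠ 0) :
    ∑ y : ZMod r, ∑ s : ZMod r, ZMod.stdAddChar (b * (s ^ 2 + s * y + k * y ^ 2)) =
      ((quadraticChar (ZMod r) (-q) : ℤ) : ℂ) * r := by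
  have h2 : (2 : ZMod r) ≠ 0 := by
    intro h
    have h' : ((2 : ℕ) : ZMod r) = 0 := by exact_mod_cast h
    rw [ZMod.natCast_eq_zero_iff] at h'
    have hr := (Fact.out : r.Prime)
    exact hr2 ((Nat.prime_dvd_prime_iff_eq hr Nat.prime_two).mp h')
  have h4 : (4 : ZMod r) ≠ 0 := by
    have : (4 : ZMod r) = 2 * 2 := by norm_num
    rw [this]; exact mul_ne_zero h2 h2
  set t₂ : ZMod r := b * q / 4 with ht₂
  have ht₂0 : t₂ ≠ 0 := div_ne_zero (mul_ne_zero hb hq) h4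
  have hy : ∀ y : ZMod r, ∑ s : ZMod r, ZMod.stdAddChar (b * (s ^ 2 + s * y + k * y ^ 2)) =
      ZMod.stdAddChar (t₂ * y ^ 2) * ∑ s : ZMod r, (ZMod.stdAddChar (b * s ^ 2) : ℂ) := by
    intro y
    have hshift := Equiv.sum_comp (Equiv.addRight (y / 2))
      (fun s : ZMod r => (ZMod.stdAddChar (b * s ^ 2) : ℂ))
    simp only [Equiv.coe_addRight] at hshift
    rw [← hshift, Finset.mul_sum]
    refine Finset.sum_congr rfl (fun s _ => ?_)
    rw [← AddChar.map_add_eq_mul]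
    congr 1
    rw [ht₂]
    field_simp
    linear_combination (-4 * y ^ 2) * hk
  simp only [hy]
  rw [← Finset.sum_mul, gp_quad_sum hr2 ht₂0, gp_quad_sum hr2 hb]
  have hτ := gp_tau_sq hr2
  have hχ : quadraticChar (ZMod r) t₂ * quadraticChar (ZMod r) b *
      quadraticChar (ZMod r) (-1) = quadraticChar (ZMod r) (-q) := by
    rw [← map_mul, ← map_mul]
    have : t₂ * b * (-1) = (-q) * (b / 2) ^ 2 := by
      rw [ht₂]; field_simp; ring
    rw [this, map_mul, quadraticChar_sq_one' (div_ne_zero hb h2), mul_one]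
  have hχ' := congrArg (fun n : ℤ => (n : ℂ)) hχ
  simp only [Int.cast_mul] at hχ'
  calc ((quadraticChar (ZMod r) t₂ : ℤ) : ℂ) * gp_tau r *
        (((quadraticChar (ZMod r) b : ℤ) : ℂ) * gp_tau r)
      = ((quadraticChar (ZMod r) t₂ : ℤ) : ℂ) * ((quadraticChar (ZMod r) b : ℤ) : ℂ) *
          gp_tau r ^ 2 := by ring
    _ = ((quadraticChar (ZMod r) (-q) : ℤ) : ℂ) * r := by rw [hτ, ← hχ']; ring

/-! ### reindexing the Gauss sum `gaussW` -/

/-- the summand on the sublattice `x = y + 2 s` -/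
lemma gp_gF_even {q k : ℕ} (hq : q + 1 = 4 * k) (b : ℤ) (r : ℕ) [NeZero r] (s y : ℤ) :
    gF q b r 0 0 (y + 2 * s) y =
      ZMod.stdAddChar (((b * (s ^ 2 + s * y + k * y ^ 2) : ℤ)) : ZMod r) := by
  rw [ZMod.stdAddChar_coe]
  unfold gF
  have hi : h47_ind (y + 2 * s) y = 1 := by
    unfold h47_ind
    rw [if_pos ⟨s, by ring⟩]
  rw [hi, one_mul]
  congr 1
  have hqC : (q : ℂ) + 1 = 4 * k := by exact_mod_cast hq
  have hr' : (r : ℂ) ≠ 0 := Nat.cast_ne_zero.mpr (NeZero.ne r)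
  push_cast
  field_simp
  linear_combination (b * (y : ℂ) ^ 2) * hqC

/-- the summand vanishes off the sublattice -/
lemma gp_gF_odd (q : ℕ) (b : ℤ) (r : ℕ) (s y : ℤ) :
    gF q b r 0 0 (y + 2 * s + 1) y = 0 := by
  unfold gF
  have hi : h47_ind (y + 2 * s + 1) y = 0 := by
    unfold h47_ind
    rw [if_neg]
    rintro ⟨c, hc⟩
    omega
  rw [hi, zero_mul]

/-- the inner sum over `α` -/
lemma gp_inner {q k : ℕ} (hq : q + 1 = 4 * k) (b : ℤ) (r : ℕ) [NeZero r] (β : ℤ) :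
    ∑ α ∈ range (2 * r), gF q b r 0 0 α β =
      ∑ s : ZMod r, ZMod.stdAddChar ((b : ZMod r) * (s ^ 2 + s * (β : ZMod r) + (k : ZMod r) * (β : ZMod r) ^ 2)) := by
  have hr : 0 < r := Nat.pos_of_ne_zero (NeZero.ne r)
  have h1 := h47_sum_range_shift (2 * r) (fun x => gF q b r 0 0 x β)
    (fun x => gF_per1 q b hr 0 0 x β) β
  rw [← h1, ← h47_sum_range_two_mul r (fun a => gF q b r 0 0 ((a : ℤ) + β) β)]
  rw [Finset.sum_range_succ, Finset.sum_range_one]
  have h0 : ∀ j : ℕ, gF q b r 0 0 (((0 + 2 * j : ℕ) : ℤ) + β) β =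
      ZMod.stdAddChar ((b : ZMod r) * ((j : ZMod r) ^ 2 + (j : ZMod r) * (β : ZMod r) + (k : ZMod r) * (β : ZMod r) ^ 2)) := by
    intro j
    have e : (((0 + 2 * j : ℕ) : ℤ) + β) = β + 2 * (j : ℤ) := by push_cast; ring
    rw [e, gp_gF_even hq b r j β]
    congr 1
    push_cast
    ring
  have h1' : ∀ j : ℕ, gF q b r 0 0 (((1 + 2 * j : ℕ) : ℤ) + β) β = 0 := by
    intro j
    have e : (((1 + 2 * j : ℕ) : ℤ) + β) = β + 2 * (j : ℤ) + 1 := by push_cast; ring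
    rw [e, gp_gF_odd]
  simp only [h0, h1', Finset.sum_const_zero, add_zero]
  exact gp_sum_range_zmod r (fun s : ZMod r =>
    (ZMod.stdAddChar ((b : ZMod r) * (s ^ 2 + s * (β : ZMod r) + (k : ZMod r) * (β : ZMod r) ^ 2)) : ℂ))

/-- **The Gauss sum at an odd prime.** -/
theorem gaussW_prime {q k : ℕ} (hq : q + 1 = 4 * k) {r : ℕ} (hr : r.Prime) (hr2 : r ≠ 2)
    (hrq : ¬ r ∣ q) {b : ℤ} (hb : ¬ (r : ℤ) ∣ b) :
    gaussW q b r = 2 * (r : ℂ) * ((jacobiSym (-(q : ℤ)) r : ℤ) : ℂ) := by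
  have : Fact r.Prime := ⟨hr⟩
  unfold gaussW
  rw [Finset.sum_comm]
  have h1 : ∀ β ∈ range (2 * r), ∑ α ∈ range (2 * r), gF q b r 0 0 (α : ℤ) (β : ℤ) =
      ∑ s : ZMod r, ZMod.stdAddChar ((b : ZMod r) *
        (s ^ 2 + s * ((β : ℕ) : ZMod r) + (k : ZMod r) * ((β : ℕ) : ZMod r) ^ 2)) := by
    intro β _
    have := gp_inner hq b r (β : ℤ)
    rw [this]
    push_cast
    rfl
  rw [Finset.sum_congr rfl h1]
  rw [gp_sum_range_two_mul_zmod r (fun y : ZMod r => ∑ s : ZMod r,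
    (ZMod.stdAddChar ((b : ZMod r) * (s ^ 2 + s * y + (k : ZMod r) * y ^ 2)) : ℂ))]
  have hk' : (q : ZMod r) + 1 = 4 * (k : ZMod r) := by exact_mod_cast congrArg (fun n : ℕ => (n : ZMod r)) hq
  have hb' : (b : ZMod r) ≠ 0 := by
    rwa [Ne, ZMod.intCast_zmod_eq_zero_iff_dvd]
  have hq' : (q : ZMod r) ≠ 0 := by
    rwa [Ne, ZMod.natCast_eq_zero_iff]
  rw [gp_binary_sum hr2 hk' hb' hq']
  have hJ : jacobiSym (-(q : ℤ)) r = quadraticChar (ZMod r) (-(q : ZMod r)) := by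
    rw [← jacobiSym.legendreSym.to_jacobiSym, legendreSym]
    push_cast
    rfl
  rw [hJ]
  ring

end

end Fermat.Agent.S16
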