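import Fermat.Agent.S16.ThetaChar
import Fermat.Agent.S16.GaussPrime

/-!
# The transformation law of the binary theta series on `Γ₀(q)` (helper47)

`thetaQ q (γ z) = (d/q) (c z + d) thetaQ q z` for `γ = [[a, b], [c, d]] ∈ Γ₀(q)`,
`q ≡ 3 mod 4` prime: `ThetaChar.thetaQ_modular_of_gauss` with the Gauss sums at primes
evaluated in `GaussPrime.gaussW_prime`.
-/

set_option autoImplicit false

namespace Fermat.Agent.S16

/-- the Gauss sums at odd primes, unconditionally -/
theorem gaussAtPrimes_of_mod_four {q : ℕ} (hq4 : q % 4 = 3) : GaussAtPrimes q := by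
  intro r b hr hr2 hrq hb
  have hk : q + 1 = 4 * ((q + 1) / 4) := by omega
  exact gaussW_prime hk hr hr2 hrq hb

/-- the binary theta series of `x² + xy + ((q+1)/4) y²` transforms under `Γ₀(q)` with the
quadratic character `(·/q)` in weight one -/
theorem thetaQ_modular {q : ℕ} (hq : q.Prime) (hq4 : q % 4 = 3) {a b c d : ℤ}
    (hdet : a * d - b * c = 1) (hc : (q : ℤ) ∣ c) {z : ℂ} (hz : 0 < z.im) :
    thetaQ q ((a * z + b) / (c * z + d)) =
      ((jacobiSym d q : ℤ) : ℂ) * (c * z + d) * thetaQ q z :=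
  thetaQ_modular_of_gauss hq hq4 (gaussAtPrimes_of_mod_four hq4) hdet hc hz

end Fermat.Agent.S16
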