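import Mathlib
import Fermat.Agent.S16.LowerFromPsi
import Fermat.Agent.S16.PsiMod
import Fermat.Agent.S16.ThetaMod

/-!
# S16 lower bound (theta route), final form

`lower_bound p : ∀ P, π P = 0 → n ∣ eis P` with `n = eisensteinNumerator p`; this is the `hLB`
argument of `h36_card_quot_eq`.
-/

set_option autoImplicit false

open UpperHalfPlane ModularForm CongruenceSubgroup ModularCurve

namespace Fermat.Agent.S16

/-- **S16 lower bound.** Every Hecke polynomial killing the integral cusp forms has Eisenstein
value divisible by `n = (p - 1) / gcd (p - 1, 12)`. -/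
theorem lower_bound (p : ℕ) [Fact p.Prime] :
    ∀ P : HeckeAlg, h36_pi p P = 0 → (eisensteinNumerator p : ℤ) ∣ h36_eis p P := by
  obtain ⟨Ψ, h0, hev⟩ := exists_psi_of_mod p Fact.out
    (fun _ hq hq4 _ _ _ _ hdet hc _ hz => thetaQ_modular hq hq4 hdet hc hz)
  exact lower_of_psi p Ψ h0 hev

end Fermat.Agent.S16
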