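import Mathlib

/-!
# Shared interface for the upper bound of S16

* `Ol ℓ` : the subring of `ℂ` of `ℓ`-integral algebraic numbers (`m • x` is an algebraic integer for
  some integer `m` coprime to `ℓ`).  It contains `ℤ`, all algebraic integers (roots of unity), and
  `1/m` for `m` coprime to `ℓ`; it does not contain `1/ℓ`.
* `OlIdeal ℓ j = ℓ^j • Ol ℓ` as an additive subgroup of `ℂ`.
* `CoeffIn M P` : all coefficients of the power series `P` lie in the additive subgroup `M`.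
* `ThetaCong p ℓ j Θ` : `Θ ∈ M₂(Γ₀(p))` has `a₀ = 1` and `aₙ ∈ ℓ^j ℤ_(ℓ)` for `n ≥ 1`.
-/

set_option autoImplicit false

open UpperHalfPlane ModularForm
open scoped MatrixGroups

namespace Fermat.Agent.S16

/-- The subring of `ℓ`-integral algebraic numbers in `ℂ`. -/
def Ol (ℓ : ℕ) : Subring ℂ where
  carrier := {x | ∃ m : ℤ, IsCoprime m (ℓ : ℤ) ∧ IsIntegral ℤ ((m : ℂ) * x)}
  mul_mem' := by
    rintro x y ⟨m, hm, hx⟩ ⟨n, hn, hy⟩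
    refine ⟨m * n, hm.mul_left hn, ?_⟩
    have : ((m * n : ℤ) : ℂ) * (x * y) = ((m : ℂ) * x) * ((n : ℂ) * y) := by push_cast; ring
    rw [this]
    exact hx.mul hy
  one_mem' := ⟨1, isCoprime_one_left, by simpa using isIntegral_one⟩
  add_mem' := by
    rintro x y ⟨m, hm, hx⟩ ⟨n, hn, hy⟩
    refine ⟨m * n, hm.mul_left hn, ?_⟩
    have : ((m * n : ℤ) : ℂ) * (x + y) = (n : ℂ) * ((m : ℂ) * x) + (m : ℂ) * ((n : ℂ) * y) := by
      push_cast; ring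
    rw [this]
    exact ((isIntegral_algebraMap (R := ℤ) (A := ℂ) (x := n)).mul hx).add
      ((isIntegral_algebraMap (R := ℤ) (A := ℂ) (x := m)).mul hy)
  zero_mem' := ⟨1, isCoprime_one_left, by simpa using isIntegral_zero⟩
  neg_mem' := by
    rintro x ⟨m, hm, hx⟩
    refine ⟨m, hm, ?_⟩
    have : (m : ℂ) * (-x) = -((m : ℂ) * x) := by ring
    rw [this]
    exact hx.neg

theorem mem_Ol_iff {ℓ : ℕ} {x : ℂ} :
    x ∈ Ol ℓ ↔ ∃ m : ℤ, IsCoprime m (ℓ : ℤ) ∧ IsIntegral ℤ ((m : ℂ) * x) := Iff.rfl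

theorem isIntegral_mem_Ol (ℓ : ℕ) {x : ℂ} (hx : IsIntegral ℤ x) : x ∈ Ol ℓ :=
  ⟨1, isCoprime_one_left, by simpa using hx⟩

theorem pow_eq_one_mem_Ol (ℓ : ℕ) {ζ : ℂ} {n : ℕ} (hn : n ≠ 0) (hζ : ζ ^ n = 1) : ζ ∈ Ol ℓ :=
  isIntegral_mem_Ol ℓ (IsIntegral.of_pow (Nat.pos_of_ne_zero hn) (by rw [hζ]; exact isIntegral_one))

theorem inv_int_mem_Ol (ℓ : ℕ) {m : ℤ} (hm : IsCoprime m (ℓ : ℤ)) : ((m : ℂ))⁻¹ ∈ Ol ℓ := by
  rcases eq_or_ne m 0 with rfl | h0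
  · simp
  · refine ⟨m, hm, ?_⟩
    have hm' : (m : ℂ) ≠ 0 := by exact_mod_cast h0
    rw [mul_inv_cancel₀ hm']
    exact isIntegral_one

theorem inv_nat_mem_Ol (ℓ : ℕ) {m : ℕ} (hm : Nat.Coprime m ℓ) : ((m : ℂ))⁻¹ ∈ Ol ℓ := by
  have := inv_int_mem_Ol ℓ (m := (m : ℤ)) (Nat.isCoprime_iff_coprime.mpr hm)
  simpa using this

/-- `Z_(ℓ)`-elements are in `Ol ℓ`. -/
theorem mem_Ol_of_int_mul_eq (ℓ : ℕ) {x : ℂ} {m a : ℤ} (hm : IsCoprime m (ℓ : ℤ))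
    (h : (m : ℂ) * x = a) : x ∈ Ol ℓ :=
  ⟨m, hm, by rw [h]; exact isIntegral_algebraMap (R := ℤ) (A := ℂ) (x := a)⟩

/-- `ℓ^j • Ol ℓ`, as an additive subgroup of `ℂ`. -/
def OlIdeal (ℓ j : ℕ) : AddSubgroup ℂ where
  carrier := {y | ∃ x ∈ Ol ℓ, y = (ℓ : ℂ) ^ j * x}
  add_mem' := by
    rintro _ _ ⟨x, hx, rfl⟩ ⟨y, hy, rfl⟩
    exact ⟨x + y, (Ol ℓ).add_mem hx hy, by ring⟩
  zero_mem' := ⟨0, (Ol ℓ).zero_mem, by simp⟩
  neg_mem' := by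
    rintro _ ⟨x, hx, rfl⟩
    exact ⟨-x, (Ol ℓ).neg_mem hx, by ring⟩

theorem mem_OlIdeal_iff {ℓ j : ℕ} {y : ℂ} :
    y ∈ OlIdeal ℓ j ↔ ∃ x ∈ Ol ℓ, y = (ℓ : ℂ) ^ j * x := Iff.rfl

theorem mul_mem_OlIdeal {ℓ j : ℕ} {r y : ℂ} (hr : r ∈ Ol ℓ) (hy : y ∈ OlIdeal ℓ j) :
    r * y ∈ OlIdeal ℓ j := by
  obtain ⟨x, hx, rfl⟩ := hy
  exact ⟨r * x, (Ol ℓ).mul_mem hr hx, by ring⟩

theorem OlIdeal_le_Ol (ℓ j : ℕ) {y : ℂ} (hy : y ∈ OlIdeal ℓ j) : y ∈ Ol ℓ := by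
  obtain ⟨x, hx, rfl⟩ := hy
  exact (Ol ℓ).mul_mem ((Ol ℓ).pow_mem (by simpa using natCast_mem (Ol ℓ) ℓ) j) hx

theorem OlIdeal_mono (ℓ : ℕ) {i j : ℕ} (hij : i ≤ j) {y : ℂ} (hy : y ∈ OlIdeal ℓ j) :
    y ∈ OlIdeal ℓ i := by
  obtain ⟨x, hx, rfl⟩ := hy
  refine ⟨(ℓ : ℂ) ^ (j - i) * x,
    (Ol ℓ).mul_mem ((Ol ℓ).pow_mem (by simpa using natCast_mem (Ol ℓ) ℓ) _) hx, ?_⟩
  rw [← mul_assoc, ← pow_add, Nat.add_sub_cancel' hij]

theorem pow_mul_mem_OlIdeal {ℓ j : ℕ} {x : ℂ} (hx : x ∈ Ol ℓ) : (ℓ : ℂ) ^ j * x ∈ OlIdeal ℓ j :=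
  ⟨x, hx, rfl⟩

/-- An integer lying in `ℓ^j • Ol ℓ` is divisible by `ℓ^j`. -/
theorem int_mem_OlIdeal {ℓ j : ℕ} {a : ℤ} (h : (a : ℂ) ∈ OlIdeal ℓ j) : (ℓ : ℤ) ^ j ∣ a := by
  obtain ⟨x, ⟨m, hm, hx⟩, hax⟩ := h
  rcases Nat.eq_zero_or_pos ℓ with rfl | hℓ
  · rcases Nat.eq_zero_or_pos j with rfl | hj
    · simp
    · have : (a : ℂ) = 0 := by rw [hax]; simp [hj.ne']
      have ha : a = 0 := by exact_mod_cast this
      simp [ha]
  -- `m * x` is an algebraic integer and rational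
  have hℓ' : ((ℓ : ℂ) ^ j) ≠ 0 := pow_ne_zero _ (by exact_mod_cast hℓ.ne')
  have hq : (m : ℂ) * x = (((m * a : ℤ) : ℚ) / ((ℓ : ℚ) ^ j) : ℚ) := by
    rw [Rat.cast_div, Rat.cast_pow, Rat.cast_intCast, Rat.cast_natCast, Int.cast_mul, hax]
    field_simp
  rw [hq] at hx
  have hx' : IsIntegral ℤ (((m * a : ℤ) : ℚ) / ((ℓ : ℚ) ^ j) : ℚ) :=
    (isIntegral_algebraMap_iff (RingHom.injective (algebraMap ℚ ℂ))).mp hx
  obtain ⟨b, hb⟩ := IsIntegrallyClosed.isIntegral_iff.mp hx'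
  have hℓq : ((ℓ : ℚ) ^ j) ≠ 0 := pow_ne_zero _ (by exact_mod_cast hℓ.ne')
  have hb' : ((m * a : ℤ) : ℚ) = (((ℓ : ℤ) ^ j * b : ℤ) : ℚ) := by
    have : (b : ℚ) = ((m * a : ℤ) : ℚ) / ((ℓ : ℚ) ^ j) := by simpa using hb
    rw [Int.cast_mul (_ ^ _) b, this]
    push_cast
    field_simp
  have hb'' : m * a = (ℓ : ℤ) ^ j * b := by exact_mod_cast hb'
  have hdvd : (ℓ : ℤ) ^ j ∣ m * a := ⟨b, hb''⟩
  exact (IsCoprime.pow_left hm.symm).dvd_of_dvd_mul_left hdvd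

theorem one_not_mem_OlIdeal {ℓ j : ℕ} (hℓ : 2 ≤ ℓ) (hj : 0 < j) : (1 : ℂ) ∉ OlIdeal ℓ j := by
  intro h
  have h1 : ((1 : ℤ) : ℂ) ∈ OlIdeal ℓ j := by simpa using h
  have h2 := int_mem_OlIdeal h1
  have h3 : (ℓ : ℤ) ∣ 1 := dvd_trans (dvd_pow_self _ hj.ne') h2
  have h4 := Int.eq_one_of_dvd_one (by positivity) h3
  omega

/-- If `u * v = 1` with `v ∈ Ol ℓ`, then `u ∉ ℓ^j • Ol ℓ`. -/
theorem unit_not_mem_OlIdeal {ℓ j : ℕ} (hℓ : 2 ≤ ℓ) (hj : 0 < j) {u v : ℂ} (hv : v ∈ Ol ℓ)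
    (huv : u * v = 1) : u ∉ OlIdeal ℓ j := by
  intro hu
  apply one_not_mem_OlIdeal hℓ hj
  rw [← huv, mul_comm]
  exact mul_mem_OlIdeal hv hu

/-- All coefficients of `P` lie in the additive subgroup `M`. -/
def CoeffIn (M : AddSubgroup ℂ) (P : PowerSeries ℂ) : Prop := ∀ n, P.coeff n ∈ M

theorem CoeffIn.add {M : AddSubgroup ℂ} {P Q : PowerSeries ℂ} (hP : CoeffIn M P)
    (hQ : CoeffIn M Q) : CoeffIn M (P + Q) := fun n => by
  rw [map_add]; exact M.add_mem (hP n) (hQ n)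

theorem CoeffIn.sub {M : AddSubgroup ℂ} {P Q : PowerSeries ℂ} (hP : CoeffIn M P)
    (hQ : CoeffIn M Q) : CoeffIn M (P - Q) := fun n => by
  rw [map_sub]; exact M.sub_mem (hP n) (hQ n)

theorem CoeffIn.neg {M : AddSubgroup ℂ} {P : PowerSeries ℂ} (hP : CoeffIn M P) :
    CoeffIn M (-P) := fun n => by
  rw [map_neg]; exact M.neg_mem (hP n)

theorem CoeffIn.zero (M : AddSubgroup ℂ) : CoeffIn M 0 := fun n => by
  rw [map_zero]; exact M.zero_mem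

theorem CoeffIn.sum {M : AddSubgroup ℂ} {ι : Type*} (s : Finset ι) (P : ι → PowerSeries ℂ)
    (h : ∀ i ∈ s, CoeffIn M (P i)) : CoeffIn M (∑ i ∈ s, P i) := fun n => by
  rw [map_sum]; exact M.sum_mem fun i hi => h i hi n

/-- `R`-coefficients times `M`-coefficients, when `R • M ⊆ M`. -/
theorem CoeffIn.mul {R : Subring ℂ} {M : AddSubgroup ℂ} (hRM : ∀ r ∈ R, ∀ y ∈ M, r * y ∈ M)
    {P Q : PowerSeries ℂ} (hP : CoeffIn R.toAddSubgroup P) (hQ : CoeffIn M Q) :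
    CoeffIn M (P * Q) := fun n => by
  rw [PowerSeries.coeff_mul]
  exact M.sum_mem fun i _ => hRM _ (hP _) _ (hQ _)

theorem CoeffIn.mul' {R : Subring ℂ} {M : AddSubgroup ℂ} (hRM : ∀ r ∈ R, ∀ y ∈ M, r * y ∈ M)
    {P Q : PowerSeries ℂ} (hP : CoeffIn M P) (hQ : CoeffIn R.toAddSubgroup Q) :
    CoeffIn M (P * Q) := by
  rw [mul_comm]; exact CoeffIn.mul hRM hQ hP

theorem CoeffIn.mul_ring {R : Subring ℂ} {P Q : PowerSeries ℂ} (hP : CoeffIn R.toAddSubgroup P)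
    (hQ : CoeffIn R.toAddSubgroup Q) : CoeffIn R.toAddSubgroup (P * Q) :=
  CoeffIn.mul (M := R.toAddSubgroup) (fun _ hr _ hy => R.mul_mem hr hy) hP hQ

theorem CoeffIn.one (R : Subring ℂ) : CoeffIn R.toAddSubgroup 1 := fun n => by
  rw [PowerSeries.coeff_one]
  split_ifs
  · exact R.one_mem
  · exact R.zero_mem

theorem CoeffIn.pow {R : Subring ℂ} {P : PowerSeries ℂ} (hP : CoeffIn R.toAddSubgroup P) (n : ℕ) :
    CoeffIn R.toAddSubgroup (P ^ n) := by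
  induction n with
  | zero => simpa using CoeffIn.one R
  | succ n ih => rw [pow_succ]; exact ih.mul_ring hP

theorem CoeffIn.prod {R : Subring ℂ} {ι : Type*} (s : Finset ι) (P : ι → PowerSeries ℂ)
    (h : ∀ i ∈ s, CoeffIn R.toAddSubgroup (P i)) : CoeffIn R.toAddSubgroup (∏ i ∈ s, P i) := by
  classical
  induction s using Finset.induction_on with
  | empty => simpa using CoeffIn.one R
  | insert a s ha ih =>
    rw [Finset.prod_insert ha]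
    exact (h a (Finset.mem_insert_self a s)).mul_ring
      (ih fun i hi => h i (Finset.mem_insert_of_mem hi))

theorem CoeffIn.mono {M N : AddSubgroup ℂ} (hMN : M ≤ N) {P : PowerSeries ℂ} (hP : CoeffIn M P) :
    CoeffIn N P := fun n => hMN (hP n)

/-- Integral power series have coefficients in any subring. -/
theorem CoeffIn.map_int (R : Subring ℂ) (P : PowerSeries ℤ) :
    CoeffIn R.toAddSubgroup (P.map (Int.castRingHom ℂ)) := fun n => by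
  rw [PowerSeries.coeff_map]
  exact intCast_mem R _

/-- Congruent factors give congruent products: if `P i - Q i` has coefficients in `M` for all `i`
and all `P i`, `Q i` have coefficients in `R` (with `R • M ⊆ M`), then `∏ P i - ∏ Q i` has
coefficients in `M`. -/
theorem CoeffIn.prod_sub_prod {R : Subring ℂ} {M : AddSubgroup ℂ}
    (hRM : ∀ r ∈ R, ∀ y ∈ M, r * y ∈ M) {ι : Type*} (s : Finset ι) (P Q : ι → PowerSeries ℂ)
    (hP : ∀ i ∈ s, CoeffIn R.toAddSubgroup (P i)) (hQ : ∀ i ∈ s, CoeffIn R.toAddSubgroup (Q i))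
    (h : ∀ i ∈ s, CoeffIn M (P i - Q i)) : CoeffIn M (∏ i ∈ s, P i - ∏ i ∈ s, Q i) := by
  classical
  induction s using Finset.induction_on with
  | empty => simpa using CoeffIn.zero M
  | insert a s ha ih =>
    rw [Finset.prod_insert ha, Finset.prod_insert ha]
    have hsplit : P a * ∏ i ∈ s, P i - Q a * ∏ i ∈ s, Q i =
        (P a - Q a) * ∏ i ∈ s, P i + Q a * (∏ i ∈ s, P i - ∏ i ∈ s, Q i) := by ring
    rw [hsplit]
    refine CoeffIn.add ?_ ?_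
    · exact CoeffIn.mul' hRM (h a (Finset.mem_insert_self a s))
        (CoeffIn.prod s P fun i hi => hP i (Finset.mem_insert_of_mem hi))
    · exact CoeffIn.mul hRM (hQ a (Finset.mem_insert_self a s))
        (ih (fun i hi => hP i (Finset.mem_insert_of_mem hi))
          (fun i hi => hQ i (Finset.mem_insert_of_mem hi))
          (fun i hi => h i (Finset.mem_insert_of_mem hi)))

/-- `Θ ∈ M₂(Γ₀(p))` has constant term `1` and all higher `q`-expansion coefficients in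
`ℓ^j ℤ_(ℓ)`. -/
def ThetaCong (p ℓ j : ℕ) (Θ : ModularForm ((CongruenceSubgroup.Gamma0 p).map
    (Matrix.SpecialLinearGroup.mapGL ℝ)) 2) : Prop :=
  (qExpansion 1 Θ).coeff 0 = 1 ∧
    ∀ n, 0 < n → ∃ m a : ℤ, ¬ (ℓ : ℤ) ∣ m ∧
      (m : ℂ) * (qExpansion 1 Θ).coeff n = (ℓ : ℂ) ^ j * a

theorem ThetaCong.coeff_mem {p ℓ j : ℕ} (hℓ : ℓ.Prime)
    {Θ : ModularForm ((CongruenceSubgroup.Gamma0 p).map (Matrix.SpecialLinearGroup.mapGL ℝ)) 2}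
    (h : ThetaCong p ℓ j Θ) {n : ℕ} (hn : 0 < n) : (qExpansion 1 Θ).coeff n ∈ OlIdeal ℓ j := by
  obtain ⟨m, a, hm, hma⟩ := h.2 n hn
  have hcop : IsCoprime m (ℓ : ℤ) :=
    ((Nat.prime_iff_prime_int.mp hℓ).irreducible.coprime_iff_not_dvd.mpr hm).symm
  have hm0 : (m : ℂ) ≠ 0 := by
    have : m ≠ 0 := by rintro rfl; exact hm (dvd_zero _)
    exact_mod_cast this
  refine ⟨(a : ℂ) * (m : ℂ)⁻¹, (Ol ℓ).mul_mem (intCast_mem (Ol ℓ) a) (inv_int_mem_Ol ℓ hcop), ?_⟩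
  rw [← mul_assoc, ← hma]
  field_simp

theorem ThetaCong.mono {p ℓ i j : ℕ} (hij : i ≤ j)
    {Θ : ModularForm ((CongruenceSubgroup.Gamma0 p).map (Matrix.SpecialLinearGroup.mapGL ℝ)) 2}
    (h : ThetaCong p ℓ j Θ) : ThetaCong p ℓ i Θ := by
  refine ⟨h.1, fun n hn => ?_⟩
  obtain ⟨m, a, hm, hma⟩ := h.2 n hn
  refine ⟨m, (ℓ : ℤ) ^ (j - i) * a, hm, ?_⟩
  rw [hma]
  push_cast
  rw [← mul_assoc, ← pow_add, Nat.add_sub_cancel' hij]

end Fermat.Agent.S16
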