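/-
S16 shared infrastructure (helper6): the `p + 1` conjugates of a modular form on `Γ₀(p)`,
their expansions in `w = exp(2πiτ/p)`, and the `q`-expansions of Mathlib's norm and trace
to level one.
-/
import Mathlib
import Fermat.Prelude.Thm_UpperHalfPlane_qExpansion_prod
import Fermat.Prelude.Thm_UpperHalfPlane_qExpansion_coeff_nat_mul
import Fermat.Prelude.Thm_CongruenceSubgroup_one_mem_strictPeriods_Gamma0
import Fermat.Agent.S16.ThetaCong
import Fermat.Agent.S16.ConjTrace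

set_option autoImplicit false

open UpperHalfPlane ModularForm SlashInvariantForm CongruenceSubgroup Matrix Function
open scoped MatrixGroups ModularForm Manifold

namespace Fermat.Agent.S16

noncomputable section

/-! ### Coset representatives of `Γ₀(p)` in `SL(2,ℤ)` -/

/-- `SL(2,ℤ)` mapped onto its image `𝒮ℒ` in `GL(2,ℝ)`. -/
def cnRho : SL(2, ℤ) →* 𝒮ℒ :=
  (Matrix.SpecialLinearGroup.mapGL ℝ : SL(2, ℤ) →* GL (Fin 2) ℝ).rangeRestrict

lemma cnRho_surjective : Function.Surjective cnRho :=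
  MonoidHom.rangeRestrict_surjective _

@[simp] lemma cnRho_val (g : SL(2, ℤ)) :
    (cnRho g : GL (Fin 2) ℝ) = Matrix.SpecialLinearGroup.mapGL ℝ g := rfl

lemma cn_coe_ST (n : ℤ) :
    ((ModularGroup.S * ModularGroup.T ^ n : SL(2, ℤ)) : Matrix (Fin 2) (Fin 2) ℤ) =
      !![0, -1; 1, n] := by
  rw [Matrix.SpecialLinearGroup.coe_mul, ModularGroup.coe_T_zpow, ModularGroup.coe_S]
  ext i j
  fin_cases i <;> fin_cases j <;> simp [Matrix.mul_apply, Fin.sum_univ_two]

lemma cn_ST_mul_one_zero (n : ℤ) (h : SL(2, ℤ)) :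
    (ModularGroup.S * ModularGroup.T ^ n * h) 1 0 = h 0 0 + n * h 1 0 := by
  rw [Matrix.SpecialLinearGroup.coe_mul, cn_coe_ST]
  simp [Matrix.mul_apply, Fin.sum_univ_two]

lemma cn_ST_mul_inv_one_zero (m n : ℤ) :
    (ModularGroup.S * ModularGroup.T ^ m * (ModularGroup.S * ModularGroup.T ^ n)⁻¹) 1 0 =
      n - m := by
  rw [cn_ST_mul_one_zero, Matrix.SpecialLinearGroup.coe_inv, cn_coe_ST]
  simp [Matrix.adjugate_fin_two]
  ring

lemma cn_ST_inv_one_zero (n : ℤ) :
    ((ModularGroup.S * ModularGroup.T ^ n)⁻¹ : SL(2, ℤ)) 1 0 = -1 := by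
  rw [Matrix.SpecialLinearGroup.coe_inv, cn_coe_ST]
  simp [Matrix.adjugate_fin_two]

variable (p : ℕ)

/-- The class in `𝒮ℒ ⧸ Γ₀(p)` whose `quotientFunc` is the translate by `g`. -/
def cnQ (g : SL(2, ℤ)) :
    𝒮ℒ ⧸ ((Subgroup.map (Matrix.SpecialLinearGroup.mapGL ℝ) (Gamma0 p)).subgroupOf 𝒮ℒ) :=
  QuotientGroup.mk (cnRho g⁻¹)

lemma cnQ_eq_iff (g h : SL(2, ℤ)) : cnQ p g = cnQ p h ↔ g * h⁻¹ ∈ Gamma0 p := by
  unfold cnQ
  rw [QuotientGroup.eq, Subgroup.mem_subgroupOf, Subgroup.mem_map]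
  constructor
  · rintro ⟨x, hx, hxe⟩
    have : x = g * h⁻¹ := by
      apply Matrix.SpecialLinearGroup.mapGL_injective (S := ℝ)
      rw [hxe]
      simp
    exact this ▸ hx
  · intro hx
    exact ⟨g * h⁻¹, hx, by simp⟩

lemma cnQ_surjective : Function.Surjective (cnQ p) := by
  intro q
  induction q using QuotientGroup.induction_on with
  | H r =>
    obtain ⟨g, rfl⟩ := cnRho_surjective r
    exact ⟨g⁻¹, by simp [cnQ]⟩

/-- the `p + 1` coset representatives `1, S T^j`. -/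
def cnRep : Option (Fin p) → SL(2, ℤ)
  | none => 1
  | some j => ModularGroup.S * ModularGroup.T ^ ((j : ℕ) : ℤ)

variable [Fact p.Prime]

lemma cnRep_inj (x y : Option (Fin p)) (h : cnRep p x * (cnRep p y)⁻¹ ∈ Gamma0 p) : x = y := by
  have hp1 : (1 : ZMod p) ≠ 0 := one_ne_zero
  rw [Gamma0_mem] at h
  match x, y with
  | none, none => rfl
  | none, some j =>
    exfalso
    simp only [cnRep, one_mul] at h
    rw [cn_ST_inv_one_zero] at h
    apply hp1
    simpa using h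
  | some i, none =>
    exfalso
    simp only [cnRep, inv_one, mul_one] at h
    rw [cn_coe_ST] at h
    apply hp1
    simpa using h
  | some i, some j =>
    simp only [cnRep] at h
    rw [cn_ST_mul_inv_one_zero] at h
    have h2 : ((j : ℕ) : ZMod p) = ((i : ℕ) : ZMod p) := by
      have : (((j : ℕ) : ℤ) : ZMod p) - (((i : ℕ) : ℤ) : ZMod p) = 0 := by
        simpa using h
      simpa using sub_eq_zero.mp this
    have h3 := (ZMod.natCast_eq_natCast_iff' _ _ _).mp h2
    rw [Nat.mod_eq_of_lt j.2, Nat.mod_eq_of_lt i.2] at h3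
    exact congrArg some (Fin.ext h3.symm)

lemma cnRep_surj (g : SL(2, ℤ)) : ∃ x : Option (Fin p), cnRep p x * g ∈ Gamma0 p := by
  by_cases hc : ((g 1 0 : ℤ) : ZMod p) = 0
  · exact ⟨none, by simpa [cnRep, Gamma0_mem] using hc⟩
  · have hp0 : p ≠ 0 := (Fact.out : p.Prime).ne_zero
    haveI : NeZero p := ⟨hp0⟩
    set t : ZMod p := -((g 0 0 : ℤ) : ZMod p) * ((g 1 0 : ℤ) : ZMod p)⁻¹ with ht
    refine ⟨some ⟨t.val, ZMod.val_lt t⟩, ?_⟩
    rw [Gamma0_mem]
    simp only [cnRep]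
    rw [cn_ST_mul_one_zero]
    push_cast
    rw [ZMod.natCast_zmod_val, ht]
    field_simp
    ring

/-- The explicit parametrisation of `𝒮ℒ ⧸ Γ₀(p)` by `1, S T^j` (`j < p`). -/
def cnEquiv : Option (Fin p) ≃
    𝒮ℒ ⧸ ((Subgroup.map (Matrix.SpecialLinearGroup.mapGL ℝ) (Gamma0 p)).subgroupOf 𝒮ℒ) :=
  Equiv.ofBijective (fun x => cnQ p (cnRep p x))
    ⟨fun x y h => cnRep_inj p x y ((cnQ_eq_iff p _ _).mp h), fun q => by
      obtain ⟨g, rfl⟩ := cnQ_surjective p q
      obtain ⟨x, hx⟩ := cnRep_surj p g⁻¹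
      exact ⟨x, (cnQ_eq_iff p _ _).mpr hx⟩⟩

lemma cn_card_quot :
    Nat.card (𝒮ℒ ⧸ ((Subgroup.map (Matrix.SpecialLinearGroup.mapGL ℝ) (Gamma0 p)).subgroupOf 𝒮ℒ))
      = p + 1 := by
  rw [← Nat.card_congr (cnEquiv p)]
  simp

lemma cn_prod_quot {M : Type*} [CommMonoid M]
    [Fintype (𝒮ℒ ⧸ ((Subgroup.map (Matrix.SpecialLinearGroup.mapGL ℝ) (Gamma0 p)).subgroupOf 𝒮ℒ))]
    (Φ : 𝒮ℒ ⧸ ((Subgroup.map (Matrix.SpecialLinearGroup.mapGL ℝ) (Gamma0 p)).subgroupOf 𝒮ℒ) → M) :
    ∏ q, Φ q = Φ (cnQ p 1) *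
      ∏ j ∈ Finset.range p, Φ (cnQ p (ModularGroup.S * ModularGroup.T ^ (j : ℤ))) := by
  rw [← Equiv.prod_comp (cnEquiv p) Φ, Fintype.prod_option,
    ← Fin.prod_univ_eq_prod_range (fun j => Φ (cnQ p (ModularGroup.S * ModularGroup.T ^ (j : ℤ)))) p]
  rfl

lemma cn_sum_quot {M : Type*} [AddCommMonoid M]
    [Fintype (𝒮ℒ ⧸ ((Subgroup.map (Matrix.SpecialLinearGroup.mapGL ℝ) (Gamma0 p)).subgroupOf 𝒮ℒ))]
    (Φ : 𝒮ℒ ⧸ ((Subgroup.map (Matrix.SpecialLinearGroup.mapGL ℝ) (Gamma0 p)).subgroupOf 𝒮ℒ) → M) :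
    ∑ q, Φ q = Φ (cnQ p 1) +
      ∑ j ∈ Finset.range p, Φ (cnQ p (ModularGroup.S * ModularGroup.T ^ (j : ℤ))) := by
  rw [← Equiv.sum_comp (cnEquiv p) Φ, Fintype.sum_option,
    ← Fin.sum_univ_eq_sum_range (fun j => Φ (cnQ p (ModularGroup.S * ModularGroup.T ^ (j : ℤ)))) p]
  rfl


/-! ### Translates of a form on `Γ₀(p)` and their `w`-expansions -/

variable {p} {k : ℤ}

local notation "𝕢" => Function.Periodic.qParam

lemma cn_quotientFunc (f : ModularForm (Gamma0 p) k) (g : SL(2, ℤ)) :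
    quotientFunc f (cnQ p g) = ⇑f ∣[k] g := by
  have h := quotientFunc_mk (ℋ := 𝒮ℒ) f (cnRho g⁻¹)
  have h2 : ((cnRho g⁻¹ : 𝒮ℒ) : GL (Fin 2) ℝ)⁻¹ = Matrix.SpecialLinearGroup.mapGL ℝ g := by
    simp
  rw [h2] at h
  exact h

lemma cn_upperRightHom (n : ℤ) :
    (Matrix.GeneralLinearGroup.upperRightHom (n : ℝ) : GL (Fin 2) ℝ) =
      Matrix.SpecialLinearGroup.mapGL ℝ (ModularGroup.T ^ n) := by
  ext i j
  rw [Matrix.SpecialLinearGroup.mapGL_coe_matrix, Matrix.SpecialLinearGroup.map_apply_coe,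
    ModularGroup.coe_T_zpow]
  fin_cases i <;> fin_cases j <;> simp

lemma cn_conj_T_pow_mem (g : SL(2, ℤ)) : g * ModularGroup.T ^ (p : ℤ) * g⁻¹ ∈ Gamma0 p := by
  have h1 : ModularGroup.T ^ (p : ℤ) ∈ Gamma p := by
    simpa using ModularGroup_T_pow_mem_Gamma (p : ℤ) (p : ℤ) dvd_rfl
  have h2 := (Gamma_normal p).conj_mem _ h1 g
  exact (Gamma_mem.mp h2).2.2.1

open ConjAct Pointwise in
lemma cn_mem_strictPeriods (g : SL(2, ℤ)) :
    (p : ℝ) ∈ (toConjAct (Matrix.SpecialLinearGroup.mapGL ℝ g : GL (Fin 2) ℝ)⁻¹ •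
      (Subgroup.map (Matrix.SpecialLinearGroup.mapGL ℝ) (Gamma0 p))).strictPeriods := by
  rw [Subgroup.mem_strictPeriods_iff, map_inv, Subgroup.mem_inv_pointwise_smul_iff, toConjAct_smul]
  refine Subgroup.mem_map.mpr ⟨g * ModularGroup.T ^ (p : ℤ) * g⁻¹, cn_conj_T_pow_mem g, ?_⟩
  have := cn_upperRightHom (p : ℤ)
  simp only [Int.cast_natCast] at this
  rw [this]
  simp

lemma cn_mdiff (f : ModularForm (Gamma0 p) k) (g : SL(2, ℤ)) : MDiff (⇑f ∣[k] g) :=
  (ModularForm.translate f (Matrix.SpecialLinearGroup.mapGL ℝ g)).holo'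

lemma cn_bdd (f : ModularForm (Gamma0 p) k) (g : SL(2, ℤ)) : IsBoundedAtImInfty (⇑f ∣[k] g) :=
  ModularFormClass.bdd_at_infty_slash f g

lemma cn_periodic (f : ModularForm (Gamma0 p) k) (g : SL(2, ℤ)) :
    Function.Periodic ((⇑f ∣[k] g) ∘ ofComplex) (p : ℝ) :=
  SlashInvariantFormClass.periodic_comp_ofComplex
    (ModularForm.translate f (Matrix.SpecialLinearGroup.mapGL ℝ g)) (cn_mem_strictPeriods g)


lemma cn_pos : (0 : ℝ) < (p : ℝ) := by
  exact_mod_cast (Fact.out : p.Prime).pos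

/-- The expansion of the translate `f ∣[k] g` in the parameter `w = exp(2πiτ/p)`. -/
def cnSeries (p : ℕ) (k : ℤ) (f : ℍ → ℂ) (g : SL(2, ℤ)) : PowerSeries ℂ :=
  qExpansion (p : ℝ) (f ∣[k] g)

lemma cn_analyticAt (f : ModularForm (Gamma0 p) k) (g : SL(2, ℤ)) :
    AnalyticAt ℂ (cuspFunction (p : ℝ) (⇑f ∣[k] g)) 0 :=
  ModularFormClass.analyticAt_cuspFunction_zero
    (ModularForm.translate f (Matrix.SpecialLinearGroup.mapGL ℝ g)) cn_pos (cn_mem_strictPeriods g)

lemma cnSeries_hasSum (f : ModularForm (Gamma0 p) k) (g : SL(2, ℤ)) (τ : ℍ) :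
    HasSum (fun n : ℕ => (cnSeries p k f g).coeff n * 𝕢 (p : ℝ) τ ^ n) ((⇑f ∣[k] g) τ) := by
  simpa [smul_eq_mul, cnSeries] using
    UpperHalfPlane.hasSum_qExpansion cn_pos (cn_periodic f g) (cn_mdiff f g) (cn_bdd f g) τ

lemma cnSeries_unique (f : ModularForm (Gamma0 p) k) (g : SL(2, ℤ)) (c : ℕ → ℂ)
    (hc : ∀ τ : ℍ, HasSum (fun n : ℕ => c n * 𝕢 (p : ℝ) τ ^ n) ((⇑f ∣[k] g) τ)) (n : ℕ) :
    (cnSeries p k f g).coeff n = c n := by
  have h := ModularFormClass.qExpansion_coeff_unique (c := c) cn_pos (cn_mem_strictPeriods g)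
    (f := ModularForm.translate f (Matrix.SpecialLinearGroup.mapGL ℝ g)) hc n
  exact h.symm

/-- `ζ = exp(2πi/p)`. -/
def cnZeta (p : ℕ) : ℂ := 𝕢 (p : ℝ) 1

lemma cn_slash_T (F : ℍ → ℂ) (j : ℤ) (τ : ℍ) :
    (F ∣[k] (ModularGroup.T ^ j)) τ = F ((j : ℝ) +ᵥ τ) := by
  rw [SL_slash_apply, modular_T_zpow_smul, ModularGroup.denom_apply, ModularGroup.coe_T_zpow]
  simp

lemma cn_qParam_vadd (j : ℕ) (τ : ℍ) :
    𝕢 (p : ℝ) ((((j : ℤ) : ℝ) +ᵥ τ : ℍ) : ℂ) = cnZeta p ^ j * 𝕢 (p : ℝ) τ := by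
  have hp : (p : ℂ) ≠ 0 := by exact_mod_cast (Fact.out : p.Prime).ne_zero
  unfold cnZeta Function.Periodic.qParam
  rw [← Complex.exp_nat_mul, ← Complex.exp_add]
  congr 1
  simp only [UpperHalfPlane.coe_vadd, Complex.ofReal_intCast, Int.cast_natCast, Complex.ofReal_natCast]
  field_simp

lemma cnSeries_mul_T (f : ModularForm (Gamma0 p) k) (g : SL(2, ℤ)) (j : ℕ) :
    cnSeries p k f (g * ModularGroup.T ^ (j : ℤ)) =
      PowerSeries.rescale (cnZeta p ^ j) (cnSeries p k f g) := by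
  ext n
  rw [PowerSeries.coeff_rescale]
  refine cnSeries_unique f _ (fun n => (cnZeta p ^ j) ^ n * (cnSeries p k f g).coeff n) ?_ n
  intro τ
  have h1 : (⇑f ∣[k] (g * ModularGroup.T ^ (j : ℤ))) τ = (⇑f ∣[k] g) ((((j : ℤ) : ℝ)) +ᵥ τ) := by
    rw [SlashAction.slash_mul, cn_slash_T]
  rw [h1]
  have h2 := cnSeries_hasSum f g ((((j : ℤ) : ℝ)) +ᵥ τ)
  rw [cn_qParam_vadd] at h2
  convert h2 using 2 with n
  ring

lemma cnSeries_one (f : ModularForm (Gamma0 p) k) :
    cnSeries p k f 1 = PowerSeries.expand p (Fact.out : p.Prime).ne_zero (qExpansion 1 f) := by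
  ext n
  have h1 : (⇑f ∣[k] (1 : SL(2, ℤ))) = ⇑f := SlashAction.slash_one k _
  have h0 : Function.Periodic (⇑f ∘ ofComplex) (1 : ℝ) :=
    SlashInvariantFormClass.periodic_comp_ofComplex f
      (CongruenceSubgroup.one_mem_strictPeriods_Gamma0 p)
  have h2 := UpperHalfPlane.qExpansion_coeff_nat_mul (h := 1) one_pos (F := ⇑f) h0
    (ModularFormClass.holo f) (ModularFormClass.bdd_at_infty f) (Fact.out : p.Prime).pos n
  rw [cnSeries, h1, PowerSeries.coeff_expand]
  simpa using h2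


lemma cnZeta_pow_self : cnZeta p ^ p = 1 := by
  have hp : (p : ℂ) ≠ 0 := by exact_mod_cast (Fact.out : p.Prime).ne_zero
  unfold cnZeta Function.Periodic.qParam
  rw [← Complex.exp_nat_mul]
  convert Complex.exp_two_pi_mul_I using 2
  push_cast
  field_simp

lemma cnZeta_isPrimitiveRoot : IsPrimitiveRoot (cnZeta p) p := by
  have h := Complex.isPrimitiveRoot_exp p (Fact.out : p.Prime).ne_zero
  have : cnZeta p = Complex.exp (2 * Real.pi * Complex.I / p) := by
    unfold cnZeta Function.Periodic.qParam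
    congr 1
    push_cast
    ring
  rw [this]
  exact h

/-! ### Norm and trace to level one -/

lemma cn_norm_coe (f : ModularForm (Gamma0 p) k) :
    ⇑(ModularForm.norm 𝒮ℒ f) = ∏ x : Option (Fin p), (⇑f ∣[k] cnRep p x) := by
  rw [ModularForm.coe_norm]
  letI := Fintype.ofFinite
    (𝒮ℒ ⧸ ((Subgroup.map (Matrix.SpecialLinearGroup.mapGL ℝ) (Gamma0 p)).subgroupOf 𝒮ℒ))
  rw [← Equiv.prod_comp (cnEquiv p)]
  exact Finset.prod_congr rfl fun x _ => cn_quotientFunc f (cnRep p x)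

lemma cn_trace_coe (f : ModularForm (Gamma0 p) k) :
    ⇑(ModularForm.trace 𝒮ℒ f) = ∑ x : Option (Fin p), (⇑f ∣[k] cnRep p x) := by
  rw [ModularForm.coe_trace]
  letI := Fintype.ofFinite
    (𝒮ℒ ⧸ ((Subgroup.map (Matrix.SpecialLinearGroup.mapGL ℝ) (Gamma0 p)).subgroupOf 𝒮ℒ))
  rw [← Equiv.sum_comp (cnEquiv p)]
  exact Finset.sum_congr rfl fun x _ => cn_quotientFunc f (cnRep p x)

lemma cn_qExpansion_levelOne {k' : ℤ} (N : ModularForm 𝒮ℒ k') :
    qExpansion (p : ℝ) N = PowerSeries.expand p (Fact.out : p.Prime).ne_zero (qExpansion 1 N) := by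
  ext n
  have h0 : Function.Periodic (⇑N ∘ ofComplex) (1 : ℝ) :=
    SlashInvariantFormClass.periodic_comp_ofComplex N one_mem_strictPeriods_SL
  have h2 := UpperHalfPlane.qExpansion_coeff_nat_mul (h := 1) one_pos (F := ⇑N) h0
    (ModularFormClass.holo N) (ModularFormClass.bdd_at_infty N) (Fact.out : p.Prime).pos n
  rw [PowerSeries.coeff_expand]
  simpa using h2

lemma cn_prod_cnSeries (f : ModularForm (Gamma0 p) k) :
    ∏ x : Option (Fin p), cnSeries p k f (cnRep p x) =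
      PowerSeries.expand p (Fact.out : p.Prime).ne_zero (qExpansion 1 f) *
        ∏ j ∈ Finset.range p, PowerSeries.rescale (cnZeta p ^ j) (cnSeries p k f ModularGroup.S) := by
  rw [Fintype.prod_option, ← Fin.prod_univ_eq_prod_range
    (fun j => PowerSeries.rescale (cnZeta p ^ j) (cnSeries p k f ModularGroup.S)) p]
  congr 1
  · exact cnSeries_one f
  · refine Finset.prod_congr rfl fun j _ => ?_
    exact cnSeries_mul_T f ModularGroup.S j

lemma cn_sum_cnSeries (f : ModularForm (Gamma0 p) k) :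
    ∑ x : Option (Fin p), cnSeries p k f (cnRep p x) =
      PowerSeries.expand p (Fact.out : p.Prime).ne_zero (qExpansion 1 f) +
        ∑ j ∈ Finset.range p, PowerSeries.rescale (cnZeta p ^ j) (cnSeries p k f ModularGroup.S) := by
  rw [Fintype.sum_option, ← Fin.sum_univ_eq_sum_range
    (fun j => PowerSeries.rescale (cnZeta p ^ j) (cnSeries p k f ModularGroup.S)) p]
  congr 1
  · exact cnSeries_one f
  · refine Finset.sum_congr rfl fun j _ => ?_
    exact cnSeries_mul_T f ModularGroup.S j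

/-- **Norm formula**: the `q`-expansion of the norm to level one, in the variable `w = q^(1/p)`. -/
theorem cn_qExpansion_norm (f : ModularForm (Gamma0 p) k) :
    PowerSeries.expand p (Fact.out : p.Prime).ne_zero (qExpansion 1 (ModularForm.norm 𝒮ℒ f)) =
      PowerSeries.expand p (Fact.out : p.Prime).ne_zero (qExpansion 1 f) *
        ∏ j ∈ Finset.range p, PowerSeries.rescale (cnZeta p ^ j) (cnSeries p k f ModularGroup.S) := by
  rw [← cn_qExpansion_levelOne, cn_norm_coe, ← cn_prod_cnSeries]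
  exact UpperHalfPlane.qExpansion_prod Finset.univ (fun x _ => cn_analyticAt f (cnRep p x))

lemma cn_qExpansion_sum {h : ℝ} {ι : Type*} (s : Finset ι) (hs : s.Nonempty) (F : ι → ℍ → ℂ)
    (hF : ∀ i ∈ s, AnalyticAt ℂ (cuspFunction h (F i)) 0) :
    AnalyticAt ℂ (cuspFunction h (∑ i ∈ s, F i)) 0 ∧
      qExpansion h (∑ i ∈ s, F i) = ∑ i ∈ s, qExpansion h (F i) := by
  induction hs using Finset.Nonempty.cons_induction with
  | singleton a => simpa using hF a (by simp)
  | cons a s ha hs ih =>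
    have h1 := hF a (by simp)
    obtain ⟨h2, h3⟩ := ih (fun i hi => hF i (by simp [hi]))
    rw [Finset.sum_cons, Finset.sum_cons]
    refine ⟨?_, ?_⟩
    · rw [UpperHalfPlane.cuspFunction_add h1.continuousAt h2.continuousAt]
      exact h1.add h2
    · rw [UpperHalfPlane.qExpansion_add h1 h2, h3]

/-- **Trace formula** in the variable `w = q^(1/p)`. -/
theorem cn_qExpansion_trace (f : ModularForm (Gamma0 p) k) :
    PowerSeries.expand p (Fact.out : p.Prime).ne_zero (qExpansion 1 (ModularForm.trace 𝒮ℒ f)) =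
      PowerSeries.expand p (Fact.out : p.Prime).ne_zero (qExpansion 1 f) +
        ∑ j ∈ Finset.range p, PowerSeries.rescale (cnZeta p ^ j) (cnSeries p k f ModularGroup.S) := by
  rw [← cn_qExpansion_levelOne, cn_trace_coe, ← cn_sum_cnSeries]
  exact (cn_qExpansion_sum Finset.univ Finset.univ_nonempty _
    (fun x _ => cn_analyticAt f (cnRep p x))).2

/-- **Trace formula**, coefficientwise: `a_m(Tr f) = a_m(f) + p * b_{pm}`. -/
theorem cn_coeff_trace (f : ModularForm (Gamma0 p) k) (m : ℕ) :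
    (qExpansion 1 (ModularForm.trace 𝒮ℒ f)).coeff m =
      (qExpansion 1 f).coeff m + p * (cnSeries p k f ModularGroup.S).coeff (p * m) := by
  have h := congrArg (PowerSeries.coeff (p * m)) (cn_qExpansion_trace f)
  rw [PowerSeries.coeff_expand_mul, map_add, PowerSeries.coeff_expand_mul, map_sum] at h
  rw [h]
  congr 1
  have : ∀ j ∈ Finset.range p, PowerSeries.coeff (p * m)
      (PowerSeries.rescale (cnZeta p ^ j) (cnSeries p k f ModularGroup.S)) =
      (cnSeries p k f ModularGroup.S).coeff (p * m) := by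
    intro j _
    rw [PowerSeries.coeff_rescale, ← pow_mul, mul_comm j, mul_assoc, pow_mul, cnZeta_pow_self,
      one_pow, one_mul]
  rw [Finset.sum_congr rfl this]
  simp


/-! ### The consumer API: `ConjExp`, `conjSeries` -/

/-- `ConjExp p k f B`: the power series `B` is the expansion of `f ∣[k] S` in the parameter
`w = exp(2πiτ/p)` (the expansion of `f` at the cusp `0`). Stated on bare functions. -/
def ConjExp (p : ℕ) (k : ℤ) (f : ℍ → ℂ) (B : PowerSeries ℂ) : Prop :=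
  ∀ τ : ℍ, HasSum (fun n : ℕ => B.coeff n * 𝕢 (p : ℝ) τ ^ n) ((f ∣[k] ModularGroup.S) τ)

/-- The expansion at the cusp `0` of a modular form on `Γ₀(p)`. -/
def conjSeries (F : ModularForm (Gamma0 p) k) : PowerSeries ℂ :=
  cnSeries p k F ModularGroup.S

/-- Existence. -/
theorem conjExp_conjSeries (F : ModularForm (Gamma0 p) k) : ConjExp p k F (conjSeries F) :=
  fun τ => cnSeries_hasSum F ModularGroup.S τ

/-- Uniqueness (for modular forms on `Γ₀(p)`). -/
theorem ConjExp.eq_conjSeries {F : ModularForm (Gamma0 p) k} {B : PowerSeries ℂ}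
    (h : ConjExp p k F B) : B = conjSeries F := by
  ext n
  exact (cnSeries_unique F ModularGroup.S (fun n => B.coeff n) h n).symm

omit [Fact p.Prime] in
theorem ConjExp.congr {f g : ℍ → ℂ} {B : PowerSeries ℂ} (h : ConjExp p k f B) (hfg : f = g) :
    ConjExp p k g B := hfg ▸ h

omit [Fact p.Prime] in
theorem ConjExp.add {f g : ℍ → ℂ} {B C : PowerSeries ℂ} (hf : ConjExp p k f B)
    (hg : ConjExp p k g C) : ConjExp p k (f + g) (B + C) := by
  intro τ
  rw [SlashAction.add_slash]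
  simpa [add_mul] using (hf τ).add (hg τ)

omit [Fact p.Prime] in
theorem ConjExp.smul {f : ℍ → ℂ} {B : PowerSeries ℂ} (c : ℂ) (hf : ConjExp p k f B) :
    ConjExp p k (c • f) (c • B) := by
  intro τ
  rw [SL_smul_slash]
  simpa [mul_assoc] using (hf τ).mul_left c

omit [Fact p.Prime] in
theorem ConjExp.neg {f : ℍ → ℂ} {B : PowerSeries ℂ} (hf : ConjExp p k f B) :
    ConjExp p k (-f) (-B) := by
  have := hf.smul (-1)
  simpa using this

omit [Fact p.Prime] in
theorem ConjExp.sub {f g : ℍ → ℂ} {B C : PowerSeries ℂ} (hf : ConjExp p k f B)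
    (hg : ConjExp p k g C) : ConjExp p k (f - g) (B - C) := by
  simpa [sub_eq_add_neg] using hf.add hg.neg

omit [Fact p.Prime] in
theorem ConjExp.mul {k₁ k₂ : ℤ} {f g : ℍ → ℂ} {B C : PowerSeries ℂ} (hf : ConjExp p k₁ f B)
    (hg : ConjExp p k₂ g C) : ConjExp p (k₁ + k₂) (f * g) (B * C) := by
  intro τ
  rw [ModularForm.mul_slash_SL2]
  have h1 := hf τ
  have h2 := hg τ
  have hn1 : Summable fun n : ℕ => ‖B.coeff n * 𝕢 (p : ℝ) τ ^ n‖ := h1.summable.norm
  have hn2 : Summable fun n : ℕ => ‖C.coeff n * 𝕢 (p : ℝ) τ ^ n‖ := h2.summable.norm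
  have h3 := tsum_mul_tsum_eq_tsum_sum_antidiagonal_of_summable_norm hn1 hn2
  have h4 := (summable_norm_sum_mul_antidiagonal_of_summable_norm hn1 hn2).of_norm
  have h5 : (fun n : ℕ => (B * C).coeff n * 𝕢 (p : ℝ) τ ^ n) = fun n : ℕ =>
      ∑ kl ∈ Finset.HasAntidiagonal.antidiagonal n, (B.coeff kl.1 * 𝕢 (p : ℝ) τ ^ kl.1) *
        (C.coeff kl.2 * 𝕢 (p : ℝ) τ ^ kl.2) := by
    funext n
    rw [PowerSeries.coeff_mul, Finset.sum_mul]
    refine Finset.sum_congr rfl fun kl hkl => ?_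
    rw [← (Finset.HasAntidiagonal.mem_antidiagonal.mp hkl), pow_add]
    ring
  rw [h5, Pi.mul_apply, ← h1.tsum_eq, ← h2.tsum_eq, h3]
  exact h4.hasSum

omit [Fact p.Prime] in
theorem ConjExp.cast {k k' : ℤ} {f : ℍ → ℂ} {B : PowerSeries ℂ} (hf : ConjExp p k f B)
    (hk : k = k') : ConjExp p k' f B := hk ▸ hf

lemma cn_qParam_pow (τ : ℍ) : 𝕢 (p : ℝ) τ ^ p = 𝕢 (1 : ℝ) τ := by
  have hp : (p : ℂ) ≠ 0 := by exact_mod_cast (Fact.out : p.Prime).ne_zero
  unfold Function.Periodic.qParam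
  rw [← Complex.exp_nat_mul]
  congr 1
  push_cast
  field_simp

/-- Level-one forms: the expansion at the cusp `0` is the `q`-expansion in `q = w^p`. -/
theorem conjExp_levelOne (g : ModularForm 𝒮ℒ k) :
    ConjExp p k g (PowerSeries.expand p (Fact.out : p.Prime).ne_zero (qExpansion 1 g)) := by
  intro τ
  have hS : (⇑g ∣[k] ModularGroup.S) = ⇑g :=
    g.slash_action_eq' (Matrix.SpecialLinearGroup.mapGL ℝ ModularGroup.S) ⟨ModularGroup.S, rfl⟩
  rw [hS]
  have h1 := ModularForm.hasSum_qExpansion g one_pos one_mem_strictPeriods_SL τ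
  have hinj : Function.Injective (fun n : ℕ => p * n) :=
    fun a b hab => Nat.eq_of_mul_eq_mul_left (Fact.out : p.Prime).pos hab
  refine (Function.Injective.hasSum_iff hinj ?_).mp ?_
  · intro m hm
    have : ¬ p ∣ m := fun ⟨c, hc⟩ => hm ⟨c, hc.symm⟩
    rw [PowerSeries.coeff_expand_of_not_dvd _ _ _ this, zero_mul]
  · convert h1 using 2 with n
    simp only [Function.comp_apply]
    rw [PowerSeries.coeff_expand_mul, pow_mul, cn_qParam_pow]

/-- A level-one form, viewed as a form on `Γ₀(p)`. -/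
def conjRestrict (p : ℕ) {k : ℤ} (g : ModularForm 𝒮ℒ k) : ModularForm (Gamma0 p) k where
  toFun := g
  slash_action_eq' γ hγ := g.slash_action_eq' γ (Subgroup.map_le_range _ _ hγ)
  holo' := g.holo'
  bdd_at_cusps' hc := g.bdd_at_cusps' (hc.mono (Subgroup.map_le_range _ _))

omit [Fact p.Prime] in
@[simp] lemma coe_conjRestrict (g : ModularForm 𝒮ℒ k) : ⇑(conjRestrict p g) = ⇑g := rfl

omit [Fact p.Prime] in
lemma qExpansion_conjRestrict (g : ModularForm 𝒮ℒ k) :
    qExpansion 1 (conjRestrict p g) = qExpansion 1 g := rfl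

theorem conjSeries_restrict (g : ModularForm 𝒮ℒ k) :
    conjSeries (conjRestrict p g) =
      PowerSeries.expand p (Fact.out : p.Prime).ne_zero (qExpansion 1 g) :=
  (ConjExp.eq_conjSeries (F := conjRestrict p g) (conjExp_levelOne g)).symm

theorem conjSeries_add (F G : ModularForm (Gamma0 p) k) :
    conjSeries (F + G) = conjSeries F + conjSeries G :=
  (ConjExp.eq_conjSeries (F := F + G)
    ((conjExp_conjSeries F).add (conjExp_conjSeries G))).symm

theorem conjSeries_smul (c : ℂ) (F : ModularForm (Gamma0 p) k) :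
    conjSeries (c • F) = c • conjSeries F :=
  (ConjExp.eq_conjSeries (F := c • F) ((conjExp_conjSeries F).smul c)).symm

theorem conjSeries_neg (F : ModularForm (Gamma0 p) k) :
    conjSeries (-F) = -conjSeries F :=
  (ConjExp.eq_conjSeries (F := -F) (conjExp_conjSeries F).neg).symm

theorem conjSeries_sub (F G : ModularForm (Gamma0 p) k) :
    conjSeries (F - G) = conjSeries F - conjSeries G :=
  (ConjExp.eq_conjSeries (F := F - G)
    ((conjExp_conjSeries F).sub (conjExp_conjSeries G))).symm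

theorem conjSeries_mul {k₁ k₂ : ℤ} (F : ModularForm (Gamma0 p) k₁)
    (G : ModularForm (Gamma0 p) k₂) :
    conjSeries (F.mul G) = conjSeries F * conjSeries G :=
  (ConjExp.eq_conjSeries (F := F.mul G)
    ((conjExp_conjSeries F).mul (conjExp_conjSeries G))).symm

theorem conjSeries_mcast {k k' : ℤ} (h : k = k') (F : ModularForm (Gamma0 p) k) :
    conjSeries (ModularForm.mcast h F) = conjSeries F := by
  subst h
  rfl


/-! ### (C3), (C3'), (C4): norm and trace in the consumer form -/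

/-- The norm to level one, with a cast-free weight. -/
def conjNorm (F : ModularForm (Gamma0 p) k) : ModularForm 𝒮ℒ (k * (p + 1)) :=
  ModularForm.mcast (by rw [cn_card_quot]; push_cast; ring) (ModularForm.norm 𝒮ℒ F)

lemma coe_conjNorm (F : ModularForm (Gamma0 p) k) :
    ⇑(conjNorm F) = ⇑(ModularForm.norm 𝒮ℒ F) := rfl

lemma qExpansion_conjNorm (F : ModularForm (Gamma0 p) k) :
    qExpansion 1 (conjNorm F) = qExpansion 1 (ModularForm.norm 𝒮ℒ F) := rfl

/-- The norm as an explicit product over the coset representatives `1, S T^b`. -/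
theorem conjNorm_apply (F : ModularForm (Gamma0 p) k) (τ : ℍ) :
    conjNorm F τ = F τ * ∏ b ∈ Finset.range p,
      (⇑F ∣[k] (ModularGroup.S * ModularGroup.T ^ (b : ℤ))) τ := by
  show (⇑(ModularForm.norm 𝒮ℒ F)) τ = _
  rw [cn_norm_coe, Finset.prod_apply, Fintype.prod_option,
    ← Fin.prod_univ_eq_prod_range
      (fun b => (⇑F ∣[k] (ModularGroup.S * ModularGroup.T ^ (b : ℤ))) τ) p]
  congr 1
  show (⇑F ∣[k] (1 : SL(2, ℤ))) τ = F τ
  rw [SlashAction.slash_one]

/-- The trace as an explicit sum over the coset representatives `1, S T^b`. -/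
theorem conjTrace_apply (F : ModularForm (Gamma0 p) k) (τ : ℍ) :
    ModularForm.trace 𝒮ℒ F τ = F τ + ∑ b ∈ Finset.range p,
      (⇑F ∣[k] (ModularGroup.S * ModularGroup.T ^ (b : ℤ))) τ := by
  show (⇑(ModularForm.trace 𝒮ℒ F)) τ = _
  rw [cn_trace_coe, Finset.sum_apply, Fintype.sum_option,
    ← Fin.sum_univ_eq_sum_range
      (fun b => (⇑F ∣[k] (ModularGroup.S * ModularGroup.T ^ (b : ℤ))) τ) p]
  congr 1
  show (⇑F ∣[k] (1 : SL(2, ℤ))) τ = F τ
  rw [SlashAction.slash_one]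

/-- **(C3) Norm formula**: with `A = qExpansion 1 F`, `B = conjSeries F`, `ζ = exp(2πi/p)`:
`N(F)(w^p) = A(w^p) * ∏_{b<p} B(ζ^b w)`. -/
theorem conj_norm_expand (F : ModularForm (Gamma0 p) k) :
    PowerSeries.expand p (Fact.out : p.Prime).ne_zero (qExpansion 1 (conjNorm F)) =
      PowerSeries.expand p (Fact.out : p.Prime).ne_zero (qExpansion 1 F) *
        ∏ b ∈ Finset.range p, PowerSeries.rescale (cnZeta p ^ b) (conjSeries F) :=
  cn_qExpansion_norm F

omit [Fact p.Prime] in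
lemma cn_coeffIn_expand {M : AddSubgroup ℂ} (hp : p ≠ 0) {P : PowerSeries ℂ} (hP : CoeffIn M P) :
    CoeffIn M (PowerSeries.expand p hp P) := fun n => by
  rw [PowerSeries.coeff_expand]
  split_ifs
  · exact hP _
  · exact M.zero_mem

/-- **(C3') Norm congruence** (consumer form): if the expansion of `F` at `∞` is `≡ A₀` and the
expansion at `0` is `≡ B₀(w^p)` modulo `M` (an ideal of a subring `R ∋ ζ_p` of `ℂ`), then the
`q`-expansion of the norm is `≡ A₀ * B₀^p` modulo `M`. -/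
theorem conj_norm_coeffIn (R : Subring ℂ) (hζ : cnZeta p ∈ R) (M : AddSubgroup ℂ)
    (hRM : ∀ r ∈ R, ∀ y ∈ M, r * y ∈ M) (hMR : M ≤ R.toAddSubgroup)
    (F : ModularForm (Gamma0 p) k) (A₀ B₀ : PowerSeries ℂ)
    (hA₀ : CoeffIn R.toAddSubgroup A₀) (hB₀ : CoeffIn R.toAddSubgroup B₀)
    (hA : CoeffIn M (qExpansion 1 F - A₀))
    (hB : CoeffIn M (conjSeries F - PowerSeries.expand p (Fact.out : p.Prime).ne_zero B₀)) :
    CoeffIn M (qExpansion 1 (conjNorm F) - A₀ * B₀ ^ p) := by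
  have hp0 : p ≠ 0 := (Fact.out : p.Prime).ne_zero
  set E := PowerSeries.expand p hp0 (R := ℂ) with hE
  have hEB₀ : CoeffIn R.toAddSubgroup (E B₀) := cn_coeffIn_expand hp0 hB₀
  have hAR : CoeffIn R.toAddSubgroup (qExpansion 1 F) := by
    have := (CoeffIn.mono hMR hA).add hA₀
    simpa using this
  have hBR : CoeffIn R.toAddSubgroup (conjSeries F) := by
    have := (CoeffIn.mono hMR hB).add hEB₀
    simpa using this
  have hζb : ∀ b n : ℕ, (cnZeta p ^ b) ^ n ∈ R := fun b n => R.pow_mem (R.pow_mem hζ b) n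
  have h1 : CoeffIn M (∏ b ∈ Finset.range p, PowerSeries.rescale (cnZeta p ^ b) (conjSeries F) -
      ∏ _b ∈ Finset.range p, E B₀) := by
    refine CoeffIn.prod_sub_prod hRM (Finset.range p) _ _ ?_ (fun _ _ => hEB₀) ?_
    · intro b _ n
      rw [PowerSeries.coeff_rescale]
      exact R.mul_mem (hζb b n) (hBR n)
    · intro b _ n
      have h2 : PowerSeries.coeff n (E B₀) = (cnZeta p ^ b) ^ n * PowerSeries.coeff n (E B₀) := by
        rw [hE, PowerSeries.coeff_expand]
        split_ifs with hd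
        · obtain ⟨c, rfl⟩ := hd
          rw [← pow_mul, mul_comm b, mul_assoc, pow_mul, cnZeta_pow_self, one_pow, one_mul]
        · simp
      rw [map_sub, PowerSeries.coeff_rescale, h2, ← mul_sub, ← map_sub]
      exact hRM _ (hζb b n) _ (hB n)
  rw [Finset.prod_const, Finset.card_range] at h1
  have h3 : CoeffIn M (E (qExpansion 1 (conjNorm F) - A₀ * B₀ ^ p)) := by
    have h4 : E (qExpansion 1 (conjNorm F) - A₀ * B₀ ^ p) =
        E (qExpansion 1 F) * (∏ b ∈ Finset.range p,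
          PowerSeries.rescale (cnZeta p ^ b) (conjSeries F) - E B₀ ^ p) +
        E (qExpansion 1 F - A₀) * E B₀ ^ p := by
      rw [map_sub, map_mul, map_pow, map_sub, hE, conj_norm_expand F]
      ring
    rw [h4]
    refine CoeffIn.add ?_ ?_
    · exact CoeffIn.mul hRM (cn_coeffIn_expand hp0 hAR) h1
    · exact CoeffIn.mul' hRM (cn_coeffIn_expand hp0 hA) (CoeffIn.pow hEB₀ p)
  intro n
  have := h3 (p * n)
  rwa [hE, PowerSeries.coeff_expand_mul] at this

/-- Integrality of the norm: `R`-integral expansions at both cusps give an `R`-integral norm. -/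
theorem conj_norm_coeffIn_ring (R : Subring ℂ) (hζ : cnZeta p ∈ R)
    (F : ModularForm (Gamma0 p) k) (hA : CoeffIn R.toAddSubgroup (qExpansion 1 F))
    (hB : CoeffIn R.toAddSubgroup (conjSeries F)) :
    CoeffIn R.toAddSubgroup (qExpansion 1 (conjNorm F)) := by
  have := conj_norm_coeffIn R hζ R.toAddSubgroup (fun _ hr _ hy => R.mul_mem hr hy) le_rfl F 0 0
    (CoeffIn.zero _) (CoeffIn.zero _) (by simpa using hA) (by simpa using hB)
  have hp0 : p ≠ 0 := (Fact.out : p.Prime).ne_zero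
  simpa [zero_pow hp0] using this

/-- **(C4) Trace formula**, coefficientwise: `a_m(Tr F) = a_m(F) + p * b_{pm}`. -/
theorem conj_trace_coeff (F : ModularForm (Gamma0 p) k) (m : ℕ) :
    (qExpansion 1 (ModularForm.trace 𝒮ℒ F)).coeff m =
      (qExpansion 1 F).coeff m + p * (conjSeries F).coeff (p * m) :=
  cn_coeff_trace F m


/-! ### Compatibility with `TraceLemma.lean` (`tl_norm`) and `ConjTrace.lean` ((C5)) -/

lemma qExpansion_tl_norm (F : ModularForm (Gamma0 p) k) :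
    qExpansion 1 (tl_norm F) = qExpansion 1 (conjNorm F) := rfl

/-- (C3) for `tl_norm`. -/
theorem conj_norm_expand_tl (F : ModularForm (Gamma0 p) k) :
    PowerSeries.expand p (Fact.out : p.Prime).ne_zero (qExpansion 1 (tl_norm F)) =
      PowerSeries.expand p (Fact.out : p.Prime).ne_zero (qExpansion 1 F) *
        ∏ b ∈ Finset.range p, PowerSeries.rescale (cnZeta p ^ b) (conjSeries F) :=
  conj_norm_expand F

/-- The expansion at the cusp `0` through the Fricke transform of `TraceLemma.lean`. -/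
theorem conjSeries_coeff_fricke (F : ModularForm (Gamma0 p) k) (n : ℕ) :
    (conjSeries F).coeff n = (p : ℂ) ^ (1 - k) * (qExpansion 1 (tl_fricke F)).coeff n :=
  h61_conj_coeff_of F (conjSeries F) (conjExp_conjSeries F) n

/-- **(C5)** weight two: `b_n = -(1/p) a_{pn}`. -/
theorem conj_weight_two_coeff (Θ : ModularForm (Gamma0 p) 2) (n : ℕ) :
    (conjSeries Θ).coeff n = -(1 / (p : ℂ)) * (qExpansion 1 Θ).coeff (p * n) :=
  conj_weight_two_coeff_of Θ (conjSeries Θ) (conjExp_conjSeries Θ) n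

end

end Fermat.Agent.S16
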