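import Mathlib
import Fermat.Agent.S23.LevelOne

/-!
# Level one Sturm bound, in "additive subgroup" form

For an additive subgroup `M` of `ℂ` and a level one modular form `f` of weight `k`: if the
`q`-expansion coefficients `a_n(f)` with `12 n ≤ k` lie in `M`, then all coefficients lie in `M`.

* `M = R` a subring: `R`-integrality of `f` is detected on the first `⌊k/12⌋ + 1` coefficients.
* `M = ℓ R`: a form with `R`-integral coefficients whose first `⌊k/12⌋ + 1` coefficients vanish
  mod `ℓ` vanishes mod `ℓ`.

Also exported: the `q`-expansions of `E₄`, `E₆`, `Δ` as images of explicit integral power series.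
-/

set_option autoImplicit false

open UpperHalfPlane ModularForm EisensteinSeries
open scoped MatrixGroups

namespace Fermat.Agent.S16

open Fermat.Agent.S23

/-- `∑_{n ≥ 1} σ₃(n) qⁿ` as an integral power series. -/
noncomputable def sturmA : PowerSeries ℤ :=
  PowerSeries.mk fun n => if n = 0 then 0 else (ArithmeticFunction.sigma 3 n : ℤ)

/-- `∑_{n ≥ 1} σ₅(n) qⁿ` as an integral power series. -/
noncomputable def sturmB : PowerSeries ℤ :=
  PowerSeries.mk fun n => if n = 0 then 0 else (ArithmeticFunction.sigma 5 n : ℤ)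

/-- `∑_{n ≥ 1} ((σ₃(n) - σ₅(n)) / 12) qⁿ` as an integral power series. -/
noncomputable def sturmD : PowerSeries ℤ :=
  PowerSeries.mk fun n =>
    if n = 0 then 0 else
      ((ArithmeticFunction.sigma 3 n : ℤ) - (ArithmeticFunction.sigma 5 n : ℤ)) / 12

theorem sturm_pow_three_sub_pow_five (d : ℕ) : (12 : ℤ) ∣ (d : ℤ) ^ 3 - (d : ℤ) ^ 5 := by
  have h : ∀ x : ZMod 12, x ^ 3 - x ^ 5 = 0 := by decide
  have h1 := h (d : ZMod 12)
  have h2 := (ZMod.intCast_zmod_eq_zero_iff_dvd ((d : ℤ) ^ 3 - (d : ℤ) ^ 5) 12).mp
    (by push_cast; exact h1)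
  exact_mod_cast h2

theorem sturm_sigma_three_sub_five (n : ℕ) :
    (12 : ℤ) ∣ (ArithmeticFunction.sigma 3 n : ℤ) - (ArithmeticFunction.sigma 5 n : ℤ) := by
  rw [ArithmeticFunction.sigma_apply, ArithmeticFunction.sigma_apply]
  push_cast
  rw [← Finset.sum_sub_distrib]
  exact Finset.dvd_sum fun d _ => sturm_pow_three_sub_pow_five d

theorem sturmA_sub_sturmB : sturmA - sturmB = 12 * sturmD := by
  ext n
  have h12 : (12 : PowerSeries ℤ) = PowerSeries.C (12 : ℤ) := by
    simp
  rw [h12, PowerSeries.coeff_C_mul]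
  simp only [sturmA, sturmB, sturmD, map_sub, PowerSeries.coeff_mk]
  split_ifs with h
  · simp
  · rw [Int.mul_ediv_cancel' (sturm_sigma_three_sub_five n)]

/-- The integral power series of `Δ`. -/
noncomputable def sturmDelta : PowerSeries ℤ :=
  sturmB + 100 * sturmA ^ 2 + 8000 * sturmA ^ 3 - 147 * sturmB ^ 2 + 5 * sturmD

theorem sturm_delta_identity :
    (1 + 240 * sturmA) ^ 3 - (1 - 504 * sturmB) ^ 2 = 1728 * sturmDelta := by
  unfold sturmDelta
  linear_combination (720 : PowerSeries ℤ) * sturmA_sub_sturmB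

theorem sturm_E4_qExpansion :
    qExpansion 1 E₄ = (1 + 240 * sturmA).map (Int.castRingHom ℂ) := by
  ext n
  rw [E_qExpansion_coeff (by norm_num) ⟨2, rfl⟩]
  have h240 : (240 : PowerSeries ℤ) = PowerSeries.C (240 : ℤ) := by simp
  simp only [PowerSeries.coeff_map, map_add, h240, PowerSeries.coeff_C_mul, sturmA,
    PowerSeries.coeff_mk, PowerSeries.coeff_one]
  split_ifs with h
  · simp
  · norm_num [show bernoulli 4 = -1 / 30 by decide +kernel]

theorem sturm_E6_qExpansion :
    qExpansion 1 E₆ = (1 - 504 * sturmB).map (Int.castRingHom ℂ) := by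
  ext n
  rw [E_qExpansion_coeff (by norm_num) ⟨3, rfl⟩]
  have h504 : (504 : PowerSeries ℤ) = PowerSeries.C (504 : ℤ) := by simp
  simp only [PowerSeries.coeff_map, map_sub, h504, PowerSeries.coeff_C_mul, sturmB,
    PowerSeries.coeff_mk, PowerSeries.coeff_one]
  split_ifs with h
  · simp
  · norm_num [show bernoulli 6 = 1 / 42 by decide +kernel]

theorem sturm_delta_qExpansion :
    qExpansion 1 CuspForm.discriminant = sturmDelta.map (Int.castRingHom ℂ) := by
  have hfun : (1728 : ℂ) • (⇑CuspForm.discriminant : ℍ → ℂ) =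
      ⇑(mcast (show (3 : ℤ) * 4 = 12 by norm_num) (E₄.pow 3)) -
        ⇑(mcast (show (2 : ℤ) * 6 = 12 by norm_num) (E₆.pow 2)) := by
    funext z
    have h := discriminant_eq_E₄_cube_sub_E₆_sq z
    have h43 : (E₄.pow 3) z = E₄ z ^ 3 := by rw [ModularForm.coe_pow]; rfl
    have h62 : (E₆.pow 2) z = E₆ z ^ 2 := by rw [ModularForm.coe_pow]; rfl
    simp only [Pi.smul_apply, Pi.sub_apply, coe_mcast, smul_eq_mul, CuspForm.coe_discriminant]
    rw [h, h43, h62]
    ring
  have h1 := congrArg (qExpansion 1) hfun
  rw [ModularForm.qExpansion_smul one_pos one_mem_strictPeriods_SL,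
    ModularForm.qExpansion_sub one_pos one_mem_strictPeriods_SL, coe_mcast, coe_mcast,
    ModularForm.qExpansion_pow one_pos one_mem_strictPeriods_SL,
    ModularForm.qExpansion_pow one_pos one_mem_strictPeriods_SL,
    sturm_E4_qExpansion, sturm_E6_qExpansion, ← map_pow, ← map_pow, ← map_sub,
    sturm_delta_identity] at h1
  ext n
  have h2 := congrArg (PowerSeries.coeff n) h1
  have h1728 : (1728 : PowerSeries ℤ) = PowerSeries.C (1728 : ℤ) := by simp
  simp only [PowerSeries.coeff_smul, PowerSeries.coeff_map, h1728, PowerSeries.coeff_C_mul,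
    smul_eq_mul] at h2 ⊢
  rw [map_mul] at h2
  have h1728' : (Int.castRingHom ℂ) 1728 = 1728 := by simp
  rw [h1728'] at h2
  exact mul_left_cancel₀ (by norm_num : (1728 : ℂ) ≠ 0) h2

theorem sturmDelta_coeff_zero : sturmDelta.coeff 0 = 0 := by
  have h : (sturmDelta.map (Int.castRingHom ℂ)).coeff 0 = 0 := by
    rw [← sturm_delta_qExpansion]
    exact CuspFormClass.qExpansion_coeff_zero _ one_pos one_mem_strictPeriods_SL
  simpa using h

theorem sturmDelta_coeff_one : sturmDelta.coeff 1 = 1 := by
  have h : (sturmDelta.map (Int.castRingHom ℂ)).coeff 1 = 1 := by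
    rw [← sturm_delta_qExpansion]
    exact discriminant_qExpansion_coeff_one
  simpa using h

/-- Coefficients of `D * G` lie in `M` if those of `G` do (`D` integral). -/
theorem sturm_mul_mem (M : AddSubgroup ℂ) (D : PowerSeries ℤ) (G : PowerSeries ℂ) (N : ℕ)
    (h : ∀ n ≤ N, G.coeff n ∈ M) :
    ∀ n ≤ N, (D.map (Int.castRingHom ℂ) * G).coeff n ∈ M := by
  intro n hn
  rw [PowerSeries.coeff_mul]
  refine AddSubgroup.sum_mem _ fun p hp => ?_
  have hp2 : p.2 ≤ N := by
    have := Finset.HasAntidiagonal.mem_antidiagonal.mp hp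
    omega
  rw [PowerSeries.coeff_map]
  have : ((Int.castRingHom ℂ) (D.coeff p.1)) * G.coeff p.2 = (D.coeff p.1) • G.coeff p.2 := by
    simp
  rw [this]
  exact AddSubgroup.zsmul_mem _ (h _ hp2) _

/-- Division by an integral series `D = q + ⋯`: if the coefficients of `D * G` up to `N + 1` lie in
`M` then those of `G` up to `N` do. -/
theorem sturm_div_mem (M : AddSubgroup ℂ) (D : PowerSeries ℤ) (hD0 : D.coeff 0 = 0)
    (hD1 : D.coeff 1 = 1) (G : PowerSeries ℂ) (N : ℕ)
    (h : ∀ n ≤ N + 1, (D.map (Int.castRingHom ℂ) * G).coeff n ∈ M) :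
    ∀ n ≤ N, G.coeff n ∈ M := by
  intro n
  induction n using Nat.strong_induction_on with
  | _ n ih =>
  intro hn
  have h1 := h (n + 1) (by omega)
  rw [PowerSeries.coeff_mul, Finset.Nat.sum_antidiagonal_eq_sum_range_succ_mk,
    Finset.sum_range_succ', Finset.sum_range_succ'] at h1
  simp only [PowerSeries.coeff_map, hD0, hD1, map_zero, zero_mul, add_zero, map_one, one_mul,
    zero_add, Nat.sub_zero, Nat.add_sub_cancel] at h1
  have hrest : ∑ i ∈ Finset.range n,
      (Int.castRingHom ℂ) (D.coeff (i + 1 + 1)) * G.coeff (n + 1 - (i + 1 + 1)) ∈ M := by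
    refine AddSubgroup.sum_mem _ fun i hi => ?_
    have hi' : i < n := Finset.mem_range.mp hi
    have hmem : G.coeff (n + 1 - (i + 1 + 1)) ∈ M := ih _ (by omega) (by omega)
    have : ((Int.castRingHom ℂ) (D.coeff (i + 1 + 1))) * G.coeff (n + 1 - (i + 1 + 1)) =
        (D.coeff (i + 1 + 1)) • G.coeff (n + 1 - (i + 1 + 1)) := by
      simp
    rw [this]
    exact AddSubgroup.zsmul_mem _ hmem _
  have := AddSubgroup.sub_mem _ h1 hrest
  simpa using this

/-- Auxiliary induction for `levelOne_coeff_mem`. -/
theorem sturm_aux (M : AddSubgroup ℂ) :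
    ∀ (d : ℕ) (k : ℤ), k < 12 * (d : ℤ) → ∀ f : ModularForm 𝒮ℒ k,
      (∀ n : ℕ, 12 * (n : ℤ) ≤ k → (qExpansion 1 f).coeff n ∈ M) →
      ∀ n, (qExpansion 1 f).coeff n ∈ M := by
  intro d
  induction d with
  | zero =>
    intro k hk f _ n
    have hf : f = 0 :=
      rank_zero_iff_forall_zero.mp (levelOne_neg_weight_rank_zero (by simpa using hk)) f
    rw [hf, FunLike.coe_zero, qExpansion_zero]
    simp
  | succ d ih =>
    intro k hk f hf n
    rcases lt_or_ge k 0 with hk0 | hk0
    · have hf0 : f = 0 := rank_zero_iff_forall_zero.mp (levelOne_neg_weight_rank_zero hk0) f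
      rw [hf0, FunLike.coe_zero, qExpansion_zero]
      simp
    lift k to ℕ using hk0
    rcases Nat.even_or_odd k with hk2 | hk2
    · rcases lt_or_ge k 4 with hk4 | hk4
      · have hk' : k = 0 ∨ k = 2 := by
          obtain ⟨m, rfl⟩ := hk2
          omega
        rcases hk' with rfl | rfl
        · obtain ⟨c, hc⟩ := ModularFormClass.levelOne_weight_zero_const f
          have h0 := hf 0 (by simp)
          have hq : qExpansion 1 f = c • (1 : PowerSeries ℂ) := by
            have hfc : (⇑f : ℍ → ℂ) = c • (1 : ℍ → ℂ) := by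
              funext z
              simp [hc]
            rw [hfc]
            have := ModularForm.qExpansion_smul one_pos one_mem_strictPeriods_SL c
              (1 : ModularForm 𝒮ℒ 0)
            rw [ModularForm.qExpansion_one] at this
            simpa using this
          rw [hq] at h0 ⊢
          rcases Nat.eq_zero_or_pos n with rfl | hn
          · exact h0
          · simp [PowerSeries.coeff_one, hn.ne']
        · have hf0 : f = 0 := rank_zero_iff_forall_zero.mp levelOne_weight_two_rank_zero f
          rw [hf0, FunLike.coe_zero, qExpansion_zero]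
          simp
      · obtain ⟨a, b, hab⟩ := levelone_exists_monomial k hk4 hk2
        set Mon : ModularForm 𝒮ℒ (k : ℤ) := mcast hab (levelOneMonomial a b) with hMon
        have hMon_mem : Mon ∈ levelOneIntSet (k : ℤ) :=
          levelone_mcast_mem _ (levelone_monomial_mem a b)
        have hMon0 : (qExpansion 1 Mon).coeff 0 = 1 := levelone_monomial_coeff_zero a b
        have hcusp := (isCuspForm_iff_coeffZero_eq_zero _).mp (sub_smul_isCuspForm f Mon hMon0)
        set h := f - (qExpansion 1 f).coeff 0 • Mon with hh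
        set g := CuspForm.discriminantEquiv (toCuspForm h hcusp) with hg
        have ha0 : (qExpansion 1 f).coeff 0 ∈ M := hf 0 (by positivity)
        -- coefficients of `a₀ • Mon` are in `M`
        have hMonM : ∀ n, (qExpansion 1 ((qExpansion 1 f).coeff 0 • Mon)).coeff n ∈ M := by
          intro n
          rw [ModularForm.qExpansion_smul one_pos one_mem_strictPeriods_SL]
          obtain ⟨m, hm⟩ := hMon_mem n
          rw [PowerSeries.coeff_smul, hm, smul_eq_mul, mul_comm]
          have : (m : ℂ) * (qExpansion 1 f).coeff 0 = m • (qExpansion 1 f).coeff 0 := by simp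
          rw [this]
          exact AddSubgroup.zsmul_mem _ ha0 _
        have hhq : qExpansion 1 h = qExpansion 1 f - qExpansion 1 ((qExpansion 1 f).coeff 0 • Mon) := by
          rw [hh, FunLike.coe_sub, ModularForm.qExpansion_sub one_pos one_mem_strictPeriods_SL]
          rfl
        have hhD : qExpansion 1 h = sturmDelta.map (Int.castRingHom ℂ) * qExpansion 1 g := by
          have hfun : (⇑h : ℍ → ℂ) = ⇑CuspForm.discriminant * ⇑g := by
            funext z
            rw [Pi.mul_apply, hg, CuspForm.coe_discriminant,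
              ModularForm.discriminant_mul_discriminantEquiv_apply]
            rfl
          rw [hfun, ModularForm.qExpansion_mul_coe one_pos one_mem_strictPeriods_SL,
            sturm_delta_qExpansion]
        -- hypothesis for `g`
        have hgM : ∀ n : ℕ, 12 * (n : ℤ) ≤ (k : ℤ) - 12 → (qExpansion 1 g).coeff n ∈ M := by
          intro N hN
          refine sturm_div_mem M sturmDelta sturmDelta_coeff_zero sturmDelta_coeff_one
            (qExpansion 1 g) N ?_ N le_rfl
          intro i hi
          rw [← hhD, hhq, map_sub]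
          refine AddSubgroup.sub_mem _ (hf i ?_) (hMonM i)
          have : (i : ℤ) ≤ N + 1 := by exact_mod_cast hi
          linarith
        have hgall := ih ((k : ℤ) - 12) (by push_cast at hk; linarith) g hgM
        have hhall : ∀ n, (qExpansion 1 h).coeff n ∈ M := by
          intro n
          rw [hhD]
          exact sturm_mul_mem M sturmDelta (qExpansion 1 g) n (fun i _ => hgall i) n le_rfl
        have hfe : qExpansion 1 f =
            qExpansion 1 h + qExpansion 1 ((qExpansion 1 f).coeff 0 • Mon) := by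
          rw [hhq]; ring
        rw [hfe, map_add]
        exact AddSubgroup.add_mem _ (hhall n) (hMonM n)
    · have hf0 : f = 0 := levelOne_odd_weight_eq_zero (by exact_mod_cast hk2) f
      rw [hf0, FunLike.coe_zero, qExpansion_zero]
      simp

/-- **Level one Sturm bound.** If the `q`-expansion coefficients `a_n` of a level one form of
weight `k` with `12 n ≤ k` lie in an additive subgroup `M ≤ ℂ`, then all coefficients do. -/
theorem levelOne_coeff_mem (M : AddSubgroup ℂ) {k : ℤ} (f : ModularForm 𝒮ℒ k)
    (h : ∀ n : ℕ, 12 * (n : ℤ) ≤ k → (qExpansion 1 f).coeff n ∈ M) :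
    ∀ n, (qExpansion 1 f).coeff n ∈ M := by
  obtain ⟨d, hd⟩ : ∃ d : ℕ, k < 12 * (d : ℤ) := by
    refine ⟨(k.toNat + 1), ?_⟩
    have := Int.self_le_toNat k
    push_cast
    linarith
  exact sturm_aux M d k hd f h

end Fermat.Agent.S16
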