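/-
S16 helper module (helper12): algebra for the "norm of `p Θ E₄ + E₆`" argument.

* `n6_O ℓ`   : the subring of `ℂ` of `ℓ`-integral algebraic numbers,
* `n6_M ℓ`   : the additive subgroup `ℓ · n6_O ℓ`,
* `n6_Lead ℓ F e c` : the power series `F` has coefficients in `n6_O ℓ` and
                      `F ≡ c Xᵉ + (higher terms)` modulo `n6_M ℓ`,
* `n6_lead_norm`    : leading term of a "norm" `expand p N = expand p A * ∏ⱼ rescale (ζʲ) B`,
* `n6_sturm_false`  : a level one form whose `q`-expansion is `≡ u qᴺ + ⋯` mod `ℓ`, `u` an integer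
                      prime to `ℓ`, with `12 N > k`, does not exist (level one Sturm bound).
-/
import Mathlib
import Fermat.Agent.S16.LevelOneSturm

set_option autoImplicit false

open scoped MatrixGroups

namespace Fermat.Agent.S16

open PowerSeries

section Ring

variable (ℓ : ℕ) [hℓ : Fact ℓ.Prime]

/-- `ℓ`-integral algebraic numbers: `x` with `m x` integral over `ℤ` for some integer `m` prime
to `ℓ`. -/
def n6_O : Subring ℂ where
  carrier := {x | ∃ m : ℤ, ¬ (ℓ : ℤ) ∣ m ∧ IsIntegral ℤ ((m : ℂ) * x)}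
  mul_mem' := by
    rintro x y ⟨m, hm, hx⟩ ⟨m', hm', hy⟩
    refine ⟨m * m', ?_, ?_⟩
    · intro h
      rcases (Nat.prime_iff_prime_int.mp hℓ.out).dvd_or_dvd h with h | h
      · exact hm h
      · exact hm' h
    · have := hx.mul hy
      have e : ((m * m' : ℤ) : ℂ) * (x * y) = (m : ℂ) * x * ((m' : ℂ) * y) := by
        push_cast; ring
      rw [e]; exact this
  one_mem' := ⟨1, by
    intro h
    have := Int.natAbs_dvd_natAbs.mpr h
    simp at this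
    exact hℓ.out.one_lt.ne' this, by simp [isIntegral_one]⟩
  add_mem' := by
    rintro x y ⟨m, hm, hx⟩ ⟨m', hm', hy⟩
    refine ⟨m * m', ?_, ?_⟩
    · intro h
      rcases (Nat.prime_iff_prime_int.mp hℓ.out).dvd_or_dvd h with h | h
      · exact hm h
      · exact hm' h
    · have h1 : IsIntegral ℤ ((m' : ℂ) * ((m : ℂ) * x)) := (isIntegral_algebraMap (x := m')).mul hx
      have h2 : IsIntegral ℤ ((m : ℂ) * ((m' : ℂ) * y)) := (isIntegral_algebraMap (x := m)).mul hy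
      have := h1.add h2
      have e : ((m * m' : ℤ) : ℂ) * (x + y) =
          (m' : ℂ) * ((m : ℂ) * x) + (m : ℂ) * ((m' : ℂ) * y) := by
        push_cast; ring
      rw [e]; exact this
  zero_mem' := ⟨1, by
    intro h
    have := Int.natAbs_dvd_natAbs.mpr h
    simp at this
    exact hℓ.out.one_lt.ne' this, by simp [isIntegral_zero]⟩
  neg_mem' := by
    rintro x ⟨m, hm, hx⟩
    refine ⟨m, hm, ?_⟩
    have := hx.neg
    rwa [← mul_neg] at this

theorem n6_mem_O_iff {x : ℂ} :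
    x ∈ n6_O ℓ ↔ ∃ m : ℤ, ¬ (ℓ : ℤ) ∣ m ∧ IsIntegral ℤ ((m : ℂ) * x) := Iff.rfl

theorem n6_not_dvd_one : ¬ (ℓ : ℤ) ∣ 1 := by
  intro h
  have := Int.natAbs_dvd_natAbs.mpr h
  simp at this
  exact hℓ.out.one_lt.ne' this

/-- integral elements are `ℓ`-integral. -/
theorem n6_mem_O_of_isIntegral {x : ℂ} (hx : IsIntegral ℤ x) : x ∈ n6_O ℓ :=
  ⟨1, n6_not_dvd_one ℓ, by simpa using hx⟩

theorem n6_int_mem_O (n : ℤ) : (n : ℂ) ∈ n6_O ℓ :=
  n6_mem_O_of_isIntegral ℓ (isIntegral_algebraMap (x := n))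

theorem n6_nat_mem_O (n : ℕ) : (n : ℂ) ∈ n6_O ℓ := by
  have := n6_int_mem_O ℓ (n : ℤ)
  rwa [Int.cast_natCast] at this

/-- `ℓ`-integral rational numbers are in `n6_O ℓ`. -/
theorem n6_mem_O_of_mul_eq {x : ℂ} {a b : ℤ} (hb : ¬ (ℓ : ℤ) ∣ b) (h : (b : ℂ) * x = a) :
    x ∈ n6_O ℓ :=
  ⟨b, hb, by rw [h]; exact isIntegral_algebraMap (x := a)⟩

/-- roots of unity are in `n6_O ℓ`. -/
theorem n6_root_mem_O {ζ : ℂ} {p : ℕ} (hp : 0 < p) (hζ : ζ ^ p = 1) : ζ ∈ n6_O ℓ :=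
  n6_mem_O_of_isIntegral ℓ (IsIntegral.of_pow hp (by rw [hζ]; exact isIntegral_one))

/-- The additive subgroup `ℓ · n6_O ℓ`. -/
def n6_M : AddSubgroup ℂ where
  carrier := {x | ∃ y ∈ n6_O ℓ, x = (ℓ : ℂ) * y}
  add_mem' := by
    rintro _ _ ⟨y, hy, rfl⟩ ⟨y', hy', rfl⟩
    exact ⟨y + y', (n6_O ℓ).add_mem hy hy', by ring⟩
  zero_mem' := ⟨0, (n6_O ℓ).zero_mem, by simp⟩
  neg_mem' := by
    rintro _ ⟨y, hy, rfl⟩
    exact ⟨-y, (n6_O ℓ).neg_mem hy, by ring⟩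

theorem n6_mem_M_iff {x : ℂ} : x ∈ n6_M ℓ ↔ ∃ y ∈ n6_O ℓ, x = (ℓ : ℂ) * y := Iff.rfl

theorem n6_M_le_O {x : ℂ} (hx : x ∈ n6_M ℓ) : x ∈ n6_O ℓ := by
  obtain ⟨y, hy, rfl⟩ := hx
  exact (n6_O ℓ).mul_mem (n6_nat_mem_O ℓ ℓ) hy

theorem n6_mul_mem_M {x y : ℂ} (hx : x ∈ n6_O ℓ) (hy : y ∈ n6_M ℓ) : x * y ∈ n6_M ℓ := by
  obtain ⟨z, hz, rfl⟩ := hy
  exact ⟨x * z, (n6_O ℓ).mul_mem hx hz, by ring⟩

theorem n6_mul_mem_M' {x y : ℂ} (hx : x ∈ n6_M ℓ) (hy : y ∈ n6_O ℓ) : x * y ∈ n6_M ℓ := by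
  rw [mul_comm]; exact n6_mul_mem_M ℓ hy hx

theorem n6_ell_mul_mem_M {y : ℂ} (hy : y ∈ n6_O ℓ) : (ℓ : ℂ) * y ∈ n6_M ℓ := ⟨y, hy, rfl⟩

/-- integers divisible by `ℓ` are in `n6_M ℓ`. -/
theorem n6_int_mem_M {n : ℤ} (h : (ℓ : ℤ) ∣ n) : (n : ℂ) ∈ n6_M ℓ := by
  obtain ⟨k, rfl⟩ := h
  exact ⟨k, n6_int_mem_O ℓ k, by push_cast; ring⟩

/-- An integer prime to `ℓ` is not in `ℓ · n6_O ℓ`. -/
theorem n6_int_not_mem_M {u : ℤ} (hu : ¬ (ℓ : ℤ) ∣ u) : (u : ℂ) ∉ n6_M ℓ := by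
  rintro ⟨y, ⟨m, hm, hy⟩, huy⟩
  have hℓ0 : (ℓ : ℂ) ≠ 0 := Nat.cast_ne_zero.mpr hℓ.out.ne_zero
  -- `m * y = m * u / ℓ` is a rational number, integral over `ℤ`
  have hy' : (m : ℂ) * y = algebraMap ℚ ℂ ((m * u : ℤ) / (ℓ : ℚ)) := by
    have : y = (u : ℂ) / ℓ := by rw [huy]; field_simp
    rw [this]
    simp only [eq_ratCast, Rat.cast_div, Rat.cast_intCast, Rat.cast_natCast]
    push_cast
    ring
  rw [hy'] at hy
  have hq : IsIntegral ℤ ((m * u : ℤ) / (ℓ : ℚ)) :=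
    (isIntegral_algebraMap_iff (algebraMap ℚ ℂ).injective).mp hy
  obtain ⟨n, hn⟩ := IsIntegrallyClosed.isIntegral_iff.mp hq
  have hmu : m * u = (ℓ : ℤ) * n := by
    have hℓq : (ℓ : ℚ) ≠ 0 := Nat.cast_ne_zero.mpr hℓ.out.ne_zero
    have h1 : ((m * u : ℤ) : ℚ) = (ℓ : ℚ) * (n : ℚ) := by
      have := hn
      simp only [eq_intCast] at this
      rw [this]
      field_simp
    exact_mod_cast h1
  have hdvd : (ℓ : ℤ) ∣ m * u := ⟨n, hmu⟩
  rcases (Nat.prime_iff_prime_int.mp hℓ.out).dvd_or_dvd hdvd with h | h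
  · exact hm h
  · exact hu h

end Ring

section Lead

variable (ℓ : ℕ) [hℓ : Fact ℓ.Prime]

/-- `F` has coefficients in `n6_O ℓ` and `F ≡ c Xᵉ + (higher terms)` modulo `ℓ`. -/
def n6_Lead (F : PowerSeries ℂ) (e : ℕ) (c : ℂ) : Prop :=
  (∀ n, F.coeff n ∈ n6_O ℓ) ∧ (∀ n < e, F.coeff n ∈ n6_M ℓ) ∧ F.coeff e - c ∈ n6_M ℓ

variable {ℓ}

theorem n6_Lead.c_mem {F : PowerSeries ℂ} {e : ℕ} {c : ℂ} (h : n6_Lead ℓ F e c) :
    c ∈ n6_O ℓ := by
  have h1 := h.1 e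
  have h2 := n6_M_le_O ℓ h.2.2
  have : c = F.coeff e - (F.coeff e - c) := by ring
  rw [this]
  exact (n6_O ℓ).sub_mem h1 h2

theorem n6_Lead.mul {F G : PowerSeries ℂ} {e e' : ℕ} {c c' : ℂ}
    (hF : n6_Lead ℓ F e c) (hG : n6_Lead ℓ G e' c') : n6_Lead ℓ (F * G) (e + e') (c * c') := by
  refine ⟨fun n => ?_, fun n hn => ?_, ?_⟩
  · rw [PowerSeries.coeff_mul]
    exact (n6_O ℓ).sum_mem fun x _ => (n6_O ℓ).mul_mem (hF.1 _) (hG.1 _)
  · rw [PowerSeries.coeff_mul]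
    refine (n6_M ℓ).sum_mem fun x hx => ?_
    have hx' := Finset.HasAntidiagonal.mem_antidiagonal.mp hx
    by_cases h1 : x.1 < e
    · exact n6_mul_mem_M' ℓ (hF.2.1 _ h1) (hG.1 _)
    · exact n6_mul_mem_M ℓ (hF.1 _) (hG.2.1 _ (by omega))
  · rw [PowerSeries.coeff_mul]
    have hmem : (e, e') ∈ Finset.HasAntidiagonal.antidiagonal (e + e') :=
      Finset.HasAntidiagonal.mem_antidiagonal.mpr rfl
    rw [← Finset.add_sum_erase _ _ hmem]
    have hrest : ∑ x ∈ (Finset.HasAntidiagonal.antidiagonal (e + e')).erase (e, e'),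
        F.coeff x.1 * G.coeff x.2 ∈ n6_M ℓ := by
      refine (n6_M ℓ).sum_mem fun x hx => ?_
      have hx1 := Finset.mem_erase.mp hx
      have hx' := Finset.HasAntidiagonal.mem_antidiagonal.mp hx1.2
      by_cases h1 : x.1 < e
      · exact n6_mul_mem_M' ℓ (hF.2.1 _ h1) (hG.1 _)
      · have h2 : x.2 < e' := by
          by_contra h2
          apply hx1.1
          have : x.1 = e ∧ x.2 = e' := by omega
          exact Prod.ext this.1 this.2
        exact n6_mul_mem_M ℓ (hF.1 _) (hG.2.1 _ h2)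
    have hmain : F.coeff e * G.coeff e' - c * c' ∈ n6_M ℓ := by
      have e1 : F.coeff e * G.coeff e' - c * c' =
          (F.coeff e - c) * G.coeff e' + c * (G.coeff e' - c') := by ring
      rw [e1]
      exact (n6_M ℓ).add_mem (n6_mul_mem_M' ℓ hF.2.2 (hG.1 _)) (n6_mul_mem_M ℓ hF.c_mem hG.2.2)
    have e2 : F.coeff e * G.coeff e' +
        ∑ x ∈ (Finset.HasAntidiagonal.antidiagonal (e + e')).erase (e, e'), F.coeff x.1 * G.coeff x.2 - c * c' =
        (F.coeff e * G.coeff e' - c * c') +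
        ∑ x ∈ (Finset.HasAntidiagonal.antidiagonal (e + e')).erase (e, e'), F.coeff x.1 * G.coeff x.2 := by ring
    rw [e2]
    exact (n6_M ℓ).add_mem hmain hrest

theorem n6_Lead.one : n6_Lead ℓ (1 : PowerSeries ℂ) 0 1 := by
  refine ⟨fun n => ?_, fun n hn => absurd hn (Nat.not_lt_zero _), ?_⟩
  · rw [PowerSeries.coeff_one]
    split_ifs
    · exact (n6_O ℓ).one_mem
    · exact (n6_O ℓ).zero_mem
  · simp [(n6_M ℓ).zero_mem]

/-- product of a family with the same leading data. -/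
theorem n6_Lead.prod {ι : Type*} (s : Finset ι) (F : ι → PowerSeries ℂ) {e : ℕ} {c : ℂ}
    (h : ∀ i ∈ s, n6_Lead ℓ (F i) e c) :
    n6_Lead ℓ (∏ i ∈ s, F i) (s.card * e) (c ^ s.card) := by
  classical
  induction s using Finset.induction_on with
  | empty => simpa using n6_Lead.one (ℓ := ℓ)
  | insert a s ha ih =>
    rw [Finset.prod_insert ha, Finset.card_insert_of_notMem ha]
    have h1 := h a (Finset.mem_insert_self a s)
    have h2 := ih fun i hi => h i (Finset.mem_insert_of_mem hi)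
    have := h1.mul h2
    have e1 : e + s.card * e = (s.card + 1) * e := by ring
    have e2 : c * c ^ s.card = c ^ (s.card + 1) := by ring
    rw [e1, e2] at this
    exact this

/-- congruent series have the same leading data. -/
theorem n6_Lead.congr {F G : PowerSeries ℂ} {e : ℕ} {c : ℂ} (hG : n6_Lead ℓ G e c)
    (h : ∀ n, F.coeff n - G.coeff n ∈ n6_M ℓ) : n6_Lead ℓ F e c := by
  refine ⟨fun n => ?_, fun n hn => ?_, ?_⟩
  · have : F.coeff n = (F.coeff n - G.coeff n) + G.coeff n := by ring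
    rw [this]
    exact (n6_O ℓ).add_mem (n6_M_le_O ℓ (h n)) (hG.1 n)
  · have : F.coeff n = (F.coeff n - G.coeff n) + G.coeff n := by ring
    rw [this]
    exact (n6_M ℓ).add_mem (h n) (hG.2.1 n hn)
  · have : F.coeff e - c = (F.coeff e - G.coeff e) + (G.coeff e - c) := by ring
    rw [this]
    exact (n6_M ℓ).add_mem (h e) hG.2.2

/-- `expand p` multiplies the leading exponent by `p`. -/
theorem n6_Lead.expand {F : PowerSeries ℂ} {e : ℕ} {c : ℂ} (hF : n6_Lead ℓ F e c)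
    (p : ℕ) (hp : p ≠ 0) : n6_Lead ℓ (F.expand p hp) (p * e) c := by
  refine ⟨fun n => ?_, fun n hn => ?_, ?_⟩
  · rw [PowerSeries.coeff_expand]
    split_ifs
    · exact hF.1 _
    · exact (n6_O ℓ).zero_mem
  · rw [PowerSeries.coeff_expand]
    split_ifs with hd
    · refine hF.2.1 _ ?_
      obtain ⟨k, rfl⟩ := hd
      rw [Nat.mul_div_cancel_left _ (Nat.pos_of_ne_zero hp)]
      exact lt_of_mul_lt_mul_left hn (Nat.zero_le p)
    · exact (n6_M ℓ).zero_mem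
  · rw [PowerSeries.coeff_expand_mul]
    exact hF.2.2

/-- rescaling by an `ℓ`-integral `a` with `aᵉ = 1` keeps the leading data. -/
theorem n6_Lead.rescale {F : PowerSeries ℂ} {e : ℕ} {c : ℂ} (hF : n6_Lead ℓ F e c)
    {a : ℂ} (ha : a ∈ n6_O ℓ) (hae : a ^ e = 1) : n6_Lead ℓ (PowerSeries.rescale a F) e c := by
  refine ⟨fun n => ?_, fun n hn => ?_, ?_⟩
  · rw [PowerSeries.coeff_rescale]
    exact (n6_O ℓ).mul_mem ((n6_O ℓ).pow_mem ha n) (hF.1 n)
  · rw [PowerSeries.coeff_rescale]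
    exact n6_mul_mem_M ℓ ((n6_O ℓ).pow_mem ha n) (hF.2.1 n hn)
  · rw [PowerSeries.coeff_rescale, hae, one_mul]
    exact hF.2.2

/-- leading data of an integral power series. -/
theorem n6_lead_of_int (G : PowerSeries ℤ) (e : ℕ) (h : ∀ n < e, (ℓ : ℤ) ∣ G.coeff n) :
    n6_Lead ℓ (G.map (Int.castRingHom ℂ)) e (G.coeff e : ℂ) := by
  refine ⟨fun n => ?_, fun n hn => ?_, ?_⟩
  · rw [PowerSeries.coeff_map]
    exact n6_int_mem_O ℓ _
  · rw [PowerSeries.coeff_map]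
    exact n6_int_mem_M ℓ (h n hn)
  · rw [PowerSeries.coeff_map]
    simp [(n6_M ℓ).zero_mem]

/-- **Leading term of a norm.**  If `expand p N = expand p A * ∏_{j<p} rescale (ζʲ) B` with
`ζᵖ = 1`, `A ≡ g X^e₀ + ⋯` and `B ≡ h X^(p e) + ⋯` modulo `ℓ`, then
`N ≡ g hᵖ X^(e₀ + p e) + ⋯` modulo `ℓ`. -/
theorem n6_lead_norm {p : ℕ} (hp : p ≠ 0) {ζ : ℂ} (hζ : ζ ^ p = 1)
    {N A B : PowerSeries ℂ} {e₀ e : ℕ} {g h : ℂ}
    (hN : N.expand p hp = A.expand p hp * ∏ j ∈ Finset.range p, PowerSeries.rescale (ζ ^ j) B)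
    (hA : n6_Lead ℓ A e₀ g) (hB : n6_Lead ℓ B (p * e) h) :
    (∀ n < e₀ + p * e, N.coeff n ∈ n6_M ℓ) ∧ N.coeff (e₀ + p * e) - g * h ^ p ∈ n6_M ℓ := by
  have hζO : ζ ∈ n6_O ℓ := n6_root_mem_O ℓ (Nat.pos_of_ne_zero hp) hζ
  have hconj : ∀ j ∈ Finset.range p, n6_Lead ℓ (PowerSeries.rescale (ζ ^ j) B) (p * e) h := by
    intro j _
    refine hB.rescale ((n6_O ℓ).pow_mem hζO j) ?_
    rw [← pow_mul, mul_comm j, mul_assoc, pow_mul, hζ, one_pow]
  have hprod := n6_Lead.prod (Finset.range p) _ hconj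
  rw [Finset.card_range] at hprod
  have hall := (hA.expand p hp).mul hprod
  rw [← hN] at hall
  have e1 : p * e₀ + p * (p * e) = p * (e₀ + p * e) := by ring
  rw [e1] at hall
  refine ⟨fun n hn => ?_, ?_⟩
  · have := hall.2.1 (p * n) (Nat.mul_lt_mul_of_pos_left hn (Nat.pos_of_ne_zero hp))
    rwa [PowerSeries.coeff_expand_mul] at this
  · have := hall.2.2
    rwa [PowerSeries.coeff_expand_mul] at this

end Lead

section Sturm

open UpperHalfPlane ModularForm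

variable (ℓ : ℕ) [hℓ : Fact ℓ.Prime]

/-- **Sturm contradiction.**  No level one form of weight `k` has a `q`-expansion which is
`≡ u qᴺ + (higher terms)` modulo `ℓ` with `u` an integer prime to `ℓ` and `12 N > k`. -/
theorem n6_sturm_false {k : ℤ} (f : ModularForm 𝒮ℒ k) (N : ℕ) (hk : k < 12 * (N : ℤ))
    (hlow : ∀ n < N, (qExpansion 1 f).coeff n ∈ n6_M ℓ) (u : ℤ) (hu : ¬ (ℓ : ℤ) ∣ u)
    (hN : (qExpansion 1 f).coeff N - (u : ℂ) ∈ n6_M ℓ) : False := by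
  have hall := levelOne_coeff_mem (n6_M ℓ) f (fun n hn => hlow n (by
    by_contra hc
    rw [not_lt] at hc
    have : (N : ℤ) ≤ n := by exact_mod_cast hc
    linarith))
  have h1 := hall N
  have h2 : (u : ℂ) = (qExpansion 1 f).coeff N - ((qExpansion 1 f).coeff N - (u : ℂ)) := by ring
  exact n6_int_not_mem_M ℓ hu (h2 ▸ (n6_M ℓ).sub_mem h1 hN)

end Sturm

end Fermat.Agent.S16
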