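/-
S16 helper module (helper12): the power-series core of the "norm of `p Θ E₄ + E₆`" argument.

Let `A = 1 + ℓʲ(⋯)` be the `q`-expansion of a weight-2 form `Θ` on `Γ₀(p)` and `B` its conjugate
expansion (`p B(w) = -∑ a_{pn} wⁿ`).  The form `D = c (p Θ E₄ + E₆)` of weight 6 has expansions
  `A' = c (p A E₄ + E₆)`,  `B' = c (p B E₄(wᵖ) + E₆(wᵖ))`
and its norm to level one is a level one form `Nm` of weight `6 (p + 1)` with
  `expand p (qExp Nm) = expand p A' * ∏_{j<p} rescale (ζʲ) B'`.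
Modulo `ℓ`, `A' ≡ c (p E₄ + E₆)` and `B' ≡ c (E₆ - E₄)(wᵖ)`, so `qExp Nm` has `q`-order `≥ p`
modulo `ℓ` with a unit leading coefficient, contradicting the level one Sturm bound.

* `n6_false`          : the general statement,
* `n6_false_ge_five`  : `ℓ ≥ 5`, `A ≡ 1 mod ℓ`, `c = 1`   (any prime `p`, including `p = ℓ`),
* `n6_false_three`    : `ℓ = 3`, `A ≡ 1 mod 9`, `p ≡ 2 mod 3`, `c = 1/3`.
-/
import Mathlib
import Fermat.Agent.S16.NormSixAlg

set_option autoImplicit false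

open scoped MatrixGroups

namespace Fermat.Agent.S16

open PowerSeries UpperHalfPlane ModularForm

section Series

variable (ℓ : ℕ) [hℓ : Fact ℓ.Prime]

/-- all coefficients are `ℓ`-integral. -/
def n6_IntS (F : PowerSeries ℂ) : Prop := ∀ n, F.coeff n ∈ n6_O ℓ

/-- all coefficients are in `ℓ · n6_O ℓ`. -/
def n6_ModS (F : PowerSeries ℂ) : Prop := ∀ n, F.coeff n ∈ n6_M ℓ

variable {ℓ}

theorem n6_ModS.mul_int {F G : PowerSeries ℂ} (hF : n6_ModS ℓ F) (hG : n6_IntS ℓ G) :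
    n6_ModS ℓ (F * G) := by
  intro n
  rw [PowerSeries.coeff_mul]
  exact (n6_M ℓ).sum_mem fun x _ => n6_mul_mem_M' ℓ (hF _) (hG _)

theorem n6_ModS.int_mul {F G : PowerSeries ℂ} (hF : n6_IntS ℓ F) (hG : n6_ModS ℓ G) :
    n6_ModS ℓ (F * G) := by
  rw [mul_comm]; exact hG.mul_int hF

theorem n6_intS_map (G : PowerSeries ℤ) : n6_IntS ℓ (G.map (Int.castRingHom ℂ)) := by
  intro n
  rw [PowerSeries.coeff_map]
  exact n6_int_mem_O ℓ _

theorem n6_IntS.expand {F : PowerSeries ℂ} (hF : n6_IntS ℓ F) (p : ℕ) (hp : p ≠ 0) :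
    n6_IntS ℓ (F.expand p hp) := by
  intro n
  rw [PowerSeries.coeff_expand]
  split_ifs
  · exact hF _
  · exact (n6_O ℓ).zero_mem

end Series

/-- `E₄` as an integral power series. -/
noncomputable def n6_E4 : PowerSeries ℤ := 1 + 240 * sturmA

/-- `E₆` as an integral power series. -/
noncomputable def n6_E6 : PowerSeries ℤ := 1 - 504 * sturmB

theorem n6_sturmA_coeff_zero : sturmA.coeff 0 = 0 := by simp [sturmA]

theorem n6_sturmA_coeff_one : sturmA.coeff 1 = 1 := by simp [sturmA]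

theorem n6_sturmA_coeff_two : sturmA.coeff 2 = 9 := by
  simp only [sturmA, PowerSeries.coeff_mk]
  have : ArithmeticFunction.sigma 3 2 = 9 := by decide
  simp [this]

theorem n6_sturmB_coeff_zero : sturmB.coeff 0 = 0 := by simp [sturmB]

theorem n6_sturmB_coeff_one : sturmB.coeff 1 = 1 := by simp [sturmB]

theorem n6_sturmB_coeff_two : sturmB.coeff 2 = 33 := by
  simp only [sturmB, PowerSeries.coeff_mk]
  have : ArithmeticFunction.sigma 5 2 = 33 := by decide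
  simp [this]

theorem n6_coeff_intCast_mul (z : ℤ) (F : PowerSeries ℤ) (n : ℕ) :
    ((z : PowerSeries ℤ) * F).coeff n = z * F.coeff n := by
  have : (z : PowerSeries ℤ) = PowerSeries.C z := by simp
  rw [this, PowerSeries.coeff_C_mul]

section Core

variable (ℓ : ℕ) [hℓ : Fact ℓ.Prime]

/-- **Core.**  A level one form `Nm` of weight `k` whose `q`-expansion is a "norm"
`expand p (qExp Nm) = expand p A' * ∏_{j<p} rescale (ζʲ) B'` with `A' ≡ G`, `B' ≡ H(wᵖ)` modulo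
`ℓ` for integral series `G`, `H` of `ℓ`-adic orders `e₀`, `e` does not exist if
`k < 12 (e₀ + p e)`. -/
theorem n6_core {p : ℕ} (hp : p ≠ 0) {ζ : ℂ} (hζ : ζ ^ p = 1)
    {k : ℤ} (Nm : ModularForm 𝒮ℒ k) {A' B' : PowerSeries ℂ}
    (hNm : (qExpansion 1 Nm).expand p hp =
      A'.expand p hp * ∏ j ∈ Finset.range p, PowerSeries.rescale (ζ ^ j) B')
    (G H : PowerSeries ℤ)
    (hA' : ∀ n, A'.coeff n - (G.map (Int.castRingHom ℂ)).coeff n ∈ n6_M ℓ)
    (hB' : ∀ n, B'.coeff n - ((H.map (Int.castRingHom ℂ)).expand p hp).coeff n ∈ n6_M ℓ)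
    (e₀ e : ℕ) (hG : ∀ n < e₀, (ℓ : ℤ) ∣ G.coeff n) (hGe : ¬ (ℓ : ℤ) ∣ G.coeff e₀)
    (hH : ∀ n < e, (ℓ : ℤ) ∣ H.coeff n) (hHe : ¬ (ℓ : ℤ) ∣ H.coeff e)
    (hk : k < 12 * ((e₀ + p * e : ℕ) : ℤ)) : False := by
  have hLA : n6_Lead ℓ A' e₀ (G.coeff e₀ : ℂ) := (n6_lead_of_int G e₀ hG).congr hA'
  have hLB : n6_Lead ℓ B' (p * e) (H.coeff e : ℂ) :=
    ((n6_lead_of_int H e hH).expand p hp).congr hB'
  obtain ⟨hlow, htop⟩ := n6_lead_norm hp hζ hNm hLA hLB
  have hu : ¬ (ℓ : ℤ) ∣ G.coeff e₀ * H.coeff e ^ p := by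
    intro h
    rcases (Nat.prime_iff_prime_int.mp hℓ.out).dvd_or_dvd h with h | h
    · exact hGe h
    · exact hHe ((Nat.prime_iff_prime_int.mp hℓ.out).dvd_of_dvd_pow h)
  refine n6_sturm_false ℓ Nm (e₀ + p * e) hk hlow (G.coeff e₀ * H.coeff e ^ p) hu ?_
  have e1 : ((G.coeff e₀ * H.coeff e ^ p : ℤ) : ℂ) = (G.coeff e₀ : ℂ) * (H.coeff e : ℂ) ^ p := by
    push_cast; ring
  rw [e1]
  exact htop

/-- **General form.**  `A` is the expansion of `Θ` at `∞`, `Bp = p · B` with `B` its conjugate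
expansion, `c` a scalar with `c (A - 1)` and `c (Bp + 1)` divisible by `ℓ`; `G = c (p E₄ + E₆)`
and `H = c (E₆ - E₄)` are integral with `ℓ`-adic orders `e₀` and `e ≥ 1`. -/
theorem n6_false {p : ℕ} (hp : p ≠ 0) (hp1 : 1 < p) {ζ : ℂ} (hζ : ζ ^ p = 1) (c : ℂ)
    (A Bp : PowerSeries ℂ)
    (hA : n6_ModS ℓ (PowerSeries.C c * (A - 1)))
    (hBp : n6_ModS ℓ (PowerSeries.C c * (Bp + 1)))
    (G H : PowerSeries ℤ)
    (hGc : PowerSeries.C c * ((p : PowerSeries ℂ) * n6_E4.map (Int.castRingHom ℂ) +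
      n6_E6.map (Int.castRingHom ℂ)) = G.map (Int.castRingHom ℂ))
    (hHc : PowerSeries.C c * (n6_E6.map (Int.castRingHom ℂ) - n6_E4.map (Int.castRingHom ℂ)) =
      H.map (Int.castRingHom ℂ))
    (e₀ e : ℕ) (he : 1 ≤ e) (hG : ∀ n < e₀, (ℓ : ℤ) ∣ G.coeff n) (hGe : ¬ (ℓ : ℤ) ∣ G.coeff e₀)
    (hH : ∀ n < e, (ℓ : ℤ) ∣ H.coeff n) (hHe : ¬ (ℓ : ℤ) ∣ H.coeff e)
    (Nm : ModularForm 𝒮ℒ (6 * ((p : ℤ) + 1)))
    (hNm : (qExpansion 1 Nm).expand p hp =
      (PowerSeries.C c * ((p : PowerSeries ℂ) * (A * n6_E4.map (Int.castRingHom ℂ)) +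
        n6_E6.map (Int.castRingHom ℂ))).expand p hp *
      ∏ j ∈ Finset.range p, PowerSeries.rescale (ζ ^ j)
        (PowerSeries.C c * (Bp * (n6_E4.map (Int.castRingHom ℂ)).expand p hp +
          (n6_E6.map (Int.castRingHom ℂ)).expand p hp))) : False := by
  refine n6_core ℓ hp hζ Nm hNm G H ?_ ?_ e₀ e hG hGe hH hHe ?_
  · -- `A' - G = p * (c (A - 1)) * E₄`
    have hE4 : n6_IntS ℓ (n6_E4.map (Int.castRingHom ℂ)) := n6_intS_map _
    have hpS : n6_IntS ℓ ((p : PowerSeries ℂ)) := by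
      have : (p : PowerSeries ℂ) = ((p : PowerSeries ℤ)).map (Int.castRingHom ℂ) := by simp
      rw [this]; exact n6_intS_map _
    have key : PowerSeries.C c * ((p : PowerSeries ℂ) * (A * n6_E4.map (Int.castRingHom ℂ)) +
        n6_E6.map (Int.castRingHom ℂ)) - G.map (Int.castRingHom ℂ) =
        (p : PowerSeries ℂ) * ((PowerSeries.C c * (A - 1)) * n6_E4.map (Int.castRingHom ℂ)) := by
      rw [← hGc]; ring
    have hmod := n6_ModS.int_mul hpS (hA.mul_int hE4)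
    intro n
    have := hmod n
    rw [← key, map_sub] at this
    exact this
  · -- `B' - H(wᵖ) = (c (Bp + 1)) * E₄(wᵖ)`
    have hE4 : n6_IntS ℓ ((n6_E4.map (Int.castRingHom ℂ)).expand p hp) :=
      (n6_intS_map _).expand p hp
    have key : PowerSeries.C c * (Bp * (n6_E4.map (Int.castRingHom ℂ)).expand p hp +
          (n6_E6.map (Int.castRingHom ℂ)).expand p hp) -
        (H.map (Int.castRingHom ℂ)).expand p hp =
        (PowerSeries.C c * (Bp + 1)) * (n6_E4.map (Int.castRingHom ℂ)).expand p hp := by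
      rw [← hHc, map_mul, PowerSeries.expand_C, map_sub]; ring
    have hmod := hBp.mul_int hE4
    intro n
    have := hmod n
    rw [← key, map_sub] at this
    exact this
  · have h1 : p ≤ e₀ + p * e := by nlinarith
    have h2 : ((p : ℕ) : ℤ) ≤ ((e₀ + p * e : ℕ) : ℤ) := by exact_mod_cast h1
    have h3 : (2 : ℤ) ≤ (p : ℤ) := by exact_mod_cast hp1
    linarith

end Core

section Cases

theorem n6_E4_coeff (n : ℕ) :
    n6_E4.coeff n = (if n = 0 then 1 else 0) + 240 * sturmA.coeff n := by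
  have h : (240 : PowerSeries ℤ) = ((240 : ℤ) : PowerSeries ℤ) := by norm_num
  rw [n6_E4, map_add, h, n6_coeff_intCast_mul, PowerSeries.coeff_one]

theorem n6_E6_coeff (n : ℕ) :
    n6_E6.coeff n = (if n = 0 then 1 else 0) - 504 * sturmB.coeff n := by
  have h : (504 : PowerSeries ℤ) = ((504 : ℤ) : PowerSeries ℤ) := by norm_num
  rw [n6_E6, map_sub, h, n6_coeff_intCast_mul, PowerSeries.coeff_one]

/-- a prime `ℓ ≥ 5` dividing `744 = 2³ · 3 · 31` is `31`. -/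
theorem n6_eq_31 {ℓ : ℕ} (hℓ : ℓ.Prime) (hℓ5 : 5 ≤ ℓ) (h : (ℓ : ℤ) ∣ 744) : ℓ = 31 := by
  have h' : ℓ ∣ 2 ^ 3 * 3 * 31 := by
    have : ((ℓ : ℕ) : ℤ) ∣ ((744 : ℕ) : ℤ) := by exact_mod_cast h
    have := Int.natCast_dvd_natCast.mp this
    norm_num
    exact this
  rcases (Nat.Prime.dvd_mul hℓ).1 h' with h1 | h1
  · rcases (Nat.Prime.dvd_mul hℓ).1 h1 with h2 | h2
    · have := Nat.le_of_dvd (by norm_num) (hℓ.dvd_of_dvd_pow h2)
      omega
    · have := Nat.le_of_dvd (by norm_num) h2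
      omega
  · exact (Nat.prime_dvd_prime_iff_eq hℓ (by norm_num)).1 h1

/-- **Case `ℓ ≥ 5`** (any prime `p`, including `p = ℓ`): no `Θ ≡ 1 mod ℓ`. -/
theorem n6_false_ge_five {p ℓ : ℕ} [hℓ : Fact ℓ.Prime] (hpp : p.Prime) (hℓ5 : 5 ≤ ℓ)
    {ζ : ℂ} (hζ : ζ ^ p = 1) (A Bp : PowerSeries ℂ)
    (hA0 : A.coeff 0 = 1) (hA : ∀ n, 0 < n → A.coeff n ∈ n6_M ℓ)
    (hBp : ∀ n, Bp.coeff n = -A.coeff (p * n))
    (Nm : ModularForm 𝒮ℒ (6 * ((p : ℤ) + 1)))
    (hNm : (qExpansion 1 Nm).expand p hpp.ne_zero =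
      ((p : PowerSeries ℂ) * (A * n6_E4.map (Int.castRingHom ℂ)) +
        n6_E6.map (Int.castRingHom ℂ)).expand p hpp.ne_zero *
      ∏ j ∈ Finset.range p, PowerSeries.rescale (ζ ^ j)
        (Bp * (n6_E4.map (Int.castRingHom ℂ)).expand p hpp.ne_zero +
          (n6_E6.map (Int.castRingHom ℂ)).expand p hpp.ne_zero)) : False := by
  set G : PowerSeries ℤ := ((p : ℤ) : PowerSeries ℤ) * n6_E4 + n6_E6 with hGdef
  set H : PowerSeries ℤ := n6_E6 - n6_E4 with hHdef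
  have hG0 : G.coeff 0 = (p : ℤ) + 1 := by
    rw [hGdef, map_add, n6_coeff_intCast_mul, n6_E4_coeff, n6_E6_coeff, n6_sturmA_coeff_zero,
      n6_sturmB_coeff_zero]
    simp
  have hG1 : G.coeff 1 = 240 * (p : ℤ) - 504 := by
    rw [hGdef, map_add, n6_coeff_intCast_mul, n6_E4_coeff, n6_E6_coeff, n6_sturmA_coeff_one,
      n6_sturmB_coeff_one]
    simp; ring
  have hG2 : G.coeff 2 = 2160 * (p : ℤ) - 16632 := by
    rw [hGdef, map_add, n6_coeff_intCast_mul, n6_E4_coeff, n6_E6_coeff, n6_sturmA_coeff_two,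
      n6_sturmB_coeff_two]
    simp; ring
  have hH0 : H.coeff 0 = 0 := by
    rw [hHdef, map_sub, n6_E4_coeff, n6_E6_coeff, n6_sturmA_coeff_zero, n6_sturmB_coeff_zero]
    simp
  have hH1 : H.coeff 1 = -744 := by
    rw [hHdef, map_sub, n6_E4_coeff, n6_E6_coeff, n6_sturmA_coeff_one, n6_sturmB_coeff_one]
    simp
  have hH2 : H.coeff 2 = -18792 := by
    rw [hHdef, map_sub, n6_E4_coeff, n6_E6_coeff, n6_sturmA_coeff_two, n6_sturmB_coeff_two]
    simp
  have h31 : ¬ ((31 : ℕ) : ℤ) ∣ 18792 := by decide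
  -- leading data of `H`
  obtain ⟨e, he, hH, hHe⟩ : ∃ e : ℕ, 1 ≤ e ∧ (∀ n < e, (ℓ : ℤ) ∣ H.coeff n) ∧
      ¬ (ℓ : ℤ) ∣ H.coeff e := by
    by_cases h744 : (ℓ : ℤ) ∣ 744
    · refine ⟨2, by norm_num, fun n hn => ?_, ?_⟩
      · interval_cases n
        · rw [hH0]; exact dvd_zero _
        · rw [hH1]; exact (dvd_neg).mpr h744
      · rw [hH2, dvd_neg, n6_eq_31 hℓ.out hℓ5 h744]
        exact h31
    · refine ⟨1, le_rfl, fun n hn => ?_, ?_⟩
      · interval_cases n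
        rw [hH0]; exact dvd_zero _
      · rw [hH1, dvd_neg]; exact h744
  -- leading data of `G`
  obtain ⟨e₀, hG, hGe⟩ : ∃ e₀ : ℕ, (∀ n < e₀, (ℓ : ℤ) ∣ G.coeff n) ∧ ¬ (ℓ : ℤ) ∣ G.coeff e₀ := by
    by_cases h1 : (ℓ : ℤ) ∣ (p : ℤ) + 1
    · by_cases h2 : (ℓ : ℤ) ∣ 240 * (p : ℤ) - 504
      · have h744 : (ℓ : ℤ) ∣ 744 := by
          have := dvd_sub (Dvd.dvd.mul_left h1 240) h2
          have e1 : 240 * ((p : ℤ) + 1) - (240 * (p : ℤ) - 504) = 744 := by ring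
          rwa [e1] at this
        refine ⟨2, fun n hn => ?_, ?_⟩
        · interval_cases n
          · rw [hG0]; exact h1
          · rw [hG1]; exact h2
        · rw [hG2]
          intro h3
          have := dvd_sub (Dvd.dvd.mul_left h1 2160) h3
          have e1 : 2160 * ((p : ℤ) + 1) - (2160 * (p : ℤ) - 16632) = 18792 := by ring
          rw [e1, n6_eq_31 hℓ.out hℓ5 h744] at this
          exact h31 this
      · refine ⟨1, fun n hn => ?_, ?_⟩
        · interval_cases n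
          rw [hG0]; exact h1
        · rw [hG1]; exact h2
    · exact ⟨0, fun n hn => absurd hn (Nat.not_lt_zero _), by rw [hG0]; exact h1⟩
  refine n6_false ℓ hpp.ne_zero hpp.one_lt hζ 1 A Bp ?_ ?_ G H ?_ ?_ e₀ e he hG hGe hH hHe Nm ?_
  · intro n
    rw [map_one, one_mul, map_sub, PowerSeries.coeff_one]
    split_ifs with h0
    · rw [h0, hA0, sub_self]; exact (n6_M ℓ).zero_mem
    · rw [sub_zero]; exact hA n (Nat.pos_of_ne_zero h0)
  · intro n
    rw [map_one, one_mul, map_add, PowerSeries.coeff_one, hBp]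
    split_ifs with h0
    · rw [h0, mul_zero, hA0]; simp [(n6_M ℓ).zero_mem]
    · rw [add_zero]
      exact (n6_M ℓ).neg_mem (hA _ (Nat.mul_pos hpp.pos (Nat.pos_of_ne_zero h0)))
  · rw [map_one, one_mul, hGdef, map_add, map_mul, map_intCast, Int.cast_natCast]
  · rw [map_one, one_mul, hHdef, map_sub]
  · rw [map_one, one_mul, one_mul]
    exact hNm

/-- **Case `ℓ = 3`, `p ≡ 2 mod 3`**: no `Θ ≡ 1 mod 9`. -/
theorem n6_false_three {p : ℕ} (hpp : p.Prime) (hp3 : p % 3 = 2)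
    {ζ : ℂ} (hζ : ζ ^ p = 1) (A Bp : PowerSeries ℂ)
    (hA0 : A.coeff 0 = 1)
    (hA : ∀ n, 0 < n → ∃ y ∈ @n6_O 3 ⟨Nat.prime_three⟩, A.coeff n = 9 * y)
    (hBp : ∀ n, Bp.coeff n = -A.coeff (p * n))
    (Nm : ModularForm 𝒮ℒ (6 * ((p : ℤ) + 1)))
    (hNm : (qExpansion 1 Nm).expand p hpp.ne_zero =
      (PowerSeries.C (1 / 3 : ℂ) * ((p : PowerSeries ℂ) * (A * n6_E4.map (Int.castRingHom ℂ)) +
        n6_E6.map (Int.castRingHom ℂ))).expand p hpp.ne_zero *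
      ∏ j ∈ Finset.range p, PowerSeries.rescale (ζ ^ j)
        (PowerSeries.C (1 / 3 : ℂ) *
          (Bp * (n6_E4.map (Int.castRingHom ℂ)).expand p hpp.ne_zero +
          (n6_E6.map (Int.castRingHom ℂ)).expand p hpp.ne_zero))) : False := by
  have : Fact (Nat.Prime 3) := ⟨Nat.prime_three⟩
  have hdiv : 3 * (((p : ℤ) + 1) / 3) = (p : ℤ) + 1 := by omega
  obtain ⟨G, hGdef⟩ : ∃ G : PowerSeries ℤ, G = ((((p : ℤ) + 1) / 3 : ℤ) : PowerSeries ℤ) +
    ((80 * (p : ℤ) : ℤ) : PowerSeries ℤ) * sturmA - ((168 : ℤ) : PowerSeries ℤ) * sturmB :=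
    ⟨_, rfl⟩
  obtain ⟨H, hHdef⟩ : ∃ H : PowerSeries ℤ, H = -(((80 : ℤ) : PowerSeries ℤ) * sturmA) -
    ((168 : ℤ) : PowerSeries ℤ) * sturmB := ⟨_, rfl⟩
  have hconst : ∀ (z : ℤ) (n : ℕ), ((z : PowerSeries ℤ)).coeff n = if n = 0 then z else 0 := by
    intro z n
    have : (z : PowerSeries ℤ) = PowerSeries.C z := by simp
    rw [this, PowerSeries.coeff_C]
  have hG0 : G.coeff 0 = ((p : ℤ) + 1) / 3 := by
    rw [hGdef, map_sub, map_add, n6_coeff_intCast_mul, n6_coeff_intCast_mul, hconst,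
      n6_sturmA_coeff_zero, n6_sturmB_coeff_zero]
    simp
  have hG1 : G.coeff 1 = 80 * (p : ℤ) - 168 := by
    rw [hGdef, map_sub, map_add, n6_coeff_intCast_mul, n6_coeff_intCast_mul, hconst,
      n6_sturmA_coeff_one, n6_sturmB_coeff_one]
    simp
  have hH0 : H.coeff 0 = 0 := by
    rw [hHdef, map_sub, map_neg, n6_coeff_intCast_mul, n6_coeff_intCast_mul,
      n6_sturmA_coeff_zero, n6_sturmB_coeff_zero]
    simp
  have hH1 : H.coeff 1 = -248 := by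
    rw [hHdef, map_sub, map_neg, n6_coeff_intCast_mul, n6_coeff_intCast_mul,
      n6_sturmA_coeff_one, n6_sturmB_coeff_one]
    norm_num
  have h3G : (3 : PowerSeries ℤ) * G = ((p : ℤ) : PowerSeries ℤ) * n6_E4 + n6_E6 := by
    have hc : (3 : PowerSeries ℤ) * ((((p : ℤ) + 1) / 3 : ℤ) : PowerSeries ℤ) =
        ((p : ℤ) : PowerSeries ℤ) + 1 := by
      have := congrArg (Int.cast : ℤ → PowerSeries ℤ) hdiv
      simp only [Int.cast_mul, Int.cast_add, Int.cast_one, Int.cast_ofNat] at this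
      exact this
    rw [hGdef, n6_E4, n6_E6]
    simp only [Int.cast_mul, Int.cast_ofNat]
    linear_combination hc
  have h3H : (3 : PowerSeries ℤ) * H = n6_E6 - n6_E4 := by
    rw [hHdef, n6_E4, n6_E6]
    simp only [Int.cast_ofNat]
    ring
  have hC3 : PowerSeries.C (1 / 3 : ℂ) * (3 : PowerSeries ℂ) = 1 := by
    have : (3 : PowerSeries ℂ) = PowerSeries.C (3 : ℂ) := (map_ofNat PowerSeries.C 3).symm
    rw [this, ← map_mul]
    norm_num
  have hp3' : (p : ℤ) % 3 = 2 := by exact_mod_cast hp3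
  -- leading data
  obtain ⟨e₀, hG, hGe⟩ : ∃ e₀ : ℕ, (∀ n < e₀, ((3 : ℕ) : ℤ) ∣ G.coeff n) ∧
      ¬ ((3 : ℕ) : ℤ) ∣ G.coeff e₀ := by
    by_cases h1 : ((3 : ℕ) : ℤ) ∣ ((p : ℤ) + 1) / 3
    · refine ⟨1, fun n hn => ?_, ?_⟩
      · interval_cases n
        rw [hG0]; exact h1
      · rw [hG1]
        intro h
        have h' : (3 : ℤ) ∣ 80 * (p : ℤ) - 168 := by exact_mod_cast h
        omega
    · exact ⟨0, fun n hn => absurd hn (Nat.not_lt_zero _), by rw [hG0]; exact h1⟩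
  have hH : ∀ n < 1, ((3 : ℕ) : ℤ) ∣ H.coeff n := by
    intro n hn
    interval_cases n
    rw [hH0]; exact dvd_zero _
  have hHe : ¬ ((3 : ℕ) : ℤ) ∣ H.coeff 1 := by
    rw [hH1]; decide
  have h9 : ∀ y : ℂ, y ∈ n6_O 3 → (1 / 3 : ℂ) * (9 * y) ∈ n6_M 3 := by
    intro y hy
    refine ⟨y, hy, ?_⟩
    push_cast; ring
  refine n6_false 3 hpp.ne_zero hpp.one_lt hζ (1 / 3) A Bp ?_ ?_ G H ?_ ?_ e₀ 1 le_rfl hG hGe
    hH hHe Nm hNm
  · intro n
    rw [PowerSeries.coeff_C_mul, map_sub, PowerSeries.coeff_one]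
    split_ifs with h0
    · rw [h0, hA0, sub_self, mul_zero]; exact (n6_M 3).zero_mem
    · rw [sub_zero]
      obtain ⟨y, hy, hAy⟩ := hA n (Nat.pos_of_ne_zero h0)
      rw [hAy]; exact h9 y hy
  · intro n
    rw [PowerSeries.coeff_C_mul, map_add, PowerSeries.coeff_one, hBp]
    split_ifs with h0
    · rw [h0, mul_zero, hA0]; simp [(n6_M 3).zero_mem]
    · rw [add_zero]
      obtain ⟨y, hy, hAy⟩ := hA (p * n) (Nat.mul_pos hpp.pos (Nat.pos_of_ne_zero h0))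
      rw [hAy]
      have := (n6_M 3).neg_mem (h9 y hy)
      have e1 : (1 / 3 : ℂ) * -(9 * y) = -((1 / 3 : ℂ) * (9 * y)) := by ring
      rw [e1]; exact this
  · have := congrArg (PowerSeries.map (Int.castRingHom ℂ)) h3G
    rw [map_mul, map_add, map_mul, map_intCast, Int.cast_natCast] at this
    have h3 : PowerSeries.map (Int.castRingHom ℂ) (3 : PowerSeries ℤ) = (3 : PowerSeries ℂ) :=
      map_ofNat _ 3
    rw [h3] at this
    rw [← this, ← mul_assoc, hC3, one_mul]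
  · have := congrArg (PowerSeries.map (Int.castRingHom ℂ)) h3H
    rw [map_mul, map_sub] at this
    have h3 : PowerSeries.map (Int.castRingHom ℂ) (3 : PowerSeries ℤ) = (3 : PowerSeries ℂ) :=
      map_ofNat _ 3
    rw [h3] at this
    rw [← this, ← mul_assoc, hC3, one_mul]

end Cases

end Fermat.Agent.S16
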