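/-
S16 helper module (helper12): the Key-Lemma cases settled by the norm of the single weight six
form `D = c (p Θ E₄ + E₆)` on `Γ₀(p)`:

* `n6_noTheta_ge_five` : no `Θ ∈ M₂(Γ₀(p))` with `Θ ≡ 1 mod ℓ` for a prime `ℓ ≥ 5` (any prime `p`,
  including `ℓ = p` and `ℓ ∣ p + 1`);
* `n6_noTheta_three`   : no `Θ ∈ M₂(Γ₀(p))` with `Θ ≡ 1 mod 9` when `p ≡ 2 mod 3`.

The power-series side is `NormSixCore.lean`; the expansions of `D` at the two cusps and the norm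
identity come from `ConjNorm.lean`.
-/
import Mathlib
import Fermat.Prelude.Thm_CongruenceSubgroup_one_mem_strictPeriods_Gamma0
import Fermat.Agent.S16.NormSixCore
import Fermat.Agent.S16.ConjNorm

set_option autoImplicit false

open UpperHalfPlane ModularForm CongruenceSubgroup
open scoped MatrixGroups

namespace Fermat.Agent.S16

section

variable {p : ℕ} [Fact p.Prime]

/-- The weight six form `c (p Θ E₄ + E₆)` on `Γ₀(p)`. -/
noncomputable def n6_D (c : ℂ)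
    (Θ : ModularForm ((Gamma0 p).map (Matrix.SpecialLinearGroup.mapGL ℝ)) 2) :
    ModularForm ((Gamma0 p).map (Matrix.SpecialLinearGroup.mapGL ℝ)) 6 :=
  c • ((p : ℂ) • ModularForm.mcast (show (2 : ℤ) + 4 = 6 by norm_num)
    (Θ.mul (conjRestrict p E₄)) + conjRestrict p E₆)

theorem n6_E4_map : n6_E4.map (Int.castRingHom ℂ) = qExpansion 1 E₄ := by
  rw [sturm_E4_qExpansion, n6_E4]

theorem n6_E6_map : n6_E6.map (Int.castRingHom ℂ) = qExpansion 1 E₆ := by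
  rw [sturm_E6_qExpansion, n6_E6]

/-- The expansion of `D` at `∞`. -/
theorem n6_D_qExpansion (c : ℂ)
    (Θ : ModularForm ((Gamma0 p).map (Matrix.SpecialLinearGroup.mapGL ℝ)) 2) :
    qExpansion 1 (n6_D c Θ) = PowerSeries.C c * ((p : PowerSeries ℂ) *
      (qExpansion 1 Θ * n6_E4.map (Int.castRingHom ℂ)) + n6_E6.map (Int.castRingHom ℂ)) := by
  have hΓ := CongruenceSubgroup.one_mem_strictPeriods_Gamma0 p
  set F1 : ModularForm ((Gamma0 p).map (Matrix.SpecialLinearGroup.mapGL ℝ)) 6 :=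
    ModularForm.mcast (show (2 : ℤ) + 4 = 6 by norm_num) (Θ.mul (conjRestrict p E₄)) with hF1
  have h1 : qExpansion 1 F1 = qExpansion 1 Θ * qExpansion 1 E₄ := by
    have : (⇑F1 : ℍ → ℂ) = ⇑(Θ.mul (conjRestrict p E₄)) := rfl
    rw [this, ModularForm.qExpansion_mul one_pos hΓ]
    rfl
  have h2 : qExpansion 1 (((p : ℂ) • F1 :
      ModularForm ((Gamma0 p).map (Matrix.SpecialLinearGroup.mapGL ℝ)) 6)) =
      (p : ℂ) • qExpansion 1 F1 := by
    have : (⇑((p : ℂ) • F1) : ℍ → ℂ) = (p : ℂ) • ⇑F1 := rfl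
    rw [this]
    exact ModularForm.qExpansion_smul one_pos hΓ _ _
  have h3 : qExpansion 1 (((p : ℂ) • F1 + conjRestrict p E₆ :
      ModularForm ((Gamma0 p).map (Matrix.SpecialLinearGroup.mapGL ℝ)) 6)) =
      (p : ℂ) • qExpansion 1 F1 + qExpansion 1 E₆ := by
    have : (⇑((p : ℂ) • F1 + conjRestrict p E₆) : ℍ → ℂ) =
        ⇑((p : ℂ) • F1) + ⇑(conjRestrict p E₆) := rfl
    rw [this, ModularForm.qExpansion_add one_pos hΓ, h2]
    rfl
  have h4 : qExpansion 1 (n6_D c Θ) =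
      c • ((p : ℂ) • qExpansion 1 F1 + qExpansion 1 E₆) := by
    have : (⇑(n6_D c Θ) : ℍ → ℂ) = c • ⇑((p : ℂ) • F1 + conjRestrict p E₆) := rfl
    rw [this, ModularForm.qExpansion_smul one_pos hΓ, h3]
  rw [h4, h1, n6_E4_map, n6_E6_map, PowerSeries.smul_eq_C_mul, PowerSeries.smul_eq_C_mul]
  simp

/-- The expansion of `D` at the cusp `0`. -/
theorem n6_D_conjSeries (c : ℂ)
    (Θ : ModularForm ((Gamma0 p).map (Matrix.SpecialLinearGroup.mapGL ℝ)) 2) :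
    conjSeries (n6_D c Θ) = PowerSeries.C c * ((PowerSeries.C (p : ℂ) * conjSeries Θ) *
      (n6_E4.map (Int.castRingHom ℂ)).expand p (Fact.out : p.Prime).ne_zero +
      (n6_E6.map (Int.castRingHom ℂ)).expand p (Fact.out : p.Prime).ne_zero) := by
  unfold n6_D
  rw [conjSeries_smul, conjSeries_add, conjSeries_smul, conjSeries_mcast, conjSeries_mul,
    conjSeries_restrict, conjSeries_restrict, n6_E4_map, n6_E6_map,
    PowerSeries.smul_eq_C_mul, PowerSeries.smul_eq_C_mul, mul_assoc]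

theorem n6_Bp_coeff (Θ : ModularForm ((Gamma0 p).map (Matrix.SpecialLinearGroup.mapGL ℝ)) 2)
    (n : ℕ) : (PowerSeries.C (p : ℂ) * conjSeries Θ).coeff n =
      -(qExpansion 1 Θ).coeff (p * n) := by
  have hp0 : (p : ℂ) ≠ 0 := Nat.cast_ne_zero.mpr (Fact.out : p.Prime).ne_zero
  rw [PowerSeries.coeff_C_mul, conj_weight_two_coeff]
  field_simp

end

/-- **Key Lemma, `ℓ ≥ 5`**: there is no `Θ ∈ M₂(Γ₀(p))` with `a₀ = 1` and `aₙ ≡ 0 mod ℓ`
(`n ≥ 1`) for a prime `ℓ ≥ 5`. -/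
theorem n6_noTheta_ge_five' (p ℓ : ℕ) [Fact p.Prime] (hℓ : ℓ.Prime) (hℓ5 : 5 ≤ ℓ)
    (Θ : ModularForm ((Gamma0 p).map (Matrix.SpecialLinearGroup.mapGL ℝ)) 2)
    (h : ThetaCong p ℓ 1 Θ) : False := by
  have : Fact ℓ.Prime := ⟨hℓ⟩
  have hpp : p.Prime := Fact.out
  have hℓ0 : (ℓ : ℂ) ≠ 0 := Nat.cast_ne_zero.mpr hℓ.ne_zero
  obtain ⟨h0, hn⟩ := h
  refine n6_false_ge_five hpp hℓ5 (cnZeta_pow_self (p := p)) (qExpansion 1 Θ)
    (PowerSeries.C (p : ℂ) * conjSeries Θ) h0 ?_ (n6_Bp_coeff Θ) (conjNorm (n6_D 1 Θ)) ?_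
  · intro n hn0
    obtain ⟨m, a, hm, hma⟩ := hn n hn0
    refine ⟨(qExpansion 1 Θ).coeff n / ℓ, n6_mem_O_of_mul_eq ℓ hm (a := a) ?_, ?_⟩
    · rw [pow_one] at hma
      rw [← mul_div_assoc, hma]
      field_simp
    · field_simp
  · have h := conj_norm_expand (n6_D 1 Θ)
    rw [n6_D_qExpansion, n6_D_conjSeries] at h
    simpa using h

/-- **Key Lemma, `ℓ = 3`, `p ≡ 2 mod 3`**: there is no `Θ ∈ M₂(Γ₀(p))` with `a₀ = 1` and
`aₙ ≡ 0 mod 9` (`n ≥ 1`). -/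
theorem n6_noTheta_three' (p : ℕ) [Fact p.Prime] (hp : p % 3 = 2)
    (Θ : ModularForm ((Gamma0 p).map (Matrix.SpecialLinearGroup.mapGL ℝ)) 2)
    (h : ThetaCong p 3 2 Θ) : False := by
  have hpp : p.Prime := Fact.out
  obtain ⟨h0, hn⟩ := h
  refine n6_false_three hpp hp (cnZeta_pow_self (p := p)) (qExpansion 1 Θ)
    (PowerSeries.C (p : ℂ) * conjSeries Θ) h0 ?_ (n6_Bp_coeff Θ) (conjNorm (n6_D (1 / 3) Θ)) ?_
  · intro n hn0
    obtain ⟨m, a, hm, hma⟩ := hn n hn0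
    refine ⟨(qExpansion 1 Θ).coeff n / 9, @n6_mem_O_of_mul_eq 3 ⟨Nat.prime_three⟩ _ a m hm ?_, ?_⟩
    · rw [← mul_div_assoc, hma]
      push_cast
      field_simp
      ring
    · field_simp
  · have h := conj_norm_expand (n6_D (1 / 3) Θ)
    rw [n6_D_qExpansion, n6_D_conjSeries] at h
    exact h

/-- `n6_noTheta_ge_five'` in the signature agreed with the consumers (`5 ≤ p` is not used). -/
theorem n6_noTheta_ge_five (p ℓ : ℕ) [Fact p.Prime] (_hp5 : 5 ≤ p) (hℓ : ℓ.Prime) (hℓ5 : 5 ≤ ℓ)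
    (Θ : ModularForm ((Gamma0 p).map (Matrix.SpecialLinearGroup.mapGL ℝ)) 2)
    (h : ThetaCong p ℓ 1 Θ) : False :=
  n6_noTheta_ge_five' p ℓ hℓ hℓ5 Θ h

/-- `n6_noTheta_three'` in the signature agreed with the consumers (`5 ≤ p` is not used). -/
theorem n6_noTheta_three (p : ℕ) [Fact p.Prime] (_hp5 : 5 ≤ p) (hp : p % 3 = 2)
    (Θ : ModularForm ((Gamma0 p).map (Matrix.SpecialLinearGroup.mapGL ℝ)) 2)
    (h : ThetaCong p 3 2 Θ) : False :=
  n6_noTheta_three' p hp Θ h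

end Fermat.Agent.S16
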