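/-
S16 (Eisenstein ideal index) — D-A (helper10): the abstract Hecke polynomials `P_k`.

For every `k ≥ 1` there is `P_k ∈ ℤ[X_ℓ]` with Eisenstein value `σ'(k)` and
`a₁(P_k(T_ℓ, U_p) f) = a_k(f)` for every weight-2 cusp form `f` on `Γ₀(p)`.
-/
import Fermat.Agent.S16.SigmaP
import Fermat.Agent.S16.Top

set_option autoImplicit false
open ModularCurve CuspForm ModularFormClass CongruenceSubgroup

namespace Fermat.Agent.S16

noncomputable section

/-- The operator `P(T_ℓ, U_p)` on `S₂(Γ₀(p))`. -/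
def h10_op (p : ℕ) [Fact p.Prime] (P : HeckeAlg) : Module.End ℂ (CuspForm (Gamma0 p) 2) :=
  ((heckeEvalForms p 2 P : heckeAlgebra p 2 ∅) : Module.End ℂ (CuspForm (Gamma0 p) 2))

theorem h10_op_def (p : ℕ) [Fact p.Prime] (P : HeckeAlg) :
    h10_op p P =
      ((heckeEvalForms p 2 P : heckeAlgebra p 2 ∅) : Module.End ℂ (CuspForm (Gamma0 p) 2)) :=
  rfl

theorem h10_op_one (p : ℕ) [Fact p.Prime] : h10_op p 1 = 1 := by
  rw [h10_op_def, map_one]; rfl

theorem h10_op_mul (p : ℕ) [Fact p.Prime] (P Q : HeckeAlg) :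
    h10_op p (P * Q) = h10_op p P * h10_op p Q := by
  rw [h10_op_def, map_mul]; rfl

theorem h10_op_add (p : ℕ) [Fact p.Prime] (P Q : HeckeAlg) :
    h10_op p (P + Q) = h10_op p P + h10_op p Q := by
  rw [h10_op_def, map_add]; rfl

theorem h10_op_sub (p : ℕ) [Fact p.Prime] (P Q : HeckeAlg) :
    h10_op p (P - Q) = h10_op p P - h10_op p Q := by
  rw [h10_op_def, map_sub]; rfl

theorem h10_op_C_apply (p : ℕ) [Fact p.Prime] (c : ℤ) (f : CuspForm (Gamma0 p) 2) :
    h10_op p (MvPolynomial.C c) f = c • f := by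
  rw [h10_op_def, heckeEvalForms_C]
  rfl

theorem h10_op_X_of_ne (p : ℕ) [Fact p.Prime] (l : Nat.Primes) (h : ¬ (l : ℕ) ∣ p) :
    h10_op p (MvPolynomial.X l) = CuspForm.heckeTLin 2 l.2 h := by
  have := heckeEvalForms_heckeGen_of_not_dvd (N := p) (k := 2) (ℓ := l) h
  rw [h10_op_def]
  show ((heckeEvalForms p 2 (heckeGen l) : heckeAlgebra p 2 ∅) :
    Module.End ℂ (CuspForm (Gamma0 p) 2)) = _
  rw [this]
  rfl

theorem h10_op_X_of_dvd (p : ℕ) [Fact p.Prime] (l : Nat.Primes) (h : (l : ℕ) ∣ p) :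
    h10_op p (MvPolynomial.X l) = CuspForm.heckeULin 2 h := by
  have := heckeEvalForms_heckeGen_of_dvd (N := p) (k := 2) (q := l) h
  rw [h10_op_def]
  show ((heckeEvalForms p 2 (heckeGen l) : heckeAlgebra p 2 ∅) :
    Module.End ℂ (CuspForm (Gamma0 p) 2)) = _
  rw [this]
  rfl

theorem h10_eis_X_of_ne (p : ℕ) (l : Nat.Primes) (h : ¬ (l : ℕ) ∣ p) :
    h36_eis p (MvPolynomial.X l) = 1 + (l : ℕ) := by
  rw [h36_eis_apply, MvPolynomial.aeval_X, eisensteinSystem_of_not_dvd h]

theorem h10_eis_X_of_dvd (p : ℕ) (l : Nat.Primes) (h : (l : ℕ) ∣ p) :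
    h36_eis p (MvPolynomial.X l) = 1 := by
  rw [h36_eis_apply, MvPolynomial.aeval_X, eisensteinSystem_of_dvd h]

/-- **D-A.** The Hecke polynomial `P_k`: Eisenstein value `σ'(k)`, and
`a₁(P_k f) = a_k(f)` on `S₂(Γ₀(p))`. -/
theorem exists_heckePoly (p : ℕ) [Fact p.Prime] (k : ℕ) (hk : 0 < k) :
    ∃ P : HeckeAlg, h36_eis p P = (sigmaP p k : ℤ) ∧
      ∀ f : CuspForm (Gamma0 p) 2, qCoeff ⇑(h10_op p P f) 1 = qCoeff ⇑f k := by
  have hp : p.Prime := Fact.out
  induction k using Nat.strong_induction_on with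
  | _ k ih =>
    by_cases hk1 : k = 1
    · subst hk1
      refine ⟨1, ?_, fun f => ?_⟩
      · rw [map_one, sigmaP_one p hp]; rfl
      · rw [h10_op_one]; rfl
    · have hk2 : 2 ≤ k := by omega
      set l := k.minFac with hl
      have hlp : l.Prime := Nat.minFac_prime hk1
      have hlk : l ∣ k := Nat.minFac_dvd k
      obtain ⟨k', hk'⟩ : ∃ k', k = k' * l := ⟨k / l, (Nat.div_mul_cancel hlk).symm⟩
      have hk'pos : 0 < k' := by
        rcases Nat.eq_zero_or_pos k' with h | h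
        · rw [h, zero_mul] at hk'; omega
        · exact h
      have hk'lt : k' < k := by
        rw [hk']
        exact lt_mul_of_one_lt_right hk'pos hlp.one_lt
      obtain ⟨P', hP'e, hP'f⟩ := ih k' hk'lt hk'pos
      by_cases hlpeq : l = p
      · -- `l = p`: multiply by `U_p`
        have hdvd : ((⟨l, hlp⟩ : Nat.Primes) : ℕ) ∣ p := by
          show l ∣ p
          rw [hlpeq]
        refine ⟨P' * MvPolynomial.X ⟨l, hlp⟩, ?_, fun f => ?_⟩
        · rw [map_mul, hP'e, h10_eis_X_of_dvd p _ hdvd, mul_one, hk', hlpeq,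
            sigmaP_mul_self p hp k' hk'pos]
        · rw [h10_op_mul, Module.End.mul_apply, hP'f, h10_op_X_of_dvd p _ hdvd,
            h10_qCoeff_heckeULin hlp hdvd, hk']
      · have hndvd : ¬ ((⟨l, hlp⟩ : Nat.Primes) : ℕ) ∣ p := by
          intro h
          exact hlpeq ((Nat.prime_dvd_prime_iff_eq hlp hp).mp h)
        have hrec := sigmaP_mul_prime p l hp hlp hlpeq k' hk'pos
        by_cases hlk' : l ∣ k'
        · have hk''pos : 0 < k' / l := Nat.div_pos (Nat.le_of_dvd hk'pos hlk') hlp.pos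
          have hk''lt : k' / l < k :=
            lt_of_le_of_lt (Nat.div_le_self k' l) hk'lt
          obtain ⟨P'', hP''e, hP''f⟩ := ih (k' / l) hk''lt hk''pos
          refine ⟨P' * MvPolynomial.X ⟨l, hlp⟩ - MvPolynomial.C (l : ℤ) * P'', ?_, fun f => ?_⟩
          · rw [map_sub, map_mul, map_mul, hP'e, hP''e, h10_eis_X_of_ne p _ hndvd, h36_eis_C,
              hk']
            rw [if_pos hlk'] at hrec
            have hrec' : ((sigmaP p (k' * l) : ℕ) : ℤ) + (l : ℤ) * (sigmaP p (k' / l) : ℕ) =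
                (1 + (l : ℤ)) * (sigmaP p k' : ℕ) := by exact_mod_cast hrec
            show (sigmaP p k' : ℤ) * (1 + (l : ℤ)) - (l : ℤ) * (sigmaP p (k' / l) : ℤ) = _
            linarith
          · rw [h10_op_sub, LinearMap.sub_apply, h10_qCoeff_sub, h10_op_mul,
              Module.End.mul_apply, hP'f, h10_op_X_of_ne p _ hndvd,
              h10_qCoeff_heckeTLin hlp hndvd, if_pos hlk', h10_op_mul, Module.End.mul_apply,
              h10_op_C_apply, h10_qCoeff_zsmul, hP''f, hk']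
            push_cast
            ring
        · refine ⟨P' * MvPolynomial.X ⟨l, hlp⟩, ?_, fun f => ?_⟩
          · rw [map_mul, hP'e, h10_eis_X_of_ne p _ hndvd, hk']
            rw [if_neg hlk', add_zero] at hrec
            have hrec' : ((sigmaP p (k' * l) : ℕ) : ℤ) = (1 + (l : ℤ)) * (sigmaP p k' : ℕ) := by
              exact_mod_cast hrec
            show (sigmaP p k' : ℤ) * (1 + (l : ℤ)) = _
            linarith
          · rw [h10_op_mul, Module.End.mul_apply, hP'f, h10_op_X_of_ne p _ hndvd,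
              h10_qCoeff_heckeTLin hlp hndvd, if_neg hlk', add_zero, hk']

end

end Fermat.Agent.S16
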