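/-
S16 (Eisenstein ideal index) — D-B (helper10): the `a₁`-duality between the lattice Hecke
algebra `T = heckeLatticeAlgebra p ∅` and the integral lattice `L = intLattice p 2`.

* `h10_exists_form` : every `ℤ`-linear functional on `T` is `t ↦ a₁(t f)` for some `f ∈ L`
  (perfect pairing: injective on both sides through the Hecke polynomials `P_k`, saturated,
  equal ranks).
* `exists_congr_of_dvd` : if `M ∣ eis P` for all `P ∈ ker π`, there is `δ ∈ L` with
  `a_k(δ) ≡ σ'(k) mod M` for all `k ≥ 1`.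
* `exists_relation_of_key` : the upper-bound input `hUB` of `Top.lean` from the key lemma.
-/
import Fermat.Agent.S16.HeckePoly

set_option autoImplicit false
open ModularCurve CuspForm ModularFormClass CongruenceSubgroup

namespace Fermat.Agent.S16

noncomputable section

variable (p : ℕ) [Fact p.Prime]

/-- `π P` acts on the lattice as `P(T_ℓ, U_p)`. -/
theorem h10_pi_apply (P : HeckeAlg) (f : ↥(intLattice p 2)) :
    ((((h36_pi p P : ↥(heckeLatticeAlgebra p ∅)) : Module.End ℤ ↥(intLattice p 2)) f :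
      ↥(intLattice p 2)) : CuspForm (Gamma0 p) 2) = h10_op p P (f : CuspForm (Gamma0 p) 2) :=
  rfl

/-- The integer `k`-th `q`-coefficient of a lattice form. -/
def h10_aZfun (k : ℕ) (f : ↥(intLattice p 2)) : ℤ :=
  Classical.choose ((h10_mem_intLattice_iff (f : CuspForm (Gamma0 p) 2)).mp f.2 k)

omit [Fact p.Prime] in
theorem h10_aZfun_spec (k : ℕ) (f : ↥(intLattice p 2)) :
    ((h10_aZfun p k f : ℤ) : ℂ) = qCoeff ⇑(f : CuspForm (Gamma0 p) 2) k :=
  (Classical.choose_spec ((h10_mem_intLattice_iff (f : CuspForm (Gamma0 p) 2)).mp f.2 k)).symm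

/-- The integer `k`-th `q`-coefficient as a linear functional on the lattice. -/
def h10_aZ (k : ℕ) : ↥(intLattice p 2) →ₗ[ℤ] ℤ where
  toFun := h10_aZfun p k
  map_add' f g := by
    apply Int.cast_injective (α := ℂ)
    rw [Int.cast_add, h10_aZfun_spec, h10_aZfun_spec, h10_aZfun_spec, Submodule.coe_add,
      h10_qCoeff_add]
  map_smul' c f := by
    apply Int.cast_injective (α := ℂ)
    rw [RingHom.id_apply, smul_eq_mul, Int.cast_mul, h10_aZfun_spec, h10_aZfun_spec,
      Submodule.coe_smul, h10_qCoeff_zsmul]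

omit [Fact p.Prime] in
theorem h10_aZ_spec (k : ℕ) (f : ↥(intLattice p 2)) :
    ((h10_aZ p k f : ℤ) : ℂ) = qCoeff ⇑(f : CuspForm (Gamma0 p) 2) k :=
  h10_aZfun_spec p k f

/-- The `a₁`-pairing `T × L → ℤ`. -/
def h10_B : ↥(heckeLatticeAlgebra p ∅) →ₗ[ℤ] (↥(intLattice p 2) →ₗ[ℤ] ℤ) where
  toFun t := (h10_aZ p 1).comp (t : Module.End ℤ ↥(intLattice p 2))
  map_add' s t := by
    ext f
    simp only [LinearMap.comp_apply, LinearMap.add_apply]
    rw [← map_add]
    rfl
  map_smul' c t := by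
    ext f
    simp only [LinearMap.comp_apply, LinearMap.smul_apply, RingHom.id_apply]
    rw [← map_smul]
    rfl

theorem h10_B_apply (t : ↥(heckeLatticeAlgebra p ∅)) (f : ↥(intLattice p 2)) :
    h10_B p t f = h10_aZ p 1 ((t : Module.End ℤ ↥(intLattice p 2)) f) := rfl

/-- `a₁(π(P) f) = a₁(P(T_ℓ,U_p) f)`. -/
theorem h10_B_pi (P : HeckeAlg) (f : ↥(intLattice p 2)) :
    ((h10_B p (h36_pi p P) f : ℤ) : ℂ) =
      qCoeff ⇑(h10_op p P (f : CuspForm (Gamma0 p) 2)) 1 := by
  rw [h10_B_apply, h10_aZ_spec, h10_pi_apply]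

/-- left non-degeneracy. -/
theorem h10_left_inj (f : ↥(intLattice p 2)) (h : ∀ t, h10_B p t f = 0) : f = 0 := by
  apply Subtype.ext
  apply h10_eq_zero_of_qCoeff
  intro n
  rcases Nat.eq_zero_or_pos n with rfl | hn
  · exact h10_qCoeff_zero_eq _
  · obtain ⟨P, -, hP⟩ := exists_heckePoly p n hn
    rw [← hP, ← h10_B_pi, h, Int.cast_zero]

/-- right non-degeneracy. -/
theorem h10_right_inj (t : ↥(heckeLatticeAlgebra p ∅)) (h : ∀ f, h10_B p t f = 0) : t = 0 := by
  apply Subtype.ext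
  refine LinearMap.ext fun f => ?_
  show (t : Module.End ℤ ↥(intLattice p 2)) f = 0
  apply h10_left_inj
  intro s
  have hcomm : s * t = t * s := mul_comm s t
  have h1 : h10_B p s ((t : Module.End ℤ ↥(intLattice p 2)) f) =
      h10_B p t ((s : Module.End ℤ ↥(intLattice p 2)) f) := by
    rw [h10_B_apply, h10_B_apply]
    have h2 : (s : Module.End ℤ ↥(intLattice p 2)) ((t : Module.End ℤ ↥(intLattice p 2)) f) =
        (t : Module.End ℤ ↥(intLattice p 2)) ((s : Module.End ℤ ↥(intLattice p 2)) f) := by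
      have h3 := congrArg (fun u : ↥(heckeLatticeAlgebra p ∅) =>
        (u : Module.End ℤ ↥(intLattice p 2)) f) hcomm
      exact h3
    rw [h2]
  rw [h1, h]

/-- saturation. -/
theorem h10_saturated (f : ↥(intLattice p 2)) (N : ℤ) (hN : N ≠ 0)
    (h : ∀ t, N ∣ h10_B p t f) : ∃ f' : ↥(intLattice p 2), N • f' = f := by
  have hNC : (N : ℂ) ≠ 0 := Int.cast_ne_zero.mpr hN
  have hg : ((N : ℂ)⁻¹ • (f : CuspForm (Gamma0 p) 2)) ∈ intLattice p 2 := by
    rw [h10_mem_intLattice_iff]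
    intro n
    rw [h10_qCoeff_smul]
    rcases Nat.eq_zero_or_pos n with rfl | hn
    · exact ⟨0, by rw [h10_qCoeff_zero_eq, mul_zero, Int.cast_zero]⟩
    · obtain ⟨P, -, hP⟩ := exists_heckePoly p n hn
      obtain ⟨c, hc⟩ := h (h36_pi p P)
      refine ⟨c, ?_⟩
      rw [← hP, ← h10_B_pi, hc, Int.cast_mul, ← mul_assoc, inv_mul_cancel₀ hNC, one_mul]
  refine ⟨⟨_, hg⟩, ?_⟩
  apply Subtype.ext
  rw [Submodule.coe_smul]
  show N • ((N : ℂ)⁻¹ • (f : CuspForm (Gamma0 p) 2)) = _
  rw [← Int.cast_smul_eq_zsmul ℂ N, smul_smul, mul_inv_cancel₀ hNC, one_smul]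

/-- **Perfectness**: every functional on `T` is `t ↦ a₁(t f)` for some lattice form `f`. -/
theorem h10_exists_form (χ : ↥(heckeLatticeAlgebra p ∅) →ₗ[ℤ] ℤ) :
    ∃ f : ↥(intLattice p 2), ∀ t, h10_B p t f = χ t := by
  haveI := intLattice.moduleFinite p
  haveI := intLattice.moduleFree p
  set Φ : ↥(intLattice p 2) →ₗ[ℤ] (↥(heckeLatticeAlgebra p ∅) →ₗ[ℤ] ℤ) := (h10_B p).flip
    with hΦ
  have hΦapp : ∀ f t, Φ f t = h10_B p t f := fun f t => rfl
  have hΦinj : Function.Injective Φ := by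
    rw [← LinearMap.ker_eq_bot, LinearMap.ker_eq_bot']
    intro f hf
    exact h10_left_inj p f fun t => by rw [← hΦapp, hf]; rfl
  have hBinj : Function.Injective (h10_B p) := by
    rw [← LinearMap.ker_eq_bot, LinearMap.ker_eq_bot']
    intro t ht
    exact h10_right_inj p t fun f => by rw [ht]; rfl
  have h1 : Module.finrank ℤ ↥(intLattice p 2) ≤
      Module.finrank ℤ ↥(heckeLatticeAlgebra p ∅) := by
    have := LinearMap.finrank_le_finrank_of_injective hΦinj
    rwa [Module.finrank_linearMap_self] at this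
  have h2 : Module.finrank ℤ ↥(heckeLatticeAlgebra p ∅) ≤
      Module.finrank ℤ ↥(intLattice p 2) := by
    have := LinearMap.finrank_le_finrank_of_injective hBinj
    rwa [Module.finrank_linearMap_self] at this
  have hex : ∃ (N : ℤ) (f : ↥(intLattice p 2)), N ≠ 0 ∧ Φ f = N • χ := by
    by_contra hcon
    push Not at hcon
    let Ψ : (↥(intLattice p 2) × ℤ) →ₗ[ℤ] (↥(heckeLatticeAlgebra p ∅) →ₗ[ℤ] ℤ) :=
      Φ.coprod (LinearMap.toSpanSingleton ℤ _ χ)
    have hΨ : ∀ f z, Ψ (f, z) = Φ f + z • χ := fun f z => by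
      simp [Ψ, LinearMap.coprod_apply, LinearMap.toSpanSingleton_apply]
    have hΨinj : Function.Injective Ψ := by
      rw [← LinearMap.ker_eq_bot, LinearMap.ker_eq_bot']
      rintro ⟨f, z⟩ h
      rw [hΨ] at h
      by_cases hz : z = 0
      · subst hz
        rw [zero_smul, add_zero] at h
        rw [hΦinj (h.trans (map_zero Φ).symm)]
        rfl
      · exfalso
        refine hcon (-z) f (neg_ne_zero.mpr hz) ?_
        rw [neg_smul]
        exact eq_neg_of_add_eq_zero_left h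
    have := LinearMap.finrank_le_finrank_of_injective hΨinj
    rw [Module.finrank_linearMap_self, Module.finrank_prod, Module.finrank_self] at this
    omega
  obtain ⟨N, f, hN, hf⟩ := hex
  have hdiv : ∀ t, N ∣ h10_B p t f := fun t => by
    refine ⟨χ t, ?_⟩
    have := LinearMap.congr_fun hf t
    rw [hΦapp] at this
    rw [this]
    rfl
  obtain ⟨f', hf'⟩ := h10_saturated p f N hN hdiv
  refine ⟨f', fun t => ?_⟩
  have h3 : N * h10_B p t f' = N * χ t := by
    have := LinearMap.congr_fun hf t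
    rw [hΦapp, ← hf', map_smul] at this
    exact this
  exact mul_left_cancel₀ hN h3

/-- **Duality, congruence form.** If `M` divides the Eisenstein value of every relation, some
lattice form is congruent to the Eisenstein series modulo `M` (away from the constant term). -/
theorem exists_congr_of_dvd (M : ℕ)
    (h : ∀ P : HeckeAlg, h36_pi p P = 0 → (M : ℤ) ∣ h36_eis p P) :
    ∃ δ ∈ intLattice p 2, ∀ k, 0 < k →
      ∃ z : ℤ, qCoeff ⇑δ k = (sigmaP p k : ℂ) + M * z := by
  classical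
  set b := Module.Free.chooseBasis ℤ ↥(heckeLatticeAlgebra p ∅) with hb
  choose Q hQ using fun i => h36_pi_surjective p (b i)
  set χ : ↥(heckeLatticeAlgebra p ∅) →ₗ[ℤ] ℤ := b.constr ℤ (fun i => h36_eis p (Q i)) with hχd
  have hχ : ∀ P : HeckeAlg, (M : ℤ) ∣ h36_eis p P - χ (h36_pi p P) := by
    intro P
    set R : HeckeAlg := ∑ i, MvPolynomial.C (b.repr (h36_pi p P) i) * Q i with hR
    have h1 : h36_pi p R = h36_pi p P := by
      rw [hR, map_sum]
      conv_rhs => rw [← b.sum_repr (h36_pi p P)]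
      refine Finset.sum_congr rfl fun i _ => ?_
      rw [map_mul, hQ, ← MvPolynomial.algebraMap_eq,
        eq_intCast (algebraMap ℤ (MvPolynomial Nat.Primes ℤ)), map_intCast, ← zsmul_eq_mul]
    have h2 : χ (h36_pi p P) = h36_eis p R := by
      rw [hR, map_sum, hχd, Module.Basis.constr_apply_fintype]
      refine Finset.sum_congr rfl fun i _ => ?_
      rw [map_mul, h36_eis_C, smul_eq_mul]
      rfl
    have h3 := h (P - R) (by rw [map_sub, h1, sub_self])
    rwa [map_sub, ← h2] at h3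
  obtain ⟨f, hf⟩ := h10_exists_form p χ
  refine ⟨f, f.2, fun k hk => ?_⟩
  obtain ⟨P, hPe, hPf⟩ := exists_heckePoly p k hk
  obtain ⟨z, hz⟩ := hχ P
  refine ⟨-z, ?_⟩
  rw [← hPf, ← h10_B_pi, hf]
  have h4 : χ (h36_pi p P) = (sigmaP p k : ℤ) - M * z := by rw [← hPe]; linarith
  rw [h4]
  push_cast
  ring

/-- **D-B.** The upper-bound input of `Top.lean` (`hUB`) from the key lemma. -/
theorem exists_relation_of_key (n : ℕ)
    (hkey : ∀ (M : ℕ) (δ : CuspForm (Gamma0 p) 2), (∀ k, ∃ z : ℤ, qCoeff ⇑δ k = z) →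
      (∀ k, 0 < k → ∃ z : ℤ, qCoeff ⇑δ k = (sigmaP p k : ℂ) + M * z) → M ∣ n) :
    ∃ P : HeckeAlg, h36_pi p P = 0 ∧ h36_eis p P = (n : ℤ) := by
  set J : Ideal ℤ := Ideal.map (h36_eis p) (RingHom.ker (h36_pi p)) with hJ
  have hsurj : Function.Surjective (h36_eis p) := fun z => ⟨MvPolynomial.C z, h36_eis_C p z⟩
  have hmem : ∀ z : ℤ, z ∈ J ↔ ∃ P, h36_pi p P = 0 ∧ h36_eis p P = z := by
    intro z
    rw [hJ, Ideal.mem_map_iff_of_surjective _ hsurj]
    simp only [RingHom.mem_ker]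
  obtain ⟨g, hg⟩ : ∃ g : ℤ, J = Ideal.span {g} := (IsPrincipalIdealRing.principal J).principal
  have hJm : ∀ z, z ∈ J ↔ ((g.natAbs : ℕ) : ℤ) ∣ z := by
    intro z
    rw [hg, Ideal.mem_span_singleton, Int.natAbs_dvd]
  obtain ⟨δ, hδ, hδc⟩ := exists_congr_of_dvd p g.natAbs
    (fun P hP => (hJm _).mp ((hmem _).mpr ⟨P, hP, rfl⟩))
  have hmn : g.natAbs ∣ n := hkey g.natAbs δ ((h10_mem_intLattice_iff δ).mp hδ) hδc
  exact (hmem _).mp ((hJm _).mpr (Int.natCast_dvd_natCast.mpr hmn))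

end

end Fermat.Agent.S16
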