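import Mathlib
import Fermat.Prelude.Def_ModularCurve_ModularUnit

/-!
# S16, upper bound: the arithmetic of the reduction `δ ↦ Θ := (24/(p-1)) (E' - δ)` (helper56)

Pure valuation bookkeeping used by the `U-KEY` assembly: if `M ∤ n := eisensteinNumerator p`, some
prime `ℓ` has `v_ℓ(n) < v_ℓ(M)`, and then every coefficient `(24/(p-1)) * (M * z)` is `≡ 0` modulo
`ℓ ^ j` (in the `ThetaCong` / `NoTheta` sense) with `j = v_ℓ(24 / gcd(p-1,12)) + 1`.
-/

set_option autoImplicit false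

open ModularCurve

namespace Fermat.Agent.S16

/-- If `M ∤ n` (with `M, n ≠ 0`), some prime has larger valuation in `M` than in `n`. -/
theorem h56_exists_prime_of_not_dvd {M n : ℕ} (hn : n ≠ 0) (hM0 : M ≠ 0) (hM : ¬ M ∣ n) :
    ∃ l : ℕ, l.Prime ∧ padicValNat l n < padicValNat l M := by
  by_contra hcon0
  have hcon : ∀ l : ℕ, l.Prime → padicValNat l M ≤ padicValNat l n :=
    fun l hl => not_lt.1 fun h => hcon0 ⟨l, hl, h⟩
  apply hM
  rw [← Nat.factorization_le_iff_dvd hM0 hn]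
  intro l
  by_cases hl : l.Prime
  · rw [Nat.factorization_def _ hl, Nat.factorization_def _ hl]
    exact hcon l hl
  · rw [Nat.factorization_eq_zero_of_not_prime _ hl]
    exact Nat.zero_le _

theorem h56_gcd_mul_numerator (p : ℕ) :
    Nat.gcd (p - 1) 12 * eisensteinNumerator p = p - 1 :=
  Nat.mul_div_cancel' (Nat.gcd_dvd_left _ _)

theorem h56_gcd_mul_cofactor (p : ℕ) :
    Nat.gcd (p - 1) 12 * (24 / Nat.gcd (p - 1) 12) = 24 :=
  Nat.mul_div_cancel' ((Nat.gcd_dvd_right _ _).trans (by norm_num))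

theorem h56_numerator_ne_zero {p : ℕ} (hp : 2 ≤ p) : eisensteinNumerator p ≠ 0 := by
  intro h
  have h1 := h56_gcd_mul_numerator p
  rw [h, mul_zero] at h1
  omega

theorem h56_gcd_ne_zero (p : ℕ) : Nat.gcd (p - 1) 12 ≠ 0 :=
  Nat.gcd_ne_zero_right (by norm_num)

theorem h56_cofactor_ne_zero (p : ℕ) : 24 / Nat.gcd (p - 1) 12 ≠ 0 := by
  intro h
  have h1 := h56_gcd_mul_cofactor p
  rw [h, mul_zero] at h1
  omega

/-- The coefficient clause of `ThetaCong p ℓ j Θ` for `Θ = (24/(p-1)) (E' - δ)`: the `k`-th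
coefficient is `(24/(p-1)) * (M * z)` and `v_ℓ(n) < v_ℓ(M)`. -/
theorem h56_theta_coeff (p : ℕ) (hp : 2 ≤ p) (M l : ℕ) (hl : l.Prime) (hM0 : M ≠ 0)
    (hlt : padicValNat l (eisensteinNumerator p) < padicValNat l M) (z : ℤ) :
    ∃ m a : ℤ, ¬ (l : ℤ) ∣ m ∧
      (m : ℂ) * ((24 : ℂ) / ((p : ℂ) - 1) * ((M : ℂ) * z)) =
        (l : ℂ) ^ (padicValNat l (24 / Nat.gcd (p - 1) 12) + 1) * a := by
  have : Fact l.Prime := ⟨hl⟩
  set n := eisensteinNumerator p with hn_def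
  set g := Nat.gcd (p - 1) 12 with hg_def
  set c := 24 / g with hc_def
  have hn0 : n ≠ 0 := h56_numerator_ne_zero hp
  have hg0 : g ≠ 0 := h56_gcd_ne_zero p
  have hc0 : c ≠ 0 := h56_cofactor_ne_zero p
  have hgn : g * n = p - 1 := h56_gcd_mul_numerator p
  have hgc : g * c = 24 := h56_gcd_mul_cofactor p
  -- decompositions
  obtain ⟨m₀, hm₀⟩ : l ^ padicValNat l n ∣ n := (padicValNat_dvd_iff_le hn0).2 le_rfl
  obtain ⟨M₁, hM₁⟩ : l ^ (padicValNat l n + 1) ∣ M := (padicValNat_dvd_iff_le hM0).2 hlt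
  obtain ⟨c₁, hc₁⟩ : l ^ padicValNat l c ∣ c := (padicValNat_dvd_iff_le hc0).2 le_rfl
  have hm₀l : ¬ l ∣ m₀ := by
    rintro ⟨t, ht⟩
    have hdvd : l ^ (padicValNat l n + 1) ∣ n :=
      ⟨t, by rw [pow_succ, mul_assoc, ← ht]; exact hm₀⟩
    have := (padicValNat_dvd_iff_le hn0).1 hdvd
    omega
  refine ⟨(m₀ : ℤ), (c₁ : ℤ) * (M₁ : ℤ) * z, ?_, ?_⟩
  · exact_mod_cast hm₀l
  · have hl0 : (l : ℂ) ≠ 0 := by exact_mod_cast hl.ne_zero
    have hp1 : ((p : ℂ) - 1) = (g : ℂ) * (n : ℂ) := by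
      have : ((p - 1 : ℕ) : ℂ) = (p : ℂ) - 1 := by
        rw [Nat.cast_sub (by omega : 1 ≤ p)]; simp
      rw [← this, ← hgn]; push_cast; ring
    have h24 : (24 : ℂ) = (g : ℂ) * (c : ℂ) := by
      have : ((24 : ℕ) : ℂ) = ((g * c : ℕ) : ℂ) := by rw [hgc]
      push_cast at this; exact this
    have hnC : (n : ℂ) = (l : ℂ) ^ padicValNat l n * (m₀ : ℂ) := by
      have : (n : ℂ) = ((l ^ padicValNat l n * m₀ : ℕ) : ℂ) := by rw [← hm₀]
      rw [this]; push_cast; ring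
    have hMC : (M : ℂ) = (l : ℂ) ^ (padicValNat l n + 1) * (M₁ : ℂ) := by
      have : (M : ℂ) = ((l ^ (padicValNat l n + 1) * M₁ : ℕ) : ℂ) := by rw [← hM₁]
      rw [this]; push_cast; ring
    have hcC : (c : ℂ) = (l : ℂ) ^ padicValNat l c * (c₁ : ℂ) := by
      have : (c : ℂ) = ((l ^ padicValNat l c * c₁ : ℕ) : ℂ) := by rw [← hc₁]
      rw [this]; push_cast; ring
    have hg0' : (g : ℂ) ≠ 0 := by exact_mod_cast hg0
    have hm₀0 : (m₀ : ℂ) ≠ 0 := by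
      intro h
      have : m₀ = 0 := by exact_mod_cast h
      rw [this, mul_zero] at hm₀
      exact hn0 hm₀
    rw [hp1, h24, hnC, hMC, hcC]
    push_cast
    field_simp
    ring

/-- The exponent `j = v_ℓ(24 / gcd(p-1,12)) + 1` for `ℓ ≥ 5`. -/
theorem h56_j_of_five_le (p : ℕ) {l : ℕ} (hl : l.Prime) (hl5 : 5 ≤ l) :
    padicValNat l (24 / Nat.gcd (p - 1) 12) + 1 = 1 := by
  have hdvd : 24 / Nat.gcd (p - 1) 12 ∣ 24 :=
    Nat.div_dvd_of_dvd ((Nat.gcd_dvd_right _ _).trans (by norm_num))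
  have hnd : ¬ l ∣ 24 / Nat.gcd (p - 1) 12 := by
    intro h
    have h24 : l ∣ 24 := h.trans hdvd
    have h24' : l ∣ 2 ^ 3 * 3 := by norm_num; exact h24
    rcases (Nat.Prime.dvd_mul hl).1 h24' with h2 | h3
    · have := (Nat.prime_dvd_prime_iff_eq hl Nat.prime_two).1 (hl.dvd_of_dvd_pow h2)
      omega
    · have := (Nat.prime_dvd_prime_iff_eq hl Nat.prime_three).1 h3
      omega
  rw [padicValNat.eq_zero_of_not_dvd hnd]

theorem h56_gcd_cases (p : ℕ) (hp : p.Prime) (hp5 : 5 ≤ p) :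
    (p % 3 = 1 ∧ p % 4 = 1 ∧ Nat.gcd (p - 1) 12 = 12) ∨
    (p % 3 = 1 ∧ p % 4 = 3 ∧ Nat.gcd (p - 1) 12 = 6) ∨
    (p % 3 = 2 ∧ p % 4 = 1 ∧ Nat.gcd (p - 1) 12 = 4) ∨
    (p % 3 = 2 ∧ p % 4 = 3 ∧ Nat.gcd (p - 1) 12 = 2) := by
  have h2 : p % 2 = 1 := by
    rcases hp.eq_two_or_odd with h | h
    · omega
    · exact h
  have h3 : p % 3 ≠ 0 := by
    intro h
    have := (Nat.prime_dvd_prime_iff_eq Nat.prime_three hp).1 (Nat.dvd_of_mod_eq_zero h)
    omega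
  have hg : Nat.gcd (p - 1) 12 = Nat.gcd ((p - 1) % 12) 12 := by
    rw [Nat.gcd_comm, Nat.gcd_rec, Nat.gcd_comm, Nat.gcd_comm 12]
  have hr : (p - 1) % 12 < 12 := Nat.mod_lt _ (by norm_num)
  have hpr : p = 12 * ((p - 1) / 12) + (p - 1) % 12 + 1 := by
    have := Nat.div_add_mod (p - 1) 12
    omega
  rw [hg]
  generalize (p - 1) % 12 = r at hr hpr ⊢
  interval_cases r
  · have : Nat.gcd 0 12 = 12 := by norm_num
    omega
  · omega
  · omega
  · omega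
  · have : Nat.gcd 4 12 = 4 := by norm_num
    omega
  · omega
  · have : Nat.gcd 6 12 = 6 := by norm_num
    omega
  · omega
  · omega
  · omega
  · have : Nat.gcd 10 12 = 2 := by norm_num
    omega
  · omega

theorem h56_padicValNat_eq {l c k : ℕ} (hl : l.Prime) (hc : c ≠ 0) (h1 : l ^ k ∣ c)
    (h2 : ¬ l ^ (k + 1) ∣ c) : padicValNat l c = k := by
  have : Fact l.Prime := ⟨hl⟩
  have h1' := (padicValNat_dvd_iff_le hc).1 h1
  have h2' : ¬ (k + 1 ≤ padicValNat l c) := fun h => h2 ((padicValNat_dvd_iff_le hc).2 h)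
  omega

/-- The exponent `j = v_3(24 / gcd(p-1,12)) + 1`: it is `1` for `p ≡ 1 mod 3` and `2` for
`p ≡ 2 mod 3`. -/
theorem h56_j_three (p : ℕ) (hp : p.Prime) (hp5 : 5 ≤ p) :
    (p % 3 = 1 → padicValNat 3 (24 / Nat.gcd (p - 1) 12) + 1 = 1) ∧
    (p % 3 = 2 → padicValNat 3 (24 / Nat.gcd (p - 1) 12) + 1 = 2) := by
  rcases h56_gcd_cases p hp hp5 with ⟨h3, -, hg⟩ | ⟨h3, -, hg⟩ | ⟨h3, -, hg⟩ | ⟨h3, -, hg⟩ <;>
    rw [hg] <;> refine ⟨fun h => ?_, fun h => ?_⟩ <;> first | omega | skip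
  · rw [h56_padicValNat_eq Nat.prime_three (by norm_num) (k := 0) (by norm_num) (by norm_num)]
  · rw [h56_padicValNat_eq Nat.prime_three (by norm_num) (k := 0) (by norm_num) (by norm_num)]
  · rw [h56_padicValNat_eq Nat.prime_three (by norm_num) (k := 1) (by norm_num) (by norm_num)]
  · rw [h56_padicValNat_eq Nat.prime_three (by norm_num) (k := 1) (by norm_num) (by norm_num)]

/-- The exponent `j = v_2(24 / gcd(p-1,12)) + 1`: it is `2` for `p ≡ 1 mod 4` and `3` for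
`p ≡ 3 mod 4`. -/
theorem h56_j_two (p : ℕ) (hp : p.Prime) (hp5 : 5 ≤ p) :
    (p % 4 = 1 → padicValNat 2 (24 / Nat.gcd (p - 1) 12) + 1 = 2) ∧
    (p % 4 = 3 → padicValNat 2 (24 / Nat.gcd (p - 1) 12) + 1 = 3) := by
  rcases h56_gcd_cases p hp hp5 with ⟨-, h4, hg⟩ | ⟨-, h4, hg⟩ | ⟨-, h4, hg⟩ | ⟨-, h4, hg⟩ <;>
    rw [hg] <;> refine ⟨fun h => ?_, fun h => ?_⟩ <;> first | omega | skip
  · rw [h56_padicValNat_eq Nat.prime_two (by norm_num) (k := 1) (by norm_num) (by norm_num)]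
  · rw [h56_padicValNat_eq Nat.prime_two (by norm_num) (k := 2) (by norm_num) (by norm_num)]
  · rw [h56_padicValNat_eq Nat.prime_two (by norm_num) (k := 1) (by norm_num) (by norm_num)]
  · rw [h56_padicValNat_eq Nat.prime_two (by norm_num) (k := 2) (by norm_num) (by norm_num)]

/-- `p % 8`-refinement used by the `ℓ = 2` cases: for `p ≡ 3 mod 4` either `p % 8 = 3` or
`p % 8 = 7`. -/
theorem h56_mod_eight_of_mod_four {p : ℕ} (h : p % 4 = 3) : p % 8 = 3 ∨ p % 8 = 7 := by omega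

end Fermat.Agent.S16
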