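/-
S16 (Eisenstein ideal index) — module D-K (helper50): the key lemma in `δ`-form from the analytic
"no `Θ`" statements.

If `δ ∈ S₂(Γ₀(p))` has `a_k(δ) = σ'(k) + M z_k` (`k ≥ 1`) and `M ∤ n = (p-1)/gcd(p-1,12)`, pick a
prime `ℓ` with `v_ℓ(M) > v_ℓ(n)` (any prime if `M = 0`); then
`Θ := (24/(p-1)) (E' - δ) ∈ M₂(Γ₀(p))` has `a₀ = 1` and `a_k ∈ ℓ^j ℤ_(ℓ)` with
`j = v_ℓ(24/gcd(p-1,12)) + 1`, i.e. `ThetaCong p ℓ j Θ`.
-/
import Fermat.Agent.S16.SigmaP
import Fermat.Agent.S16.EisP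
import Fermat.Agent.S16.ThetaCong

set_option autoImplicit false
open ModularCurve CuspForm ModularFormClass CongruenceSubgroup UpperHalfPlane

namespace Fermat.Agent.S16

noncomputable section

/-- `Θ_δ := (24/(p-1)) (E' - δ)`. -/
def h50_theta (p : ℕ) [Fact p.Prime] (δ : CuspForm (Gamma0 p) 2) : ModularForm (Gamma0 p) 2 :=
  ((24 : ℂ) / ((p : ℂ) - 1)) • (eisP p - CuspForm.toModularFormₗ δ)

theorem h50_theta_coeff (p : ℕ) [Fact p.Prime] (δ : CuspForm (Gamma0 p) 2) (k : ℕ) :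
    (qExpansion 1 (h50_theta p δ)).coeff k =
      ((24 : ℂ) / ((p : ℂ) - 1)) * ((qExpansion 1 (eisP p)).coeff k - qCoeff ⇑δ k) := by
  have hΓ := h10_one_mem_strictPeriods p
  have h1 : (⇑(h50_theta p δ) : ℍ → ℂ) =
      ((24 : ℂ) / ((p : ℂ) - 1)) • (⇑(eisP p - CuspForm.toModularFormₗ δ) : ℍ → ℂ) := rfl
  have h2 : (⇑(eisP p - CuspForm.toModularFormₗ δ) : ℍ → ℂ) =
      (⇑(eisP p) : ℍ → ℂ) - (⇑δ : ℍ → ℂ) := rfl
  rw [h1, ModularForm.qExpansion_smul one_pos hΓ, h2,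
    ModularForm.qExpansion_sub one_pos hΓ (eisP p) δ]
  simp [qCoeff]

/-- the arithmetic of `n = (p-1)/gcd(p-1,12)`. -/
theorem h50_arith (p : ℕ) (hp : 2 ≤ p) :
    0 < eisensteinNumerator p ∧
      p - 1 = eisensteinNumerator p * Nat.gcd (p - 1) 12 ∧
      24 = (24 / Nat.gcd (p - 1) 12) * Nat.gcd (p - 1) 12 ∧ 0 < Nat.gcd (p - 1) 12 := by
  have hg : 0 < Nat.gcd (p - 1) 12 := Nat.gcd_pos_of_pos_right _ (by norm_num)
  have h1 : p - 1 = eisensteinNumerator p * Nat.gcd (p - 1) 12 :=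
    (Nat.div_mul_cancel (Nat.gcd_dvd_left (p - 1) 12)).symm
  have h2 : 24 = (24 / Nat.gcd (p - 1) 12) * Nat.gcd (p - 1) 12 :=
    (Nat.div_mul_cancel (dvd_trans (Nat.gcd_dvd_right (p - 1) 12) (by norm_num))).symm
  refine ⟨?_, h1, h2, hg⟩
  rcases Nat.eq_zero_or_pos (eisensteinNumerator p) with h0 | h0
  · rw [h0, zero_mul] at h1
    omega
  · exact h0

/-- `Θ_δ` satisfies `ThetaCong p ℓ j` as soon as `ℓ^(e+1) ∣ M`, `n = ℓ^e n'`, `ℓ ∤ n'`. -/
theorem h50_thetaCong (p : ℕ) [Fact p.Prime] (M : ℕ) (δ : CuspForm (Gamma0 p) 2)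
    (hcong : ∀ k, 0 < k → ∃ z : ℤ, qCoeff ⇑δ k = (sigmaP p k : ℂ) + M * z)
    (l : ℕ) (hl : l.Prime) (e n' M' : ℕ) (hn : eisensteinNumerator p = l ^ e * n')
    (hn' : ¬ l ∣ n') (hM : M = l ^ (e + 1) * M') :
    ThetaCong p l (padicValNat l (24 / Nat.gcd (p - 1) 12) + 1) (h50_theta p δ) := by
  have hp : p.Prime := Fact.out
  obtain ⟨hn0, h1, h2, hg⟩ := h50_arith p hp.two_le
  obtain ⟨ν, hν⟩ : l ^ padicValNat l (24 / Nat.gcd (p - 1) 12) ∣ 24 / Nat.gcd (p - 1) 12 :=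
    pow_padicValNat_dvd
  set b := padicValNat l (24 / Nat.gcd (p - 1) 12) with hb
  set g := Nat.gcd (p - 1) 12 with hgdef
  have hlC : (l : ℂ) ≠ 0 := by exact_mod_cast hl.ne_zero
  have hgC : (g : ℂ) ≠ 0 := by exact_mod_cast hg.ne'
  have hn'0 : n' ≠ 0 := by
    rintro rfl
    exact hn' (dvd_zero l)
  have hn'C : (n' : ℂ) ≠ 0 := by exact_mod_cast hn'0
  have hp1 : ((p : ℂ) - 1) = (l : ℂ) ^ e * n' * g := by
    have h3 : ((p - 1 : ℕ) : ℂ) = (l : ℂ) ^ e * n' * g := by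
      rw [h1, hn]; push_cast; ring
    rw [← h3, Nat.cast_sub hp.one_le, Nat.cast_one]
  have h24 : (24 : ℂ) = (l : ℂ) ^ b * ν * g := by
    have h3 : ((24 : ℕ) : ℂ) = (l : ℂ) ^ b * ν * g := by
      conv_lhs => rw [h2, hν]
      push_cast; ring
    exact_mod_cast h3
  have hp1ne : ((p : ℂ) - 1) ≠ 0 := by
    rw [hp1]
    exact mul_ne_zero (mul_ne_zero (pow_ne_zero _ hlC) hn'C) hgC
  refine ⟨?_, fun k hk => ?_⟩
  · rw [h50_theta_coeff, eisP_coeff_zero, h10_qCoeff_zero_eq, sub_zero]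
    field_simp
  · obtain ⟨z, hz⟩ := hcong k hk
    refine ⟨(n' : ℤ), -((ν : ℤ) * M' * z), ?_, ?_⟩
    · exact_mod_cast (Int.natCast_dvd_natCast (m := l) (n := n')).not.mpr hn'
    · have hs : (qExpansion 1 (eisP p)).coeff k = (sigmaP p k : ℂ) := by
        rw [eisP_coeff p k hk]; rfl
      rw [h50_theta_coeff, hs, hz, hp1, h24, hM]
      push_cast
      field_simp
      ring

/-- **D-K.** The key lemma in `δ`-form from the analytic "no `Θ`" statements. -/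
theorem hkey_of_noTheta (p : ℕ) [Fact p.Prime]
    (h : ∀ l : ℕ, l.Prime → ∀ Θ : ModularForm (Gamma0 p) 2,
      ¬ ThetaCong p l (padicValNat l (24 / Nat.gcd (p - 1) 12) + 1) Θ) :
    ∀ (M : ℕ) (δ : CuspForm (Gamma0 p) 2), (∀ k, ∃ z : ℤ, qCoeff ⇑δ k = z) →
      (∀ k, 0 < k → ∃ z : ℤ, qCoeff ⇑δ k = (sigmaP p k : ℂ) + M * z) →
      M ∣ eisensteinNumerator p := by
  have hp : p.Prime := Fact.out
  obtain ⟨hn0, -, -, -⟩ := h50_arith p hp.two_le
  intro M δ _ hcong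
  by_contra hMn
  rcases Nat.eq_zero_or_pos M with hM0 | hM0
  · -- `M = 0`: any prime works
    have h2 : (2 : ℕ).Prime := Nat.prime_two
    refine h 2 h2 (h50_theta p δ) (h50_thetaCong p M δ hcong 2 h2
      ((eisensteinNumerator p).factorization 2)
      (eisensteinNumerator p / 2 ^ (eisensteinNumerator p).factorization 2) 0
      (Nat.ordProj_mul_ordCompl_eq_self _ 2).symm (Nat.not_dvd_ordCompl h2 hn0.ne') ?_)
    rw [hM0, mul_zero]
  · -- a prime `l` with `v_l(M) > v_l(n)`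
    have hfac : ¬ M.factorization ≤ (eisensteinNumerator p).factorization := fun hle =>
      hMn ((Nat.factorization_le_iff_dvd hM0.ne' hn0.ne').mp hle)
    rw [Finsupp.le_def, not_forall] at hfac
    obtain ⟨l, hl⟩ := hfac
    rw [not_le] at hl
    have hlprime : l.Prime := by
      by_contra hnp
      rw [Nat.factorization_eq_zero_of_not_prime M hnp] at hl
      exact Nat.not_lt_zero _ hl
    obtain ⟨M', hM'⟩ : l ^ ((eisensteinNumerator p).factorization l + 1) ∣ M :=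
      (hlprime.pow_dvd_iff_le_factorization hM0.ne').mpr hl
    exact h l hlprime (h50_theta p δ) (h50_thetaCong p M δ hcong l hlprime
      ((eisensteinNumerator p).factorization l)
      (eisensteinNumerator p / l ^ (eisensteinNumerator p).factorization l) M'
      (Nat.ordProj_mul_ordCompl_eq_self _ l).symm (Nat.not_dvd_ordCompl hlprime hn0.ne') hM')

end

end Fermat.Agent.S16
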