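/-
S16 (Eisenstein ideal index) — U-KEY assembly (helper50, arithmetic table by helper56 `KeyArith`):
the key lemma in `δ`-form from the four analytic case files (RULING 2 of the S16 lead):

* `hA` : `ℓ ≥ 5` prime, `ThetaCong p ℓ 1 Θ → False`                     (NormSix)
* `hB` : `p % 3 = 2`, `ThetaCong p 3 2 Θ → False`                        (NormSix)
* `hC` : `ℓ` prime, `ℓ ≠ p`, `¬ ℓ^j ∣ p + 1`, `ThetaCong p ℓ j Θ → False` (TwistTrace)
* `hD` : `p % 8 = 7`, `ThetaCong p 2 3 Θ → False`                        (NoThetaMod8 / RhoEval)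
-/
import Fermat.Agent.S16.KeyReduce
import Fermat.Agent.S16.KeyArith

set_option autoImplicit false
open ModularCurve CuspForm ModularFormClass CongruenceSubgroup UpperHalfPlane

namespace Fermat.Agent.S16

/-- The "no `Θ`" statement for every prime `ℓ` (with the exponent `j = v_ℓ(24/gcd(p-1,12)) + 1`)
from the four analytic case statements. -/
theorem h50_noTheta_of_cases (p : ℕ) [Fact p.Prime] (hp5 : 5 ≤ p)
    (hA : ∀ l : ℕ, l.Prime → 5 ≤ l → ∀ Θ : ModularForm (Gamma0 p) 2, ¬ ThetaCong p l 1 Θ)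
    (hB : p % 3 = 2 → ∀ Θ : ModularForm (Gamma0 p) 2, ¬ ThetaCong p 3 2 Θ)
    (hC : ∀ l j : ℕ, l.Prime → l ≠ p → ¬ l ^ j ∣ p + 1 →
      ∀ Θ : ModularForm (Gamma0 p) 2, ¬ ThetaCong p l j Θ)
    (hD : p % 8 = 7 → ∀ Θ : ModularForm (Gamma0 p) 2, ¬ ThetaCong p 2 3 Θ) :
    ∀ l : ℕ, l.Prime → ∀ Θ : ModularForm (Gamma0 p) 2,
      ¬ ThetaCong p l (padicValNat l (24 / Nat.gcd (p - 1) 12) + 1) Θ := by
  have hp : p.Prime := Fact.out
  intro l hl Θ
  rcases Nat.lt_or_ge l 5 with hl5 | hl5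
  · have hl23 : l = 2 ∨ l = 3 := by
      have h2 := hl.two_le
      interval_cases l
      · exact Or.inl rfl
      · exact Or.inr rfl
      · exact absurd hl (by decide)
    rcases hl23 with rfl | rfl
    · -- `ℓ = 2`
      have hodd : p % 2 = 1 := by
        rcases hp.eq_two_or_odd with h | h
        · omega
        · exact h
      have h4 : p % 4 = 1 ∨ p % 4 = 3 := by omega
      rcases h4 with h4 | h4
      · rw [(h56_j_two p hp hp5).1 h4]
        refine hC 2 2 Nat.prime_two (by omega) ?_ Θ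
        intro hdvd
        have : (p + 1) % 4 = 0 := Nat.mod_eq_zero_of_dvd (by simpa using hdvd)
        omega
      · rw [(h56_j_two p hp hp5).2 h4]
        have h8 : p % 8 = 3 ∨ p % 8 = 7 := by omega
        rcases h8 with h8 | h8
        · refine hC 2 3 Nat.prime_two (by omega) ?_ Θ
          intro hdvd
          have : (p + 1) % 8 = 0 := Nat.mod_eq_zero_of_dvd (by simpa using hdvd)
          omega
        · exact hD h8 Θ
    · -- `ℓ = 3`
      have h3 : p % 3 = 1 ∨ p % 3 = 2 := by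
        have h0 : p % 3 ≠ 0 := by
          intro h0
          have h3p : 3 ∣ p := Nat.dvd_of_mod_eq_zero h0
          have := (Nat.prime_dvd_prime_iff_eq Nat.prime_three hp).mp h3p
          omega
        omega
      rcases h3 with h3 | h3
      · rw [(h56_j_three p hp hp5).1 h3]
        refine hC 3 1 Nat.prime_three (by omega) ?_ Θ
        intro hdvd
        have : (p + 1) % 3 = 0 := Nat.mod_eq_zero_of_dvd (by simpa using hdvd)
        omega
      · rw [(h56_j_three p hp hp5).2 h3]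
        exact hB h3 Θ
  · rw [h56_j_of_five_le p hl hl5]
    exact hA l hl hl5 Θ

/-- **U-KEY.** The key lemma in `δ`-form (`hkey` of `exists_relation_of_key`) for `p ≥ 5`, from
the four analytic case statements. -/
theorem hkey_of_cases (p : ℕ) [Fact p.Prime] (hp5 : 5 ≤ p)
    (hA : ∀ l : ℕ, l.Prime → 5 ≤ l → ∀ Θ : ModularForm (Gamma0 p) 2, ¬ ThetaCong p l 1 Θ)
    (hB : p % 3 = 2 → ∀ Θ : ModularForm (Gamma0 p) 2, ¬ ThetaCong p 3 2 Θ)
    (hC : ∀ l j : ℕ, l.Prime → l ≠ p → ¬ l ^ j ∣ p + 1 →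
      ∀ Θ : ModularForm (Gamma0 p) 2, ¬ ThetaCong p l j Θ)
    (hD : p % 8 = 7 → ∀ Θ : ModularForm (Gamma0 p) 2, ¬ ThetaCong p 2 3 Θ) :
    ∀ (M : ℕ) (δ : CuspForm (Gamma0 p) 2), (∀ k, ∃ z : ℤ, qCoeff ⇑δ k = z) →
      (∀ k, 0 < k → ∃ z : ℤ, qCoeff ⇑δ k = (sigmaP p k : ℂ) + M * z) →
      M ∣ eisensteinNumerator p :=
  hkey_of_noTheta p (h50_noTheta_of_cases p hp5 hA hB hC hD)

end Fermat.Agent.S16
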