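/-
S16 (Eisenstein ideal index) — U-KEY, small primes (helper50): for `p = 2, 3` the space
`S₂(Γ₀(p))` is zero (S20 dimension formula), so the key lemma in `δ`-form is trivial.
-/
import Fermat.Agent.S16.SigmaP
import Fermat.Agent.S20
import Fermat.Agent.S23.Helper47Cusp

set_option autoImplicit false
open ModularCurve CuspForm ModularFormClass CongruenceSubgroup UpperHalfPlane

namespace Fermat.Agent.S16

theorem h50_genus_two : genusFormula 2 = 0 := by
  have h1 : dedekindPsi 2 = 3 := by
    have h : Nat.divisors 2 = {1, 2} := by decide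
    rw [dedekindPsi, h, Finset.sum_filter]
    simp [Nat.prime_two.squarefree]
  have h2 : nuTwo 2 = 1 := by
    rw [nuTwo, Nat.card_eq_fintype_card]; decide
  have h3 : nuThree 2 = 0 := by
    rw [nuThree, Nat.card_eq_fintype_card]; decide
  have h4 : cuspCount 2 = 2 := by decide
  rw [genusFormula, h1, h2, h3, h4]
  norm_num

theorem h50_genus_three : genusFormula 3 = 0 := by
  have h1 : dedekindPsi 3 = 4 := by
    have h : Nat.divisors 3 = {1, 3} := by decide
    rw [dedekindPsi, h, Finset.sum_filter]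
    simp [Nat.prime_three.squarefree]
  have h2 : nuTwo 3 = 0 := by
    rw [nuTwo, Nat.card_eq_fintype_card]; decide
  have h3 : nuThree 3 = 1 := by
    rw [nuThree, Nat.card_eq_fintype_card]; decide
  have h4 : cuspCount 3 = 2 := by decide
  rw [genusFormula, h1, h2, h3, h4]
  norm_num

/-- If `S₂(Γ₀(p))` has genus formula `0`, every weight-2 cusp form of level `p` vanishes. -/
theorem h50_cusp_eq_zero (p : ℕ) [NeZero p] (hg : genusFormula p = 0)
    (δ : CuspForm (Gamma0 p) 2) : δ = 0 := by
  have h := Fermat.Agent.S20.result p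
  rw [hg] at h
  have h0 : Module.finrank ℂ (CuspForm (Gamma0 p) 2) = 0 := by exact_mod_cast h
  have hfin := Fermat.Agent.S23.h47_finiteDimensional p 2
  have : Subsingleton (CuspForm (Gamma0 p) 2) := Module.finrank_zero_iff.mp h0
  exact Subsingleton.elim _ _

/-- **U-KEY, `p < 5`.** The key lemma in `δ`-form for `p = 2, 3` (any target `n`). -/
theorem hkey_small (p : ℕ) [Fact p.Prime] (hp5 : p < 5) (n : ℕ) :
    ∀ (M : ℕ) (δ : CuspForm (Gamma0 p) 2), (∀ k, ∃ z : ℤ, qCoeff ⇑δ k = z) →
      (∀ k, 0 < k → ∃ z : ℤ, qCoeff ⇑δ k = (sigmaP p k : ℂ) + M * z) → M ∣ n := by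
  have hp : p.Prime := Fact.out
  intro M δ _ hcong
  have hg : genusFormula p = 0 := by
    have h2 := hp.two_le
    interval_cases p
    · exact h50_genus_two
    · exact h50_genus_three
    · exact absurd hp (by decide)
  have hδ : δ = 0 := h50_cusp_eq_zero p hg δ
  obtain ⟨z, hz⟩ := hcong 1 one_pos
  have h0 : qCoeff ⇑δ 1 = 0 := by
    have h := h10_qCoeff_zsmul (N := p) 0 δ 1
    rw [zero_smul] at h
    rw [hδ, h]; simp
  rw [h0, sigmaP_one p hp] at hz
  have h1 : (M : ℤ) ∣ 1 := by
    refine ⟨-z, ?_⟩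
    have : ((1 : ℤ) : ℂ) = ((M : ℤ) * (-z) : ℤ) := by
      push_cast
      push_cast at hz
      linear_combination -hz
    exact_mod_cast this
  have h2 : M ∣ 1 := by exact_mod_cast h1
  exact dvd_trans h2 (one_dvd n)

end Fermat.Agent.S16
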