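import Fermat.Agent.S16.RhoEval
import Fermat.Agent.S16.TraceLemma
import Fermat.Agent.S16.ThetaCong

/-!
S16, Key Lemma case `ℓ = 2`, `p ≡ ±1 mod 8` (in particular `p ≡ 7 mod 8`, "Blocker A"), in the
shared `ThetaCong` shape: there is no `Θ ∈ M₂(Γ₀(p))` with `a₀ = 1` and `aₙ ∈ 8 ℤ_(2)` for
`n ≥ 1`.  Glue of `rho_no_form` (evaluation at `ρ`) with the conjugates of `TraceLemma`.
-/

set_option autoImplicit false

open UpperHalfPlane ModularForm CongruenceSubgroup

open scoped Manifold MatrixGroups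

open Fermat.Agent.S24 Fermat.Agent.S28

namespace Fermat.Agent.S16

theorem rhoglue_isIntegral_mem {x : ℂ} (hx : IsIntegral ℤ x) : x ∈ rhoO2 :=
  ⟨1, odd_one, by simpa using hx⟩

/-- An element `x` with `m x = 8 a`, `m` odd, is `8` times a `2`-integral number. -/
theorem rhoglue_div_mem {x : ℂ} {m a : ℤ} (hm : ¬ (2 : ℤ) ∣ m) (h : (m : ℂ) * x = (2 : ℂ) ^ 3 * a) :
    x / 8 ∈ rhoO2 := by
  have hodd : Odd m.natAbs := by
    rw [Int.natAbs_odd]
    exact Int.not_even_iff_odd.mp fun he => hm he.two_dvd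
  refine ⟨m.natAbs, hodd, ?_⟩
  have h1 : IsIntegral ℤ ((m : ℂ) * (x / 8)) := by
    have e : (m : ℂ) * (x / 8) = (a : ℂ) := by
      have : (m : ℂ) * x = 8 * (a : ℂ) := by rw [h]; norm_num
      linear_combination this / 8
    rw [e]
    exact isIntegral_algebraMap (R := ℤ) (A := ℂ) (x := a)
  rcases Int.natAbs_eq m with hm' | hm'
  · have e : ((m.natAbs : ℕ) : ℂ) = (m : ℂ) := by
      conv_rhs => rw [hm']
      simp
    rw [e]
    exact h1
  · have e : ((m.natAbs : ℕ) : ℂ) = -(m : ℂ) := by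
      conv_rhs => rw [hm']
      simp
    rw [e, neg_mul]
    exact h1.neg

/-- A holomorphic function given by a convergent series in `w = e^{2πiτ/N}` with coefficients in
`R` lies in `expSubring N R`. -/
theorem rhoglue_mem_of_hasSum (N : ℕ) [NeZero N] (R : Subring ℂ) (g : ℍ → ℂ) (hg : MDiff g)
    (c : ℕ → ℂ) (hc : ∀ n, c n ∈ R)
    (h : ∀ τ : ℍ, HasSum (fun n : ℕ => c n * wN N τ ^ n) (g τ)) : g ∈ expSubring N R := by
  have h' : ∀ τ : ℍ, HasSum (fun n : ℕ => c n * wN N τ ^ n) (g τ * wN N τ ^ 0) := by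
    intro τ
    rw [pow_zero, mul_one]
    exact h τ
  refine ⟨_, hasWExp_of_hasSum N g hg 0 c h', fun n => ?_⟩
  rw [wpA4a_coeff]
  split_ifs with h1
  · exact R.zero_mem
  · rw [PowerSeries.coeff_mk]
    exact hc _

variable {p : ℕ} [Fact p.Prime]

/-- **Key Lemma, `ℓ = 2`, `p² ≡ 1 mod 16`** (route: evaluation at `ρ`). -/
theorem rho_noTheta_of_sq (hp16 : 16 ∣ p ^ 2 - 1) (Θ : ModularForm (Gamma0 p) 2)
    (h : ThetaCong p 2 3 Θ) : False := by
  have hpr : p.Prime := Fact.out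
  have hp2 : 2 ≤ p := hpr.two_le
  have hpodd : Odd p := by
    rcases Nat.even_or_odd p with he | ho
    · exfalso
      obtain ⟨k, hk⟩ := he
      have h1 : 2 ∣ p ^ 2 := ⟨2 * k * k, by rw [hk]; ring⟩
      have h2 : 1 ≤ p ^ 2 := Nat.one_le_pow _ _ (by omega)
      have h3 : 2 ∣ p ^ 2 - 1 := dvd_trans (by norm_num) hp16
      omega
    · exact ho
  have hp0 : (p : ℂ) ≠ 0 := by exact_mod_cast hpr.ne_zero
  obtain ⟨h0, hn⟩ := h
  have ha8 : ∀ n, 0 < n → (qExpansion 1 Θ).coeff n / 8 ∈ rhoO2 := by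
    intro n hn'
    obtain ⟨m, b, hm, hmb⟩ := hn n hn'
    exact rhoglue_div_mem (by exact_mod_cast hm) (by exact_mod_cast hmb)
  have hinv : ∀ γ : SL(2, ℤ), γ ∈ Gamma0 p → ⇑Θ ∣[(2 : ℤ)] γ = ⇑Θ := fun γ hγ =>
    SlashInvariantFormClass.slash_action_eq Θ _ (Subgroup.mem_map_of_mem _ hγ)
  have hpinv : ((p : ℂ))⁻¹ ∈ rhoO2 := rhoO2_inv_odd hpodd
  refine rho_no_form p hpodd ⇑Θ hinv (fun g => ?_)
  have hmdg : MDiff (⇑Θ ∣[(2 : ℤ)] g) := (ModularFormClass.holo Θ).slash 2 _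
  rcases tl_slash_eq Θ g with ⟨-, hg⟩ | ⟨-, b, -, hg⟩
  · -- the translate is `Θ` itself: `c = 1`
    refine ⟨1, rhoO2.one_mem, by simp, fun τ => (Θ τ - 1) / 8, ?_, ?_⟩
    · have hmd : MDiff (fun τ : ℍ => (Θ τ - 1) / 8) := by
        have h1 : MDiff (fun τ : ℍ => Θ τ) := ModularFormClass.holo Θ
        have h2 : MDiff (fun τ : ℍ => (8 : ℂ)⁻¹ * (Θ τ - 1)) :=
          MDifferentiable.mul mdifferentiable_const (MDifferentiable.sub h1 mdifferentiable_const)
        have e : (fun τ : ℍ => (Θ τ - 1) / 8) = fun τ : ℍ => (8 : ℂ)⁻¹ * (Θ τ - 1) := by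
          funext τ
          ring
        rw [e]
        exact h2
      refine dexp_mem_of_hasSum_one p rhoO2 _ hmd 0
        (fun n => if n = 0 then 0 else (qExpansion 1 Θ).coeff n / 8) ?_ ?_
      · intro n
        split_ifs with hn0
        · exact rhoO2.zero_mem
        · exact ha8 n (Nat.pos_of_ne_zero hn0)
      · intro τ
        have h1 := ModularForm.hasSum_qExpansion Θ one_pos
          (CongruenceSubgroup.one_mem_strictPeriods_Gamma0 p) τ
        have h2 : HasSum (fun n : ℕ => if n = 0 then (1 : ℂ) else 0) 1 := hasSum_ite_eq 0 (1 : ℂ)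
        have h3 := (h1.sub h2).div_const 8
        rw [pow_zero, mul_one]
        have e : (fun n : ℕ => (if n = 0 then 0 else (qExpansion 1 Θ).coeff n / 8) *
            Function.Periodic.qParam 1 (τ : ℂ) ^ n) =
            fun n : ℕ => ((qExpansion 1 Θ).coeff n * Function.Periodic.qParam 1 (τ : ℂ) ^ n -
              if n = 0 then (1 : ℂ) else 0) / 8 := by
          funext n
          split_ifs with hn0
          · subst hn0
            rw [h0]
            simp
          · ring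
        rw [e]
        exact h3
    · rw [hg]
      funext τ
      ring
  · -- the translate is `Θ ∣ S T ^ b`: `c = -1/p`
    obtain ⟨k, hk⟩ := hp16
    have hk' : ((p : ℂ)) ^ 2 - 1 = 16 * (k : ℂ) := by
      have h1 : 1 ≤ p ^ 2 := Nat.one_le_pow _ _ (by omega)
      have h2 : p ^ 2 = 16 * k + 1 := by omega
      have h3 : ((p ^ 2 : ℕ) : ℂ) = ((16 * k + 1 : ℕ) : ℂ) := by rw [h2]
      push_cast at h3
      linear_combination h3
    have hc : -(1 / (p : ℂ)) ∈ rhoO2 := by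
      rw [one_div]
      exact rhoO2.neg_mem hpinv
    have hc16 : ((-(1 / (p : ℂ))) ^ 2 - 1) / 16 ∈ rhoO2 := by
      have e : ((-(1 / (p : ℂ))) ^ 2 - 1) / 16 = -((k : ℂ) * ((p : ℂ)⁻¹ * (p : ℂ)⁻¹)) := by
        field_simp
        linear_combination -hk'
      rw [e]
      exact rhoO2.neg_mem (rhoO2.mul_mem (natCast_mem rhoO2 k) (rhoO2.mul_mem hpinv hpinv))
    refine ⟨-(1 / (p : ℂ)), hc, hc16,
      fun τ => ((⇑Θ ∣[(2 : ℤ)] g) τ - -(1 / (p : ℂ))) / 8, ?_, ?_⟩
    · have hmd : MDiff (fun τ : ℍ => ((⇑Θ ∣[(2 : ℤ)] g) τ - -(1 / (p : ℂ))) / 8) := by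
        have h2 : MDiff (fun τ : ℍ => (8 : ℂ)⁻¹ * ((⇑Θ ∣[(2 : ℤ)] g) τ - -(1 / (p : ℂ)))) :=
          MDifferentiable.mul mdifferentiable_const
            (MDifferentiable.sub hmdg mdifferentiable_const)
        have e : (fun τ : ℍ => ((⇑Θ ∣[(2 : ℤ)] g) τ - -(1 / (p : ℂ))) / 8) =
            fun τ : ℍ => (8 : ℂ)⁻¹ * ((⇑Θ ∣[(2 : ℤ)] g) τ - -(1 / (p : ℂ))) := by
          funext τ
          ring
        rw [e]
        exact h2
      obtain ⟨ζ, hζ⟩ : ∃ ζ : ℂ, ζ = Complex.exp (2 * Real.pi * Complex.I * ((b : ℤ) : ℂ) / (p : ℂ)) :=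
        ⟨_, rfl⟩
      have hζp : ζ ^ p = 1 := by
        rw [hζ, ← Complex.exp_nat_mul]
        have e : (p : ℂ) * (2 * Real.pi * Complex.I * ((b : ℤ) : ℂ) / (p : ℂ)) =
            ((b : ℤ) : ℂ) * (2 * Real.pi * Complex.I) := by
          field_simp
        rw [e]
        exact Complex.exp_int_mul_two_pi_mul_I b
      have hζm : ζ ∈ rhoO2 := by
        apply rhoglue_isIntegral_mem
        exact IsIntegral.of_pow hpr.pos (by rw [hζp]; exact isIntegral_one)
      refine rhoglue_mem_of_hasSum p rhoO2 _ hmd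
        (fun n => if n = 0 then 0 else
          -(1 / (p : ℂ)) * ((qExpansion 1 Θ).coeff (n * p) / 8) * ζ ^ n) ?_ ?_
      · intro n
        split_ifs with hn0
        · exact rhoO2.zero_mem
        · exact rhoO2.mul_mem (rhoO2.mul_mem hc
            (ha8 _ (Nat.mul_pos (Nat.pos_of_ne_zero hn0) hpr.pos))) (rhoO2.pow_mem hζm n)
      · intro τ
        have hq : Function.Periodic.qParam 1 ((heckeMatrix p b • τ : ℍ) : ℂ) = ζ * wN p τ := by
          have h1 := wpA4b_qParam_eq p τ (heckeMatrix p b • τ) 1 (b : ℤ) p hpr.ne_zero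
            (dvd_refl p) (by rw [coe_heckeMatrix_smul hpr.ne_zero]; push_cast; ring)
          rw [h1, hζ, Nat.div_self hpr.pos]
          simp
        have h1 := ModularForm.hasSum_qExpansion (tl_U Θ) one_pos
          (CongruenceSubgroup.one_mem_strictPeriods_Gamma0 p) (heckeMatrix p b • τ)
        rw [hq] at h1
        have h2 : HasSum (fun n : ℕ => if n = 0 then (1 : ℂ) else 0) 1 := hasSum_ite_eq 0 (1 : ℂ)
        have h3 := ((h1.sub h2).div_const 8).mul_left (-(1 / (p : ℂ)))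
        have hval : ((⇑Θ ∣[(2 : ℤ)] g) τ - -(1 / (p : ℂ))) / 8 =
            -(1 / (p : ℂ)) * ((tl_U Θ (heckeMatrix p b • τ) - 1) / 8) := by
          rw [hg, tl_slash_ST_two']
          ring
        rw [hval]
        have e : (fun n : ℕ => (if n = 0 then 0 else
            -(1 / (p : ℂ)) * ((qExpansion 1 Θ).coeff (n * p) / 8) * ζ ^ n) * wN p τ ^ n) =
            fun n : ℕ => -(1 / (p : ℂ)) * (((qExpansion 1 (tl_U Θ)).coeff n * (ζ * wN p τ) ^ n -
              if n = 0 then (1 : ℂ) else 0) / 8) := by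
          funext n
          rw [tl_qExpansion_U_coeff]
          split_ifs with hn0
          · subst hn0
            rw [Nat.zero_mul, h0]
            simp
          · rw [mul_pow]
            ring
        rw [e]
        exact h3
    · funext τ
      ring

/-- **Blocker A** (`ℓ = 2`, `p ≡ 7 mod 8`): no `Θ ∈ M₂(Γ₀(p))` with `a₀ = 1`, `aₙ ∈ 8 ℤ_(2)`. -/
theorem rho_noTheta_seven (hp : p % 8 = 7) (Θ : ModularForm (Gamma0 p) 2)
    (h : ThetaCong p 2 3 Θ) : False := by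
  refine rho_noTheta_of_sq ?_ Θ h
  obtain ⟨q, hq⟩ : ∃ q, p = 8 * q + 7 := ⟨p / 8, by omega⟩
  refine ⟨4 * q ^ 2 + 7 * q + 3, ?_⟩
  rw [hq]
  have : (8 * q + 7) ^ 2 = 16 * (4 * q ^ 2 + 7 * q + 3) + 1 := by ring
  omega

/-- The same for `p ≡ 1 mod 8` (not needed for S16, where the sharper `mod 4` statement is used). -/
theorem rho_noTheta_one (hp : p % 8 = 1) (Θ : ModularForm (Gamma0 p) 2)
    (h : ThetaCong p 2 3 Θ) : False := by
  refine rho_noTheta_of_sq ?_ Θ h
  obtain ⟨q, hq⟩ : ∃ q, p = 8 * q + 1 := ⟨p / 8, by omega⟩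
  refine ⟨4 * q ^ 2 + q, ?_⟩
  rw [hq]
  have : (8 * q + 1) ^ 2 = 16 * (4 * q ^ 2 + q) + 1 := by ring
  omega


end Fermat.Agent.S16
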