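/-
S16 (Eisenstein ideal index) — upper-bound assembly (helper50).

`hUB_of_normSix`: the upper bound `∃ P, π P = 0 ∧ eis P = n` (`hUB` of `Top.lean`) from the two
NormSix statements, consuming the landed case files `TraceSq` (`trsq_three/four/eight`),
`RhoGlue` (`rho_noTheta_seven`), the small-level glue `KeySmall` and the duality `Duality`.
-/
import Fermat.Agent.S16.Duality
import Fermat.Agent.S16.KeyCases
import Fermat.Agent.S16.KeySmall
import Fermat.Agent.S16.TraceSq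
import Fermat.Agent.S16.RhoGlue

set_option autoImplicit false
open ModularCurve CuspForm ModularFormClass CongruenceSubgroup UpperHalfPlane

namespace Fermat.Agent.S16

/-- The "no `Θ`" statement for every prime `ℓ` from the case statements in the shapes that are
on main (`hT3`, `hT4`, `hT8` = `TraceSq`; `hD` = `RhoGlue`) and the two NormSix statements. -/
theorem h50_noTheta_of_cases' (p : ℕ) [Fact p.Prime] (hp5 : 5 ≤ p)
    (hA : ∀ l : ℕ, l.Prime → 5 ≤ l → ∀ Θ : ModularForm (Gamma0 p) 2, ¬ ThetaCong p l 1 Θ)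
    (hB : p % 3 = 2 → ∀ Θ : ModularForm (Gamma0 p) 2, ¬ ThetaCong p 3 2 Θ)
    (hT3 : p % 3 = 1 → ∀ Θ : ModularForm (Gamma0 p) 2, ¬ ThetaCong p 3 1 Θ)
    (hT4 : p % 4 = 1 → ∀ Θ : ModularForm (Gamma0 p) 2, ¬ ThetaCong p 2 2 Θ)
    (hT8 : p % 8 = 3 → ∀ Θ : ModularForm (Gamma0 p) 2, ¬ ThetaCong p 2 3 Θ)
    (hD : p % 8 = 7 → ∀ Θ : ModularForm (Gamma0 p) 2, ¬ ThetaCong p 2 3 Θ) :
    ∀ l : ℕ, l.Prime → ∀ Θ : ModularForm (Gamma0 p) 2,
      ¬ ThetaCong p l (padicValNat l (24 / Nat.gcd (p - 1) 12) + 1) Θ := by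
  have hp : p.Prime := Fact.out
  intro l hl Θ
  rcases Nat.lt_or_ge l 5 with hl5 | hl5
  · have hl23 : l = 2 ∨ l = 3 := by
      have h2 := hl.two_le
      interval_cases l
      · exact Or.inl rfl
      · exact Or.inr rfl
      · exact absurd hl (by decide)
    rcases hl23 with rfl | rfl
    · -- `ℓ = 2`
      have hodd : p % 2 = 1 := by
        rcases hp.eq_two_or_odd with h | h
        · omega
        · exact h
      have h4 : p % 4 = 1 ∨ p % 4 = 3 := by omega
      rcases h4 with h4 | h4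
      · rw [(h56_j_two p hp hp5).1 h4]
        exact hT4 h4 Θ
      · rw [(h56_j_two p hp hp5).2 h4]
        have h8 : p % 8 = 3 ∨ p % 8 = 7 := by omega
        rcases h8 with h8 | h8
        · exact hT8 h8 Θ
        · exact hD h8 Θ
    · -- `ℓ = 3`
      have h3 : p % 3 = 1 ∨ p % 3 = 2 := by
        have h0 : p % 3 ≠ 0 := by
          intro h0
          have h3p : 3 ∣ p := Nat.dvd_of_mod_eq_zero h0
          have := (Nat.prime_dvd_prime_iff_eq Nat.prime_three hp).mp h3p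
          omega
        omega
      rcases h3 with h3 | h3
      · rw [(h56_j_three p hp hp5).1 h3]
        exact hT3 h3 Θ
      · rw [(h56_j_three p hp hp5).2 h3]
        exact hB h3 Θ
  · rw [h56_j_of_five_le p hl hl5]
    exact hA l hl hl5 Θ

/-- The key lemma in `δ`-form for every prime `p`, from the two NormSix statements. -/
theorem hkey_of_normSix (p : ℕ) [Fact p.Prime]
    (hA : 5 ≤ p → ∀ l : ℕ, l.Prime → 5 ≤ l →
      ∀ Θ : ModularForm (Gamma0 p) 2, ¬ ThetaCong p l 1 Θ)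
    (hB : 5 ≤ p → p % 3 = 2 → ∀ Θ : ModularForm (Gamma0 p) 2, ¬ ThetaCong p 3 2 Θ) :
    ∀ (M : ℕ) (δ : CuspForm (Gamma0 p) 2), (∀ k, ∃ z : ℤ, qCoeff ⇑δ k = z) →
      (∀ k, 0 < k → ∃ z : ℤ, qCoeff ⇑δ k = (sigmaP p k : ℂ) + M * z) →
      M ∣ eisensteinNumerator p := by
  rcases Nat.lt_or_ge p 5 with hp5 | hp5
  · exact hkey_small p hp5 (eisensteinNumerator p)
  · exact hkey_of_noTheta p (h50_noTheta_of_cases' p hp5 (hA hp5) (hB hp5)
      (fun h3 Θ h => trsq_three h3 h) (fun h4 Θ h => trsq_four h4 h)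
      (fun h8 Θ h => trsq_eight h8 h) (fun h7 Θ h => rho_noTheta_seven h7 Θ h))

/-- **Upper bound** (`hUB` of `h36_card_quot_eq`) from the two NormSix statements. -/
theorem hUB_of_normSix (p : ℕ) [Fact p.Prime]
    (hA : 5 ≤ p → ∀ l : ℕ, l.Prime → 5 ≤ l →
      ∀ Θ : ModularForm (Gamma0 p) 2, ¬ ThetaCong p l 1 Θ)
    (hB : 5 ≤ p → p % 3 = 2 → ∀ Θ : ModularForm (Gamma0 p) 2, ¬ ThetaCong p 3 2 Θ) :
    ∃ P : HeckeAlg, h36_pi p P = 0 ∧ h36_eis p P = (eisensteinNumerator p : ℤ) :=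
  exists_relation_of_key p (eisensteinNumerator p) (hkey_of_normSix p hA hB)

end Fermat.Agent.S16
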