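/-
S16 / cohomological lower bound (helper30).  Transfer ("Hecke") operators on `Hom(Γ₀(N), A)`.

* abstract part: a finite family `α : I → H` in a monoid `H ⊇ Γ` with the unique exchange property
  `α i * γ = t_i(γ) * α (π_γ i)` gives, for every abelian group `A`, an additive endomorphism
  `ψ ↦ (γ ↦ ∑ i, ψ (t_i γ))` of `Hom(Γ, A)`, natural in `A`;
* concrete part: `H = M₂(ℤ)`, `Γ = Γ₀(N)`, `α = ` the `ℓ + 1` matrices `(1 j; 0 ℓ)`, `(ℓ 0; 0 1)`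
  (`ℓ ∤ N`, operator `coh_T`) resp. the `ℓ` matrices `(1 j; 0 ℓ)` (`ℓ ∣ N`, operator `coh_U`).
-/
import Mathlib

set_option autoImplicit false

open CongruenceSubgroup
open scoped MatrixGroups

namespace Fermat.Agent.S16

noncomputable section

/-! ### Abstract transfer -/

section Transfer

variable {H : Type*} [Monoid H] {Γ : Type*} [Group Γ] {I : Type*}

/-- The exchange property: every `α i * γ` is of the form `γ' * α i'`. -/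
def CohEx (ι : Γ →* H) (α : I → H) : Prop :=
  ∀ (γ : Γ) (i : I), ∃ (γ' : Γ) (i' : I), α i * ι γ = ι γ' * α i'

/-- Uniqueness of the decomposition `γ * α i`. -/
def CohUniq (ι : Γ →* H) (α : I → H) : Prop :=
  ∀ (γ γ' : Γ) (i i' : I), ι γ * α i = ι γ' * α i' → γ = γ' ∧ i = i'

variable {ι : Γ →* H} {α : I → H}

/-- The element `t_i(γ) ∈ Γ` with `α i * γ = t_i(γ) * α (π_γ i)`. -/
def coh_t (hex : CohEx ι α) (γ : Γ) (i : I) : Γ := (hex γ i).choose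

/-- The index `π_γ i` with `α i * γ = t_i(γ) * α (π_γ i)`. -/
def coh_pi (hex : CohEx ι α) (γ : Γ) (i : I) : I := (hex γ i).choose_spec.choose

theorem coh_spec (hex : CohEx ι α) (γ : Γ) (i : I) :
    α i * ι γ = ι (coh_t hex γ i) * α (coh_pi hex γ i) :=
  (hex γ i).choose_spec.choose_spec

theorem coh_t_pi_eq (hex : CohEx ι α) (hu : CohUniq ι α) {γ γ' : Γ} {i i' : I}
    (h : α i * ι γ = ι γ' * α i') : coh_t hex γ i = γ' ∧ coh_pi hex γ i = i' :=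
  hu _ _ _ _ ((coh_spec hex γ i).symm.trans h)

theorem coh_t_one (hex : CohEx ι α) (hu : CohUniq ι α) (i : I) :
    coh_t hex 1 i = 1 ∧ coh_pi hex 1 i = i :=
  coh_t_pi_eq hex hu (by rw [map_one, mul_one, one_mul])

theorem coh_t_mul (hex : CohEx ι α) (hu : CohUniq ι α) (γ γ' : Γ) (i : I) :
    coh_t hex (γ * γ') i = coh_t hex γ i * coh_t hex γ' (coh_pi hex γ i) ∧
      coh_pi hex (γ * γ') i = coh_pi hex γ' (coh_pi hex γ i) := by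
  apply coh_t_pi_eq hex hu
  rw [map_mul, ← mul_assoc, coh_spec hex γ i, mul_assoc, coh_spec hex γ' (coh_pi hex γ i),
    ← mul_assoc, map_mul]

theorem coh_pi_one (hex : CohEx ι α) (hu : CohUniq ι α) (i : I) : coh_pi hex 1 i = i :=
  (coh_t_one hex hu i).2

theorem coh_pi_mul (hex : CohEx ι α) (hu : CohUniq ι α) (γ γ' : Γ) (i : I) :
    coh_pi hex (γ * γ') i = coh_pi hex γ' (coh_pi hex γ i) :=
  (coh_t_mul hex hu γ γ' i).2

theorem coh_pi_bijective (hex : CohEx ι α) (hu : CohUniq ι α) (γ : Γ) :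
    Function.Bijective (coh_pi hex γ) := by
  refine Function.bijective_iff_has_inverse.mpr ⟨coh_pi hex γ⁻¹, fun i => ?_, fun i => ?_⟩
  · rw [← coh_pi_mul hex hu, mul_inv_cancel, coh_pi_one hex hu]
  · rw [← coh_pi_mul hex hu, inv_mul_cancel, coh_pi_one hex hu]

/-- The permutation `π_γ`. -/
def coh_perm (hex : CohEx ι α) (hu : CohUniq ι α) (γ : Γ) : Equiv.Perm I :=
  Equiv.ofBijective (coh_pi hex γ) (coh_pi_bijective hex hu γ)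

@[simp] theorem coh_perm_apply (hex : CohEx ι α) (hu : CohUniq ι α) (γ : Γ) (i : I) :
    coh_perm hex hu γ i = coh_pi hex γ i := rfl

variable [Fintype I]

/-- The transfer operator on `Hom(Γ, A)`: `ψ ↦ (γ ↦ ∑ i, ψ (t_i γ))`. -/
def coh_transfer (hex : CohEx ι α) (hu : CohUniq ι α) (A : Type*) [AddCommGroup A] :
    (Additive Γ →+ A) →+ (Additive Γ →+ A) where
  toFun ψ :=
    { toFun := fun γ => ∑ i, ψ (Additive.ofMul (coh_t hex (Additive.toMul γ) i))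
      map_zero' := by
        simp only [toMul_zero, (coh_t_one hex hu _).1, ofMul_one, map_zero,
          Finset.sum_const_zero]
      map_add' := by
        intro γ γ'
        simp only [toMul_add, (coh_t_mul hex hu _ _ _).1, ofMul_mul, map_add,
          Finset.sum_add_distrib]
        congr 1
        exact Equiv.sum_comp (coh_perm hex hu (Additive.toMul γ))
          (fun i => ψ (Additive.ofMul (coh_t hex (Additive.toMul γ') i))) }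
  map_zero' := by
    refine AddMonoidHom.ext fun γ => ?_
    simp
  map_add' := by
    intro ψ ψ'
    refine AddMonoidHom.ext fun γ => ?_
    simp [Finset.sum_add_distrib]

theorem coh_transfer_apply (hex : CohEx ι α) (hu : CohUniq ι α) (A : Type*) [AddCommGroup A]
    (ψ : Additive Γ →+ A) (γ : Γ) :
    coh_transfer hex hu A ψ (Additive.ofMul γ) = ∑ i, ψ (Additive.ofMul (coh_t hex γ i)) := rfl

/-- Naturality of the transfer operator in the coefficient group. -/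
theorem coh_transfer_comp (hex : CohEx ι α) (hu : CohUniq ι α) {A B : Type*} [AddCommGroup A]
    [AddCommGroup B] (h : A →+ B) (ψ : Additive Γ →+ A) :
    coh_transfer hex hu B (h.comp ψ) = h.comp (coh_transfer hex hu A ψ) := by
  refine AddMonoidHom.ext fun γ => ?_
  obtain ⟨γ, rfl⟩ := Additive.ofMul.surjective γ
  rw [coh_transfer_apply, AddMonoidHom.comp_apply, coh_transfer_apply, map_sum]
  rfl

end Transfer

/-! ### The exchange property for `Γ₀(N)` -/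

section Concrete

variable (N : ℕ)

/-- The inclusion `Γ₀(N) → M₂(ℤ)`. -/
def coh_inc : ↥(Gamma0 N) →* Matrix (Fin 2) (Fin 2) ℤ where
  toFun γ := ((γ : SL(2, ℤ)) : Matrix (Fin 2) (Fin 2) ℤ)
  map_one' := by simp
  map_mul' γ γ' := by simp

theorem coh_inc_apply (γ : Gamma0 N) :
    coh_inc N γ = ((γ : SL(2, ℤ)) : Matrix (Fin 2) (Fin 2) ℤ) := rfl

theorem coh_inc_eq (γ : Gamma0 N) :
    coh_inc N γ = !![(γ : SL(2, ℤ)) 0 0, (γ : SL(2, ℤ)) 0 1; (γ : SL(2, ℤ)) 1 0,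
      (γ : SL(2, ℤ)) 1 1] :=
  Matrix.eta_fin_two _

theorem coh_det (γ : Gamma0 N) :
    (γ : SL(2, ℤ)) 0 0 * (γ : SL(2, ℤ)) 1 1 - (γ : SL(2, ℤ)) 0 1 * (γ : SL(2, ℤ)) 1 0 = 1 := by
  have h := (γ : SL(2, ℤ)).2
  rw [Matrix.det_fin_two] at h
  exact h

theorem coh_dvd (γ : Gamma0 N) : (N : ℤ) ∣ (γ : SL(2, ℤ)) 1 0 :=
  (ZMod.intCast_zmod_eq_zero_iff_dvd _ N).mp (Gamma0_mem.mp γ.2)

theorem coh_inc_injective : Function.Injective (coh_inc N) := by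
  intro γ γ' h
  exact Subtype.ext (Subtype.ext h)

/-- Build an element of `Γ₀(N)` from its entries. -/
theorem coh_exists_mk (x y z w : ℤ) (hdet : x * w - y * z = 1) (hz : (N : ℤ) ∣ z) :
    ∃ γ : Gamma0 N, coh_inc N γ = !![x, y; z, w] := by
  refine ⟨⟨⟨!![x, y; z, w], by rw [Matrix.det_fin_two_of]; exact hdet⟩,
    Gamma0_mem.mpr ?_⟩, rfl⟩
  exact (ZMod.intCast_zmod_eq_zero_iff_dvd z N).mpr hz

/-- The matrix `(1 j; 0 ℓ)`. -/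
def coh_matU (ℓ : ℕ) (j : Fin ℓ) : Matrix (Fin 2) (Fin 2) ℤ := !![1, ((j : ℕ) : ℤ); 0, (ℓ : ℤ)]

/-- The matrices `(1 j; 0 ℓ)` (`some j`) and `(ℓ 0; 0 1)` (`none`). -/
def coh_matT (ℓ : ℕ) : Option (Fin ℓ) → Matrix (Fin 2) (Fin 2) ℤ
  | some j => coh_matU ℓ j
  | none => !![(ℓ : ℤ), 0; 0, 1]

theorem coh_matT_some (ℓ : ℕ) (j : Fin ℓ) : coh_matT ℓ (some j) = coh_matU ℓ j := rfl

theorem coh_matT_none (ℓ : ℕ) : coh_matT ℓ none = !![(ℓ : ℤ), 0; 0, 1] := rfl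

theorem coh_exists_fin {ℓ : ℕ} (hℓ : ℓ.Prime) (x y : ℤ) (hx : ¬ (ℓ : ℤ) ∣ x) :
    ∃ j : Fin ℓ, (ℓ : ℤ) ∣ y - ((j : ℕ) : ℤ) * x := by
  have : Fact ℓ.Prime := ⟨hℓ⟩
  have hx' : ((x : ℤ) : ZMod ℓ) ≠ 0 := fun h => hx ((ZMod.intCast_zmod_eq_zero_iff_dvd x ℓ).mp h)
  refine ⟨⟨((y : ZMod ℓ) * ((x : ℤ) : ZMod ℓ)⁻¹).val, ZMod.val_lt _⟩, ?_⟩
  rw [← ZMod.intCast_zmod_eq_zero_iff_dvd]
  push_cast
  rw [ZMod.natCast_zmod_val, mul_assoc, inv_mul_cancel₀ hx', mul_one, sub_self]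

theorem coh_mat_ext {p q r s p' q' r' s' : ℤ} (h1 : p = p') (h2 : q = q') (h3 : r = r')
    (h4 : s = s') : !![p, q; r, s] = !![p', q'; r', s'] := by
  subst h1 h2 h3 h4; rfl

theorem coh_mat_inj {p q r s p' q' r' s' : ℤ} (h : !![p, q; r, s] = !![p', q'; r', s']) :
    p = p' ∧ q = q' ∧ r = r' ∧ s = s' := by
  have h00 := congrFun (congrFun h 0) 0
  have h01 := congrFun (congrFun h 0) 1
  have h10 := congrFun (congrFun h 1) 0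
  have h11 := congrFun (congrFun h 1) 1
  simp at h00 h01 h10 h11
  exact ⟨h00, h01, h10, h11⟩

theorem coh_core_ss (ℓ a b c d j j' k : ℤ) (hk : b + j * d - j' * (a + j * c) = ℓ * k) :
    !![1, j; 0, ℓ] * !![a, b; c, d] = !![a + j * c, k; ℓ * c, d - j' * c] * !![1, j'; 0, ℓ] := by
  rw [Matrix.mul_fin_two, Matrix.mul_fin_two]
  exact coh_mat_ext (by ring) (by linear_combination hk) (by ring) (by ring)

theorem coh_core_sn (ℓ a b c d j x : ℤ) (hx : a + j * c = ℓ * x) :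
    !![1, j; 0, ℓ] * !![a, b; c, d] = !![x, b + j * d; c, ℓ * d] * !![ℓ, 0; 0, 1] := by
  rw [Matrix.mul_fin_two, Matrix.mul_fin_two]
  exact coh_mat_ext (by linear_combination hx) (by ring) (by ring) (by ring)

theorem coh_core_ns (ℓ a b c d j' k : ℤ) (hk : d - j' * c = ℓ * k) :
    !![ℓ, 0; 0, 1] * !![a, b; c, d] = !![ℓ * a, b - j' * a; c, k] * !![1, j'; 0, ℓ] := by
  rw [Matrix.mul_fin_two, Matrix.mul_fin_two]
  exact coh_mat_ext (by ring) (by ring) (by ring) (by linear_combination hk)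

theorem coh_core_nn (ℓ a b c d c' : ℤ) (hc : c = ℓ * c') :
    !![ℓ, 0; 0, 1] * !![a, b; c, d] = !![a, ℓ * b; c', d] * !![ℓ, 0; 0, 1] := by
  rw [Matrix.mul_fin_two, Matrix.mul_fin_two]
  exact coh_mat_ext (by ring) (by ring) (by linear_combination hc) (by ring)

/-- Shared case of the exchange property: `(1 j; 0 ℓ) γ = γ' (1 j'; 0 ℓ)` when `ℓ ∤ a + j c`. -/
theorem coh_ex_some_some {ℓ : ℕ} (hℓ : ℓ.Prime) (γ : Gamma0 N) (j : Fin ℓ)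
    (hx : ¬ (ℓ : ℤ) ∣ (γ : SL(2, ℤ)) 0 0 + ((j : ℕ) : ℤ) * (γ : SL(2, ℤ)) 1 0) :
    ∃ (γ' : Gamma0 N) (j' : Fin ℓ),
      coh_matU ℓ j * coh_inc N γ = coh_inc N γ' * coh_matU ℓ j' := by
  have hdet := coh_det N γ
  obtain ⟨j', k, hk⟩ := coh_exists_fin hℓ _ ((γ : SL(2, ℤ)) 0 1 + ((j : ℕ) : ℤ) * (γ : SL(2, ℤ)) 1 1) hx
  obtain ⟨γ', hγ'⟩ := coh_exists_mk N ((γ : SL(2, ℤ)) 0 0 + ((j : ℕ) : ℤ) * (γ : SL(2, ℤ)) 1 0) k
    ((ℓ : ℤ) * (γ : SL(2, ℤ)) 1 0) ((γ : SL(2, ℤ)) 1 1 - ((j' : ℕ) : ℤ) * (γ : SL(2, ℤ)) 1 0)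
    (by linear_combination hdet + (γ : SL(2, ℤ)) 1 0 * hk)
    (Dvd.dvd.mul_left (coh_dvd N γ) _)
  refine ⟨γ', j', ?_⟩
  rw [hγ', coh_inc_eq, coh_matU, coh_matU]
  exact coh_core_ss _ _ _ _ _ _ _ _ hk

/-- Exchange property for `U_ℓ` (`ℓ ∣ N`). -/
theorem coh_exU {ℓ : ℕ} (hℓ : ℓ.Prime) (hℓN : ℓ ∣ N) : CohEx (coh_inc N) (coh_matU ℓ) := by
  intro γ j
  apply coh_ex_some_some N hℓ γ j
  intro h
  have hc : (ℓ : ℤ) ∣ (γ : SL(2, ℤ)) 1 0 := (Int.natCast_dvd_natCast.mpr hℓN).trans (coh_dvd N γ)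
  have ha : (ℓ : ℤ) ∣ (γ : SL(2, ℤ)) 0 0 := (dvd_add_left (hc.mul_left _)).mp h
  have h1 : (ℓ : ℤ) ∣ 1 := by
    rw [← coh_det N γ]
    exact dvd_sub (ha.mul_right _) (hc.mul_left _)
  have h2 := Int.eq_one_of_dvd_one (by positivity) h1
  exact hℓ.one_lt.ne' (by exact_mod_cast h2)

/-- Exchange property for `T_ℓ` (`ℓ ∤ N`). -/
theorem coh_exT {ℓ : ℕ} (hℓ : ℓ.Prime) (hℓN : ¬ ℓ ∣ N) : CohEx (coh_inc N) (coh_matT ℓ) := by
  intro γ i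
  have hdet := coh_det N γ
  cases i with
  | some j =>
    by_cases hx : (ℓ : ℤ) ∣ (γ : SL(2, ℤ)) 0 0 + ((j : ℕ) : ℤ) * (γ : SL(2, ℤ)) 1 0
    · obtain ⟨x, hx⟩ := hx
      obtain ⟨γ', hγ'⟩ := coh_exists_mk N x
        ((γ : SL(2, ℤ)) 0 1 + ((j : ℕ) : ℤ) * (γ : SL(2, ℤ)) 1 1) ((γ : SL(2, ℤ)) 1 0)
        ((ℓ : ℤ) * (γ : SL(2, ℤ)) 1 1) (by linear_combination hdet - (γ : SL(2, ℤ)) 1 1 * hx)
        (coh_dvd N γ)
      refine ⟨γ', none, ?_⟩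
      rw [hγ', coh_inc_eq, coh_matT_some, coh_matT_none, coh_matU]
      exact coh_core_sn _ _ _ _ _ _ _ hx
    · obtain ⟨γ', j', h⟩ := coh_ex_some_some N hℓ γ j hx
      exact ⟨γ', some j', h⟩
  | none =>
    by_cases hc : (ℓ : ℤ) ∣ (γ : SL(2, ℤ)) 1 0
    · obtain ⟨c', hc'⟩ := hc
      have hN : (N : ℤ) ∣ c' := by
        have h1 : (N : ℤ) ∣ (ℓ : ℤ) * c' := hc' ▸ coh_dvd N γ
        have hcop : IsCoprime (N : ℤ) (ℓ : ℤ) := by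
          rw [Int.isCoprime_iff_gcd_eq_one, Int.gcd_natCast_natCast]
          exact (Nat.coprime_comm.mp ((Nat.Prime.coprime_iff_not_dvd hℓ).mpr hℓN))
        exact hcop.dvd_of_dvd_mul_left h1
      obtain ⟨γ', hγ'⟩ := coh_exists_mk N ((γ : SL(2, ℤ)) 0 0) ((ℓ : ℤ) * (γ : SL(2, ℤ)) 0 1) c'
        ((γ : SL(2, ℤ)) 1 1) (by linear_combination hdet + (γ : SL(2, ℤ)) 0 1 * hc') hN
      refine ⟨γ', none, ?_⟩
      rw [hγ', coh_inc_eq, coh_matT_none]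
      exact coh_core_nn _ _ _ _ _ _ hc'
    · obtain ⟨j', k, hk⟩ := coh_exists_fin hℓ _ ((γ : SL(2, ℤ)) 1 1) hc
      obtain ⟨γ', hγ'⟩ := coh_exists_mk N ((ℓ : ℤ) * (γ : SL(2, ℤ)) 0 0)
        ((γ : SL(2, ℤ)) 0 1 - ((j' : ℕ) : ℤ) * (γ : SL(2, ℤ)) 0 0) ((γ : SL(2, ℤ)) 1 0) k
        (by linear_combination hdet - (γ : SL(2, ℤ)) 0 0 * hk) (coh_dvd N γ)
      refine ⟨γ', some j', ?_⟩
      rw [hγ', coh_inc_eq, coh_matT_some, coh_matT_none, coh_matU]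
      exact coh_core_ns _ _ _ _ _ _ _ hk

theorem coh_fin_eq_of_dvd {ℓ : ℕ} (j j' : Fin ℓ) (h : (ℓ : ℤ) ∣ ((j : ℕ) : ℤ) - ((j' : ℕ) : ℤ)) :
    j = j' := by
  have h1 : ((j : ℕ) : ℤ) % ℓ = ((j' : ℕ) : ℤ) % ℓ :=
    (Int.emod_eq_emod_iff_emod_sub_eq_zero).mpr (Int.emod_eq_zero_of_dvd h)
  rw [Int.emod_eq_of_lt (by positivity) (by exact_mod_cast j.2),
    Int.emod_eq_of_lt (by positivity) (by exact_mod_cast j'.2)] at h1
  exact Fin.ext (by exact_mod_cast h1)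

theorem coh_eq_of_entries {γ γ' : Gamma0 N}
    (h00 : (γ : SL(2, ℤ)) 0 0 = (γ' : SL(2, ℤ)) 0 0) (h01 : (γ : SL(2, ℤ)) 0 1 = (γ' : SL(2, ℤ)) 0 1)
    (h10 : (γ : SL(2, ℤ)) 1 0 = (γ' : SL(2, ℤ)) 1 0) (h11 : (γ : SL(2, ℤ)) 1 1 = (γ' : SL(2, ℤ)) 1 1) :
    γ = γ' := by
  apply coh_inc_injective N
  rw [coh_inc_eq, coh_inc_eq, h00, h01, h10, h11]

theorem coh_uniq_some_some {ℓ : ℕ} (hℓ : 2 ≤ ℓ) (γ γ' : Gamma0 N) (j j' : Fin ℓ)
    (h : coh_inc N γ * coh_matU ℓ j = coh_inc N γ' * coh_matU ℓ j') : γ = γ' ∧ j = j' := by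
  have hdet := coh_det N γ
  have hℓ0 : (ℓ : ℤ) ≠ 0 := by positivity
  rw [coh_inc_eq, coh_inc_eq, coh_matU, coh_matU, Matrix.mul_fin_two, Matrix.mul_fin_two] at h
  obtain ⟨h1, h2, h3, h4⟩ := coh_mat_inj h
  have h1' : (γ : SL(2, ℤ)) 0 0 = (γ' : SL(2, ℤ)) 0 0 := by linear_combination h1
  have h3' : (γ : SL(2, ℤ)) 1 0 = (γ' : SL(2, ℤ)) 1 0 := by linear_combination h3
  have hj : j = j' := by
    apply coh_fin_eq_of_dvd
    refine ⟨(γ : SL(2, ℤ)) 1 1 * (γ' : SL(2, ℤ)) 0 1 - (γ : SL(2, ℤ)) 0 1 * (γ' : SL(2, ℤ)) 1 1, ?_⟩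
    linear_combination (((j' : ℕ) : ℤ) - ((j : ℕ) : ℤ)) * hdet + (γ : SL(2, ℤ)) 1 1 * h2
      - (γ : SL(2, ℤ)) 0 1 * h4 - (γ : SL(2, ℤ)) 1 1 * ((j' : ℕ) : ℤ) * h1'
      + (γ : SL(2, ℤ)) 0 1 * ((j' : ℕ) : ℤ) * h3'
  subst hj
  refine ⟨coh_eq_of_entries N h1' ?_ h3' ?_, rfl⟩
  · apply mul_right_cancel₀ hℓ0
    linear_combination h2 - ((j : ℕ) : ℤ) * h1'
  · apply mul_right_cancel₀ hℓ0
    linear_combination h4 - ((j : ℕ) : ℤ) * h3'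

theorem coh_uniqU {ℓ : ℕ} (hℓ : 2 ≤ ℓ) : CohUniq (coh_inc N) (coh_matU ℓ) :=
  fun γ γ' j j' h => coh_uniq_some_some N hℓ γ γ' j j' h

theorem coh_not_some_none {ℓ : ℕ} (hℓ : 2 ≤ ℓ) (γ γ' : Gamma0 N) (j : Fin ℓ)
    (h : coh_inc N γ * coh_matU ℓ j = coh_inc N γ' * !![(ℓ : ℤ), 0; 0, 1]) : False := by
  have hdet := coh_det N γ
  rw [coh_inc_eq, coh_inc_eq, coh_matU, Matrix.mul_fin_two, Matrix.mul_fin_two] at h
  obtain ⟨h1, -, h3, -⟩ := coh_mat_inj h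
  have h1' : (ℓ : ℤ) ∣ 1 := by
    refine ⟨(γ' : SL(2, ℤ)) 0 0 * (γ : SL(2, ℤ)) 1 1 - (γ : SL(2, ℤ)) 0 1 * (γ' : SL(2, ℤ)) 1 0, ?_⟩
    linear_combination (-1 : ℤ) * hdet + (γ : SL(2, ℤ)) 1 1 * h1 - (γ : SL(2, ℤ)) 0 1 * h3
  have h2 := Int.eq_one_of_dvd_one (by positivity) h1'
  have h3 : ℓ = 1 := by exact_mod_cast h2
  omega

theorem coh_uniqT {ℓ : ℕ} (hℓ : 2 ≤ ℓ) : CohUniq (coh_inc N) (coh_matT ℓ) := by
  intro γ γ' i i' h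
  have hℓ0 : (ℓ : ℤ) ≠ 0 := by positivity
  cases i with
  | some j =>
    cases i' with
    | some j' =>
      obtain ⟨h1, h2⟩ := coh_uniq_some_some N hℓ γ γ' j j' h
      exact ⟨h1, by rw [h2]⟩
    | none => exact (coh_not_some_none N hℓ γ γ' j h).elim
  | none =>
    cases i' with
    | some j' => exact (coh_not_some_none N hℓ γ' γ j' h.symm).elim
    | none =>
      refine ⟨?_, rfl⟩
      rw [coh_inc_eq, coh_inc_eq, coh_matT_none, Matrix.mul_fin_two, Matrix.mul_fin_two] at h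
      obtain ⟨h1, h2, h3, h4⟩ := coh_mat_inj h
      refine coh_eq_of_entries N ?_ (by linear_combination h2) ?_ (by linear_combination h4)
      · apply mul_right_cancel₀ hℓ0
        linear_combination h1
      · apply mul_right_cancel₀ hℓ0
        linear_combination h3

/-- The operator `T_ℓ` on `Hom(Γ₀(N), A)` (`ℓ ∤ N`). -/
def coh_T {ℓ : ℕ} (hℓ : ℓ.Prime) (hℓN : ¬ ℓ ∣ N) (A : Type*) [AddCommGroup A] :
    (Additive (Gamma0 N) →+ A) →+ (Additive (Gamma0 N) →+ A) :=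
  coh_transfer (coh_exT N hℓ hℓN) (coh_uniqT N hℓ.two_le) A

/-- The operator `U_ℓ` on `Hom(Γ₀(N), A)` (`ℓ ∣ N`). -/
def coh_U {ℓ : ℕ} (hℓ : ℓ.Prime) (hℓN : ℓ ∣ N) (A : Type*) [AddCommGroup A] :
    (Additive (Gamma0 N) →+ A) →+ (Additive (Gamma0 N) →+ A) :=
  coh_transfer (coh_exU N hℓ hℓN) (coh_uniqU N hℓ.two_le) A

variable {N}

theorem coh_T_apply {ℓ : ℕ} (hℓ : ℓ.Prime) (hℓN : ¬ ℓ ∣ N) (A : Type*) [AddCommGroup A]
    (ψ : Additive (Gamma0 N) →+ A) (γ : Gamma0 N) :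
    coh_T N hℓ hℓN A ψ (Additive.ofMul γ) =
      ∑ i, ψ (Additive.ofMul (coh_t (coh_exT N hℓ hℓN) γ i)) := rfl

theorem coh_U_apply {ℓ : ℕ} (hℓ : ℓ.Prime) (hℓN : ℓ ∣ N) (A : Type*) [AddCommGroup A]
    (ψ : Additive (Gamma0 N) →+ A) (γ : Gamma0 N) :
    coh_U N hℓ hℓN A ψ (Additive.ofMul γ) =
      ∑ i, ψ (Additive.ofMul (coh_t (coh_exU N hℓ hℓN) γ i)) := rfl

theorem coh_T_comp {ℓ : ℕ} (hℓ : ℓ.Prime) (hℓN : ¬ ℓ ∣ N) {A B : Type*} [AddCommGroup A]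
    [AddCommGroup B] (h : A →+ B) (ψ : Additive (Gamma0 N) →+ A) :
    coh_T N hℓ hℓN B (h.comp ψ) = h.comp (coh_T N hℓ hℓN A ψ) :=
  coh_transfer_comp _ _ h ψ

theorem coh_U_comp {ℓ : ℕ} (hℓ : ℓ.Prime) (hℓN : ℓ ∣ N) {A B : Type*} [AddCommGroup A]
    [AddCommGroup B] (h : A →+ B) (ψ : Additive (Gamma0 N) →+ A) :
    coh_U N hℓ hℓN B (h.comp ψ) = h.comp (coh_U N hℓ hℓN A ψ) :=
  coh_transfer_comp _ _ h ψ

/-- `(matT i) * γ = t_i(γ) * matT (π_γ i)` in `M₂(ℤ)`. -/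
theorem coh_T_spec {ℓ : ℕ} (hℓ : ℓ.Prime) (hℓN : ¬ ℓ ∣ N) (γ : Gamma0 N) (i : Option (Fin ℓ)) :
    coh_matT ℓ i * coh_inc N γ = coh_inc N (coh_t (coh_exT N hℓ hℓN) γ i) *
      coh_matT ℓ (coh_pi (coh_exT N hℓ hℓN) γ i) :=
  coh_spec _ γ i

/-- `(matU j) * γ = t_j(γ) * matU (π_γ j)` in `M₂(ℤ)`. -/
theorem coh_U_spec {ℓ : ℕ} (hℓ : ℓ.Prime) (hℓN : ℓ ∣ N) (γ : Gamma0 N) (j : Fin ℓ) :
    coh_matU ℓ j * coh_inc N γ = coh_inc N (coh_t (coh_exU N hℓ hℓN) γ j) *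
      coh_matU ℓ (coh_pi (coh_exU N hℓ hℓN) γ j) :=
  coh_spec _ γ j

end Concrete

end

end Fermat.Agent.S16
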