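import Fermat.Agent.S16.TraceLemma
import Fermat.Agent.S24.InfExp

/-!
# S16 shared infrastructure: expansions of the conjugates and of the norm

For `F : ModularForm (Gamma0 p) k` (`p` prime) the conjugates `F ∣ S T ^ b` have expansions in
`w = e^{2πiτ/p}` given by the `q`-expansion of the Fricke transform `tl_fricke F`, twisted by
powers of `ζ = e^{2πi/p}`; the `q`-expansion of the norm to level one is the product of these
expansions (`nx_norm_expand`).
-/

set_option autoImplicit false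

open UpperHalfPlane ModularForm CongruenceSubgroup Matrix
open scoped MatrixGroups ModularForm Manifold
open Fermat.Agent.S24

namespace Fermat.Agent.S16

noncomputable section

/-- `ζ = e^{2πi/p}`. -/
def nx_zeta (p : ℕ) : ℂ := Complex.exp (2 * Real.pi * Complex.I / p)

theorem nx_zeta_pow (p : ℕ) (hp : p ≠ 0) : nx_zeta p ^ p = 1 := by
  have hpc : (p : ℂ) ≠ 0 := by exact_mod_cast hp
  rw [nx_zeta, ← Complex.exp_nat_mul, mul_div_cancel₀ _ hpc, Complex.exp_two_pi_mul_I]

theorem nx_wN_pow (p : ℕ) (hp : p ≠ 0) (τ : ℍ) :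
    wN p τ ^ p = Function.Periodic.qParam 1 (τ : ℂ) := by
  have hpc : (p : ℂ) ≠ 0 := by exact_mod_cast hp
  rw [wN, Function.Periodic.qParam, Function.Periodic.qParam, ← Complex.exp_nat_mul]
  congr 1
  push_cast
  field_simp

theorem nx_qParam_heckeMatrix (p : ℕ) (hp : p ≠ 0) (b : ℕ) (τ : ℍ) :
    Function.Periodic.qParam 1 ((heckeMatrix p b • τ : ℍ) : ℂ) = nx_zeta p ^ b * wN p τ := by
  have hpc : (p : ℂ) ≠ 0 := by exact_mod_cast hp
  rw [coe_heckeMatrix_smul hp, wN, nx_zeta, Function.Periodic.qParam, Function.Periodic.qParam,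
    ← Complex.exp_nat_mul, ← Complex.exp_add]
  congr 1
  push_cast
  field_simp
  ring

/-- A holomorphic `1`-periodic function bounded at `i∞`, expanded in `w = e^{2πiτ/p}`. -/
theorem nx_hasSum_expand (p : ℕ) (hp : p ≠ 0) (f : ℍ → ℂ)
    (hper : Function.Periodic (f ∘ ofComplex) 1) (hhol : MDiff f) (hbdd : IsBoundedAtImInfty f)
    (τ : ℍ) :
    HasSum (fun n : ℕ => (PowerSeries.expand p hp (qExpansion 1 f)).coeff n * wN p τ ^ n)
      (f τ) := by
  have h := hasSum_qExpansion one_pos hper hhol hbdd τ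
  have hinj : Function.Injective (fun m : ℕ => p * m) := fun a b hab =>
    Nat.eq_of_mul_eq_mul_left (Nat.pos_of_ne_zero hp) hab
  rw [← hinj.hasSum_iff]
  · convert h using 2 with m
    simp only [Function.comp_apply, PowerSeries.coeff_expand_mul, smul_eq_mul]
    rw [pow_mul, nx_wN_pow p hp]
  · intro n hn
    have hnd : ¬ p ∣ n := fun ⟨m, hm⟩ => hn ⟨m, hm.symm⟩
    rw [PowerSeries.coeff_expand_of_not_dvd p hp _ hnd, zero_mul]

/-- The same function evaluated at `(τ + b)/p`, expanded in `w = e^{2πiτ/p}`. -/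
theorem nx_hasSum_heckeMatrix (p : ℕ) (hp : p ≠ 0) (f : ℍ → ℂ)
    (hper : Function.Periodic (f ∘ ofComplex) 1) (hhol : MDiff f) (hbdd : IsBoundedAtImInfty f)
    (b : ℕ) (τ : ℍ) :
    HasSum (fun n : ℕ => (PowerSeries.rescale (nx_zeta p ^ b) (qExpansion 1 f)).coeff n *
      wN p τ ^ n) (f (heckeMatrix p b • τ)) := by
  have h := hasSum_qExpansion one_pos hper hhol hbdd (heckeMatrix p b • τ)
  convert h using 2 with n
  rw [PowerSeries.coeff_rescale, nx_qParam_heckeMatrix p hp, smul_eq_mul, mul_pow]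
  ring

/-- Re-expansion of a `q`-series as a `w`-series, `q = w ^ p`. -/
theorem nx_hasSum_expand_of (p : ℕ) (hp : p ≠ 0) (A : PowerSeries ℂ) (τ : ℍ) (x : ℂ)
    (h : HasSum (fun m : ℕ => A.coeff m * Function.Periodic.qParam 1 (τ : ℂ) ^ m) x) :
    HasSum (fun n : ℕ => (PowerSeries.expand p hp A).coeff n * wN p τ ^ n) x := by
  have hinj : Function.Injective (fun m : ℕ => p * m) := fun a b hab =>
    Nat.eq_of_mul_eq_mul_left (Nat.pos_of_ne_zero hp) hab
  rw [← hinj.hasSum_iff]
  · convert h using 2 with m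
    simp only [Function.comp_apply, PowerSeries.coeff_expand_mul]
    rw [pow_mul, nx_wN_pow p hp]
  · intro n hn
    have hnd : ¬ p ∣ n := fun ⟨m, hm⟩ => hn ⟨m, hm.symm⟩
    rw [PowerSeries.coeff_expand_of_not_dvd p hp _ hnd, zero_mul]

section wexp

variable {p : ℕ} [NeZero p]

/-- `HasWExp` from a convergent power series in `w`. -/
theorem nx_hasWExp_of_hasSum (f : ℍ → ℂ) (hf : MDiff f) (P : PowerSeries ℂ)
    (h : ∀ τ : ℍ, HasSum (fun n : ℕ => P.coeff n * wN p τ ^ n) (f τ)) :
    HasWExp p f (HahnSeries.ofPowerSeries ℤ ℂ P) := by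
  have h' := hasWExp_of_hasSum p f hf 0 (fun n => P.coeff n) (fun τ => by simpa using h τ)
  have e : PowerSeries.mk (fun n => P.coeff n) = P := PowerSeries.ext fun n => by simp
  rw [e] at h'
  simpa using h'

theorem nx_hasWExp_expand (f : ℍ → ℂ)
    (hper : Function.Periodic (f ∘ ofComplex) 1) (hhol : MDiff f) (hbdd : IsBoundedAtImInfty f) :
    HasWExp p f (HahnSeries.ofPowerSeries ℤ ℂ
      (PowerSeries.expand p (NeZero.ne p) (qExpansion 1 f))) :=
  nx_hasWExp_of_hasSum f hhol _ (nx_hasSum_expand p (NeZero.ne p) f hper hhol hbdd)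

/-- Identification of the `q`-expansion of a `1`-periodic function from a `w`-expansion. -/
theorem nx_expand_qExpansion_eq (f : ℍ → ℂ)
    (hper : Function.Periodic (f ∘ ofComplex) 1) (hhol : MDiff f) (hbdd : IsBoundedAtImInfty f)
    (P : PowerSeries ℂ) (h : HasWExp p f (HahnSeries.ofPowerSeries ℤ ℂ P)) :
    PowerSeries.expand p (NeZero.ne p) (qExpansion 1 f) = P :=
  HahnSeries.ofPowerSeries_injective ((nx_hasWExp_expand f hper hhol hbdd).unique h)

theorem nx_hasWExp_prod {ι : Type*} (s : Finset ι) (g : ι → ℍ → ℂ) (L : ι → PowerSeries ℂ)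
    (h : ∀ i ∈ s, HasWExp p (g i) (HahnSeries.ofPowerSeries ℤ ℂ (L i))) :
    HasWExp p (∏ i ∈ s, g i) (HahnSeries.ofPowerSeries ℤ ℂ (∏ i ∈ s, L i)) := by
  classical
  induction s using Finset.induction_on with
  | empty =>
    have h1 := hasWExp_const p (1 : ℂ)
    have e : (fun _ : ℍ => (1 : ℂ)) = 1 := rfl
    rw [e] at h1
    simpa using h1
  | insert i s hi ih =>
    rw [Finset.prod_insert hi, Finset.prod_insert hi, map_mul]
    exact (h i (Finset.mem_insert_self i s)).mul
      (ih fun j hj => h j (Finset.mem_insert_of_mem hj))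

/-- **Generic norm expansion.** If a `1`-periodic function `N` is a product of a function with a
`q`-expansion `A` and `p` functions with `w`-expansions `B b`, then
`expand p (qExpansion 1 N) = expand p A * ∏ b, B b`. -/
theorem nx_expand_of_prod (N : ℍ → ℂ)
    (hper : Function.Periodic (N ∘ ofComplex) 1) (hhol : MDiff N) (hbdd : IsBoundedAtImInfty N)
    (a : ℍ → ℂ) (g : ℕ → ℍ → ℂ) (A : PowerSeries ℂ) (B : ℕ → PowerSeries ℂ)
    (hN : ∀ τ, N τ = a τ * ∏ b ∈ Finset.range p, g b τ)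
    (ha : MDiff a)
    (hA : ∀ τ : ℍ, HasSum (fun n : ℕ => A.coeff n * Function.Periodic.qParam 1 (τ : ℂ) ^ n) (a τ))
    (hg : ∀ b < p, MDiff (g b))
    (hB : ∀ b < p, ∀ τ : ℍ, HasSum (fun n : ℕ => (B b).coeff n * wN p τ ^ n) (g b τ)) :
    PowerSeries.expand p (NeZero.ne p) (qExpansion 1 N) =
      PowerSeries.expand p (NeZero.ne p) A * ∏ b ∈ Finset.range p, B b := by
  refine nx_expand_qExpansion_eq N hper hhol hbdd _ ?_
  have h1 : HasWExp p a (HahnSeries.ofPowerSeries ℤ ℂ (PowerSeries.expand p (NeZero.ne p) A)) :=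
    nx_hasWExp_of_hasSum a ha _ fun τ => nx_hasSum_expand_of p (NeZero.ne p) A τ _ (hA τ)
  have h2 : HasWExp p (∏ b ∈ Finset.range p, g b)
      (HahnSeries.ofPowerSeries ℤ ℂ (∏ b ∈ Finset.range p, B b)) :=
    nx_hasWExp_prod _ g B fun b hb =>
      nx_hasWExp_of_hasSum (g b) (hg b (Finset.mem_range.mp hb)) _ (hB b (Finset.mem_range.mp hb))
  have h3 := h1.mul h2
  rw [← map_mul] at h3
  have e : N = a * ∏ b ∈ Finset.range p, g b := by
    funext τ
    rw [hN τ, Pi.mul_apply, Finset.prod_apply]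
  rw [e]
  exact h3

end wexp

section forms

variable {p : ℕ} [Fact p.Prime] {k : ℤ}

/-- The expansion of `F ∣ S` in `w = e^{2πiτ/p}` (the "conjugate series" of `F`). -/
def nx_conjSeries (F : ModularForm (Gamma0 p) k) : PowerSeries ℂ :=
  PowerSeries.C ((p : ℂ) ^ (1 - k)) * qExpansion 1 (tl_fricke F)

omit [Fact p.Prime] in
theorem nx_periodic (F : ModularForm (Gamma0 p) k) : Function.Periodic (⇑F ∘ ofComplex) 1 :=
  SlashInvariantFormClass.periodic_comp_ofComplex F
    (CongruenceSubgroup.one_mem_strictPeriods_Gamma0 p)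

theorem nx_hasSum_qExpansion (F : ModularForm (Gamma0 p) k) (τ : ℍ) :
    HasSum (fun n : ℕ => (qExpansion 1 F).coeff n * Function.Periodic.qParam 1 (τ : ℂ) ^ n)
      (F τ) := by
  simpa using hasSum_qExpansion one_pos (nx_periodic F) (ModularFormClass.holo F)
    (ModularFormClass.bdd_at_infty F) τ

/-- **Expansions of the conjugates.** `F ∣ S T ^ b` has the `w`-expansion
`(nx_conjSeries F)(ζ ^ b w)`, `w = e^{2πiτ/p}`, `ζ = e^{2πi/p}`. -/
theorem nx_hasSum_slash_ST (F : ModularForm (Gamma0 p) k) (b : ℕ) (τ : ℍ) :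
    HasSum (fun n : ℕ => (PowerSeries.rescale (nx_zeta p ^ b) (nx_conjSeries F)).coeff n *
      Function.Periodic.qParam (p : ℝ) (τ : ℂ) ^ n)
      ((⇑F ∣[k] (ModularGroup.S * ModularGroup.T ^ b)) τ) := by
  rw [tl_slash_ST]
  have h := (nx_hasSum_heckeMatrix p (NeZero.ne p) (tl_fricke F) (nx_periodic _)
    (ModularFormClass.holo _) (ModularFormClass.bdd_at_infty _) b τ).mul_left ((p : ℂ) ^ (1 - k))
  have e : (fun n : ℕ => (PowerSeries.rescale (nx_zeta p ^ b) (nx_conjSeries F)).coeff n *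
      Function.Periodic.qParam (p : ℝ) (τ : ℂ) ^ n) =
      fun n : ℕ => (p : ℂ) ^ (1 - k) *
        ((PowerSeries.rescale (nx_zeta p ^ b) (qExpansion 1 (tl_fricke F))).coeff n *
          wN p τ ^ n) := by
    funext n
    unfold nx_conjSeries
    rw [PowerSeries.coeff_rescale, PowerSeries.coeff_rescale, PowerSeries.coeff_C_mul, wN]
    ring
  rw [e]
  exact h

/-- The case `b = 0`: the expansion of `F ∣ S`. -/
theorem nx_hasSum_slash_S (F : ModularForm (Gamma0 p) k) (τ : ℍ) :
    HasSum (fun n : ℕ => (nx_conjSeries F).coeff n * Function.Periodic.qParam (p : ℝ) (τ : ℂ) ^ n)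
      ((⇑F ∣[k] ModularGroup.S) τ) := by
  have h := nx_hasSum_slash_ST F 0 τ
  simpa using h

/-- **Norm expansion.** -/
theorem nx_norm_expand (F : ModularForm (Gamma0 p) k) :
    PowerSeries.expand p (NeZero.ne p) (qExpansion 1 (tl_norm F)) =
      PowerSeries.expand p (NeZero.ne p) (qExpansion 1 F) *
        ∏ b ∈ Finset.range p, PowerSeries.rescale (nx_zeta p ^ b) (nx_conjSeries F) := by
  refine nx_expand_of_prod (tl_norm F)
    (SlashInvariantFormClass.periodic_comp_ofComplex _ one_mem_strictPeriods_SL)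
    (ModularFormClass.holo _) (ModularFormClass.bdd_at_infty _) ⇑F
    (fun b => ⇑F ∣[k] (ModularGroup.S * ModularGroup.T ^ b)) _ _
    (fun τ => tl_norm_eq F τ) (ModularFormClass.holo F) (nx_hasSum_qExpansion F)
    (fun b _ => (ModularFormClass.holo F).slash k _) (fun b _ τ => nx_hasSum_slash_ST F b τ)

/-- Weight two: the conjugate series is `-(1/p)` times the `q`-expansion of `U_p F`. -/
theorem nx_conjSeries_two (F : ModularForm (Gamma0 p) 2) :
    nx_conjSeries F = PowerSeries.C (-(1 / (p : ℂ))) * qExpansion 1 (tl_U F) := by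
  have hp : (p : ℂ) ≠ 0 := by exact_mod_cast NeZero.ne p
  have h1 : qExpansion 1 (tl_fricke F) = -qExpansion 1 (tl_U F) := by
    rw [tl_fricke_eq_neg_U, FunLike.coe_neg]
    exact ModularForm.qExpansion_neg one_pos (CongruenceSubgroup.one_mem_strictPeriods_Gamma0 p)
      (tl_U F)
  rw [nx_conjSeries, h1]
  ext n
  simp only [PowerSeries.coeff_C_mul, map_neg]
  norm_num

theorem nx_conjSeries_two_coeff (F : ModularForm (Gamma0 p) 2) (n : ℕ) :
    (nx_conjSeries F).coeff n = -(1 / (p : ℂ)) * (qExpansion 1 F).coeff (n * p) := by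
  rw [nx_conjSeries_two, PowerSeries.coeff_C_mul, tl_qExpansion_U_coeff]

end forms

end

end Fermat.Agent.S16
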