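/-
S16: bridge between the two presentations of the expansion at the cusp `0`
(`conjSeries` of `ConjNorm.lean` and `nx_conjSeries` of `NormExp.lean`).
-/
import Fermat.Agent.S16.ConjNorm
import Fermat.Agent.S16.NormExp

set_option autoImplicit false

open UpperHalfPlane ModularForm CongruenceSubgroup
open scoped MatrixGroups ModularForm

namespace Fermat.Agent.S16

variable {p : ℕ} [Fact p.Prime] {k : ℤ}

/-- The two descriptions of the expansion at the cusp `0` agree. -/
theorem conjSeries_eq_nx (F : ModularForm (Gamma0 p) k) : conjSeries F = nx_conjSeries F :=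
  (ConjExp.eq_conjSeries (F := F) (fun τ => nx_hasSum_slash_S F τ)).symm

omit [Fact p.Prime] in
/-- The two names of `exp(2πi/p)` agree. -/
theorem cnZeta_eq_nx : cnZeta p = nx_zeta p := by
  unfold cnZeta nx_zeta Function.Periodic.qParam
  congr 1
  push_cast
  ring

/-- `ConjExp` form of `nx_conjSeries`. -/
theorem conjExp_nx (F : ModularForm (Gamma0 p) k) : ConjExp p k F (nx_conjSeries F) :=
  fun τ => nx_hasSum_slash_S F τ

end Fermat.Agent.S16
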