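import Mathlib

/-!
# S16, conjugate expansions: the roots-of-unity filter (core of the trace coefficient formula)

If `g τ = ∑ B n * w ^ n` with `w = exp (2πiτ/p)` for all `τ`, then
`∑_{b < p} g (τ + b) = ∑ p * B (p m) * q ^ m` with `q = exp (2πiτ)`.
-/

set_option autoImplicit false

open UpperHalfPlane Function
open scoped Real

namespace Fermat.Agent.S16

/-- roots-of-unity filter. -/
theorem h61_sum_root_pow (p : ℕ) (hp : 0 < p) (n : ℕ) :
    ∑ b ∈ Finset.range p, (Complex.exp (2 * π * Complex.I / p)) ^ (b * n)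
      = if p ∣ n then (p : ℂ) else 0 := by
  have hζ : IsPrimitiveRoot (Complex.exp (2 * π * Complex.I / p)) p :=
    Complex.isPrimitiveRoot_exp p hp.ne'
  split_ifs with h
  · obtain ⟨c, rfl⟩ := h
    have : ∀ b ∈ Finset.range p, (Complex.exp (2 * π * Complex.I / p)) ^ (b * (p * c)) = 1 := by
      intro b _
      rw [show b * (p * c) = p * (b * c) by ring, pow_mul, hζ.pow_eq_one, one_pow]
    rw [Finset.sum_congr rfl this]
    simp
  · have h1 : (Complex.exp (2 * π * Complex.I / p)) ^ n ≠ 1 := by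
      intro h1
      exact h ((hζ.pow_eq_one_iff_dvd n).1 h1)
    have h2 : ∑ b ∈ Finset.range p, ((Complex.exp (2 * π * Complex.I / p)) ^ n) ^ b = 0 := by
      have := geom_sum_mul ((Complex.exp (2 * π * Complex.I / p)) ^ n) p
      rw [← pow_mul, mul_comm n p, pow_mul, hζ.pow_eq_one, one_pow, sub_self] at this
      rcases mul_eq_zero.1 this with h3 | h3
      · exact h3
      · exact absurd (sub_eq_zero.1 h3) h1
    rw [← h2]
    refine Finset.sum_congr rfl fun b _ => ?_
    rw [← pow_mul, Nat.mul_comm n b]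

theorem h61_qParam_vadd (p : ℕ) (b : ℕ) (τ : ℍ) :
    Periodic.qParam (p : ℝ) (((b : ℝ) +ᵥ τ : ℍ) : ℂ)
      = Periodic.qParam (p : ℝ) τ * (Complex.exp (2 * π * Complex.I / p)) ^ b := by
  rw [Periodic.qParam, Periodic.qParam, ← Complex.exp_nat_mul, ← Complex.exp_add, coe_vadd]
  congr 1
  push_cast
  ring

theorem h61_qParam_pow (p : ℕ) (hp : 0 < p) (τ : ℍ) :
    Periodic.qParam (p : ℝ) τ ^ p = Periodic.qParam 1 τ := by
  rw [Periodic.qParam, Periodic.qParam, ← Complex.exp_nat_mul]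
  congr 1
  have : (p : ℂ) ≠ 0 := by exact_mod_cast hp.ne'
  push_cast
  field_simp

/-- The roots-of-unity filter for expansions in `exp (2πiτ/p)`. -/
theorem h61_hasSum_filter (p : ℕ) (hp : 0 < p) (g : ℍ → ℂ) (B : ℕ → ℂ)
    (hg : ∀ τ : ℍ, HasSum (fun n => B n * Periodic.qParam (p : ℝ) τ ^ n) (g τ)) (τ : ℍ) :
    HasSum (fun m => (p : ℂ) * B (p * m) * Periodic.qParam 1 τ ^ m)
      (∑ b ∈ Finset.range p, g ((b : ℝ) +ᵥ τ)) := by
  set ζ : ℂ := Complex.exp (2 * π * Complex.I / p) with hζ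
  set w : ℂ := Periodic.qParam (p : ℝ) τ with hw
  have h1 : HasSum (fun n => ∑ b ∈ Finset.range p, B n * (w * ζ ^ b) ^ n)
      (∑ b ∈ Finset.range p, g ((b : ℝ) +ᵥ τ)) := by
    refine hasSum_sum fun b _ => ?_
    have := hg ((b : ℝ) +ᵥ τ)
    rwa [h61_qParam_vadd] at this
  have h2 : (fun n => ∑ b ∈ Finset.range p, B n * (w * ζ ^ b) ^ n)
      = fun n => if p ∣ n then (p : ℂ) * B n * w ^ n else 0 := by
    funext n
    have : ∑ b ∈ Finset.range p, B n * (w * ζ ^ b) ^ n
        = B n * w ^ n * ∑ b ∈ Finset.range p, ζ ^ (b * n) := by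
      rw [Finset.mul_sum]
      refine Finset.sum_congr rfl fun b _ => ?_
      rw [mul_pow, ← pow_mul]
      ring
    rw [this, h61_sum_root_pow p hp n]
    split_ifs <;> ring
  rw [h2] at h1
  have hinj : Function.Injective (fun m : ℕ => p * m) := fun a b h =>
    Nat.eq_of_mul_eq_mul_left hp h
  have h3 := (hinj.hasSum_iff (f := fun n => if p ∣ n then (p : ℂ) * B n * w ^ n else 0)
    (a := ∑ b ∈ Finset.range p, g ((b : ℝ) +ᵥ τ)) (by
      intro n hn
      have : ¬ p ∣ n := fun ⟨c, hc⟩ => hn ⟨c, hc.symm⟩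
      simp [this])).2 h1
  convert h3 using 1
  funext m
  simp only [Function.comp_apply, dvd_mul_right, if_true]
  rw [pow_mul, h61_qParam_pow p hp τ]

end Fermat.Agent.S16
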