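import Mathlib
import Fermat.Agent.S16.TraceLemma
import Fermat.Agent.S16.ConjTraceCore

/-!
# S16, conjugate expansions: trace coefficient formula (C4) and the weight-two conjugate (C5)

Hypothesis forms, on an arbitrary series `B` with
`(F ∣[k] S) τ = ∑ B_n exp(2πiτ/p)^n` (the `ConjExp` property of `ConjNorm.lean`):

* `conj_trace_coeff_of` : `a_m(Tr F) = a_m(F) + p * B_{pm}`;
* `conj_weight_two_hasSum` : in weight two, `B_n = -(1/p) a_{pn}(Θ)` is such an expansion;
* `conj_weight_two_coeff_of` : hence every such `B` has `B_n = -(1/p) a_{pn}(Θ)`.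
-/

set_option autoImplicit false

open UpperHalfPlane ModularForm CongruenceSubgroup Matrix Function
open scoped MatrixGroups ModularForm Real

namespace Fermat.Agent.S16

/-- slash by `S * T ^ b` is the `S`-conjugate translated by `b`. -/
theorem h61_slash_ST_eq (k : ℤ) (f : ℍ → ℂ) (b : ℕ) (z : ℍ) :
    (f ∣[k] (ModularGroup.S * ModularGroup.T ^ b)) z
      = (f ∣[k] ModularGroup.S) ((b : ℝ) +ᵥ z) := by
  rw [SlashAction.slash_mul, SL_slash_apply]
  have hden : denom (ModularGroup.T ^ b : SL(2, ℤ)) z = 1 := by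
    rw [ModularGroup.denom_apply, ← zpow_natCast, ModularGroup.coe_T_zpow]
    simp
  rw [hden, _root_.one_zpow, mul_one, ← zpow_natCast, modular_T_zpow_smul]
  simp

variable {p : ℕ} [Fact p.Prime] {k : ℤ}

/-- (C4), hypothesis form: the `q`-expansion of the trace to level one. -/
theorem conj_trace_coeff_of (F : ModularForm (Gamma0 p) k) (B : PowerSeries ℂ)
    (hB : ∀ τ : ℍ, HasSum (fun n => B.coeff n * Periodic.qParam (p : ℝ) τ ^ n)
      ((⇑F ∣[k] ModularGroup.S) τ)) (m : ℕ) :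
    (qExpansion 1 (ModularForm.trace 𝒮ℒ F)).coeff m
      = (qExpansion 1 F).coeff m + p * B.coeff (p * m) := by
  have hp : 0 < p := (Fact.out : p.Prime).pos
  have key : ∀ τ : ℍ, HasSum (fun m => ((qExpansion 1 F).coeff m + p * B.coeff (p * m)) •
      Periodic.qParam 1 τ ^ m) (ModularForm.trace 𝒮ℒ F τ) := by
    intro τ
    rw [tl_trace_apply]
    have h1 := ModularForm.hasSum_qExpansion F one_pos
      (CongruenceSubgroup.one_mem_strictPeriods_Gamma0 p) τ
    have h2 := h61_hasSum_filter p hp (⇑F ∣[k] ModularGroup.S) (fun n => B.coeff n) hB τ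
    have h3 := h1.add h2
    convert h3 using 1
    · funext m
      simp only [smul_eq_mul]
      ring
    · congr 1
      exact Finset.sum_congr rfl fun b _ => h61_slash_ST_eq k _ b τ
  exact (ModularFormClass.qExpansion_coeff_unique one_pos one_mem_strictPeriods_SL key m).symm

omit [Fact p.Prime] in
/-- `exp(2πi(τ/p))= exp(2πiτ/p)`. -/
theorem h61_qParam_heckeMatrix (hp : p ≠ 0) (τ : ℍ) :
    Periodic.qParam 1 ((heckeMatrix p 0 • τ : ℍ) : ℂ) = Periodic.qParam (p : ℝ) τ := by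
  have hpC : (p : ℂ) ≠ 0 := by exact_mod_cast hp
  rw [coe_heckeMatrix_smul hp, Periodic.qParam, Periodic.qParam]
  congr 1
  push_cast
  field_simp
  ring

/-- Existence of the conjugate expansion in any weight: `F ∣ S` has the expansion
`∑ p^(1-k) a_n(F ∣ W_p) exp(2πiτ/p)^n`. -/
theorem h61_conj_hasSum (F : ModularForm (Gamma0 p) k) (τ : ℍ) :
    HasSum (fun n => ((p : ℂ) ^ (1 - k) * (qExpansion 1 (tl_fricke F)).coeff n) *
      Periodic.qParam (p : ℝ) τ ^ n) ((⇑F ∣[k] ModularGroup.S) τ) := by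
  have hp : p ≠ 0 := (Fact.out : p.Prime).ne_zero
  rw [tl_slash_S]
  have h1 := ModularForm.hasSum_qExpansion (tl_fricke F) one_pos
    (CongruenceSubgroup.one_mem_strictPeriods_Gamma0 p) (heckeMatrix p 0 • τ)
  rw [h61_qParam_heckeMatrix hp] at h1
  have h2 := h1.mul_left ((p : ℂ) ^ (1 - k))
  have h3 : (fun n => ((p : ℂ) ^ (1 - k) * (qExpansion 1 (tl_fricke F)).coeff n) *
      Periodic.qParam (p : ℝ) τ ^ n) = fun n => (p : ℂ) ^ (1 - k) *
        ((qExpansion 1 (tl_fricke F)).coeff n * Periodic.qParam (p : ℝ) τ ^ n) := by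
    funext n
    ring
  rw [h3]
  exact h2

/-- Uniqueness of the conjugate expansion in any weight. -/
theorem h61_conj_coeff_of (F : ModularForm (Gamma0 p) k) (B : PowerSeries ℂ)
    (hB : ∀ τ : ℍ, HasSum (fun n => B.coeff n * Periodic.qParam (p : ℝ) τ ^ n)
      ((⇑F ∣[k] ModularGroup.S) τ)) (n : ℕ) :
    B.coeff n = (p : ℂ) ^ (1 - k) * (qExpansion 1 (tl_fricke F)).coeff n := by
  have hp : p ≠ 0 := (Fact.out : p.Prime).ne_zero
  have hpC : (p : ℂ) ≠ 0 := by exact_mod_cast hp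
  have hpk : (p : ℂ) ^ (1 - k) ≠ 0 := zpow_ne_zero _ hpC
  have key : ∀ τ' : ℍ, HasSum (fun m => (((p : ℂ) ^ (1 - k))⁻¹ * B.coeff m) •
      Periodic.qParam 1 τ' ^ m) (tl_fricke F τ') := by
    intro τ'
    have hτ : heckeMatrix p 0 • (heckeDiagMatrix p • τ') = τ' := by
      apply UpperHalfPlane.ext
      rw [coe_heckeMatrix_smul hp, coe_heckeDiagMatrix_smul hp]
      push_cast
      field_simp
      ring
    have h1 := hB (heckeDiagMatrix p • τ')
    rw [tl_slash_S, ← h61_qParam_heckeMatrix hp, hτ] at h1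
    have h2 := h1.mul_left (((p : ℂ) ^ (1 - k))⁻¹)
    rw [← mul_assoc, inv_mul_cancel₀ hpk, one_mul] at h2
    have h3 : (fun m => (((p : ℂ) ^ (1 - k))⁻¹ * B.coeff m) • Periodic.qParam 1 (τ' : ℂ) ^ m)
        = fun m => ((p : ℂ) ^ (1 - k))⁻¹ * (B.coeff m * Periodic.qParam 1 (τ' : ℂ) ^ m) := by
      funext m
      rw [smul_eq_mul]
      ring
    rw [h3]
    exact h2
  have := ModularFormClass.qExpansion_coeff_unique one_pos
    (CongruenceSubgroup.one_mem_strictPeriods_Gamma0 p) key n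
  rw [← this, ← mul_assoc, mul_inv_cancel₀ hpk, one_mul]

/-- (C4), explicit form: `a_m(Tr F) = a_m(F) + p^(2-k) a_{pm}(F ∣ W_p)`. -/
theorem conj_trace_coeff_fricke (F : ModularForm (Gamma0 p) k) (m : ℕ) :
    (qExpansion 1 (ModularForm.trace 𝒮ℒ F)).coeff m
      = (qExpansion 1 F).coeff m
        + (p : ℂ) ^ (2 - k) * (qExpansion 1 (tl_fricke F)).coeff (p * m) := by
  have hp : p ≠ 0 := (Fact.out : p.Prime).ne_zero
  have hpC : (p : ℂ) ≠ 0 := by exact_mod_cast hp
  have h := conj_trace_coeff_of F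
    (PowerSeries.mk fun n => (p : ℂ) ^ (1 - k) * (qExpansion 1 (tl_fricke F)).coeff n)
    (fun τ => by simpa only [PowerSeries.coeff_mk] using h61_conj_hasSum F τ) m
  rw [h, PowerSeries.coeff_mk, ← mul_assoc]
  congr 2
  rw [show (2 - k) = 1 + (1 - k) by ring, zpow_add₀ hpC, zpow_one]

/-- (C5), existence form: in weight two the conjugate `Θ ∣ S` has the expansion
`∑ -(1/p) a_{pn}(Θ) exp(2πiτ/p)^n`. -/
theorem conj_weight_two_hasSum (Θ : ModularForm (Gamma0 p) 2) (τ : ℍ) :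
    HasSum (fun n => (-(1 / (p : ℂ)) * (qExpansion 1 Θ).coeff (p * n)) *
      Periodic.qParam (p : ℝ) τ ^ n) ((⇑Θ ∣[(2 : ℤ)] ModularGroup.S) τ) := by
  have hp : p ≠ 0 := (Fact.out : p.Prime).ne_zero
  rw [tl_slash_S_two]
  have h1 := ModularForm.hasSum_qExpansion (tl_U Θ) one_pos
    (CongruenceSubgroup.one_mem_strictPeriods_Gamma0 p) (heckeMatrix p 0 • τ)
  rw [h61_qParam_heckeMatrix hp] at h1
  have h2 := h1.mul_left (-(1 / (p : ℂ)))
  have h3 : (fun n => (-(1 / (p : ℂ)) * (qExpansion 1 Θ).coeff (p * n)) *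
      Periodic.qParam (p : ℝ) τ ^ n) = fun n => -(1 / (p : ℂ)) *
        ((qExpansion 1 (tl_U Θ)).coeff n * Periodic.qParam (p : ℝ) τ ^ n) := by
    funext n
    rw [tl_qExpansion_U_coeff, mul_comm n p]
    ring
  rw [h3]
  exact h2

/-- (C5), hypothesis form: in weight two every expansion of `Θ ∣ S` in `exp(2πiτ/p)` has
coefficients `-(1/p) a_{pn}(Θ)`. -/
theorem conj_weight_two_coeff_of (Θ : ModularForm (Gamma0 p) 2) (B : PowerSeries ℂ)
    (hB : ∀ τ : ℍ, HasSum (fun n => B.coeff n * Periodic.qParam (p : ℝ) τ ^ n)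
      ((⇑Θ ∣[(2 : ℤ)] ModularGroup.S) τ)) (n : ℕ) :
    B.coeff n = -(1 / (p : ℂ)) * (qExpansion 1 Θ).coeff (p * n) := by
  have hp : p ≠ 0 := (Fact.out : p.Prime).ne_zero
  have hpC : (p : ℂ) ≠ 0 := by exact_mod_cast hp
  rw [h61_conj_coeff_of Θ B hB n, tl_fricke_eq_neg_U]
  have h1 : (qExpansion 1 (⇑(-tl_U Θ))).coeff n = -(qExpansion 1 (tl_U Θ)).coeff n := by
    have := ModularForm.qExpansion_neg one_pos (CongruenceSubgroup.one_mem_strictPeriods_Gamma0 p)
      (tl_U Θ)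
    rw [show (⇑(-tl_U Θ) : ℍ → ℂ) = -⇑(tl_U Θ) from rfl, this, map_neg]
  rw [h1, tl_qExpansion_U_coeff, mul_comm n p]
  have : (p : ℂ) ^ (1 - (2 : ℤ)) = 1 / (p : ℂ) := by
    rw [show (1 - (2 : ℤ)) = -1 by norm_num, _root_.zpow_neg_one, one_div]
  rw [this]
  ring

end Fermat.Agent.S16
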