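import Fermat.Agent.S24.InfExp
import Fermat.Agent.S28.InvFamily
import Fermat.Agent.S24.EtaBridge

/-!
S16 (upper bound, prime `2`): calculus of `w`-expansions (`Fermat.Agent.S24.HasWExp`) for the
normalised derivative `D = (2πi)⁻¹ d/dτ`, and the expansions of `E₂`, `E₄`, `Δ⁻¹` at level `N`.
-/

set_option autoImplicit false

open UpperHalfPlane ModularForm

open scoped Manifold MatrixGroups

open Fermat.Agent.S24 Fermat.Agent.S28

namespace Fermat.Agent.S16

/-- The derivative of `𝕢_h ^ n`. -/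
theorem dexp_hasDerivAt_qParam_pow (h : ℝ) (n : ℕ) (z : ℂ) :
    HasDerivAt (fun z : ℂ => Function.Periodic.qParam h z ^ n)
      ((n : ℂ) * (2 * Real.pi * Complex.I / (h : ℂ)) * Function.Periodic.qParam h z ^ n) z := by
  have h1 : HasDerivAt (fun z : ℂ => 2 * Real.pi * Complex.I * z / (h : ℂ))
      (2 * Real.pi * Complex.I / (h : ℂ)) z := by
    simpa using ((hasDerivAt_id z).const_mul (2 * Real.pi * Complex.I)).div_const (h : ℂ)
  have h2 : HasDerivAt (Function.Periodic.qParam h)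
      (Function.Periodic.qParam h z * (2 * Real.pi * Complex.I / (h : ℂ))) z := by
    unfold Function.Periodic.qParam
    exact h1.cexp
  have h3 : HasDerivAt (fun z : ℂ => Function.Periodic.qParam h z ^ n)
      ((n : ℂ) * Function.Periodic.qParam h z ^ (n - 1) *
        (Function.Periodic.qParam h z * (2 * Real.pi * Complex.I / (h : ℂ)))) z := h2.pow n
  have e : (n : ℂ) * Function.Periodic.qParam h z ^ (n - 1) *
        (Function.Periodic.qParam h z * (2 * Real.pi * Complex.I / (h : ℂ))) =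
      (n : ℂ) * (2 * Real.pi * Complex.I / (h : ℂ)) * Function.Periodic.qParam h z ^ n := by
    rcases n with _ | n
    · simp
    · simp only [Nat.add_sub_cancel, pow_succ]
      ring
  rw [e] at h3
  exact h3

/-- Termwise differentiation of the expansion of a nice function. -/
theorem dexp_hasSum (N : ℕ) [NeZero N] {F : ℍ → ℂ} (hF : IsNice N F) (τ : ℍ) :
    HasSum (fun n : ℕ => ((n : ℂ) / (N : ℂ)) * (qExpansion (N : ℝ) F).coeff n * wN N τ ^ n)
      (Derivative.normalizedDerivOfComplex F τ) := by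
  obtain ⟨a, ha⟩ : ∃ a : ℕ → ℂ, a = fun n => (qExpansion (N : ℝ) F).coeff n := ⟨_, rfl⟩
  have hNne : (N : ℂ) ≠ 0 := by exact_mod_cast (NeZero.ne N)
  have hNpos : (0 : ℝ) < N := wpA4a_Npos N
  obtain ⟨c, hc⟩ : ∃ c : ℝ, c = τ.im / 2 := ⟨_, rfl⟩
  have hcpos : 0 < c := by
    have := τ.im_pos
    rw [hc]
    positivity
  let U : Set ℂ := {z | c < z.im}
  have hU : IsOpen U := isOpen_lt continuous_const Complex.continuous_im
  have hτU : (τ : ℂ) ∈ U := by
    show c < (τ : ℂ).im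
    have := τ.im_pos
    rw [hc, UpperHalfPlane.coe_im]
    linarith
  let f : ℕ → ℂ → ℂ := fun n z => a n * Function.Periodic.qParam (N : ℝ) z ^ n
  let τ₁ : ℍ := ⟨Complex.I * c, by simpa using hcpos⟩
  have h1 := wpA4a_hasSum hF τ₁
  obtain ⟨r, hr⟩ : ∃ r : ℝ, r = ‖wN N τ₁‖ := ⟨_, rfl⟩
  have hu : Summable (fun n : ℕ => ‖a n‖ * r ^ n) := by
    have := h1.summable.norm
    simpa [norm_mul, norm_pow, ha, hr] using this
  have hf : ∀ n, DifferentiableOn ℂ (f n) U := fun n =>
    ((Function.Periodic.differentiable_qParam.pow n).const_mul (a n)).differentiableOn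
  have hle : ∀ n, ∀ z ∈ U, ‖f n z‖ ≤ ‖a n‖ * r ^ n := by
    intro n z hz
    simp only [f, norm_mul, norm_pow]
    gcongr
    rw [hr, wN, Function.Periodic.norm_qParam, Function.Periodic.norm_qParam]
    apply Real.exp_le_exp.mpr
    have hz' : c < z.im := hz
    have h2 : ((τ₁ : ℍ) : ℂ).im = c := by
      show (Complex.I * (c : ℂ)).im = c
      simp
    rw [h2]
    have hpi := Real.pi_pos
    apply div_le_div_of_nonneg_right _ hNpos.le
    nlinarith
  have H := Complex.hasSum_deriv_of_summable_norm hu hf hU hle hτU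
  have hderiv : ∀ n, deriv (f n) (τ : ℂ) =
      a n * ((n : ℂ) * (2 * Real.pi * Complex.I / (N : ℂ)) * wN N τ ^ n) := by
    intro n
    have := ((dexp_hasDerivAt_qParam_pow (N : ℝ) n (τ : ℂ)).const_mul (a n)).deriv
    simpa [f, wN] using this
  have heq : (fun w : ℂ => ∑' i : ℕ, f i w) =ᶠ[nhds (τ : ℂ)] (F ∘ ofComplex) := by
    filter_upwards [hU.mem_nhds hτU] with z hz
    have hzpos : 0 < z.im := lt_trans hcpos hz
    have h3 := wpA4a_hasSum hF ⟨z, hzpos⟩
    simp only [Function.comp_apply, ofComplex_apply_of_im_pos hzpos]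
    rw [← h3.tsum_eq]
    simp [f, ha, wN]
  rw [heq.deriv_eq] at H
  have H2 := H.mul_left ((2 * Real.pi * Complex.I)⁻¹)
  have hpi : (2 * Real.pi * Complex.I : ℂ) ≠ 0 := by
    simp [Real.pi_ne_zero]
  have e1 : (fun n : ℕ => ((n : ℂ) / (N : ℂ)) * (qExpansion (N : ℝ) F).coeff n * wN N τ ^ n) =
      fun n : ℕ => (2 * Real.pi * Complex.I)⁻¹ * deriv (f n) (τ : ℂ) := by
    funext n
    rw [hderiv, ha]
    field_simp
  rw [e1]
  exact H2

/-- `D (w ^ m) = (m / N) w ^ m`. -/
theorem dexp_D_wN_pow (N : ℕ) [NeZero N] (m : ℕ) (τ : ℍ) :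
    Derivative.normalizedDerivOfComplex (fun τ => wN N τ ^ m) τ =
      ((m : ℂ) / (N : ℂ)) * wN N τ ^ m := by
  have hNne : (N : ℂ) ≠ 0 := by exact_mod_cast (NeZero.ne N)
  unfold Derivative.normalizedDerivOfComplex
  have heq : ((fun τ : ℍ => wN N τ ^ m) ∘ ofComplex) =ᶠ[nhds (τ : ℂ)]
      fun z => Function.Periodic.qParam (N : ℝ) z ^ m := by
    filter_upwards [isOpen_upperHalfPlaneSet.mem_nhds τ.im_pos] with z hz
    simp [wN, ofComplex_apply_of_im_pos hz]
  rw [heq.deriv_eq, (dexp_hasDerivAt_qParam_pow (N : ℝ) m (τ : ℂ)).deriv]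
  have hpi : (2 * Real.pi * Complex.I : ℂ) ≠ 0 := by
    simp [Real.pi_ne_zero]
  rw [wN]
  push_cast
  field_simp

/-- **Expansion of the derivative.** If `f` has the expansion `L` in `w = e^{2πiτ/N}` then
`D f = (2πi)⁻¹ f'` has the expansion `N⁻¹ · θ L`, `θ = w d/dw`. -/
theorem dexp_hasWExp {N : ℕ} [NeZero N] {f : ℍ → ℂ} {L : LaurentSeries ℂ} (hf : HasWExp N f L) :
    HasWExp N (Derivative.normalizedDerivOfComplex f)
      (HahnSeries.C ((N : ℂ)⁻¹) * Fermat.Agent.S28.theta L) := by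
  have hNne : (N : ℂ) ≠ 0 := by exact_mod_cast (NeZero.ne N)
  have hmd := hf.mdiff
  obtain ⟨m, hm, rfl⟩ := hf
  obtain ⟨P, hP⟩ : ∃ P, P = qExpansion (N : ℝ) (fun τ => f τ * wN N τ ^ m) := ⟨_, rfl⟩
  rw [← hP]
  have hwmd : MDiff (fun τ : ℍ => wN N τ ^ m) := (wpA4a_isNice_wN_pow N m).2.1
  have hsum : ∀ τ : ℍ, HasSum
      (fun n : ℕ => (((n : ℂ) - (m : ℂ)) / (N : ℂ) * PowerSeries.coeff n P) * wN N τ ^ n)
      (Derivative.normalizedDerivOfComplex f τ * wN N τ ^ m) := by
    intro τ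
    have h1 := dexp_hasSum N hm τ
    have h2 := (wpA4a_hasSum hm τ).mul_left ((m : ℂ) / (N : ℂ))
    rw [← hP] at h1 h2
    have h3 := h1.sub h2
    have hprod := congrFun (Derivative.normalizedDerivOfComplex_mul f (fun τ => wN N τ ^ m)
      hmd hwmd) τ
    have e1 : (f * fun τ => wN N τ ^ m) = fun τ => f τ * wN N τ ^ m := rfl
    rw [e1] at hprod
    simp only [Pi.add_apply, Pi.mul_apply] at hprod
    rw [dexp_D_wN_pow] at hprod
    have e2 : Derivative.normalizedDerivOfComplex f τ * wN N τ ^ m =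
        Derivative.normalizedDerivOfComplex (fun τ => f τ * wN N τ ^ m) τ -
          (m : ℂ) / (N : ℂ) * (f τ * wN N τ ^ m) := by
      rw [hprod]
      ring
    rw [e2]
    have e3 : (fun n : ℕ => (((n : ℂ) - (m : ℂ)) / (N : ℂ) * PowerSeries.coeff n P) * wN N τ ^ n) =
        fun n : ℕ => (n : ℂ) / (N : ℂ) * PowerSeries.coeff n P * wN N τ ^ n -
          (m : ℂ) / (N : ℂ) * (PowerSeries.coeff n P * wN N τ ^ n) := by
      funext n
      ring
    rw [e3]
    exact h3
  have hD := hasWExp_of_hasSum N (Derivative.normalizedDerivOfComplex f)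
    (Derivative.normalizedDerivOfComplex_mdifferentiable hmd) m _ hsum
  have e : HahnSeries.C ((N : ℂ)⁻¹) *
      Fermat.Agent.S28.theta (HahnSeries.single (-(m : ℤ)) (1 : ℂ) *
        HahnSeries.ofPowerSeries ℤ ℂ P) =
      HahnSeries.single (-(m : ℤ)) (1 : ℂ) * HahnSeries.ofPowerSeries ℤ ℂ
        (PowerSeries.mk fun n : ℕ => ((n : ℂ) - (m : ℂ)) / (N : ℂ) * PowerSeries.coeff n P) := by
    ext n
    rw [HahnSeries.C_mul_eq_smul, HahnSeries.coeff_smul, smul_eq_mul,
      Fermat.Agent.S28.theta_coeff, wpA4a_coeff, wpA4a_coeff]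
    by_cases hn : n + (m : ℤ) < 0
    · rw [if_pos hn, if_pos hn]
      ring
    · rw [if_neg hn, if_neg hn, PowerSeries.coeff_mk]
      obtain ⟨j, hj⟩ : ∃ j : ℕ, (j : ℤ) = n + m := ⟨(n + m).natAbs, by omega⟩
      have hj' : (n + (m : ℤ)).natAbs = j := by omega
      rw [hj']
      have hnc : (n : ℂ) = (j : ℂ) - (m : ℂ) := by
        have : n = (j : ℤ) - m := by omega
        rw [this]
        push_cast
        ring
      rw [hnc]
      field_simp
  rw [e]
  exact hD

/-- `D` preserves the ring of functions with `R`-integral expansions, if `N` is invertible in `R`. -/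
theorem dexp_mem {N : ℕ} [NeZero N] {R : Subring ℂ} (hN : ((N : ℂ))⁻¹ ∈ R) {f : ℍ → ℂ}
    (hf : f ∈ expSubring N R) : Derivative.normalizedDerivOfComplex f ∈ expSubring N R := by
  obtain ⟨L, hL, hLR⟩ := hf
  refine ⟨_, dexp_hasWExp hL, fun n => ?_⟩
  rw [HahnSeries.C_mul_eq_smul, HahnSeries.coeff_smul, smul_eq_mul, Fermat.Agent.S28.theta_coeff]
  exact R.mul_mem hN (R.mul_mem (intCast_mem R n) (hLR n))

/-- Functions in `expSubring` are holomorphic. -/
theorem dexp_mdiff {N : ℕ} [NeZero N] {R : Subring ℂ} {f : ℍ → ℂ} (hf : f ∈ expSubring N R) :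
    MDiff f := by
  obtain ⟨L, hL, -⟩ := hf
  exact hL.mdiff


/-- `𝕢_1 = w ^ N`. -/
theorem dexp_qParam_one (N : ℕ) [NeZero N] (τ : ℍ) :
    Function.Periodic.qParam 1 (τ : ℂ) = wN N τ ^ N := by
  have hNne : (N : ℂ) ≠ 0 := by exact_mod_cast (NeZero.ne N)
  unfold wN Function.Periodic.qParam
  rw [← Complex.exp_nat_mul]
  congr 1
  push_cast
  field_simp

/-- A holomorphic function `g` such that `g · q ^ m` is given by a convergent series in
`q = e^{2πiτ}` with coefficients in `R` lies in `expSubring N R`. -/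
theorem dexp_mem_of_hasSum_one (N : ℕ) [NeZero N] (R : Subring ℂ) (g : ℍ → ℂ) (hg : MDiff g)
    (m : ℕ) (c : ℕ → ℂ) (hc : ∀ n, c n ∈ R)
    (h : ∀ τ : ℍ, HasSum (fun n : ℕ => c n * Function.Periodic.qParam 1 (τ : ℂ) ^ n)
      (g τ * Function.Periodic.qParam 1 (τ : ℂ) ^ m)) :
    g ∈ expSubring N R := by
  have hN : 0 < N := Nat.pos_of_ne_zero (NeZero.ne N)
  obtain ⟨c', hc'⟩ : ∃ c' : ℕ → ℂ, c' = fun k => if N ∣ k then c (k / N) else 0 := ⟨_, rfl⟩
  have hsum : ∀ τ : ℍ, HasSum (fun k : ℕ => c' k * wN N τ ^ k) (g τ * wN N τ ^ (N * m)) := by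
    intro τ
    have h1 := h τ
    rw [dexp_qParam_one N τ] at h1
    have hinj : Function.Injective (fun n : ℕ => N * n) :=
      fun a b hab => Nat.eq_of_mul_eq_mul_left hN hab
    have h2 : HasSum ((fun k : ℕ => c' k * wN N τ ^ k) ∘ fun n : ℕ => N * n)
        (g τ * wN N τ ^ (N * m)) := by
      have e1 : ((fun k : ℕ => c' k * wN N τ ^ k) ∘ fun n : ℕ => N * n) =
          fun n : ℕ => c n * (wN N τ ^ N) ^ n := by
        funext n
        simp only [Function.comp_apply, hc', dvd_mul_right, if_true,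
          Nat.mul_div_cancel_left _ hN, pow_mul]
      rw [e1, pow_mul]
      exact h1
    refine (hinj.hasSum_iff ?_).mp h2
    intro k hk
    simp only [Set.mem_range, not_exists] at hk
    have hk' : ¬ N ∣ k := fun ⟨n, hn⟩ => hk n hn.symm
    simp [hc', hk']
  refine ⟨_, hasWExp_of_hasSum N g hg (N * m) c' hsum, fun n => ?_⟩
  rw [wpA4a_coeff]
  split_ifs with h1
  · exact R.zero_mem
  · rw [PowerSeries.coeff_mk, hc']
    show (if N ∣ _ then c _ else 0) ∈ R
    split_ifs
    · exact hc _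
    · exact R.zero_mem

/-- `E₄ ≡ 1 mod 16`. -/
theorem dexp_E4 (N : ℕ) [NeZero N] (R : Subring ℂ) :
    ∃ b ∈ expSubring N R, ∀ τ : ℍ, E₄ τ = 1 + 16 * b τ := by
  refine ⟨fun τ => (E₄ τ - 1) / 16, ?_, fun τ => by ring⟩
  have hmd : MDiff (fun τ : ℍ => (E₄ τ - 1) / 16) := by
    have h1 : MDiff (fun τ : ℍ => E₄ τ) := ModularFormClass.holo E₄
    have h2 : MDiff (fun τ : ℍ => (16 : ℂ)⁻¹ * (E₄ τ - 1)) :=
      MDifferentiable.mul mdifferentiable_const (MDifferentiable.sub h1 mdifferentiable_const)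
    have e : (fun τ : ℍ => (E₄ τ - 1) / 16) = fun τ : ℍ => (16 : ℂ)⁻¹ * (E₄ τ - 1) := by
      funext τ
      ring
    rw [e]
    exact h2
  refine dexp_mem_of_hasSum_one N R _ hmd 0
    (fun n => if n = 0 then 0 else 15 * (ArithmeticFunction.sigma 3 n : ℂ)) ?_ ?_
  · intro n
    split_ifs
    · exact R.zero_mem
    · exact R.mul_mem (by exact_mod_cast natCast_mem R 15) (natCast_mem R _)
  · intro τ
    have h1 := ModularForm.hasSum_qExpansion E₄ one_pos one_mem_strictPeriods_SL τ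
    have h2 : HasSum (fun n : ℕ => if n = 0 then (1 : ℂ) else 0) 1 := hasSum_ite_eq 0 (1 : ℂ)
    have h3 := (h1.sub h2).div_const 16
    rw [pow_zero, mul_one]
    have e : (fun n : ℕ => (if n = 0 then 0 else 15 * (ArithmeticFunction.sigma 3 n : ℂ)) *
        Function.Periodic.qParam 1 (τ : ℂ) ^ n) =
        fun n : ℕ => ((qExpansion 1 E₄).coeff n * Function.Periodic.qParam 1 (τ : ℂ) ^ n -
          if n = 0 then (1 : ℂ) else 0) / 16 := by
      funext n
      rw [EisensteinSeries.E_qExpansion_coeff (by norm_num : 3 ≤ 4) ⟨2, rfl⟩ n]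
      split_ifs with hn
      · subst hn
        simp
      · rw [show bernoulli 4 = -1 / 30 by decide +kernel]
        push_cast
        ring
    rw [e]
    exact h3

/-- `E₂ ≡ 1 mod 8`. -/
theorem dexp_E2 (N : ℕ) [NeZero N] (R : Subring ℂ) :
    ∃ a ∈ expSubring N R, ∀ τ : ℍ, EisensteinSeries.E2 τ = 1 + 8 * a τ := by
  refine ⟨fun τ => (EisensteinSeries.E2 τ - 1) / 8, ?_, fun τ => by ring⟩
  have hmd : MDiff (fun τ : ℍ => (EisensteinSeries.E2 τ - 1) / 8) := by
    have h2 : MDiff (fun τ : ℍ => (8 : ℂ)⁻¹ * (EisensteinSeries.E2 τ - 1)) :=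
      MDifferentiable.mul mdifferentiable_const
        (MDifferentiable.sub E2_mdifferentiable mdifferentiable_const)
    have e : (fun τ : ℍ => (EisensteinSeries.E2 τ - 1) / 8) =
        fun τ : ℍ => (8 : ℂ)⁻¹ * (EisensteinSeries.E2 τ - 1) := by
      funext τ
      ring
    rw [e]
    exact h2
  refine dexp_mem_of_hasSum_one N R _ hmd 0
    (fun n => if n = 0 then 0 else -(3 * (ArithmeticFunction.sigma 1 n : ℂ))) ?_ ?_
  · intro n
    split_ifs
    · exact R.zero_mem
    · exact R.neg_mem (R.mul_mem (by exact_mod_cast natCast_mem R 3) (natCast_mem R _))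
  · intro τ
    have h1 := EisensteinSeries.hasSum_qExpansion_E2 (z := τ)
    have hq : Complex.exp (2 * Real.pi * Complex.I * (τ : ℂ)) =
        Function.Periodic.qParam 1 (τ : ℂ) := by
      simp [Function.Periodic.qParam]
    rw [hq] at h1
    have h2 : HasSum (fun n : ℕ => if n = 0 then (1 : ℂ) else 0) 1 := hasSum_ite_eq 0 (1 : ℂ)
    have h3 := (h1.sub h2).div_const 8
    rw [pow_zero, mul_one]
    have e : (fun n : ℕ => (if n = 0 then 0 else -(3 * (ArithmeticFunction.sigma 1 n : ℂ))) *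
        Function.Periodic.qParam 1 (τ : ℂ) ^ n) =
        fun n : ℕ => ((if n = 0 then (1 : ℂ) else -24 * (ArithmeticFunction.sigma 1 n : ℂ)) •
          Function.Periodic.qParam 1 (τ : ℂ) ^ n - if n = 0 then (1 : ℂ) else 0) / 8 := by
      funext n
      split_ifs with hn
      · subst hn
        simp
      · rw [smul_eq_mul]
        ring
    rw [e]
    exact h3

/-- `Δ⁻¹` has an expansion with integer coefficients. -/
theorem dexp_DeltaInv (N : ℕ) [NeZero N] (R : Subring ℂ) :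
    (fun τ : ℍ => (ModularForm.discriminant τ)⁻¹) ∈ expSubring N R := by
  have hmd : MDiff (fun τ : ℍ => (ModularForm.discriminant τ)⁻¹) := by
    have h1 : MDiff (fun τ : ℍ => (1 : ℂ) / ModularForm.discriminant τ) :=
      MDifferentiable.div mdifferentiable_const (CuspFormClass.holo CuspForm.discriminant)
        ModularForm.discriminant_ne_zero
    simpa [one_div] using h1
  refine dexp_mem_of_hasSum_one N R _ hmd 1
    (fun n => ((PowerSeries.coeff n ModularCurve.dedekindEtaUnitInv : ℤ) : ℂ)) ?_ ?_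
  · intro n
    exact intCast_mem R _
  · intro τ
    have hq : ‖Function.Periodic.qParam 1 (τ : ℂ)‖ < 1 :=
      Function.Periodic.norm_qParam_lt_one one_pos τ.im_pos
    have hq0 : Function.Periodic.qParam 1 (τ : ℂ) ≠ 0 := Function.Periodic.qParam_ne_zero _
    have hΔ : ModularForm.discriminant τ = Function.Periodic.qParam 1 τ *
        (∏' n : ℕ, (1 - Function.Periodic.qParam 1 (τ : ℂ) ^ (n + 1))) ^ 24 := by
      rw [ModularForm.discriminant_eq_q_prod, (ModularForm.multipliable_one_sub_pow hq).tprod_pow]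
    have hP : (∏' n : ℕ, (1 - Function.Periodic.qParam 1 (τ : ℂ) ^ (n + 1))) ^ 24 ≠ 0 :=
      pow_ne_zero 24 (aj5_tprod_ne_zero hq)
    have h1 := aj5_hasSum_etaUnitInv _ hq
    have e : (ModularForm.discriminant τ)⁻¹ * Function.Periodic.qParam 1 (τ : ℂ) ^ 1 =
        ((∏' n : ℕ, (1 - Function.Periodic.qParam 1 (τ : ℂ) ^ (n + 1))) ^ 24)⁻¹ := by
      rw [hΔ]
      field_simp
    rw [e]
    exact h1


end Fermat.Agent.S16
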