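/-
S16, lower bound, theta route (helper66): the finite Gauss sum of the norm form
`x² + x y + m y²` (`4 m = q + 1`, `q ≡ 3 mod 4` prime) at an odd prime `r ≠ q`:

  `∑_{x, y mod r} e(b (x² + x y + m y²) / r) = (r / q) · r`   for `r ∤ b`.
-/
import Mathlib

set_option autoImplicit false

namespace Fermat.Agent.S16

open Finset

section OneVar

variable {r : ℕ} [Fact r.Prime]

/-- the complex-valued quadratic character of `ZMod r`. -/
noncomputable def gb_chi (r : ℕ) [Fact r.Prime] : MulChar (ZMod r) ℂ :=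
  (quadraticChar (ZMod r)).ringHomComp (Int.castRingHom ℂ)

theorem gb_chi_apply (a : ZMod r) : gb_chi r a = ((quadraticChar (ZMod r) a : ℤ) : ℂ) := rfl

theorem gb_chi_isQuadratic : (gb_chi r).IsQuadratic :=
  (quadraticChar_isQuadratic (ZMod r)).comp _

theorem gb_chi_ne_one (hr2 : r ≠ 2) : gb_chi r ≠ 1 := by
  have hF : ringChar (ZMod r) ≠ 2 := by rw [ZMod.ringChar_zmod_n]; exact hr2
  exact (MulChar.ringHomComp_ne_one_iff (Int.cast_injective (α := ℂ))).mpr
    (quadraticChar_ne_one hF)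

/-- one-variable quadratic Gauss sum: `∑_u ψ(a u²) = χ(a) · g(χ, ψ)` for `a ≠ 0`. -/
theorem gb_sum_sq (hr2 : r ≠ 2) (a : ZMod r) (ha : a ≠ 0) :
    ∑ u : ZMod r, (ZMod.stdAddChar (a * u ^ 2) : ℂ) =
      gb_chi r a * gaussSum (gb_chi r) ZMod.stdAddChar := by
  classical
  have hF : ringChar (ZMod r) ≠ 2 := by rw [ZMod.ringChar_zmod_n]; exact hr2
  have h1 : ∑ u : ZMod r, (ZMod.stdAddChar (a * u ^ 2) : ℂ) =
      ∑ t : ZMod r, (((quadraticChar (ZMod r) t : ℤ) : ℂ) + 1) * ZMod.stdAddChar (a * t) := by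
    rw [← Finset.sum_fiberwise Finset.univ (fun u : ZMod r => u ^ 2)
      (fun u => (ZMod.stdAddChar (a * u ^ 2) : ℂ))]
    refine Finset.sum_congr rfl fun t _ => ?_
    have hconst : ∀ u ∈ Finset.univ.filter (fun u : ZMod r => u ^ 2 = t),
        (ZMod.stdAddChar (a * u ^ 2) : ℂ) = ZMod.stdAddChar (a * t) := by
      intro u hu
      rw [(Finset.mem_filter.mp hu).2]
    rw [Finset.sum_congr rfl hconst, Finset.sum_const, nsmul_eq_mul]
    congr 1
    have hc := quadraticChar_card_sqrts hF t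
    have hset : {x : ZMod r | x ^ 2 = t}.toFinset = Finset.univ.filter (fun u : ZMod r => u ^ 2 = t) := by
      ext x
      simp
    rw [hset] at hc
    have hc' : ((Finset.card (Finset.univ.filter (fun u : ZMod r => u ^ 2 = t)) : ℤ) : ℂ) =
        ((quadraticChar (ZMod r) t + 1 : ℤ) : ℂ) := by rw [hc]
    push_cast at hc'
    exact hc'
  rw [h1]
  simp only [add_mul, one_mul, Finset.sum_add_distrib]
  have h2 : ∑ t : ZMod r, (ZMod.stdAddChar (a * t) : ℂ) = 0 := by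
    have := AddChar.sum_mulShift (R' := ℂ) a (ZMod.isPrimitive_stdAddChar r)
    rw [if_neg ha] at this
    simpa [mul_comm] using this
  rw [h2, add_zero]
  have h3 : ∑ t : ZMod r, ((quadraticChar (ZMod r) t : ℤ) : ℂ) * ZMod.stdAddChar (a * t) =
      gaussSum (gb_chi r) (AddChar.mulShift ZMod.stdAddChar (Units.mk0 a ha : (ZMod r)ˣ)) := by
    rfl
  rw [h3, gaussSum_mulShift_eq, gb_chi_isQuadratic.inv]
  rfl

end OneVar

/-- **Gauss sum of the norm form** `x² + x y + m y²` (`4 m = q + 1`) at an odd prime `r ∤ q`,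
in terms of the quadratic character of `ZMod r` (no reciprocity, `q` arbitrary). -/
theorem gb_gauss_core (q r : ℕ) [Fact r.Prime] (hr2 : r ≠ 2) (hrq : ¬ r ∣ q) (m : ℤ)
    (hm : 4 * m = q + 1) (b : ℤ) (hb : ¬ (r : ℤ) ∣ b) :
    ∑ x : ZMod r, ∑ y : ZMod r,
        (ZMod.stdAddChar ((b : ZMod r) * (x ^ 2 + x * y + (m : ZMod r) * y ^ 2)) : ℂ) =
      ((quadraticChar (ZMod r) (-(q : ZMod r)) : ℤ) : ℂ) * r := by
  classical
  have hrp : r.Prime := Fact.out
  have hF : ringChar (ZMod r) ≠ 2 := by rw [ZMod.ringChar_zmod_n]; exact hr2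
  have h2 : (2 : ZMod r) ≠ 0 := by
    intro h
    have : ((2 : ℕ) : ZMod r) = 0 := by exact_mod_cast h
    rw [ZMod.natCast_eq_zero_iff] at this
    exact hr2 ((Nat.prime_dvd_prime_iff_eq hrp Nat.prime_two).mp this)
  have h4 : (4 : ZMod r) ≠ 0 := by
    have : (4 : ZMod r) = 2 * 2 := by norm_num
    rw [this]; exact mul_ne_zero h2 h2
  have hbF : (b : ZMod r) ≠ 0 := by
    rwa [Ne, ZMod.intCast_zmod_eq_zero_iff_dvd]
  have hqF : (q : ZMod r) ≠ 0 := by
    rwa [Ne, ZMod.natCast_eq_zero_iff]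
  have hmF : 4 * (m : ZMod r) = (q : ZMod r) + 1 := by
    have := congrArg (fun z : ℤ => (z : ZMod r)) hm
    push_cast at this
    exact this
  set c : ZMod r := (b : ZMod r) / 4 with hc
  have hc0 : c ≠ 0 := div_ne_zero hbF h4
  have hcq0 : c * (q : ZMod r) ≠ 0 := mul_ne_zero hc0 hqF
  -- complete the square
  have hsq : ∀ x y : ZMod r, (b : ZMod r) * (x ^ 2 + x * y + (m : ZMod r) * y ^ 2) =
      c * (2 * x + y) ^ 2 + c * (q : ZMod r) * y ^ 2 := by
    intro x y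
    have hb4 : (b : ZMod r) = c * 4 := by rw [hc]; field_simp
    rw [hb4]
    linear_combination (c * y ^ 2) * hmF
  have hstep : ∀ y : ZMod r, ∑ x : ZMod r,
      (ZMod.stdAddChar ((b : ZMod r) * (x ^ 2 + x * y + (m : ZMod r) * y ^ 2)) : ℂ) =
      ZMod.stdAddChar (c * (q : ZMod r) * y ^ 2) *
        ∑ u : ZMod r, (ZMod.stdAddChar (c * u ^ 2) : ℂ) := by
    intro y
    rw [Finset.mul_sum]
    rw [← Equiv.sum_comp ((Equiv.mulLeft₀ (2 : ZMod r) h2).trans (Equiv.addRight y))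
      (fun u => (ZMod.stdAddChar (c * (q : ZMod r) * y ^ 2) : ℂ) * ZMod.stdAddChar (c * u ^ 2))]
    refine Finset.sum_congr rfl fun x _ => ?_
    have he : ((Equiv.mulLeft₀ (2 : ZMod r) h2).trans (Equiv.addRight y)) x = 2 * x + y := rfl
    rw [he, hsq, AddChar.map_add_eq_mul, mul_comm]
  rw [Finset.sum_comm]
  simp_rw [hstep]
  rw [← Finset.sum_mul, gb_sum_sq hr2 c hc0, gb_sum_sq hr2 (c * (q : ZMod r)) hcq0]
  -- collect the characters
  have hg : gaussSum (gb_chi r) ZMod.stdAddChar ^ 2 = gb_chi r (-1) * (r : ℂ) := by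
    have := gaussSum_sq (gb_chi_ne_one hr2) gb_chi_isQuadratic
      (ZMod.isPrimitive_stdAddChar r)
    rw [ZMod.card] at this
    exact this
  have hchi : gb_chi r (c * (q : ZMod r)) * gb_chi r c = gb_chi r (q : ZMod r) := by
    rw [map_mul, mul_comm (gb_chi r c), mul_assoc, ← map_mul, ← pow_two, gb_chi_apply (c ^ 2),
      quadraticChar_sq_one' hc0]
    simp
  calc gb_chi r (c * (q : ZMod r)) * gaussSum (gb_chi r) ZMod.stdAddChar *
        (gb_chi r c * gaussSum (gb_chi r) ZMod.stdAddChar)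
      = gb_chi r (c * (q : ZMod r)) * gb_chi r c * gaussSum (gb_chi r) ZMod.stdAddChar ^ 2 := by
        ring
    _ = gb_chi r (q : ZMod r) * (gb_chi r (-1) * r) := by rw [hchi, hg]
    _ = ((quadraticChar (ZMod r) (-(q : ZMod r)) : ℤ) : ℂ) * r := by
        rw [← mul_assoc, ← map_mul, gb_chi_apply, mul_neg_one]

/-- `gb_gauss_core` with the Jacobi symbol `(-q / r)`. -/
theorem gb_gauss_jacobi (q r : ℕ) [Fact r.Prime] (hr2 : r ≠ 2) (hrq : ¬ r ∣ q) (m : ℤ)
    (hm : 4 * m = q + 1) (b : ℤ) (hb : ¬ (r : ℤ) ∣ b) :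
    ∑ x : ZMod r, ∑ y : ZMod r,
        (ZMod.stdAddChar ((b : ZMod r) * (x ^ 2 + x * y + (m : ZMod r) * y ^ 2)) : ℂ) =
      ((jacobiSym (-(q : ℤ)) r : ℤ) : ℂ) * r := by
  rw [gb_gauss_core q r hr2 hrq m hm b hb, ← jacobiSym.legendreSym.to_jacobiSym, legendreSym]
  congr 3
  push_cast
  rfl

/-- **Gauss sum of the norm form** of `ℤ[(1 + √-q)/2]` at an odd prime `r ≠ q`
(`q ≡ 3 mod 4` prime): the value is `(r / q) · r`. -/
theorem gb_gauss_prime (q r : ℕ) [Fact q.Prime] [Fact r.Prime] (hq : q % 4 = 3) (hr2 : r ≠ 2)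
    (hrq : r ≠ q) (m : ℤ) (hm : 4 * m = q + 1) (b : ℤ) (hb : ¬ (r : ℤ) ∣ b) :
    ∑ x : ZMod r, ∑ y : ZMod r,
        (ZMod.stdAddChar ((b : ZMod r) * (x ^ 2 + x * y + (m : ZMod r) * y ^ 2)) : ℂ) =
      (legendreSym q r : ℂ) * r := by
  have hrp : r.Prime := Fact.out
  have hqp : q.Prime := Fact.out
  have hF : ringChar (ZMod r) ≠ 2 := by rw [ZMod.ringChar_zmod_n]; exact hr2
  have hrq' : ¬ r ∣ q := fun h => hrq ((Nat.prime_dvd_prime_iff_eq hrp hqp).mp h)
  rw [gb_gauss_core q r hr2 hrq' m hm b hb]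
  congr 2
  -- an identity in `ℤ`
  have e1 : quadraticChar (ZMod r) (q : ZMod r) = legendreSym r q := by
    rw [legendreSym]
    congr 1
    simp
  have e2 : quadraticChar (ZMod r) (-1) = ZMod.χ₄ r := by
    rw [quadraticChar_neg_one hF, ZMod.card]
  have hrodd : r % 2 = 1 := by
    rcases hrp.eq_two_or_odd with h | h
    · exact absurd h hr2
    · exact h
  have hq2 : q ≠ 2 := by
    rintro rfl
    norm_num at hq
  have hneg : -(q : ZMod r) = (q : ZMod r) * (-1) := by ring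
  rw [hneg, map_mul, e1, e2, ZMod.χ₄_eq_neg_one_pow hrodd,
    legendreSym.quadratic_reciprocity' hr2 hq2 (p := r) (q := q), mul_comm (r / 2) (q / 2),
    pow_mul, ZMod.neg_one_pow_div_two_of_three_mod_four hq, mul_comm]

/-- re-indexing a sum over `ZMod r` by the residues `0, …, r - 1`. -/
theorem gb_sum_range {M : Type*} [AddCommMonoid M] (r : ℕ) [NeZero r] (F : ZMod r → M) :
    ∑ x ∈ Finset.range r, F (x : ZMod r) = ∑ x : ZMod r, F x := by
  refine Finset.sum_nbij' (fun x : ℕ => (x : ZMod r)) (fun x : ZMod r => x.val) ?_ ?_ ?_ ?_ ?_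
  · intro x _
    exact Finset.mem_univ _
  · intro x _
    exact Finset.mem_range.mpr (ZMod.val_lt x)
  · intro x hx
    exact ZMod.val_natCast_of_lt (Finset.mem_range.mp hx)
  · intro x _
    exact ZMod.natCast_zmod_val x
  · intro x _
    rfl

open Real in
/-- `gb_gauss_prime` written out with exponentials over the residues `0 ≤ x, y < r`. -/
theorem gb_gauss_prime_exp (q r : ℕ) [Fact q.Prime] [Fact r.Prime] (hq : q % 4 = 3)
    (hr2 : r ≠ 2) (hrq : r ≠ q) (m : ℤ) (hm : 4 * m = q + 1) (b : ℤ) (hb : ¬ (r : ℤ) ∣ b) :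
    ∑ x ∈ Finset.range r, ∑ y ∈ Finset.range r,
        Complex.exp (2 * π * Complex.I *
          ((b * ((x : ℤ) ^ 2 + (x : ℤ) * (y : ℤ) + m * (y : ℤ) ^ 2) : ℤ) : ℂ) / r) =
      (legendreSym q r : ℂ) * r := by
  rw [← gb_gauss_prime q r hq hr2 hrq m hm b hb]
  rw [← gb_sum_range r (fun x : ZMod r => ∑ y : ZMod r,
    (ZMod.stdAddChar ((b : ZMod r) * (x ^ 2 + x * y + (m : ZMod r) * y ^ 2)) : ℂ))]
  refine Finset.sum_congr rfl fun x _ => ?_
  rw [← gb_sum_range r (fun y : ZMod r =>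
    (ZMod.stdAddChar ((b : ZMod r) * ((x : ZMod r) ^ 2 + (x : ZMod r) * y +
      (m : ZMod r) * y ^ 2)) : ℂ))]
  refine Finset.sum_congr rfl fun y _ => ?_
  rw [← ZMod.stdAddChar_coe]
  congr 1
  push_cast
  ring

end Fermat.Agent.S16
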