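/-
S16 / cohomological lower bound, module GRAPH-LIFT (helper80).  Pure combinatorics, Mathlib only.

`sl_OSZ h v` : all cycle sums of `v : X → A` along `h` vanish (same shape as `S21.OrbSumZero`,
general coefficients).  Main result `sl_graph_lift`: if `s, u` generate a group acting
transitively on a finite set `X`, a function `X → ZMod n` with vanishing cycle sums along `s` and
along `u` lifts to a function `X → ℤ` with the same property.  (The bipartite graph with vertices
the `s`-orbits and the `u`-orbits and edges `X` is connected, so the cokernel of the orbit-sum map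
is torsion-free.)
-/
import Mathlib

set_option autoImplicit false

namespace Fermat.Agent.S16

open MulAction

section Basic

variable {G X A : Type} [Group G] [MulAction G X] [AddCommGroup A]

/-- all cycle sums of `v` along `h` vanish. -/
def sl_OSZ (h : G) (v : X → A) : Prop :=
  ∀ (x : X) (n : ℕ), h ^ n • x = x → ∑ i ∈ Finset.range n, v (h ^ i • x) = 0

/-- the class of `g • x` in the orbit space of a subgroup containing `g`. -/
theorem sl_mk_smul (H : Subgroup G) {g : G} (hg : g ∈ H) (x : X) :
    (Quotient.mk'' (g • x) : MulAction.orbitRel.Quotient H X) = Quotient.mk'' x := by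
  apply Quotient.sound'
  exact ⟨⟨g, hg⟩, rfl⟩

theorem sl_period_pos [Finite X] (h : G) (x : X) : 0 < period h x := by
  classical
  have : Fintype X := Fintype.ofFinite X
  have h1 : (MulAction.toPermHom G X h) ^ orderOf (MulAction.toPermHom G X h) = 1 :=
    pow_orderOf_eq_one _
  rw [← map_pow] at h1
  have h2 := congrArg (fun e : Equiv.Perm X => e x) h1
  exact period_pos_of_fixed (orderOf_pos _) (by simpa using h2)

/-- sum of `v` over the `⟨h⟩`-orbit `O`. -/
noncomputable def sl_osum [Fintype X] (h : G) (v : X → A)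
    (O : MulAction.orbitRel.Quotient (Subgroup.zpowers h) X) : A :=
  open Classical in
  ∑ x : X, if (Quotient.mk'' x : MulAction.orbitRel.Quotient (Subgroup.zpowers h) X) = O
    then v x else 0

theorem sl_osum_add [Fintype X] (h : G) (v w : X → A)
    (O : MulAction.orbitRel.Quotient (Subgroup.zpowers h) X) :
    sl_osum h (v + w) O = sl_osum h v O + sl_osum h w O := by
  classical
  unfold sl_osum
  rw [← Finset.sum_add_distrib]
  refine Finset.sum_congr rfl fun x _ => ?_
  split_ifs <;> simp

theorem sl_osum_mk [Fintype X] (h : G) (v : X → A) (y : X) :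
    sl_osum h v (Quotient.mk'' y) = ∑ i ∈ Finset.range (period h y), v (h ^ i • y) := by
  classical
  unfold sl_osum
  rw [← Finset.sum_filter]
  have hpos := sl_period_pos h y
  have himg : (Finset.univ.filter fun x : X =>
      (Quotient.mk'' x : MulAction.orbitRel.Quotient (Subgroup.zpowers h) X) = Quotient.mk'' y)
      = (Finset.range (period h y)).image (fun i => h ^ i • y) := by
    ext x
    simp only [Finset.mem_filter, Finset.mem_univ, true_and, Finset.mem_image, Finset.mem_range]
    constructor
    · intro hx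
      have hx' : x ∈ MulAction.orbit (Subgroup.zpowers h) y := by
        have := Quotient.exact' hx
        exact this
      obtain ⟨⟨g, hg⟩, hgx⟩ := hx'
      obtain ⟨j, rfl⟩ := Subgroup.mem_zpowers_iff.mp hg
      have hgx' : h ^ j • y = x := hgx
      have hmod : 0 ≤ j % (period h y : ℤ) := Int.emod_nonneg _ (by exact_mod_cast hpos.ne')
      have hlt : j % (period h y : ℤ) < period h y := Int.emod_lt_of_pos _ (by exact_mod_cast hpos)
      refine ⟨(j % (period h y : ℤ)).toNat, ?_, ?_⟩
      · have := Int.toNat_of_nonneg hmod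
        omega
      · rw [← zpow_natCast, Int.toNat_of_nonneg hmod, zpow_mod_period_smul, hgx']
    · rintro ⟨i, _, rfl⟩
      exact sl_mk_smul _ (Subgroup.pow_mem _ (Subgroup.mem_zpowers h) i) y
  have key : ∀ i j : ℕ, i < j → j < period h y → h ^ i • y = h ^ j • y → False := by
    intro i j hlt hj hij
    have h1 : h ^ (j - i) • y = y := by
      have h2 : h ^ i • (h ^ (j - i) • y) = h ^ i • y := by
        rw [← mul_smul, ← pow_add, Nat.add_sub_cancel' hlt.le]
        exact hij.symm
      exact smul_left_cancel _ h2
    exact pow_smul_ne_of_lt_period (Nat.sub_pos_of_lt hlt) (by omega) h1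
  rw [himg, Finset.sum_image]
  intro i hi j hj hij
  simp only [Finset.coe_range, Set.mem_Iio] at hi hj
  rcases lt_trichotomy i j with hlt | heq | hgt
  · exact (key i j hlt hj hij).elim
  · exact heq
  · exact (key j i hgt hi hij.symm).elim

theorem sl_sum_range_mul (h : G) (v : X → A) (x : X) (k : ℕ) (hk : h ^ k • x = x) (m : ℕ) :
    ∑ i ∈ Finset.range (k * m), v (h ^ i • x) = m • ∑ i ∈ Finset.range k, v (h ^ i • x) := by
  induction m with
  | zero => simp
  | succ m ih =>
    have hkm : h ^ (k * m) • x = x := by
      rw [pow_smul_eq_iff_period_dvd] at hk ⊢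
      exact Dvd.dvd.mul_right hk m
    rw [Nat.mul_succ, Finset.sum_range_add, ih, succ_nsmul]
    congr 1
    refine Finset.sum_congr rfl fun j _ => ?_
    rw [add_comm (k * m) j, pow_add, mul_smul, hkm]

theorem sl_OSZ_iff [Fintype X] (h : G) (v : X → A) :
    sl_OSZ h v ↔ ∀ O, sl_osum h v O = 0 := by
  constructor
  · intro hv O
    induction O using Quotient.inductionOn' with
    | h y =>
      rw [sl_osum_mk]
      exact hv y _ (pow_period_smul h y)
  · intro hO x n hx
    obtain ⟨m, rfl⟩ := pow_smul_eq_iff_period_dvd.mp hx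
    rw [sl_sum_range_mul h v x _ (pow_period_smul h x), ← sl_osum_mk, hO, smul_zero]

end Basic

section Graph

attribute [local instance] Classical.propDecidable

variable {G X : Type} [Group G] [MulAction G X] [Fintype X]

theorem sl_osum_single (h : G) (x : X)
    (O : MulAction.orbitRel.Quotient (Subgroup.zpowers h) X) :
    sl_osum h (Pi.single x (1 : ℤ)) O =
      (Pi.single (Quotient.mk'' x) 1 : MulAction.orbitRel.Quotient (Subgroup.zpowers h) X → ℤ) O := by
  classical
  unfold sl_osum
  rw [Finset.sum_eq_single x]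
  · simp only [Pi.single_eq_same]
    by_cases hO : (Quotient.mk'' x : MulAction.orbitRel.Quotient (Subgroup.zpowers h) X) = O
    · rw [if_pos hO, ← hO, Pi.single_eq_same]
    · rw [if_neg hO, Pi.single_eq_of_ne (Ne.symm hO)]
  · intro y _ hy
    rw [Pi.single_eq_of_ne hy]
    simp
  · intro hx
    exact absurd (Finset.mem_univ x) hx

theorem sl_osum_neg (h : G) (v : X → ℤ)
    (O : MulAction.orbitRel.Quotient (Subgroup.zpowers h) X) :
    sl_osum h (-v) O = - sl_osum h v O := by
  classical
  unfold sl_osum
  rw [← Finset.sum_neg_distrib]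
  refine Finset.sum_congr rfl fun x _ => ?_
  split_ifs <;> simp

theorem sl_osum_zsmul (h : G) (c : ℤ) (v : X → ℤ)
    (O : MulAction.orbitRel.Quotient (Subgroup.zpowers h) X) :
    sl_osum h (c • v) O = c * sl_osum h v O := by
  classical
  unfold sl_osum
  rw [Finset.mul_sum]
  refine Finset.sum_congr rfl fun x _ => ?_
  split_ifs <;> simp

/-- total mass: the orbit sums add up to the full sum. -/
theorem sl_sum_osum (h : G) (v : X → ℤ)
    [Fintype (MulAction.orbitRel.Quotient (Subgroup.zpowers h) X)] :
    ∑ O, sl_osum h v O = ∑ x, v x := by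
  classical
  unfold sl_osum
  rw [Finset.sum_comm]
  refine Finset.sum_congr rfl fun x _ => ?_
  rw [Finset.sum_ite_eq]
  simp

/-- the orbit-sum map for the pair `(s, u)`. -/
noncomputable def sl_D (s u : G) : (X → ℤ) →+
    ((MulAction.orbitRel.Quotient (Subgroup.zpowers s) X → ℤ) ×
      (MulAction.orbitRel.Quotient (Subgroup.zpowers u) X → ℤ)) where
  toFun v := (sl_osum s v, sl_osum u v)
  map_zero' := by
    classical
    refine Prod.ext ?_ ?_ <;> funext O <;> simp [sl_osum]
  map_add' v w := by
    refine Prod.ext ?_ ?_ <;> funext O <;> simp [sl_osum_add]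

theorem sl_D_apply (s u : G) (v : X → ℤ) : sl_D s u v = (sl_osum s v, sl_osum u v) := rfl

/-- transport of the `s`-defect along the group generated by `s` and `u`. -/
theorem sl_transport_left (s u : G) (hgen : Subgroup.closure {s, u} = ⊤) (g : G) (x : X) :
    ((Pi.single (Quotient.mk'' x) 1 - Pi.single (Quotient.mk'' (g • x)) 1 :
        MulAction.orbitRel.Quotient (Subgroup.zpowers s) X → ℤ),
      (0 : MulAction.orbitRel.Quotient (Subgroup.zpowers u) X → ℤ)) ∈ (sl_D s u).range := by
  classical
  have hg : g ∈ Subgroup.closure ({s, u} : Set G) := by rw [hgen]; trivial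
  revert x
  induction hg using Subgroup.closure_induction with
  | mem y hy =>
    intro x
    rcases hy with rfl | hy
    · rw [sl_mk_smul _ (Subgroup.mem_zpowers y) x, sub_self]
      exact (sl_D y u).range.zero_mem
    · rw [Set.mem_singleton_iff] at hy
      subst hy
      refine ⟨Pi.single x 1 - Pi.single (y • x) 1, ?_⟩
      rw [map_sub, sl_D_apply, sl_D_apply]
      refine Prod.ext ?_ ?_
      · funext O
        simp only [Prod.fst_sub, Pi.sub_apply, sl_osum_single]
      · funext O
        simp only [Prod.snd_sub, Pi.sub_apply, sl_osum_single, Pi.zero_apply]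
        rw [sl_mk_smul _ (Subgroup.mem_zpowers y) x, sub_self]
  | one =>
    intro x
    rw [one_smul, sub_self]
    exact (sl_D s u).range.zero_mem
  | mul a b _ _ iha ihb =>
    intro x
    have h1 := ihb x
    have h2 := iha (b • x)
    have h3 := (sl_D s u).range.add_mem h1 h2
    rw [mul_smul]
    convert h3 using 1
    refine Prod.ext ?_ ?_
    · simp
    · simp
  | inv a _ iha =>
    intro x
    have h1 := iha (a⁻¹ • x)
    rw [smul_inv_smul] at h1
    have h2 := (sl_D s u).range.neg_mem h1
    convert h2 using 1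
    refine Prod.ext ?_ ?_
    · simp
    · simp

/-- transport of the `u`-defect. -/
theorem sl_transport_right (s u : G) (hgen : Subgroup.closure {s, u} = ⊤) (g : G) (x : X) :
    ((0 : MulAction.orbitRel.Quotient (Subgroup.zpowers s) X → ℤ),
      (Pi.single (Quotient.mk'' x) 1 - Pi.single (Quotient.mk'' (g • x)) 1 :
        MulAction.orbitRel.Quotient (Subgroup.zpowers u) X → ℤ)) ∈ (sl_D s u).range := by
  classical
  have hg : g ∈ Subgroup.closure ({s, u} : Set G) := by rw [hgen]; trivial
  revert x
  induction hg using Subgroup.closure_induction with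
  | mem y hy =>
    intro x
    rcases hy with rfl | hy
    · refine ⟨Pi.single x 1 - Pi.single (y • x) 1, ?_⟩
      rw [map_sub, sl_D_apply, sl_D_apply]
      refine Prod.ext ?_ ?_
      · funext O
        simp only [Prod.fst_sub, Pi.sub_apply, sl_osum_single, Pi.zero_apply]
        rw [sl_mk_smul _ (Subgroup.mem_zpowers y) x, sub_self]
      · funext O
        simp only [Prod.snd_sub, Pi.sub_apply, sl_osum_single]
    · rw [Set.mem_singleton_iff] at hy
      subst hy
      rw [sl_mk_smul _ (Subgroup.mem_zpowers y) x, sub_self]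
      exact (sl_D s y).range.zero_mem
  | one =>
    intro x
    rw [one_smul, sub_self]
    exact (sl_D s u).range.zero_mem
  | mul a b _ _ iha ihb =>
    intro x
    have h1 := ihb x
    have h2 := iha (b • x)
    have h3 := (sl_D s u).range.add_mem h1 h2
    rw [mul_smul]
    convert h3 using 1
    refine Prod.ext ?_ ?_
    · simp
    · simp
  | inv a _ iha =>
    intro x
    have h1 := iha (a⁻¹ • x)
    rw [smul_inv_smul] at h1
    have h2 := (sl_D s u).range.neg_mem h1
    convert h2 using 1
    refine Prod.ext ?_ ?_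
    · simp
    · simp

/-- every pair of basis vectors lies in the image of the orbit-sum map. -/
theorem sl_single_pair_mem [MulAction.IsPretransitive G X] (s u : G)
    (hgen : Subgroup.closure {s, u} = ⊤)
    (O : MulAction.orbitRel.Quotient (Subgroup.zpowers s) X)
    (O' : MulAction.orbitRel.Quotient (Subgroup.zpowers u) X) :
    ((Pi.single O 1 : MulAction.orbitRel.Quotient (Subgroup.zpowers s) X → ℤ),
      (Pi.single O' 1 : MulAction.orbitRel.Quotient (Subgroup.zpowers u) X → ℤ))
      ∈ (sl_D s u).range := by
  classical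
  induction O using Quotient.inductionOn' with
  | h x =>
  induction O' using Quotient.inductionOn' with
  | h y =>
  obtain ⟨g, rfl⟩ := MulAction.exists_smul_eq G x y
  have h1 : sl_D s u (Pi.single x 1) ∈ (sl_D s u).range := ⟨_, rfl⟩
  have h2 := sl_transport_right s u hgen g x
  have h3 := (sl_D s u).range.sub_mem h1 h2
  convert h3 using 1
  rw [sl_D_apply]
  refine Prod.ext ?_ ?_
  · funext O
    simp [sl_osum_single]
  · funext O
    simp [sl_osum_single]

/-- the image of the orbit-sum map is saturated. -/
theorem sl_saturated [MulAction.IsPretransitive G X] [Nonempty X] (s u : G)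
    (hgen : Subgroup.closure {s, u} = ⊤)
    [Fintype (MulAction.orbitRel.Quotient (Subgroup.zpowers s) X)]
    [Fintype (MulAction.orbitRel.Quotient (Subgroup.zpowers u) X)]
    (n : ℤ) (hn : n ≠ 0)
    (a : MulAction.orbitRel.Quotient (Subgroup.zpowers s) X → ℤ)
    (b : MulAction.orbitRel.Quotient (Subgroup.zpowers u) X → ℤ)
    (w : X → ℤ) (hw : sl_D s u w = (n • a, n • b)) :
    (a, b) ∈ (sl_D s u).range := by
  classical
  obtain ⟨x₀⟩ := ‹Nonempty X›
  set O₀ : MulAction.orbitRel.Quotient (Subgroup.zpowers s) X := Quotient.mk'' x₀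
  set O₀' : MulAction.orbitRel.Quotient (Subgroup.zpowers u) X := Quotient.mk'' x₀
  have hAB : ∑ O, a O = ∑ O', b O' := by
    have h1 : sl_osum s w = n • a := congrArg Prod.fst hw
    have h2 : sl_osum u w = n • b := congrArg Prod.snd hw
    have e1 := sl_sum_osum s w
    have e2 := sl_sum_osum u w
    rw [h1] at e1
    rw [h2] at e2
    simp only [Pi.smul_apply, smul_eq_mul, ← Finset.mul_sum] at e1 e2
    exact mul_left_cancel₀ hn (e1.trans e2.symm)
  have hmem : (∑ O, a O • ((Pi.single O 1 : MulAction.orbitRel.Quotient (Subgroup.zpowers s) X → ℤ),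
        (Pi.single O₀' 1 : MulAction.orbitRel.Quotient (Subgroup.zpowers u) X → ℤ)))
      + (∑ O', b O' • ((Pi.single O₀ 1 : MulAction.orbitRel.Quotient (Subgroup.zpowers s) X → ℤ),
        (Pi.single O' 1 : MulAction.orbitRel.Quotient (Subgroup.zpowers u) X → ℤ)))
      - (∑ O, a O) • ((Pi.single O₀ 1 : MulAction.orbitRel.Quotient (Subgroup.zpowers s) X → ℤ),
        (Pi.single O₀' 1 : MulAction.orbitRel.Quotient (Subgroup.zpowers u) X → ℤ))
      ∈ (sl_D s u).range := by
    refine AddSubgroup.sub_mem _ (AddSubgroup.add_mem _ ?_ ?_) ?_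
    · exact AddSubgroup.sum_mem _ fun O _ =>
        AddSubgroup.zsmul_mem _ (sl_single_pair_mem s u hgen O O₀') _
    · exact AddSubgroup.sum_mem _ fun O' _ =>
        AddSubgroup.zsmul_mem _ (sl_single_pair_mem s u hgen O₀ O') _
    · exact AddSubgroup.zsmul_mem _ (sl_single_pair_mem s u hgen O₀ O₀') _
  convert hmem using 1
  refine Prod.ext ?_ ?_
  · funext O
    simp only [Prod.fst_sub, Prod.fst_add, Prod.fst_sum, Prod.smul_fst, Pi.sub_apply, Pi.add_apply,
      Finset.sum_apply, Pi.smul_apply, smul_eq_mul, Pi.single_apply, mul_ite, mul_one, mul_zero,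
      Finset.sum_ite_eq, Finset.mem_univ, if_true]
    by_cases hO : O = O₀
    · simp only [hO, if_true]
      rw [hAB]
      ring
    · simp [hO]
  · funext O'
    simp only [Prod.snd_sub, Prod.snd_add, Prod.snd_sum, Prod.smul_snd, Pi.sub_apply, Pi.add_apply,
      Finset.sum_apply, Pi.smul_apply, smul_eq_mul, Pi.single_apply, mul_ite, mul_one, mul_zero,
      Finset.sum_ite_eq, Finset.mem_univ, if_true]
    by_cases hO : O' = O₀'
    · simp only [hO, if_true]
      ring
    · simp [hO]

end Graph

section Lift

variable {G X : Type} [Group G] [MulAction G X]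

theorem sl_osum_intCast [Fintype X] (n : ℕ) (h : G) (w : X → ℤ)
    (O : MulAction.orbitRel.Quotient (Subgroup.zpowers h) X) :
    ((sl_osum h w O : ℤ) : ZMod n) = sl_osum h (fun x => (w x : ZMod n)) O := by
  classical
  unfold sl_osum
  rw [Int.cast_sum]
  refine Finset.sum_congr rfl fun x _ => ?_
  split_ifs <;> simp

/-- **Graph lift.**  If `s, u` generate a group acting transitively on the finite set `X`, every
`ZMod n`-valued function with vanishing cycle sums along `s` and along `u` lifts to an
integer-valued function with the same property. -/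
theorem sl_graph_lift [Finite X] [MulAction.IsPretransitive G X] (n : ℕ) [NeZero n] (s u : G)
    (hgen : Subgroup.closure {s, u} = ⊤) (vbar : X → ZMod n)
    (hs : sl_OSZ s vbar) (hu : sl_OSZ u vbar) :
    ∃ v : X → ℤ, (∀ x, ((v x : ℤ) : ZMod n) = vbar x) ∧ sl_OSZ s v ∧ sl_OSZ u v := by
  classical
  have : Fintype X := Fintype.ofFinite X
  rcases isEmpty_or_nonempty X with hX | hX
  · exact ⟨fun x => (hX.false x).elim, fun x => (hX.false x).elim,
      fun x => (hX.false x).elim, fun x => (hX.false x).elim⟩
  have : Fintype (MulAction.orbitRel.Quotient (Subgroup.zpowers s) X) := Fintype.ofFinite _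
  have : Fintype (MulAction.orbitRel.Quotient (Subgroup.zpowers u) X) := Fintype.ofFinite _
  set v' : X → ℤ := fun x => ((vbar x).val : ℤ) with hv'
  have hcast : ∀ x, ((v' x : ℤ) : ZMod n) = vbar x := by
    intro x
    simp [hv']
  have hfun : (fun x => ((v' x : ℤ) : ZMod n)) = vbar := funext hcast
  have hds : ∀ O, (n : ℤ) ∣ sl_osum s v' O := by
    intro O
    rw [← ZMod.intCast_zmod_eq_zero_iff_dvd, sl_osum_intCast, hfun]
    exact (sl_OSZ_iff s vbar).mp hs O
  have hdu : ∀ O, (n : ℤ) ∣ sl_osum u v' O := by
    intro O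
    rw [← ZMod.intCast_zmod_eq_zero_iff_dvd, sl_osum_intCast, hfun]
    exact (sl_OSZ_iff u vbar).mp hu O
  set a : MulAction.orbitRel.Quotient (Subgroup.zpowers s) X → ℤ :=
    fun O => sl_osum s v' O / n with ha
  set b : MulAction.orbitRel.Quotient (Subgroup.zpowers u) X → ℤ :=
    fun O => sl_osum u v' O / n with hb
  have hw : sl_D s u v' = ((n : ℤ) • a, (n : ℤ) • b) := by
    rw [sl_D_apply]
    refine Prod.ext ?_ ?_
    · funext O
      simp only [Pi.smul_apply, smul_eq_mul, ha]
      rw [Int.mul_ediv_cancel' (hds O)]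
    · funext O
      simp only [Pi.smul_apply, smul_eq_mul, hb]
      rw [Int.mul_ediv_cancel' (hdu O)]
  obtain ⟨u0, hu0⟩ := sl_saturated s u hgen (n : ℤ) (by exact_mod_cast NeZero.ne n) a b v' hw
  have h1 : sl_osum s u0 = a := congrArg Prod.fst hu0
  have h2 : sl_osum u u0 = b := congrArg Prod.snd hu0
  refine ⟨v' + -((n : ℤ) • u0), ?_, ?_, ?_⟩
  · intro x
    simp [hcast]
  · rw [sl_OSZ_iff]
    intro O
    rw [sl_osum_add, sl_osum_neg, sl_osum_zsmul, h1]
    simp only [ha]
    rw [Int.mul_ediv_cancel' (hds O), add_neg_cancel]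
  · rw [sl_OSZ_iff]
    intro O
    rw [sl_osum_add, sl_osum_neg, sl_osum_zsmul, h2]
    simp only [hb]
    rw [Int.mul_ediv_cancel' (hdu O), add_neg_cancel]

end Lift

end Fermat.Agent.S16
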