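/-
S16 (Eisenstein ideal index) — PACKAGING (helper10): holomorphic + `Γ₀(N)`-slash-invariant +
moderate growth ⟹ modular form.  No cusp-by-cusp analysis is needed: every `SL₂(ℤ)`-translate is
`N`-periodic, holomorphic and of polynomial growth as `Im z → ∞`, hence bounded at `i∞` by
Riemann's removable singularity theorem applied to its cusp function.
-/
import Mathlib

set_option autoImplicit false
open UpperHalfPlane Filter Function Complex Asymptotics ModularForm CongruenceSubgroup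
open scoped Topology MatrixGroups Manifold Real

namespace Fermat.Agent.S16

/-- Periodic + holomorphic near `i∞` + polynomial growth ⟹ bounded near `i∞` (on `ℂ`). -/
theorem mg_boundedAtFilter {h : ℝ} (hh : 0 < h) {f : ℂ → ℂ} (hf : Function.Periodic f h)
    (h_hol : ∀ᶠ z in comap Complex.im atTop, DifferentiableAt ℂ f z)
    (C : ℝ) (M : ℕ)
    (hgr : ∀ᶠ z in comap Complex.im atTop, ‖f z‖ ≤ C * (Complex.im z) ^ M) :
    BoundedAtFilter (comap Complex.im atTop) f := by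
  set g := Function.Periodic.cuspFunction h f with hg
  have hd : ∀ᶠ q in 𝓝[≠] (0 : ℂ), DifferentiableAt ℂ g q :=
    Function.Periodic.eventually_differentiableAt_cuspFunction_nhds_ne_zero hh hf h_hol
  have hgr' : ∀ᶠ q in 𝓝[≠] (0 : ℂ), ‖g q‖ ≤ C * (h / (2 * π) * Real.log (‖q‖⁻¹)) ^ M := by
    have := (Function.Periodic.invQParam_tendsto hh).eventually hgr
    filter_upwards [this, self_mem_nhdsWithin] with q hq hq0
    rw [hg, Function.Periodic.cuspFunction_eq_of_nonzero _ _ hq0]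
    have him : (Function.Periodic.invQParam h q).im = h / (2 * π) * Real.log (‖q‖⁻¹) := by
      rw [Function.Periodic.im_invQParam, Real.log_inv]
      ring
    rw [← him]
    exact hq
  have h1 : (fun q : ℂ => Real.log (‖q‖⁻¹) ^ M) =o[𝓝[≠] (0 : ℂ)] (fun q : ℂ => ‖q‖⁻¹) := by
    have := (Real.isLittleO_pow_log_id_atTop (n := M)).comp_tendsto
      (tendsto_norm_inv_nhdsNE_zero_atTop (α := ℂ))
    simpa [Function.comp_def, norm_inv] using this
  have h2 : g =O[𝓝[≠] (0 : ℂ)] (fun q : ℂ => Real.log (‖q‖⁻¹) ^ M) := by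
    refine IsBigO.of_bound (|C| * (h / (2 * π)) ^ M) ?_
    filter_upwards [hgr'] with q hq
    refine hq.trans ?_
    rw [mul_pow, Real.norm_eq_abs, ← mul_assoc]
    have hpos : 0 ≤ (h / (2 * π)) ^ M := pow_nonneg (by positivity) M
    calc C * (h / (2 * π)) ^ M * Real.log (‖q‖⁻¹) ^ M
        ≤ |C * (h / (2 * π)) ^ M * Real.log (‖q‖⁻¹) ^ M| := le_abs_self _
      _ = |C| * (h / (2 * π)) ^ M * |Real.log (‖q‖⁻¹) ^ M| := by
          rw [abs_mul, abs_mul, abs_of_nonneg hpos]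
  have h3 : g =o[𝓝[≠] (0 : ℂ)] (fun q : ℂ => (q - 0)⁻¹) := by
    have h31 := h2.trans_isLittleO h1
    have h32 : (fun q : ℂ => ‖q‖⁻¹) = fun q : ℂ => ‖(q - 0)⁻¹‖ := by
      funext q
      rw [sub_zero, norm_inv]
    rw [h32] at h31
    exact h31.of_norm_right
  have h4 : (fun _ : ℂ => g 0) =o[𝓝[≠] (0 : ℂ)] (fun q : ℂ => (q - 0)⁻¹) := by
    rw [isLittleO_const_left]
    right
    simpa [Function.comp_def] using tendsto_norm_inv_nhdsNE_zero_atTop (α := ℂ)
  have ho : (fun q => g q - g 0) =o[𝓝[≠] (0 : ℂ)] fun q => (q - 0)⁻¹ := h3.sub h4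
  have ht := Complex.tendsto_limUnder_of_differentiable_on_punctured_nhds_of_isLittleO hd ho
  have hcomp : g ∘ Function.Periodic.qParam h = f :=
    funext fun z => Function.Periodic.eq_cuspFunction hh.ne' hf z
  have h5 := ht.comp (Function.Periodic.qParam_tendsto hh)
  rw [hcomp] at h5
  exact h5.isBigO_one ℝ

/-- **Periodic + holomorphic + polynomial growth on a vertical strip ⟹ bounded at `i∞`.** -/
theorem mg_isBoundedAtImInfty (G : ℍ → ℂ) (hol : MDiff G) (h : ℕ) (hh : 0 < h)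
    (hper : ∀ z : ℍ, G (((h : ℕ) : ℝ) +ᵥ z) = G z) (C : ℝ) (M : ℕ)
    (hgr : ∀ z : ℍ, 1 ≤ z.im → 0 ≤ z.re → z.re ≤ h → ‖G z‖ ≤ C * z.im ^ M) :
    IsBoundedAtImInfty G := by
  have hh' : (0 : ℝ) < (h : ℝ) := by exact_mod_cast hh
  set f : ℂ → ℂ := G ∘ ofComplex with hf
  have hfper : Function.Periodic f (h : ℝ) := by
    intro w
    by_cases hw : 0 < Complex.im w
    · have hw' : 0 < Complex.im (w + ((h : ℝ) : ℂ)) := by simpa using hw
      simp only [hf, comp_apply, ofComplex_apply_of_im_pos hw', ofComplex_apply_of_im_pos hw]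
      rw [← hper ⟨w, hw⟩]
      congr 1
      ext
      simp [add_comm]
    · have hw0 : Complex.im w ≤ 0 := not_lt.mp hw
      have hw' : Complex.im (w + ((h : ℝ) : ℂ)) ≤ 0 := by simpa using hw0
      show G (ofComplex (w + ((h : ℝ) : ℂ))) = G (ofComplex w)
      rw [ofComplex_apply_of_im_nonpos hw', ofComplex_apply_of_im_nonpos hw0]
  have hhol : ∀ᶠ z in comap Complex.im atTop, DifferentiableAt ℂ f z :=
    eventually_of_mem (preimage_mem_comap (Ioi_mem_atTop 0))
      (fun z hz => UpperHalfPlane.mdifferentiableAt_iff.mp (hol ⟨z, hz⟩))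
  have hgr' : ∀ᶠ z in comap Complex.im atTop, ‖f z‖ ≤ C * (Complex.im z) ^ M := by
    refine eventually_of_mem (preimage_mem_comap (Ici_mem_atTop 1)) (fun w hw => ?_)
    have hw1 : 1 ≤ Complex.im w := hw
    -- reduce to the strip by periodicity
    set m : ℤ := ⌊Complex.re w / h⌋ with hm
    set w' : ℂ := w - m * ((h : ℝ) : ℂ) with hw'
    have him : Complex.im w' = Complex.im w := by simp [hw']
    have hre : Complex.re w' = Complex.re w - m * h := by simp [hw']
    have hfw : f w = f w' := by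
      rw [hw']
      exact (hfper.sub_int_mul_eq m).symm
    have hpos : 0 < Complex.im w' := by rw [him]; linarith
    have h0 : 0 ≤ Complex.re w' := by
      rw [hre]
      have := Int.floor_le (Complex.re w / h)
      rw [← hm] at this
      have h2 := (le_div_iff₀ hh').mp this
      linarith
    have h1 : Complex.re w' ≤ h := by
      rw [hre]
      have := Int.lt_floor_add_one (Complex.re w / h)
      rw [← hm] at this
      have h2 := (div_lt_iff₀ hh').mp this
      linarith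
    rw [hfw, hf, comp_apply, ofComplex_apply_of_im_pos hpos, ← him]
    exact hgr ⟨w', hpos⟩ (by simpa [him] using hw1) h0 h1
  have hb := mg_boundedAtFilter hh' hfper hhol C M hgr'
  have h6 := hb.comp_tendsto tendsto_coe_atImInfty
  have h7 : f ∘ UpperHalfPlane.coe = G := by
    funext z
    simp [hf]
  rw [h7] at h6
  exact h6

/-- Conjugating `T ^ N` by any `γ ∈ SL₂(ℤ)` lands in `Γ₀(N)`. -/
theorem mg_conj_T (N : ℕ) (γ : SL(2, ℤ)) :
    ∃ δ ∈ Gamma0 N, γ * ModularGroup.T ^ (N : ℤ) = δ * γ := by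
  refine ⟨γ * ModularGroup.T ^ (N : ℤ) * γ⁻¹, ?_, by group⟩
  rw [Gamma0_mem]
  have hT : ((ModularGroup.T ^ (N : ℤ) : SL(2, ℤ)) : Matrix (Fin 2) (Fin 2) ℤ) =
      !![1, (N : ℤ); 0, 1] := ModularGroup.coe_T_zpow N
  have h : ((γ * ModularGroup.T ^ (N : ℤ) * γ⁻¹ : SL(2, ℤ)) : Matrix (Fin 2) (Fin 2) ℤ) 1 0 =
      -(γ 1 0) ^ 2 * N := by
    rw [Matrix.SpecialLinearGroup.coe_mul, Matrix.SpecialLinearGroup.coe_mul, hT,
      Matrix.SpecialLinearGroup.SL2_inv_expl]
    simp [Matrix.mul_apply, Fin.sum_univ_two]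
    ring
  rw [h]
  simp

/-- **Moderate growth ⟹ every `SL₂(ℤ)`-translate is bounded at `i∞`.** -/
theorem mg_slash_isBoundedAtImInfty (N : ℕ) [NeZero N] (k : ℤ) (F : ℍ → ℂ) (hol : MDiff F)
    (hinv : ∀ γ ∈ Gamma0 N, F ∣[k] γ = F) (C : ℝ) (M : ℕ)
    (hgr : ∀ z : ℍ, ‖F z‖ ≤ C * (1 + (z.im)⁻¹ ^ M)) (γ : SL(2, ℤ)) :
    IsBoundedAtImInfty (F ∣[k] γ) := by
  have hC : 0 ≤ C := by
    have h1 := hgr UpperHalfPlane.I
    have h2 : 0 < 1 + (UpperHalfPlane.I.im)⁻¹ ^ M := by positivity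
    by_contra hneg
    have hneg' : C < 0 := not_le.mp hneg
    have : C * (1 + (UpperHalfPlane.I.im)⁻¹ ^ M) < 0 := mul_neg_of_neg_of_pos hneg' h2
    linarith [norm_nonneg (F UpperHalfPlane.I)]
  set c : ℤ := γ 1 0 with hc
  set d : ℤ := γ 1 1 with hd
  set A : ℝ := |(c : ℝ)| * (N + 1) + |(d : ℝ)| with hA
  have hApos : 0 ≤ A := by positivity
  refine mg_isBoundedAtImInfty (F ∣[k] γ) (hol.slash k _) N (NeZero.pos N) ?_
    (C * (1 + A ^ (2 * M)) * A ^ k.natAbs) (M + k.natAbs) ?_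
  · intro z
    obtain ⟨δ, hδ, hδγ⟩ := mg_conj_T N γ
    have h1 : (F ∣[k] γ) ∣[k] (ModularGroup.T ^ (N : ℤ)) = F ∣[k] γ := by
      rw [← SlashAction.slash_mul, hδγ, SlashAction.slash_mul, hinv δ hδ]
    have h2 := congrFun h1 z
    rw [SL_slash_apply, UpperHalfPlane.modular_T_zpow_smul] at h2
    have h10 : ((ModularGroup.T ^ (N : ℤ) : SL(2, ℤ)) : Matrix (Fin 2) (Fin 2) ℤ) 1 0 = 0 := by
      rw [ModularGroup.coe_T_zpow]
      rfl
    have h11 : ((ModularGroup.T ^ (N : ℤ) : SL(2, ℤ)) : Matrix (Fin 2) (Fin 2) ℤ) 1 1 = 1 := by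
      rw [ModularGroup.coe_T_zpow]
      rfl
    have hden : denom ((ModularGroup.T ^ (N : ℤ) : SL(2, ℤ)) : GL (Fin 2) ℝ) z = 1 := by
      rw [ModularGroup.denom_apply, h10, h11]
      simp
    rw [hden, one_zpow, mul_one] at h2
    have hcast : (((N : ℤ) : ℝ)) = (N : ℝ) := Int.cast_natCast N
    rw [hcast] at h2
    exact h2
  · intro z hz1 hz0 hzN
    rw [SL_slash_apply]
    set D : ℂ := denom γ z with hD
    have hDval : D = (c : ℂ) * z + d := by
      rw [hD, ModularGroup.denom_apply]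
    have hzre : (z : ℂ).re = z.re := rfl
    have hzim : (z : ℂ).im = z.im := rfl
    have hnormz : ‖(z : ℂ)‖ ≤ N + z.im := by
      calc ‖(z : ℂ)‖ ≤ |(z : ℂ).re| + |(z : ℂ).im| := Complex.norm_le_abs_re_add_abs_im _
        _ = z.re + z.im := by rw [hzre, hzim, abs_of_nonneg hz0, abs_of_pos z.im_pos]
        _ ≤ N + z.im := by linarith
    have hD_le : ‖D‖ ≤ A * z.im := by
      rw [hDval]
      calc ‖(c : ℂ) * z + d‖ ≤ ‖(c : ℂ) * z‖ + ‖(d : ℂ)‖ := norm_add_le _ _
        _ = |(c : ℝ)| * ‖(z : ℂ)‖ + |(d : ℝ)| := by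
            rw [norm_mul, Complex.norm_intCast, Complex.norm_intCast]
        _ ≤ |(c : ℝ)| * (N + z.im) + |(d : ℝ)| := by gcongr
        _ ≤ A * z.im := by
            rw [hA]
            nlinarith [abs_nonneg (c : ℝ), abs_nonneg (d : ℝ), mul_nonneg (abs_nonneg (c : ℝ))
              (Nat.cast_nonneg (α := ℝ) N), mul_nonneg (mul_nonneg (abs_nonneg (c : ℝ))
              (Nat.cast_nonneg (α := ℝ) N)) (sub_nonneg.mpr hz1),
              mul_nonneg (abs_nonneg (d : ℝ)) (sub_nonneg.mpr hz1)]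
    have hD_ge : 1 ≤ ‖D‖ := by
      by_cases hc0 : c = 0
      · have hdet : γ 0 0 * γ 1 1 - γ 0 1 * γ 1 0 = 1 := by
          have := γ.det_coe
          rwa [Matrix.det_fin_two] at this
        have hda : d * γ 0 0 = 1 := by
          rw [← hc, hc0, mul_zero, sub_zero] at hdet
          rw [hd, mul_comm]
          exact hdet
        have hd1 : d = 1 ∨ d = -1 := Int.isUnit_iff.mp (IsUnit.of_mul_eq_one _ hda)
        rw [hDval, hc0]
        rcases hd1 with h | h <;> simp [h]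
      · have h1 : (1 : ℝ) ≤ |(c : ℝ)| := by exact_mod_cast Int.one_le_abs hc0
        calc (1 : ℝ) ≤ |(c : ℝ)| * z.im := by nlinarith [abs_nonneg (c : ℝ)]
          _ = |D.im| := by
              rw [hDval]
              simp [abs_mul, abs_of_pos z.im_pos]
          _ ≤ ‖D‖ := Complex.abs_im_le_norm D
    have hAy : 1 ≤ A * z.im := hD_ge.trans hD_le
    have hDpos : 0 < ‖D‖ := lt_of_lt_of_le one_pos hD_ge
    -- the value of `F`
    have him : (γ • z).im = z.im / ‖D‖ ^ 2 := by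
      rw [ModularGroup.im_smul_eq_div_normSq, Complex.normSq_eq_norm_sq]
    have hinv_le : ((γ • z).im)⁻¹ ≤ A ^ 2 * z.im := by
      rw [him, inv_div, div_le_iff₀ z.im_pos]
      calc ‖D‖ ^ 2 ≤ (A * z.im) ^ 2 := pow_le_pow_left₀ hDpos.le hD_le 2
        _ = A ^ 2 * z.im * z.im := by ring
    have hinv_nonneg : 0 ≤ ((γ • z).im)⁻¹ := inv_nonneg.mpr (γ • z).im_pos.le
    have hF : ‖F (γ • z)‖ ≤ C * (1 + A ^ (2 * M)) * z.im ^ M := by
      refine (hgr (γ • z)).trans ?_
      have h1 : ((γ • z).im)⁻¹ ^ M ≤ (A ^ 2 * z.im) ^ M := pow_le_pow_left₀ hinv_nonneg hinv_le M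
      have h2 : (1 : ℝ) ≤ z.im ^ M := one_le_pow₀ hz1
      have h3 : (A ^ 2 * z.im) ^ M = A ^ (2 * M) * z.im ^ M := by rw [mul_pow, ← pow_mul]
      have h4 : 1 + ((γ • z).im)⁻¹ ^ M ≤ (1 + A ^ (2 * M)) * z.im ^ M := by
        rw [h3] at h1
        nlinarith
      calc C * (1 + ((γ • z).im)⁻¹ ^ M) ≤ C * ((1 + A ^ (2 * M)) * z.im ^ M) :=
            mul_le_mul_of_nonneg_left h4 hC
        _ = C * (1 + A ^ (2 * M)) * z.im ^ M := by ring
    -- the automorphy factor
    have hden : ‖D ^ (-k)‖ ≤ A ^ k.natAbs * z.im ^ k.natAbs := by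
      rw [norm_zpow, ← mul_pow]
      rcases le_or_gt 0 k with hk | hk
      · have h1 : ‖D‖ ^ (-k) ≤ 1 := by
          rw [zpow_neg]
          exact inv_le_one_of_one_le₀ (one_le_zpow₀ hD_ge hk)
        exact h1.trans (one_le_pow₀ hAy)
      · have h1 : -k = (k.natAbs : ℤ) := by
          rw [Int.ofNat_natAbs_of_nonpos hk.le]
        rw [h1, zpow_natCast]
        exact pow_le_pow_left₀ hDpos.le hD_le _
    rw [norm_mul]
    calc ‖F (γ • z)‖ * ‖D ^ (-k)‖
        ≤ (C * (1 + A ^ (2 * M)) * z.im ^ M) * (A ^ k.natAbs * z.im ^ k.natAbs) :=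
          mul_le_mul hF hden (norm_nonneg _) (by positivity)
      _ = C * (1 + A ^ (2 * M)) * A ^ k.natAbs * z.im ^ (M + k.natAbs) := by
          rw [pow_add]
          ring

/-- **Packaging.** A holomorphic, `Γ₀(N)`-slash-invariant function of moderate growth is a
modular form. -/
theorem mg_exists_modularForm (N : ℕ) [NeZero N] (k : ℤ) (F : ℍ → ℂ) (hol : MDiff F)
    (hinv : ∀ γ ∈ Gamma0 N, F ∣[k] γ = F) (C : ℝ) (M : ℕ)
    (hgr : ∀ z : ℍ, ‖F z‖ ≤ C * (1 + (z.im)⁻¹ ^ M)) :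
    ∃ Φ : ModularForm (Gamma0 N) k, ⇑Φ = F :=
  ⟨{ toFun := F
     slash_action_eq' := by
       rintro _ ⟨γ, hγ, rfl⟩
       exact hinv γ hγ
     holo' := hol
     bdd_at_cusps' := fun {c} hc => by
       rw [Subgroup.IsArithmetic.isCusp_iff_isCusp_SL2Z] at hc
       rw [OnePoint.isBoundedAt_iff_forall_SL2Z hc]
       exact fun γ _ => mg_slash_isBoundedAtImInfty N k F hol hinv C M hgr γ }, rfl⟩

end Fermat.Agent.S16
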