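/-
S16 / lower bound (helper2).  Abstract "transfer-type" Hecke operators on `Hom(Γ, A)`
attached to a finite system of right-coset representatives `α i` in an ambient group `G`
which is permuted by right multiplication with `Γ`.
-/
import Mathlib

set_option autoImplicit false

namespace Fermat.Agent.S16

/-- A finite system of representatives `α i ∈ G` (pairwise distinct left `Γ`-cosets) whose
union of cosets `Γ α i` is stable under right multiplication by `Γ`. -/
structure HeckeReps (Γ G ι : Type) [Group Γ] [Group G] where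
  incl : Γ →* G
  incl_inj : Function.Injective incl
  α : ι → G
  ex : ∀ (i : ι) (γ : Γ), ∃ (j : ι) (k : Γ), α i * incl γ = incl k * α j
  uniq : ∀ (i j : ι) (k : Γ), α i = incl k * α j → i = j

namespace HeckeReps

variable {Γ G ι : Type} [Group Γ] [Group G] (R : HeckeReps Γ G ι)

/-- The permutation of the index set induced by `γ`. -/
noncomputable def σ (γ : Γ) (i : ι) : ι := (R.ex i γ).choose

/-- The cocycle: `α i * γ = κ i γ * α (σ γ i)`. -/
noncomputable def κ (i : ι) (γ : Γ) : Γ := (R.ex i γ).choose_spec.choose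

theorem spec (i : ι) (γ : Γ) : R.α i * R.incl γ = R.incl (R.κ i γ) * R.α (R.σ γ i) :=
  (R.ex i γ).choose_spec.choose_spec

theorem unique {i j : ι} {γ k : Γ} (h : R.α i * R.incl γ = R.incl k * R.α j) :
    R.σ γ i = j ∧ R.κ i γ = k := by
  have h1 := R.spec i γ
  rw [h] at h1
  -- incl k * α j = incl (κ i γ) * α (σ γ i)
  have h2 : R.α j = R.incl (k⁻¹ * R.κ i γ) * R.α (R.σ γ i) := by
    rw [map_mul, map_inv, mul_assoc, ← h1, inv_mul_cancel_left]
  have hj : j = R.σ γ i := R.uniq _ _ _ h2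
  subst hj
  refine ⟨rfl, ?_⟩
  have h3 : R.incl k = R.incl (R.κ i γ) := mul_right_cancel h1
  exact (R.incl_inj h3).symm

theorem σ_one (i : ι) : R.σ 1 i = i :=
  (R.unique (i := i) (j := i) (γ := 1) (k := 1) (by simp)).1

theorem κ_one (i : ι) : R.κ i 1 = 1 :=
  (R.unique (i := i) (j := i) (γ := 1) (k := 1) (by simp)).2

theorem σκ_mul (γ δ : Γ) (i : ι) :
    R.σ (γ * δ) i = R.σ δ (R.σ γ i) ∧ R.κ i (γ * δ) = R.κ i γ * R.κ (R.σ γ i) δ := by
  apply R.unique
  rw [map_mul, ← mul_assoc, R.spec i γ, mul_assoc, R.spec (R.σ γ i) δ, map_mul, mul_assoc]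

theorem σ_mul (γ δ : Γ) (i : ι) : R.σ (γ * δ) i = R.σ δ (R.σ γ i) := (R.σκ_mul γ δ i).1

theorem κ_mul (γ δ : Γ) (i : ι) : R.κ i (γ * δ) = R.κ i γ * R.κ (R.σ γ i) δ :=
  (R.σκ_mul γ δ i).2

/-- `σ γ` as a permutation. -/
noncomputable def σEquiv (γ : Γ) : ι ≃ ι where
  toFun := R.σ γ
  invFun := R.σ γ⁻¹
  left_inv i := by rw [← R.σ_mul, mul_inv_cancel, R.σ_one]
  right_inv i := by rw [← R.σ_mul, inv_mul_cancel, R.σ_one]

@[simp] theorem σEquiv_apply (γ : Γ) (i : ι) : R.σEquiv γ i = R.σ γ i := rfl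

variable [Fintype ι]

/-- The Hecke operator on `Hom(Γ, A)` attached to the system of representatives. -/
noncomputable def op (A : Type*) [AddCommGroup A] :
    (Additive Γ →+ A) →+ (Additive Γ →+ A) where
  toFun φ :=
    { toFun := fun γ => ∑ i, φ (Additive.ofMul (R.κ i (Additive.toMul γ)))
      map_zero' := by
        simp only [toMul_zero, R.κ_one, ofMul_one, map_zero, Finset.sum_const_zero]
      map_add' := fun γ δ => by
        simp only [toMul_add, R.κ_mul, ofMul_mul, map_add, Finset.sum_add_distrib]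
        congr 1
        exact Equiv.sum_comp (R.σEquiv (Additive.toMul γ))
          (fun j => φ (Additive.ofMul (R.κ j (Additive.toMul δ)))) }
  map_zero' := by
    refine AddMonoidHom.ext fun γ => ?_
    simp
  map_add' φ ψ := by
    refine AddMonoidHom.ext fun γ => ?_
    simp [Finset.sum_add_distrib]

theorem op_apply {A : Type*} [AddCommGroup A] (φ : Additive Γ →+ A) (γ : Γ) :
    R.op A φ (Additive.ofMul γ) = ∑ i, φ (Additive.ofMul (R.κ i γ)) := rfl

/-- Functoriality in the coefficient group. -/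
theorem op_comp {A B : Type*} [AddCommGroup A] [AddCommGroup B] (g : A →+ B)
    (φ : Additive Γ →+ A) : R.op B (g.comp φ) = g.comp (R.op A φ) := by
  refine AddMonoidHom.ext fun γ => ?_
  obtain ⟨γ, rfl⟩ := Additive.ofMul.surjective γ
  rw [AddMonoidHom.comp_apply, op_apply, op_apply, map_sum]
  rfl

/-- The period computation: if `F` is a "primitive" with periods `φ`, then `∑ i, F (α i • ·)`
is a primitive with periods `op φ`. -/
theorem op_period {A : Type*} [AddCommGroup A] {Z : Type*} [MulAction G Z] (F : Z → A)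
    (φ : Additive Γ →+ A) (hF : ∀ (γ : Γ) (z : Z), F (R.incl γ • z) - F z = φ (Additive.ofMul γ))
    (γ : Γ) (z : Z) :
    (∑ i, F (R.α i • R.incl γ • z)) - ∑ i, F (R.α i • z) = R.op A φ (Additive.ofMul γ) := by
  rw [op_apply]
  have h1 : ∀ i, F (R.α i • R.incl γ • z) =
      φ (Additive.ofMul (R.κ i γ)) + F (R.α (R.σ γ i) • z) := by
    intro i
    rw [← mul_smul, R.spec i γ, mul_smul, ← hF (R.κ i γ) (R.α (R.σ γ i) • z)]
    abel
  rw [Finset.sum_congr rfl (fun i _ => h1 i), Finset.sum_add_distrib]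
  have h2 : ∑ i, F (R.α (R.σ γ i) • z) = ∑ i, F (R.α i • z) :=
    Equiv.sum_comp (R.σEquiv γ) (fun j => F (R.α j • z))
  rw [h2]
  abel

/-- Compatibility with an automorphism `c` of `Γ` induced by conjugation with an element `J`
of `G` normalising the system of cosets. -/
theorem op_conj {A : Type*} [AddCommGroup A] (c : Γ ≃* Γ) (J : G)
    (hJ : ∀ γ : Γ, J * R.incl γ * J⁻¹ = R.incl (c γ))
    (hα : ∀ i : ι, ∃ (j : ι) (g : Γ), J * R.α i * J⁻¹ = R.incl g * R.α j)
    (φ : Additive Γ →+ A) :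
    R.op A (φ.comp (MonoidHom.toAdditive c.toMonoidHom)) =
      (R.op A φ).comp (MonoidHom.toAdditive c.toMonoidHom) := by
  classical
  choose π g hπ using hα
  -- `π` is injective, hence bijective
  have hJ' : ∀ γ : Γ, J⁻¹ * R.incl γ * J = R.incl (c.symm γ) := by
    intro γ
    have := hJ (c.symm γ)
    rw [MulEquiv.apply_symm_apply] at this
    rw [← this]
    group
  have hinj : Function.Injective π := by
    intro i i' hii
    have h1 := hπ i
    have h2 := hπ i'
    rw [hii] at h1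
    -- J α i J⁻¹ = incl (g i) α (π i'),  J α i' J⁻¹ = incl (g i') α (π i')
    have h3 : R.α (π i') = R.incl (g i')⁻¹ * (J * R.α i' * J⁻¹) := by
      rw [h2, map_inv, inv_mul_cancel_left]
    have h4 : R.α i = R.incl (c.symm (g i * (g i')⁻¹)) * R.α i' := by
      rw [← hJ', map_mul]
      have h5 : R.α i = J⁻¹ * (J * R.α i * J⁻¹) * J := by group
      rw [h5, h1, h3]
      group
    exact R.uniq _ _ _ h4
  have hbij : Function.Bijective π := Finite.injective_iff_bijective.mp hinj
  let πe : ι ≃ ι := Equiv.ofBijective π hbij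
  -- the key identity
  have key : ∀ (i : ι) (γ : Γ), R.σ (c γ) (π i) = π (R.σ γ i) ∧
      R.κ (π i) (c γ) = (g i)⁻¹ * c (R.κ i γ) * g (R.σ γ i) := by
    intro i γ
    apply R.unique
    have h1 := R.spec i γ
    have h2 : (J * R.α i * J⁻¹) * (J * R.incl γ * J⁻¹) =
        (J * R.incl (R.κ i γ) * J⁻¹) * (J * R.α (R.σ γ i) * J⁻¹) := by
      have : (J * R.α i * J⁻¹) * (J * R.incl γ * J⁻¹) = J * (R.α i * R.incl γ) * J⁻¹ := by group
      rw [this, h1]
      group
    rw [hπ i, hJ γ, hJ (R.κ i γ), hπ (R.σ γ i)] at h2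
    -- incl (g i) * α (π i) * incl (c γ) = incl (c κ) * (incl (g (σ γ i)) * α (π (σ γ i)))
    have h3 : R.α (π i) * R.incl (c γ) =
        (R.incl (g i))⁻¹ * (R.incl (g i) * R.α (π i) * R.incl (c γ)) := by group
    rw [h3, h2, map_mul, map_mul, map_inv]
    group
  refine AddMonoidHom.ext fun γ => ?_
  obtain ⟨γ, rfl⟩ := Additive.ofMul.surjective γ
  rw [AddMonoidHom.comp_apply, op_apply]
  show _ = R.op A φ (Additive.ofMul (c γ))
  rw [op_apply]
  have e1 : ∑ j, φ (Additive.ofMul (R.κ j (c γ))) =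
      ∑ i, φ (Additive.ofMul (R.κ (π i) (c γ))) :=
    (Equiv.sum_comp πe (fun j => φ (Additive.ofMul (R.κ j (c γ))))).symm
  rw [e1]
  have e2 : ∀ i, φ (Additive.ofMul (R.κ (π i) (c γ))) =
      φ (Additive.ofMul (c (R.κ i γ))) + (φ (Additive.ofMul (g (R.σ γ i)))
        - φ (Additive.ofMul (g i))) := by
    intro i
    rw [(key i γ).2, ofMul_mul, ofMul_mul, ofMul_inv, map_add, map_add, map_neg]
    abel
  rw [Finset.sum_congr rfl (fun i _ => e2 i), Finset.sum_add_distrib, Finset.sum_sub_distrib]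
  have e3 : ∑ i, φ (Additive.ofMul (g (R.σ γ i))) = ∑ i, φ (Additive.ofMul (g i)) :=
    Equiv.sum_comp (R.σEquiv γ) (fun j => φ (Additive.ofMul (g j)))
  rw [e3, sub_self, add_zero]
  rfl

end HeckeReps

end Fermat.Agent.S16
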