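/-
S16 / lower bound (helper2).  The Hecke operators `T_ℓ` (`ℓ ∤ N`) and `U_ℓ` (`ℓ ∣ N`) on
`Hom(Γ₀(N), A)`, built from the Prelude coset representatives `heckeMatrix ℓ j`,
`heckeDiagMatrix ℓ` via the abstract transfer construction of `HeckeAbs`.
-/
import Mathlib
import Fermat.Prelude.Def_ModularForm_HeckeOperator
import Fermat.Prelude.Def_ModularCurve_PeriodHomPair
import Fermat.Agent.S16.HeckeAbs

set_option autoImplicit false

open CongruenceSubgroup Matrix.SpecialLinearGroup ModularForm ModularCurve.Period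
open scoped MatrixGroups

namespace Fermat.Agent.S16

/-! ### Integer matrices -/

/-- The integer matrix `[[1, j], [0, ℓ]]`. -/
def hh_mU (ℓ j : ℕ) : Matrix (Fin 2) (Fin 2) ℤ := !![1, (j : ℤ); 0, (ℓ : ℤ)]

/-- The integer matrix `[[ℓ, 0], [0, 1]]`. -/
def hh_mD (ℓ : ℕ) : Matrix (Fin 2) (Fin 2) ℤ := !![(ℓ : ℤ), 0; 0, 1]

theorem hh_val_heckeMatrix {ℓ : ℕ} (hℓ : ℓ ≠ 0) (j : ℕ) :
    ((heckeMatrix ℓ j : GL (Fin 2) ℝ) : Matrix (Fin 2) (Fin 2) ℝ) =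
      (hh_mU ℓ j).map (Int.castRingHom ℝ) := by
  rw [val_heckeMatrix hℓ]
  ext a b
  fin_cases a <;> fin_cases b <;> simp [hh_mU]

theorem hh_val_heckeDiagMatrix {ℓ : ℕ} (hℓ : ℓ ≠ 0) :
    ((heckeDiagMatrix ℓ : GL (Fin 2) ℝ) : Matrix (Fin 2) (Fin 2) ℝ) =
      (hh_mD ℓ).map (Int.castRingHom ℝ) := by
  rw [val_heckeDiagMatrix hℓ]
  ext a b
  fin_cases a <;> fin_cases b <;> simp [hh_mD]

theorem hh_val_mapGL (g : SL(2, ℤ)) :
    ((mapGL ℝ g : GL (Fin 2) ℝ) : Matrix (Fin 2) (Fin 2) ℝ) =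
      (g : Matrix (Fin 2) (Fin 2) ℤ).map (Int.castRingHom ℝ) := by
  rw [mapGL_coe_matrix]
  rfl

/-- `X : GL₂(ℝ)` is the image of the integer matrix `A`. -/
def hh_IsInt (X : GL (Fin 2) ℝ) (A : Matrix (Fin 2) (Fin 2) ℤ) : Prop :=
  (X : Matrix (Fin 2) (Fin 2) ℝ) = A.map (Int.castRingHom ℝ)

theorem hh_IsInt.mul {X Y : GL (Fin 2) ℝ} {A B : Matrix (Fin 2) (Fin 2) ℤ}
    (hX : hh_IsInt X A) (hY : hh_IsInt Y B) : hh_IsInt (X * Y) (A * B) := by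
  unfold hh_IsInt at *
  rw [Matrix.GeneralLinearGroup.coe_mul, hX, hY, ← Matrix.map_mul]

theorem hh_IsInt.one : hh_IsInt 1 1 := by
  unfold hh_IsInt
  ext a b
  fin_cases a <;> fin_cases b <;> simp

theorem hh_IsInt.ext {X Y : GL (Fin 2) ℝ} {A : Matrix (Fin 2) (Fin 2) ℤ}
    (hX : hh_IsInt X A) (hY : hh_IsInt Y A) : X = Y :=
  Units.ext (hX.trans hY.symm)

theorem hh_IsInt.inj {X : GL (Fin 2) ℝ} {A B : Matrix (Fin 2) (Fin 2) ℤ}
    (hA : hh_IsInt X A) (hB : hh_IsInt X B) : A = B := by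
  have hinj : Function.Injective
      (fun M : Matrix (Fin 2) (Fin 2) ℤ => M.map (Int.castRingHom ℝ)) :=
    Matrix.map_injective (RingHom.injective_int (Int.castRingHom ℝ))
  exact hinj (hA.symm.trans hB)

/-- Solving `v ≡ j u (mod ℓ)` for `j` when `ℓ ∤ u`. -/
theorem hh_exists_fin {ℓ : ℕ} (hℓ : ℓ.Prime) (u v : ℤ) (hu : ¬ (ℓ : ℤ) ∣ u) :
    ∃ j : Fin ℓ, (ℓ : ℤ) ∣ v - (j : ℕ) * u := by
  have : Fact ℓ.Prime := ⟨hℓ⟩
  have hu' : (u : ZMod ℓ) ≠ 0 := by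
    rwa [Ne, ZMod.intCast_zmod_eq_zero_iff_dvd]
  refine ⟨⟨((v : ZMod ℓ) * (u : ZMod ℓ)⁻¹).val, ZMod.val_lt _⟩, ?_⟩
  rw [← ZMod.intCast_zmod_eq_zero_iff_dvd]
  push_cast
  rw [ZMod.natCast_zmod_val, mul_assoc, inv_mul_cancel₀ hu', mul_one, sub_self]

/-- The integer coset representatives for `T_ℓ`. -/
def hh_repTInt (ℓ : ℕ) : Option (Fin ℓ) → Matrix (Fin 2) (Fin 2) ℤ
  | none => hh_mD ℓ
  | some j => hh_mU ℓ j

/-- Existence part for `T_ℓ`, on integer matrices. -/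
theorem hh_exT_int {N ℓ : ℕ} (hℓ : ℓ.Prime) (hℓN : ¬ ℓ ∣ N) (i : Option (Fin ℓ))
    (g : Matrix (Fin 2) (Fin 2) ℤ) (hdet : g.det = 1) (hg : (N : ℤ) ∣ g 1 0) :
    ∃ (j : Option (Fin ℓ)) (K : Matrix (Fin 2) (Fin 2) ℤ), K.det = 1 ∧ (N : ℤ) ∣ K 1 0 ∧
      hh_repTInt ℓ i * g = K * hh_repTInt ℓ j := by
  obtain ⟨a, b, c, d, rfl⟩ : ∃ a b c d : ℤ, g = !![a, b; c, d] :=
    ⟨g 0 0, g 0 1, g 1 0, g 1 1, Matrix.eta_fin_two g⟩
  rw [Matrix.det_fin_two_of] at hdet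
  have hc : (N : ℤ) ∣ c := by simpa using hg
  have hℓ0 : (ℓ : ℤ) ≠ 0 := by exact_mod_cast hℓ.ne_zero
  rcases i with _ | j₀
  · -- `i = none`
    by_cases hcl : (ℓ : ℤ) ∣ c
    · obtain ⟨c', rfl⟩ := hcl
      refine ⟨none, !![a, ℓ * b; c', d], ?_, ?_, ?_⟩
      · rw [Matrix.det_fin_two_of]; linarith
      · have hcop : IsCoprime (N : ℤ) (ℓ : ℤ) := by
          rw [Int.isCoprime_iff_gcd_eq_one, Int.gcd_natCast_natCast]
          exact (Nat.Coprime.symm ((Nat.Prime.coprime_iff_not_dvd hℓ).mpr hℓN))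
        simpa using hcop.dvd_of_dvd_mul_left hc
      · simp only [hh_repTInt, hh_mD]
        ext x y
        fin_cases x <;> fin_cases y <;> simp [Matrix.mul_apply, Fin.sum_univ_two] <;> ring
    · obtain ⟨j, hj⟩ := hh_exists_fin hℓ c d hcl
      obtain ⟨e, he⟩ := hj
      refine ⟨some j, !![ℓ * a, b - (j : ℕ) * a; c, e], ?_, ?_, ?_⟩
      · rw [Matrix.det_fin_two_of]
        have : (ℓ : ℤ) * (a * e) = a * (d - (j : ℕ) * c) := by rw [he]; ring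
        linear_combination hdet + this
      · simpa using hc
      · simp only [hh_repTInt, hh_mD, hh_mU]
        ext x y
        fin_cases x <;> fin_cases y <;> simp [Matrix.mul_apply, Fin.sum_univ_two]
        · ring
        · linear_combination he
  · -- `i = some j₀`
    by_cases hul : (ℓ : ℤ) ∣ a + (j₀ : ℕ) * c
    · obtain ⟨u', hu'⟩ := hul
      refine ⟨none, !![u', b + (j₀ : ℕ) * d; c, ℓ * d], ?_, ?_, ?_⟩
      · rw [Matrix.det_fin_two_of]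
        have : u' * ((ℓ : ℤ) * d) = (a + (j₀ : ℕ) * c) * d := by rw [hu']; ring
        linear_combination hdet + this
      · simpa using hc
      · simp only [hh_repTInt, hh_mD, hh_mU]
        ext x y
        fin_cases x <;> fin_cases y <;> simp [Matrix.mul_apply, Fin.sum_univ_two]
        · linear_combination hu'
        · ring
    · obtain ⟨j, hj⟩ := hh_exists_fin hℓ (a + (j₀ : ℕ) * c) (b + (j₀ : ℕ) * d) hul
      obtain ⟨e, he⟩ := hj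
      refine ⟨some j, !![a + (j₀ : ℕ) * c, e; ℓ * c, d - (j : ℕ) * c], ?_, ?_, ?_⟩
      · rw [Matrix.det_fin_two_of]
        linear_combination hdet + c * he
      · simpa using Dvd.dvd.mul_left hc (ℓ : ℤ)
      · simp only [hh_repTInt, hh_mU]
        ext x y
        fin_cases x <;> fin_cases y <;> simp [Matrix.mul_apply, Fin.sum_univ_two]
        · linear_combination he
        · ring

/-- Uniqueness part for `T_ℓ`, on integer matrices. -/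
theorem hh_uniqT_int {ℓ : ℕ} (hℓ : ℓ.Prime) (i j : Option (Fin ℓ))
    (K : Matrix (Fin 2) (Fin 2) ℤ) (hdet : K.det = 1)
    (h : hh_repTInt ℓ i = K * hh_repTInt ℓ j) : i = j := by
  obtain ⟨a, b, c, d, rfl⟩ : ∃ a b c d : ℤ, K = !![a, b; c, d] :=
    ⟨K 0 0, K 0 1, K 1 0, K 1 1, Matrix.eta_fin_two K⟩
  rw [Matrix.det_fin_two_of] at hdet
  have hℓ2 : (2 : ℤ) ≤ ℓ := by exact_mod_cast hℓ.two_le
  have h00 := congrFun (congrFun h 0) 0
  have h01 := congrFun (congrFun h 0) 1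
  have h10 := congrFun (congrFun h 1) 0
  have h11 := congrFun (congrFun h 1) 1
  rcases i with _ | i₀ <;> rcases j with _ | j₀
  · rfl
  · exfalso
    simp [hh_repTInt, hh_mD, hh_mU, Matrix.mul_apply, Fin.sum_univ_two] at h00 h01 h10 h11
    -- a = ℓ, c = 0, 1 = d ℓ
    subst h10
    have h1 : (ℓ : ℤ) ∣ 1 := ⟨d, by linarith⟩
    have := Int.le_of_dvd one_pos h1
    linarith
  · exfalso
    simp [hh_repTInt, hh_mD, hh_mU, Matrix.mul_apply, Fin.sum_univ_two] at h00 h01 h10 h11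
    have h1 : (ℓ : ℤ) ∣ 1 := ⟨a, by linarith⟩
    have := Int.le_of_dvd one_pos h1
    linarith
  · simp [hh_repTInt, hh_mU, Matrix.mul_apply, Fin.sum_univ_two] at h00 h01 h10 h11
    -- a = 1, c = 0, i₀ = j₀ + b ℓ
    have hb : b = 0 := by
      have hi := i₀.2
      have hj := j₀.2
      have h1 : ((i₀ : ℕ) : ℤ) = (j₀ : ℕ) + b * ℓ := by rw [h01, ← h00]; ring
      have hi' : ((i₀ : ℕ) : ℤ) < ℓ := by exact_mod_cast hi
      have hj' : ((j₀ : ℕ) : ℤ) < ℓ := by exact_mod_cast hj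
      have hi0 : (0 : ℤ) ≤ ((i₀ : ℕ) : ℤ) := by positivity
      have hj0 : (0 : ℤ) ≤ ((j₀ : ℕ) : ℤ) := by positivity
      by_contra hb
      rcases lt_or_gt_of_ne hb with hb | hb
      · have : b * (ℓ : ℤ) ≤ -1 * ℓ := by nlinarith
        linarith
      · have : 1 * (ℓ : ℤ) ≤ b * ℓ := by nlinarith
        linarith
    have h1 : ((i₀ : ℕ) : ℤ) = (j₀ : ℕ) := by rw [h01, ← h00, hb]; ring
    have h2 : (i₀ : ℕ) = (j₀ : ℕ) := by exact_mod_cast h1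
    exact congrArg some (Fin.ext h2)

/-- Existence part for `U_ℓ`, on integer matrices. -/
theorem hh_exU_int {N ℓ : ℕ} (hℓ : ℓ.Prime) (hℓN : ℓ ∣ N) (i : Fin ℓ)
    (g : Matrix (Fin 2) (Fin 2) ℤ) (hdet : g.det = 1) (hg : (N : ℤ) ∣ g 1 0) :
    ∃ (j : Fin ℓ) (K : Matrix (Fin 2) (Fin 2) ℤ), K.det = 1 ∧ (N : ℤ) ∣ K 1 0 ∧
      hh_mU ℓ i * g = K * hh_mU ℓ j := by
  obtain ⟨a, b, c, d, rfl⟩ : ∃ a b c d : ℤ, g = !![a, b; c, d] :=
    ⟨g 0 0, g 0 1, g 1 0, g 1 1, Matrix.eta_fin_two g⟩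
  rw [Matrix.det_fin_two_of] at hdet
  have hc : (N : ℤ) ∣ c := by simpa using hg
  have hlc : (ℓ : ℤ) ∣ c := (Int.natCast_dvd_natCast.mpr hℓN).trans hc
  have hul : ¬ (ℓ : ℤ) ∣ a + (i : ℕ) * c := by
    intro h
    have ha : (ℓ : ℤ) ∣ a := by
      have := Dvd.dvd.sub h (Dvd.dvd.mul_left hlc ((i : ℕ) : ℤ))
      simpa using this
    have h1 : (ℓ : ℤ) ∣ 1 := by
      rw [← hdet]
      exact Dvd.dvd.sub (Dvd.dvd.mul_right ha d) (Dvd.dvd.mul_left hlc b)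
    have h2 := Int.le_of_dvd one_pos h1
    have hℓ2 : (2 : ℤ) ≤ ℓ := by exact_mod_cast hℓ.two_le
    linarith
  obtain ⟨j, hj⟩ := hh_exists_fin hℓ (a + (i : ℕ) * c) (b + (i : ℕ) * d) hul
  obtain ⟨e, he⟩ := hj
  refine ⟨j, !![a + (i : ℕ) * c, e; ℓ * c, d - (j : ℕ) * c], ?_, ?_, ?_⟩
  · rw [Matrix.det_fin_two_of]
    linear_combination hdet + c * he
  · simpa using Dvd.dvd.mul_left hc (ℓ : ℤ)
  · simp only [hh_mU]
    ext x y
    fin_cases x <;> fin_cases y <;> simp [Matrix.mul_apply, Fin.sum_univ_two]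
    · linear_combination he
    · ring

/-- Uniqueness part for `U_ℓ`, on integer matrices. -/
theorem hh_uniqU_int {ℓ : ℕ} (hℓ : ℓ.Prime) (i j : Fin ℓ)
    (K : Matrix (Fin 2) (Fin 2) ℤ) (hdet : K.det = 1)
    (h : hh_mU ℓ i = K * hh_mU ℓ j) : i = j := by
  have := hh_uniqT_int hℓ (some i) (some j) K hdet h
  exact Option.some_injective _ this


/-! ### The systems of representatives for `Γ₀(N)` -/

/-- The inclusion `Γ₀(N) → GL₂(ℝ)`. -/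
noncomputable def hh_incl (N : ℕ) : Gamma0 N →* GL (Fin 2) ℝ :=
  (mapGL ℝ).comp (Gamma0 N).subtype

theorem hh_incl_injective (N : ℕ) : Function.Injective (hh_incl N) :=
  (mapGL_injective (R := ℤ) (S := ℝ)).comp (Subgroup.subtype_injective _)

theorem hh_isInt_incl (N : ℕ) (γ : Gamma0 N) :
    hh_IsInt (hh_incl N γ) ((γ : SL(2, ℤ)) : Matrix (Fin 2) (Fin 2) ℤ) :=
  hh_val_mapGL _

theorem hh_incl_smul (N : ℕ) (γ : Gamma0 N) (z : UpperHalfPlane) :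
    hh_incl N γ • z = (γ : SL(2, ℤ)) • z := rfl

theorem hh_dvd_of_mem {N : ℕ} (γ : Gamma0 N) :
    (N : ℤ) ∣ ((γ : SL(2, ℤ)) : Matrix (Fin 2) (Fin 2) ℤ) 1 0 :=
  (ZMod.intCast_zmod_eq_zero_iff_dvd _ _).mp (Gamma0_mem.mp γ.2)

/-- An element of `Γ₀(N)` from an integer matrix. -/
def hh_mk (N : ℕ) (K : Matrix (Fin 2) (Fin 2) ℤ) (hdet : K.det = 1) (hK : (N : ℤ) ∣ K 1 0) :
    Gamma0 N :=
  ⟨⟨K, hdet⟩, Gamma0_mem.mpr ((ZMod.intCast_zmod_eq_zero_iff_dvd _ _).mpr hK)⟩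

@[simp] theorem hh_mk_coe (N : ℕ) (K : Matrix (Fin 2) (Fin 2) ℤ) (hdet : K.det = 1)
    (hK : (N : ℤ) ∣ K 1 0) :
    (((hh_mk N K hdet hK : Gamma0 N) : SL(2, ℤ)) : Matrix (Fin 2) (Fin 2) ℤ) = K := rfl

/-- The representatives for `T_ℓ` in `GL₂(ℝ)`. -/
noncomputable def hh_repT (ℓ : ℕ) : Option (Fin ℓ) → GL (Fin 2) ℝ
  | none => heckeDiagMatrix ℓ
  | some j => heckeMatrix ℓ j

theorem hh_isInt_repT {ℓ : ℕ} (hℓ : ℓ ≠ 0) (i : Option (Fin ℓ)) :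
    hh_IsInt (hh_repT ℓ i) (hh_repTInt ℓ i) := by
  rcases i with _ | j
  · exact hh_val_heckeDiagMatrix hℓ
  · exact hh_val_heckeMatrix hℓ j

/-- The system of representatives for `T_ℓ`, `ℓ ∤ N`. -/
noncomputable def hh_repsT (N ℓ : ℕ) (hℓ : ℓ.Prime) (hℓN : ¬ ℓ ∣ N) :
    HeckeReps (Gamma0 N) (GL (Fin 2) ℝ) (Option (Fin ℓ)) where
  incl := hh_incl N
  incl_inj := hh_incl_injective N
  α := hh_repT ℓ
  ex := fun i γ => by
    obtain ⟨j, K, hdet, hK, h⟩ := hh_exT_int hℓ hℓN i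
      ((γ : SL(2, ℤ)) : Matrix (Fin 2) (Fin 2) ℤ) (γ : SL(2, ℤ)).2 (hh_dvd_of_mem γ)
    refine ⟨j, hh_mk N K hdet hK, ?_⟩
    refine ((hh_isInt_repT hℓ.ne_zero i).mul (hh_isInt_incl N γ)).ext ?_
    rw [h]
    exact (hh_isInt_incl N (hh_mk N K hdet hK)).mul (hh_isInt_repT hℓ.ne_zero j)
  uniq := fun i j k h => by
    have h1 : hh_IsInt (hh_repT ℓ i)
        (((k : SL(2, ℤ)) : Matrix (Fin 2) (Fin 2) ℤ) * hh_repTInt ℓ j) := by
      rw [h]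
      exact (hh_isInt_incl N k).mul (hh_isInt_repT hℓ.ne_zero j)
    exact hh_uniqT_int hℓ i j _ (k : SL(2, ℤ)).2 ((hh_isInt_repT hℓ.ne_zero i).inj h1)

/-- The system of representatives for `U_ℓ`, `ℓ ∣ N`. -/
noncomputable def hh_repsU (N ℓ : ℕ) (hℓ : ℓ.Prime) (hℓN : ℓ ∣ N) :
    HeckeReps (Gamma0 N) (GL (Fin 2) ℝ) (Fin ℓ) where
  incl := hh_incl N
  incl_inj := hh_incl_injective N
  α := fun j => heckeMatrix ℓ j
  ex := fun i γ => by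
    obtain ⟨j, K, hdet, hK, h⟩ := hh_exU_int hℓ hℓN i
      ((γ : SL(2, ℤ)) : Matrix (Fin 2) (Fin 2) ℤ) (γ : SL(2, ℤ)).2 (hh_dvd_of_mem γ)
    refine ⟨j, hh_mk N K hdet hK, ?_⟩
    have hi : hh_IsInt (heckeMatrix ℓ i) (hh_mU ℓ i) := hh_val_heckeMatrix hℓ.ne_zero i
    have hj : hh_IsInt (heckeMatrix ℓ j) (hh_mU ℓ j) := hh_val_heckeMatrix hℓ.ne_zero j
    refine (hi.mul (hh_isInt_incl N γ)).ext ?_
    rw [h]
    exact (hh_isInt_incl N (hh_mk N K hdet hK)).mul hj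
  uniq := fun i j k h => by
    have hi : hh_IsInt (heckeMatrix ℓ i) (hh_mU ℓ i) := hh_val_heckeMatrix hℓ.ne_zero i
    have hj : hh_IsInt (heckeMatrix ℓ j) (hh_mU ℓ j) := hh_val_heckeMatrix hℓ.ne_zero j
    have h1 : hh_IsInt (heckeMatrix ℓ i)
        (((k : SL(2, ℤ)) : Matrix (Fin 2) (Fin 2) ℤ) * hh_mU ℓ j) := by
      rw [h]
      exact (hh_isInt_incl N k).mul hj
    exact hh_uniqU_int hℓ i j _ (k : SL(2, ℤ)).2 (hi.inj h1)

/-- The integer identity behind the cocycle of `hh_repsT`. -/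
theorem hh_repsT_int (N ℓ : ℕ) (hℓ : ℓ.Prime) (hℓN : ¬ ℓ ∣ N) (i : Option (Fin ℓ))
    (γ : Gamma0 N) :
    hh_repTInt ℓ i * ((γ : SL(2, ℤ)) : Matrix (Fin 2) (Fin 2) ℤ) =
      ((((hh_repsT N ℓ hℓ hℓN).κ i γ : Gamma0 N) : SL(2, ℤ)) : Matrix (Fin 2) (Fin 2) ℤ) *
        hh_repTInt ℓ ((hh_repsT N ℓ hℓ hℓN).σ γ i) := by
  have h := (hh_repsT N ℓ hℓ hℓN).spec i γ
  have h1 : hh_IsInt ((hh_repsT N ℓ hℓ hℓN).α i * (hh_repsT N ℓ hℓ hℓN).incl γ)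
      (hh_repTInt ℓ i * ((γ : SL(2, ℤ)) : Matrix (Fin 2) (Fin 2) ℤ)) :=
    (hh_isInt_repT hℓ.ne_zero i).mul (hh_isInt_incl N γ)
  rw [h] at h1
  exact h1.inj ((hh_isInt_incl N _).mul (hh_isInt_repT hℓ.ne_zero _))

/-- The integer identity behind the cocycle of `hh_repsU`. -/
theorem hh_repsU_int (N ℓ : ℕ) (hℓ : ℓ.Prime) (hℓN : ℓ ∣ N) (i : Fin ℓ) (γ : Gamma0 N) :
    hh_mU ℓ i * ((γ : SL(2, ℤ)) : Matrix (Fin 2) (Fin 2) ℤ) =
      ((((hh_repsU N ℓ hℓ hℓN).κ i γ : Gamma0 N) : SL(2, ℤ)) : Matrix (Fin 2) (Fin 2) ℤ) *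
        hh_mU ℓ ((hh_repsU N ℓ hℓ hℓN).σ γ i) := by
  have h := (hh_repsU N ℓ hℓ hℓN).spec i γ
  have h1 : hh_IsInt ((hh_repsU N ℓ hℓ hℓN).α i * (hh_repsU N ℓ hℓ hℓN).incl γ)
      (hh_mU ℓ i * ((γ : SL(2, ℤ)) : Matrix (Fin 2) (Fin 2) ℤ)) :=
    (show hh_IsInt (heckeMatrix ℓ i) (hh_mU ℓ i) from hh_val_heckeMatrix hℓ.ne_zero i).mul
      (hh_isInt_incl N γ)
  rw [h] at h1
  exact h1.inj ((hh_isInt_incl N _).mul
    (show hh_IsInt (heckeMatrix ℓ _) (hh_mU ℓ _) from hh_val_heckeMatrix hℓ.ne_zero _))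

/-! ### The Hecke operators on `Hom(Γ₀(N), A)` -/

open Classical in
/-- The Hecke operator at the prime `ℓ` on `Hom(Γ₀(N), A)`: `T_ℓ` if `ℓ ∤ N`, `U_ℓ` if `ℓ ∣ N`
(and `0` if `ℓ` is not prime). -/
noncomputable def heckeHom (N ℓ : ℕ) (A : Type*) [AddCommGroup A] :
    (Additive (Gamma0 N) →+ A) →+ (Additive (Gamma0 N) →+ A) :=
  if hℓ : ℓ.Prime then
    if hℓN : ℓ ∣ N then (hh_repsU N ℓ hℓ hℓN).op A else (hh_repsT N ℓ hℓ hℓN).op A
  else 0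

theorem heckeHom_of_not_dvd {N ℓ : ℕ} (hℓ : ℓ.Prime) (hℓN : ¬ ℓ ∣ N) (A : Type*)
    [AddCommGroup A] : heckeHom N ℓ A = (hh_repsT N ℓ hℓ hℓN).op A := by
  rw [heckeHom, dif_pos hℓ, dif_neg hℓN]

theorem heckeHom_of_dvd {N ℓ : ℕ} (hℓ : ℓ.Prime) (hℓN : ℓ ∣ N) (A : Type*)
    [AddCommGroup A] : heckeHom N ℓ A = (hh_repsU N ℓ hℓ hℓN).op A := by
  rw [heckeHom, dif_pos hℓ, dif_pos hℓN]

/-- Functoriality of the Hecke operators in the coefficient group. -/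
theorem heckeHom_comp (N ℓ : ℕ) {A B : Type*} [AddCommGroup A] [AddCommGroup B] (g : A →+ B)
    (φ : Additive (Gamma0 N) →+ A) :
    heckeHom N ℓ B (g.comp φ) = g.comp (heckeHom N ℓ A φ) := by
  by_cases hℓ : ℓ.Prime
  · by_cases hℓN : ℓ ∣ N
    · rw [heckeHom_of_dvd hℓ hℓN, heckeHom_of_dvd hℓ hℓN, HeckeReps.op_comp]
    · rw [heckeHom_of_not_dvd hℓ hℓN, heckeHom_of_not_dvd hℓ hℓN, HeckeReps.op_comp]
  · simp [heckeHom, hℓ]


/-! ### Commutation with the involution `jConj` -/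

/-- `J = diag(1, -1)` as an integer matrix. -/
def hh_JInt : Matrix (Fin 2) (Fin 2) ℤ := !![1, 0; 0, -1]

/-- `J = diag(1, -1)` in `GL₂(ℝ)`. -/
noncomputable def hh_J : GL (Fin 2) ℝ :=
  Matrix.GeneralLinearGroup.mkOfDetNeZero !![(1 : ℝ), 0; 0, -1]
    (by simp [Matrix.det_fin_two_of])

theorem hh_isInt_J : hh_IsInt hh_J hh_JInt := by
  unfold hh_IsInt hh_J hh_JInt
  ext a b
  fin_cases a <;> fin_cases b <;> simp [Matrix.GeneralLinearGroup.mkOfDetNeZero]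

theorem hh_JInt_mul_JInt : hh_JInt * hh_JInt = 1 := by
  unfold hh_JInt
  ext a b
  fin_cases a <;> fin_cases b <;> simp [Matrix.mul_apply, Fin.sum_univ_two]

theorem hh_J_inv : hh_J⁻¹ = hh_J := by
  apply inv_eq_of_mul_eq_one_right
  refine (hh_isInt_J.mul hh_isInt_J).ext ?_
  rw [hh_JInt_mul_JInt]
  exact hh_IsInt.one

theorem hh_JInt_conj (M : Matrix (Fin 2) (Fin 2) ℤ) : hh_JInt * M * hh_JInt = jConjMat M := by
  obtain ⟨a, b, c, d, rfl⟩ : ∃ a b c d : ℤ, M = !![a, b; c, d] :=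
    ⟨M 0 0, M 0 1, M 1 0, M 1 1, Matrix.eta_fin_two M⟩
  unfold hh_JInt jConjMat
  ext x y
  fin_cases x <;> fin_cases y <;> simp [Matrix.mul_apply, Fin.sum_univ_two]

/-- `jConjGamma0` as a multiplicative equivalence. -/
def hh_jEquiv (N : ℕ) : Gamma0 N ≃* Gamma0 N :=
  MonoidHom.toMulEquiv (jConjGamma0 N) (jConjGamma0 N)
    (MonoidHom.ext fun γ => jConjGamma0_jConjGamma0 N γ)
    (MonoidHom.ext fun γ => jConjGamma0_jConjGamma0 N γ)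

theorem hh_jEquiv_toMonoidHom (N : ℕ) : (hh_jEquiv N).toMonoidHom = jConjGamma0 N := rfl

theorem hh_J_conj_incl (N : ℕ) (γ : Gamma0 N) :
    hh_J * hh_incl N γ * hh_J⁻¹ = hh_incl N (hh_jEquiv N γ) := by
  rw [hh_J_inv]
  refine ((hh_isInt_J.mul (hh_isInt_incl N γ)).mul hh_isInt_J).ext ?_
  rw [hh_JInt_conj]
  exact hh_isInt_incl N (hh_jEquiv N γ)

/-- The translation matrix `[[1, x], [0, 1]]` in `Γ₀(N)`. -/
def hh_trans (N : ℕ) (x : ℤ) : Gamma0 N :=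
  hh_mk N !![1, x; 0, 1] (by simp [Matrix.det_fin_two_of]) (by simp)

theorem hh_JInt_conj_mU {ℓ : ℕ} (hℓ : ℓ ≠ 0) (i : Fin ℓ) :
    ∃ (j : Fin ℓ) (x : ℤ), hh_JInt * hh_mU ℓ i * hh_JInt = !![1, x; 0, 1] * hh_mU ℓ j := by
  have hℓ0 : (0 : ℤ) < ℓ := by exact_mod_cast Nat.pos_of_ne_zero hℓ
  have h1 : 0 ≤ (-((i : ℕ) : ℤ)) % ℓ := Int.emod_nonneg _ hℓ0.ne'
  have h2 : (-((i : ℕ) : ℤ)) % ℓ < ℓ := Int.emod_lt_of_pos _ hℓ0
  refine ⟨⟨((-((i : ℕ) : ℤ)) % ℓ).toNat, by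
    have := Int.toNat_of_nonneg h1
    omega⟩, (-((i : ℕ) : ℤ)) / ℓ, ?_⟩
  have h3 := Int.mul_ediv_add_emod (-((i : ℕ) : ℤ)) ℓ
  have h4 : (((-((i : ℕ) : ℤ)) % ℓ).toNat : ℤ) = (-((i : ℕ) : ℤ)) % ℓ := Int.toNat_of_nonneg h1
  unfold hh_JInt hh_mU
  ext a b
  fin_cases a <;> fin_cases b <;> simp [Matrix.mul_apply, Fin.sum_univ_two]
  rw [max_eq_left h1]
  linarith

theorem hh_JInt_conj_mD (ℓ : ℕ) : hh_JInt * hh_mD ℓ * hh_JInt = !![1, 0; 0, 1] * hh_mD ℓ := by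
  unfold hh_JInt hh_mD
  ext a b
  fin_cases a <;> fin_cases b <;> simp [Matrix.mul_apply, Fin.sum_univ_two]

theorem hh_isInt_trans (N : ℕ) (x : ℤ) : hh_IsInt (hh_incl N (hh_trans N x)) !![1, x; 0, 1] :=
  hh_isInt_incl N (hh_trans N x)

/-- The Hecke operators commute with composition with `jConjGamma0`. -/
theorem heckeHom_comp_jConj (N ℓ : ℕ) {A : Type*} [AddCommGroup A]
    (φ : Additive (Gamma0 N) →+ A) :
    heckeHom N ℓ A (φ.comp (MonoidHom.toAdditive (jConjGamma0 N))) =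
      (heckeHom N ℓ A φ).comp (MonoidHom.toAdditive (jConjGamma0 N)) := by
  by_cases hℓ : ℓ.Prime
  · by_cases hℓN : ℓ ∣ N
    · rw [heckeHom_of_dvd hℓ hℓN, ← hh_jEquiv_toMonoidHom]
      refine HeckeReps.op_conj (hh_repsU N ℓ hℓ hℓN) (hh_jEquiv N) hh_J (hh_J_conj_incl N) ?_ φ
      intro i
      obtain ⟨j, x, h⟩ := hh_JInt_conj_mU hℓ.ne_zero i
      refine ⟨j, hh_trans N x, ?_⟩
      rw [hh_J_inv]
      have hi : hh_IsInt (heckeMatrix ℓ i) (hh_mU ℓ i) := hh_val_heckeMatrix hℓ.ne_zero i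
      have hj : hh_IsInt (heckeMatrix ℓ j) (hh_mU ℓ j) := hh_val_heckeMatrix hℓ.ne_zero j
      refine ((hh_isInt_J.mul hi).mul hh_isInt_J).ext ?_
      rw [h]
      exact (hh_isInt_trans N x).mul hj
    · rw [heckeHom_of_not_dvd hℓ hℓN, ← hh_jEquiv_toMonoidHom]
      refine HeckeReps.op_conj (hh_repsT N ℓ hℓ hℓN) (hh_jEquiv N) hh_J (hh_J_conj_incl N) ?_ φ
      intro i
      rw [hh_J_inv]
      rcases i with _ | i
      · refine ⟨none, hh_trans N 0, ?_⟩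
        refine ((hh_isInt_J.mul (hh_isInt_repT hℓ.ne_zero none)).mul hh_isInt_J).ext ?_
        have h := hh_JInt_conj_mD ℓ
        simp only [hh_repTInt]
        rw [h]
        exact (hh_isInt_trans N 0).mul (hh_isInt_repT hℓ.ne_zero none)
      · obtain ⟨j, x, h⟩ := hh_JInt_conj_mU hℓ.ne_zero i
        refine ⟨some j, hh_trans N x, ?_⟩
        refine ((hh_isInt_J.mul (hh_isInt_repT hℓ.ne_zero (some i))).mul hh_isInt_J).ext ?_
        simp only [hh_repTInt]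
        rw [h]
        exact (hh_isInt_trans N x).mul (hh_isInt_repT hℓ.ne_zero (some j))
  · simp only [heckeHom, dif_neg hℓ, AddMonoidHom.zero_apply]
    rfl

/-- The Hecke operators commute with the involution `charInvolution` of the Prelude. -/
theorem heckeHom_charInvolution (N ℓ : ℕ) (R : Type*) [Semiring R] {A : Type*} [AddCommGroup A]
    [Module R A] (φ : Additive (Gamma0 N) →+ A) :
    heckeHom N ℓ A (charInvolution N R A φ) = charInvolution N R A (heckeHom N ℓ A φ) :=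
  heckeHom_comp_jConj N ℓ φ


/-! ### The Shimura homomorphism and its Hecke eigenvalues -/

/-- The homomorphism `γ ↦ θ (d(γ) mod N)` on `Γ₀(N)`. -/
noncomputable def shimuraHom (N : ℕ) {A : Type*} [AddCommGroup A]
    (θ : (ZMod N)ˣ →* Multiplicative A) : Additive (Gamma0 N) →+ A :=
  MonoidHom.toAdditiveLeft (θ.comp (Gamma0Map N).toHomUnits)

theorem shimuraHom_apply (N : ℕ) {A : Type*} [AddCommGroup A]
    (θ : (ZMod N)ˣ →* Multiplicative A) (γ : Gamma0 N) :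
    shimuraHom N θ (Additive.ofMul γ) = (θ ((Gamma0Map N).toHomUnits γ)).toAdd := rfl

theorem hh_coe_toHomUnits (N : ℕ) (γ : Gamma0 N) :
    (((Gamma0Map N).toHomUnits γ : (ZMod N)ˣ) : ZMod N) =
      ((((γ : SL(2, ℤ)) : Matrix (Fin 2) (Fin 2) ℤ) 1 1 : ℤ) : ZMod N) := rfl

/-- If `d(κ) e₂ = e₁ d(γ)` in `ZMod N` then `φ(κ) = φ(γ) + t(e₁) - t(e₂)`. -/
theorem hh_shimura_rel (N : ℕ) {A : Type*} [AddCommGroup A] (θ : (ZMod N)ˣ →* Multiplicative A)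
    (γ k : Gamma0 N) (e₁ e₂ : (ZMod N)ˣ)
    (h : ((((k : SL(2, ℤ)) : Matrix (Fin 2) (Fin 2) ℤ) 1 1 : ℤ) : ZMod N) * (e₂ : ZMod N) =
      (e₁ : ZMod N) * ((((γ : SL(2, ℤ)) : Matrix (Fin 2) (Fin 2) ℤ) 1 1 : ℤ) : ZMod N)) :
    shimuraHom N θ (Additive.ofMul k) =
      shimuraHom N θ (Additive.ofMul γ) + ((θ e₁).toAdd - (θ e₂).toAdd) := by
  have h1 : (Gamma0Map N).toHomUnits k * e₂ = e₁ * (Gamma0Map N).toHomUnits γ := by
    apply Units.ext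
    rw [Units.val_mul, Units.val_mul, hh_coe_toHomUnits, hh_coe_toHomUnits]
    exact h
  have h2 : (Gamma0Map N).toHomUnits k = e₁ * (Gamma0Map N).toHomUnits γ * e₂⁻¹ := by
    rw [← h1, mul_inv_cancel_right]
  rw [shimuraHom_apply, shimuraHom_apply, h2, θ.map_mul, θ.map_mul, map_inv θ, toAdd_mul,
    toAdd_mul, toAdd_inv]
  abel

/-- The lower-right entries of the `T_ℓ` representatives, as units mod `N`. -/
def hh_DT (N ℓ : ℕ) (h : Nat.Coprime ℓ N) : Option (Fin ℓ) → (ZMod N)ˣ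
  | none => 1
  | some _ => ZMod.unitOfCoprime ℓ h

theorem hh_DT_coe (N ℓ : ℕ) (h : Nat.Coprime ℓ N) (i : Option (Fin ℓ)) :
    ((hh_DT N ℓ h i : (ZMod N)ˣ) : ZMod N) = ((hh_repTInt ℓ i 1 1 : ℤ) : ZMod N) := by
  rcases i with _ | j
  · simp [hh_DT, hh_repTInt, hh_mD]
  · simp [hh_DT, hh_repTInt, hh_mU]

/-- `T_ℓ` acts on the Shimura homomorphism through the Eisenstein eigenvalue `ℓ + 1`. -/
theorem heckeHom_shimuraHom_T {N ℓ : ℕ} (hℓ : ℓ.Prime) (hℓN : ¬ ℓ ∣ N) {A : Type*}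
    [AddCommGroup A] (θ : (ZMod N)ˣ →* Multiplicative A) :
    heckeHom N ℓ A (shimuraHom N θ) = (ℓ + 1) • shimuraHom N θ := by
  have hcop : Nat.Coprime ℓ N := (Nat.Prime.coprime_iff_not_dvd hℓ).mpr hℓN
  rw [heckeHom_of_not_dvd hℓ hℓN]
  refine AddMonoidHom.ext fun γ => ?_
  obtain ⟨γ, rfl⟩ := Additive.ofMul.surjective γ
  rw [HeckeReps.op_apply]
  set R := hh_repsT N ℓ hℓ hℓN with hR
  have key : ∀ i : Option (Fin ℓ), shimuraHom N θ (Additive.ofMul (R.κ i γ)) =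
      shimuraHom N θ (Additive.ofMul γ) +
        ((θ (hh_DT N ℓ hcop i)).toAdd - (θ (hh_DT N ℓ hcop (R.σ γ i))).toAdd) := by
    intro i
    apply hh_shimura_rel
    rw [hh_DT_coe, hh_DT_coe]
    have h := hh_repsT_int N ℓ hℓ hℓN i γ
    have h11 := congrFun (congrFun h 1) 1
    rw [Matrix.mul_apply, Matrix.mul_apply, Fin.sum_univ_two, Fin.sum_univ_two] at h11
    have h0 : hh_repTInt ℓ i 1 0 = 0 := by
      rcases i with _ | j <;> simp [hh_repTInt, hh_mD, hh_mU]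
    have hk : (((((R.κ i γ : Gamma0 N) : SL(2, ℤ)) : Matrix (Fin 2) (Fin 2) ℤ) 1 0 : ℤ) :
        ZMod N) = 0 := Gamma0_mem.mp (R.κ i γ).2
    have h2 := congrArg (fun x : ℤ => (x : ZMod N)) h11
    simp only [h0, zero_mul, zero_add, Int.cast_add, Int.cast_mul] at h2
    rw [hk, zero_mul, zero_add] at h2
    exact h2.symm
  rw [Finset.sum_congr rfl (fun i _ => key i), Finset.sum_add_distrib, Finset.sum_sub_distrib]
  have e3 : ∑ i, (θ (hh_DT N ℓ hcop (R.σ γ i))).toAdd = ∑ i, (θ (hh_DT N ℓ hcop i)).toAdd :=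
    Equiv.sum_comp (R.σEquiv γ) (fun j => (θ (hh_DT N ℓ hcop j)).toAdd)
  rw [e3, sub_self, add_zero, Finset.sum_const, Finset.card_univ, Fintype.card_option,
    Fintype.card_fin]
  rfl

theorem hh_a_mul_d (N : ℕ) (γ : Gamma0 N) :
    ((((γ : SL(2, ℤ)) : Matrix (Fin 2) (Fin 2) ℤ) 0 0 : ℤ) : ZMod N) *
      ((((γ : SL(2, ℤ)) : Matrix (Fin 2) (Fin 2) ℤ) 1 1 : ℤ) : ZMod N) = 1 := by
  have hdet := (γ : SL(2, ℤ)).2
  rw [Matrix.det_fin_two] at hdet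
  have hc : ((((γ : SL(2, ℤ)) : Matrix (Fin 2) (Fin 2) ℤ) 1 0 : ℤ) : ZMod N) = 0 :=
    Gamma0_mem.mp γ.2
  have h2 := congrArg (fun x : ℤ => (x : ZMod N)) hdet
  simp only [Int.cast_sub, Int.cast_mul, Int.cast_one] at h2
  rw [hc, mul_zero, sub_zero] at h2
  exact h2

/-- `U_ℓ` (`ℓ ∣ N`) multiplies the Shimura homomorphism by `ℓ`. -/
theorem heckeHom_shimuraHom_U {N ℓ : ℕ} (hℓ : ℓ.Prime) (hℓN : ℓ ∣ N) {A : Type*}
    [AddCommGroup A] (θ : (ZMod N)ˣ →* Multiplicative A) :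
    heckeHom N ℓ A (shimuraHom N θ) = ℓ • shimuraHom N θ := by
  rw [heckeHom_of_dvd hℓ hℓN]
  refine AddMonoidHom.ext fun γ => ?_
  obtain ⟨γ, rfl⟩ := Additive.ofMul.surjective γ
  rw [HeckeReps.op_apply]
  set R := hh_repsU N ℓ hℓ hℓN with hR
  have key : ∀ i : Fin ℓ, shimuraHom N θ (Additive.ofMul (R.κ i γ)) =
      shimuraHom N θ (Additive.ofMul γ) := by
    intro i
    have h := hh_shimura_rel N θ γ (R.κ i γ) 1 1 ?_
    · rw [h, sub_self, add_zero]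
    rw [Units.val_one, mul_one, one_mul]
    have h := hh_repsU_int N ℓ hℓ hℓN i γ
    have h00 := congrFun (congrFun h 0) 0
    rw [Matrix.mul_apply, Matrix.mul_apply, Fin.sum_univ_two, Fin.sum_univ_two] at h00
    have hc : ((((γ : SL(2, ℤ)) : Matrix (Fin 2) (Fin 2) ℤ) 1 0 : ℤ) : ZMod N) = 0 :=
      Gamma0_mem.mp γ.2
    have h2 := congrArg (fun x : ℤ => (x : ZMod N)) h00
    simp only [hh_mU, Matrix.of_apply, Matrix.cons_val', Matrix.cons_val_zero,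
      Matrix.cons_val_one, Matrix.cons_val_fin_one, Int.cast_add, Int.cast_mul,
      one_mul, mul_one, mul_zero, add_zero] at h2
    rw [hc, mul_zero, add_zero] at h2
    -- h2 : a(γ) = a(κ)
    have h3 := hh_a_mul_d N γ
    have h4 := hh_a_mul_d N (R.κ i γ)
    rw [← h2] at h4
    calc ((((R.κ i γ : Gamma0 N) : SL(2, ℤ)) : Matrix (Fin 2) (Fin 2) ℤ) 1 1 : ZMod N)
        = (((((γ : SL(2, ℤ)) : Matrix (Fin 2) (Fin 2) ℤ) 0 0 : ℤ) : ZMod N) *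
            ((((γ : SL(2, ℤ)) : Matrix (Fin 2) (Fin 2) ℤ) 1 1 : ℤ) : ZMod N)) *
            ((((R.κ i γ : Gamma0 N) : SL(2, ℤ)) : Matrix (Fin 2) (Fin 2) ℤ) 1 1 : ZMod N) := by
          rw [h3, one_mul]
      _ = ((((γ : SL(2, ℤ)) : Matrix (Fin 2) (Fin 2) ℤ) 1 1 : ℤ) : ZMod N) := by
          rw [mul_comm (((((γ : SL(2, ℤ)) : Matrix (Fin 2) (Fin 2) ℤ) 0 0 : ℤ) : ZMod N)),
            mul_assoc, h4, mul_one]
  rw [Finset.sum_congr rfl (fun i _ => key i), Finset.sum_const, Finset.card_univ,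
    Fintype.card_fin]
  rfl

end Fermat.Agent.S16
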