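/-
S16 / lower bound, L-coh (helper2).  The period map of level `N` intertwines the Hecke operators
`T_ℓ` (`ℓ ∤ N`), `U_ℓ` (`ℓ ∣ N`) on weight-2 cusp forms with the transfer operators `heckeHom`
on `Hom(Γ₀(N), ℂ)`.  Primitive of `T_ℓ f`: `∑ i, F (α i • z)` for the canonical primitive `F`
of `f`; the periods telescope (`HeckeReps.op_period`).
-/
import Mathlib
import Fermat.Prelude.Def_ModularForm_HeckeOperatorForms
import Fermat.Agent.S21.Lin
import Fermat.Agent.S16.HeckeGamma0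

set_option autoImplicit false

open UpperHalfPlane CongruenceSubgroup Filter Topology ModularCurve ModularCurve.Period ModularForm
open scoped MatrixGroups

namespace Fermat.Agent.S16

open Fermat.Agent.S21

/-- Derivative of `z ↦ F ((z + j) / ℓ)`. -/
theorem hh_hasDerivAt_heckeMatrix {F f : ℍ → ℂ}
    (hF : ∀ σ : ℍ, HasDerivAt (F ∘ ofComplex) (f σ) ↑σ) {ℓ : ℕ} (hℓ : ℓ ≠ 0) (j : ℕ) (τ : ℍ) :
    HasDerivAt ((fun z : ℍ => F (heckeMatrix ℓ j • z)) ∘ ofComplex)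
      ((ℓ : ℂ)⁻¹ * f (heckeMatrix ℓ j • τ)) ↑τ := by
  have hℓ' : (ℓ : ℂ) ≠ 0 := by exact_mod_cast hℓ
  have hg : HasDerivAt (fun w : ℂ => (w + j) / ℓ) ((ℓ : ℂ)⁻¹) (τ : ℂ) := by
    have h1 : HasDerivAt (fun w : ℂ => w + (j : ℂ)) 1 (τ : ℂ) := (hasDerivAt_id _).add_const _
    have h2 := h1.div_const (ℓ : ℂ)
    simpa using h2
  have hσ : HasDerivAt (F ∘ ofComplex) (f (heckeMatrix ℓ j • τ)) (((τ : ℂ) + j) / ℓ) := by
    have := hF (heckeMatrix ℓ j • τ)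
    rwa [coe_heckeMatrix_smul hℓ] at this
  have hcomp := HasDerivAt.comp (τ : ℂ) hσ hg
  rw [mul_comm] at hcomp
  refine hcomp.congr_of_eventuallyEq ?_
  have hopen : {w : ℂ | 0 < w.im} ∈ 𝓝 (τ : ℂ) :=
    isOpen_upperHalfPlaneSet.mem_nhds τ.im_pos
  filter_upwards [hopen] with w hw
  simp only [Function.comp_apply]
  rw [ofComplex_apply_of_im_pos hw]
  have h3 := coe_heckeMatrix_smul hℓ j ⟨w, hw⟩
  rw [← h3, ofComplex_apply]

/-- Derivative of `z ↦ F (ℓ z)`. -/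
theorem hh_hasDerivAt_heckeDiagMatrix {F f : ℍ → ℂ}
    (hF : ∀ σ : ℍ, HasDerivAt (F ∘ ofComplex) (f σ) ↑σ) {ℓ : ℕ} (hℓ : ℓ ≠ 0) (τ : ℍ) :
    HasDerivAt ((fun z : ℍ => F (heckeDiagMatrix ℓ • z)) ∘ ofComplex)
      ((ℓ : ℂ) * f (heckeDiagMatrix ℓ • τ)) ↑τ := by
  have hg : HasDerivAt (fun w : ℂ => (ℓ : ℂ) * w) (ℓ : ℂ) (τ : ℂ) := by
    simpa using (hasDerivAt_id (τ : ℂ)).const_mul (ℓ : ℂ)
  have hσ : HasDerivAt (F ∘ ofComplex) (f (heckeDiagMatrix ℓ • τ)) ((ℓ : ℂ) * (τ : ℂ)) := by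
    have := hF (heckeDiagMatrix ℓ • τ)
    rwa [coe_heckeDiagMatrix_smul hℓ] at this
  have hcomp := HasDerivAt.comp (τ : ℂ) hσ hg
  rw [mul_comm] at hcomp
  refine hcomp.congr_of_eventuallyEq ?_
  have hopen : {w : ℂ | 0 < w.im} ∈ 𝓝 (τ : ℂ) :=
    isOpen_upperHalfPlaneSet.mem_nhds τ.im_pos
  filter_upwards [hopen] with w hw
  simp only [Function.comp_apply]
  rw [ofComplex_apply_of_im_pos hw]
  have h3 := coe_heckeDiagMatrix_smul hℓ ⟨w, hw⟩
  rw [← h3, ofComplex_apply]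

theorem hh_tendsto_heckeMatrix {F : ℍ → ℂ} (hF : Tendsto F atImInfty (𝓝 0)) {ℓ : ℕ}
    (hℓ : ℓ ≠ 0) (j : ℕ) : Tendsto (fun z : ℍ => F (heckeMatrix ℓ j • z)) atImInfty (𝓝 0) := by
  refine hF.comp ?_
  rw [atImInfty, tendsto_comap_iff]
  have him : ∀ z : ℍ, (heckeMatrix ℓ j • z).im = z.im / ℓ := by
    intro z
    have h := congrArg Complex.im (coe_heckeMatrix_smul hℓ j z)
    rw [UpperHalfPlane.coe_im] at h
    rw [h]
    have : (((z : ℂ) + (j : ℂ)) / (ℓ : ℂ)) = (((ℓ : ℝ)⁻¹ : ℝ) : ℂ) * ((z : ℂ) + (j : ℂ)) := by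
      push_cast; field_simp
    rw [this, Complex.im_ofReal_mul]
    simp [div_eq_inv_mul]
  have hpos : (0 : ℝ) < ℓ := by exact_mod_cast Nat.pos_of_ne_zero hℓ
  have h1 : Tendsto (fun z : ℍ => z.im / (ℓ : ℝ)) atImInfty atTop :=
    Tendsto.atTop_div_const hpos tendsto_comap
  refine h1.congr fun z => ?_
  simp only [Function.comp_apply]
  rw [him]

theorem hh_tendsto_heckeDiagMatrix {F : ℍ → ℂ} (hF : Tendsto F atImInfty (𝓝 0)) {ℓ : ℕ}
    (hℓ : ℓ ≠ 0) : Tendsto (fun z : ℍ => F (heckeDiagMatrix ℓ • z)) atImInfty (𝓝 0) := by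
  refine hF.comp ?_
  rw [atImInfty, tendsto_comap_iff]
  have him : ∀ z : ℍ, (heckeDiagMatrix ℓ • z).im = ℓ * z.im := by
    intro z
    have h := congrArg Complex.im (coe_heckeDiagMatrix_smul hℓ z)
    rw [UpperHalfPlane.coe_im] at h
    rw [h]
    have : ((ℓ : ℂ) * (z : ℂ)) = ((ℓ : ℝ) : ℂ) * (z : ℂ) := by push_cast; rfl
    rw [this, Complex.im_ofReal_mul]
    simp
  have hpos : (0 : ℝ) < ℓ := by exact_mod_cast Nat.pos_of_ne_zero hℓ
  have h1 : Tendsto (fun z : ℍ => (ℓ : ℝ) * z.im) atImInfty atTop :=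
    Tendsto.const_mul_atTop hpos tendsto_comap
  refine h1.congr fun z => ?_
  simp only [Function.comp_apply]
  rw [him]

variable {N : ℕ} [NeZero N]

/-- A function with the derivative of `g` and vanishing at `i∞` is the canonical primitive
of `g`. -/
theorem hh_eq_prim {g : CuspForm (Gamma0 N) 2} {G : ℍ → ℂ}
    (hder : ∀ τ : ℍ, HasDerivAt (G ∘ ofComplex) (g τ) ↑τ)
    (hlim : Tendsto G atImInfty (𝓝 0)) : G = prim N g := by
  have hD : ∀ τ : ℍ, HasDerivAt ((fun z => G z - prim N g z) ∘ ofComplex) 0 ↑τ := by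
    intro τ
    have h := (hder τ).sub (prim_hasDerivAt g τ)
    rw [sub_self] at h
    exact h
  have hlim' : Tendsto (fun z => G z - prim N g z) atImInfty (𝓝 0) := by
    simpa using hlim.sub (prim_spec g).2.1
  funext z
  have hconst : (fun w : ℍ => G w - prim N g w) = fun _ => G z - prim N g z := by
    funext w
    exact lin_const_of_hasDerivAt_zero (D := fun z => G z - prim N g z) hD w z
  rw [hconst] at hlim'
  have := tendsto_nhds_unique hlim' tendsto_const_nhds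
  exact sub_eq_zero.mp this.symm

/-- The canonical primitive of `T_ℓ f`. -/
theorem hh_prim_heckeT {ℓ : ℕ} (hℓ : ℓ.Prime) (hℓN : ¬ ℓ ∣ N) (f : CuspForm (Gamma0 N) 2) :
    (fun z : ℍ => ∑ i : Option (Fin ℓ), prim N f (hh_repT ℓ i • z)) =
      prim N (CuspForm.heckeTLin 2 hℓ hℓN f) := by
  have hℓ0 : ℓ ≠ 0 := hℓ.ne_zero
  apply hh_eq_prim
  · intro τ
    have hsum : HasDerivAt (fun w : ℂ => ∑ i : Option (Fin ℓ),
        ((fun z : ℍ => prim N f (hh_repT ℓ i • z)) ∘ ofComplex) w)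
        (∑ i : Option (Fin ℓ), (match i with
          | none => (ℓ : ℂ) * f (heckeDiagMatrix ℓ • τ)
          | some j => (ℓ : ℂ)⁻¹ * f (heckeMatrix ℓ j • τ))) ↑τ := by
      refine HasDerivAt.fun_sum fun i _ => ?_
      rcases i with _ | j
      · exact hh_hasDerivAt_heckeDiagMatrix (prim_hasDerivAt f) hℓ0 τ
      · exact hh_hasDerivAt_heckeMatrix (prim_hasDerivAt f) hℓ0 j τ
    have hval : (CuspForm.heckeTLin 2 hℓ hℓN f) τ = ∑ i : Option (Fin ℓ), (match i with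
          | none => (ℓ : ℂ) * f (heckeDiagMatrix ℓ • τ)
          | some j => (ℓ : ℂ)⁻¹ * f (heckeMatrix ℓ j • τ)) := by
      rw [CuspForm.heckeTLin_apply_apply, heckeT_apply 2 hℓ0, Fintype.sum_option,
        ← Finset.mul_sum, Fin.sum_univ_eq_sum_range (fun j => f (heckeMatrix ℓ j • τ)) ℓ]
      norm_num
      ring
    rw [hval]
    exact hsum
  · have h0 : Tendsto (fun z : ℍ => ∑ i : Option (Fin ℓ), prim N f (hh_repT ℓ i • z)) atImInfty
        (𝓝 (∑ _i : Option (Fin ℓ), (0 : ℂ))) := by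
      refine tendsto_finsetSum _ fun i _ => ?_
      rcases i with _ | j
      · exact hh_tendsto_heckeDiagMatrix (prim_spec f).2.1 hℓ0
      · exact hh_tendsto_heckeMatrix (prim_spec f).2.1 hℓ0 j
    simpa using h0

/-- The canonical primitive of `U_ℓ f`. -/
theorem hh_prim_heckeU {ℓ : ℕ} (hℓ : ℓ.Prime) (hℓN : ℓ ∣ N) (f : CuspForm (Gamma0 N) 2) :
    (fun z : ℍ => ∑ i : Fin ℓ, prim N f (heckeMatrix ℓ i • z)) =
      prim N (CuspForm.heckeULin 2 hℓN f) := by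
  have hℓ0 : ℓ ≠ 0 := hℓ.ne_zero
  apply hh_eq_prim
  · intro τ
    have hsum : HasDerivAt (fun w : ℂ => ∑ i : Fin ℓ,
        ((fun z : ℍ => prim N f (heckeMatrix ℓ i • z)) ∘ ofComplex) w)
        (∑ i : Fin ℓ, (ℓ : ℂ)⁻¹ * f (heckeMatrix ℓ i • τ)) ↑τ :=
      HasDerivAt.fun_sum fun i _ => hh_hasDerivAt_heckeMatrix (prim_hasDerivAt f) hℓ0 i τ
    have hval : (CuspForm.heckeULin 2 hℓN f) τ =
        ∑ i : Fin ℓ, (ℓ : ℂ)⁻¹ * f (heckeMatrix ℓ i • τ) := by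
      rw [CuspForm.heckeULin_apply_apply, heckeU_apply 2 hℓ0,
        ← Finset.mul_sum, Fin.sum_univ_eq_sum_range (fun j => f (heckeMatrix ℓ j • τ)) ℓ]
    rw [hval]
    exact hsum
  · have h0 : Tendsto (fun z : ℍ => ∑ i : Fin ℓ, prim N f (heckeMatrix ℓ i • z)) atImInfty
        (𝓝 (∑ _i : Fin ℓ, (0 : ℂ))) :=
      tendsto_finsetSum _ fun i _ => hh_tendsto_heckeMatrix (prim_spec f).2.1 hℓ0 i
    simpa using h0

/-- The period map intertwines `T_ℓ` with `heckeHom`. -/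
theorem heckeHom_periodMap_T {ℓ : ℕ} (hℓ : ℓ.Prime) (hℓN : ¬ ℓ ∣ N)
    (f : CuspForm (Gamma0 N) 2) :
    heckeHom N ℓ ℂ (periodMap N f) = periodMap N (CuspForm.heckeTLin 2 hℓ hℓN f) := by
  rw [heckeHom_of_not_dvd hℓ hℓN]
  refine AddMonoidHom.ext fun γ => ?_
  obtain ⟨γ, rfl⟩ := Additive.ofMul.surjective γ
  have h := HeckeReps.op_period (hh_repsT N ℓ hℓ hℓN) (prim N f) (periodMap N f)
    (fun γ z => prim_smul_sub f γ z) γ UpperHalfPlane.I
  rw [← h, ← prim_smul_sub (CuspForm.heckeTLin 2 hℓ hℓN f) γ UpperHalfPlane.I,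
    ← hh_prim_heckeT hℓ hℓN f]
  rfl

/-- The period map intertwines `U_ℓ` with `heckeHom`. -/
theorem heckeHom_periodMap_U {ℓ : ℕ} (hℓ : ℓ.Prime) (hℓN : ℓ ∣ N)
    (f : CuspForm (Gamma0 N) 2) :
    heckeHom N ℓ ℂ (periodMap N f) = periodMap N (CuspForm.heckeULin 2 hℓN f) := by
  rw [heckeHom_of_dvd hℓ hℓN]
  refine AddMonoidHom.ext fun γ => ?_
  obtain ⟨γ, rfl⟩ := Additive.ofMul.surjective γ
  have h := HeckeReps.op_period (hh_repsU N ℓ hℓ hℓN) (prim N f) (periodMap N f)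
    (fun γ z => prim_smul_sub f γ z) γ UpperHalfPlane.I
  rw [← h, ← prim_smul_sub (CuspForm.heckeULin 2 hℓN f) γ UpperHalfPlane.I,
    ← hh_prim_heckeU hℓ hℓN f]
  rfl

end Fermat.Agent.S16
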