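/-
S16 (Eisenstein ideal index) — U-KEY, small levels, S20-free variant (helper56; spare for helper50 KeySmall.lean).

For `p = 2, 3` the space `S₂(Γ₀(p))` is zero (Sturm bound `2·(p+1)/12 = 0`), so the key
hypothesis `hkey` of `exists_relation_of_key` holds trivially: a cusp form `δ` with
`a₁(δ) ≡ σ'(1) = 1 (mod M)` forces `M = 1`.

* `h56_cuspForm_eq_zero_of_lt_five` : `p < 5` prime ⟹ every `f ∈ S₂(Γ₀(p))` is `0`.
* `h56_hkey_of_cuspForm_eq_zero`   : `S₂(Γ₀(p)) = 0` ⟹ `hkey` (any `n`).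
* `h56_hkey_of_lt_five`            : `p < 5` prime ⟹ `hkey` (any `n`).
-/
import Fermat.Agent.S16.SigmaP
import Fermat.Agent.Lib.Gamma0Cosets
import Fermat.Prelude.Thm_ModularForm_sturm_bound_Gamma0

set_option autoImplicit false
open ModularCurve CuspForm ModularFormClass CongruenceSubgroup

namespace Fermat.Agent.S16

open scoped MatrixGroups

/-- The index of `Γ₀(p)` in `SL(2, ℤ)` is `p + 1` for a prime `p`. -/
theorem h56_index_Gamma0_prime (p : ℕ) (hp : p.Prime) : (Gamma0 p).index = p + 1 := by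
  have : NeZero p := ⟨hp.ne_zero⟩
  have h1 : (Gamma0 p).index = Nat.card (SL(2, ℤ) ⧸ Gamma0 p) := rfl
  rw [h1, Fermat.Agent.Lib.card_quotient_Gamma0 p]
  have h2 := Fermat.Agent.Lib.G0C.dedekindPsi_prime_pow hp (e := 1) one_pos
  simpa using h2

/-- `S₂(Γ₀(p)) = 0` for the primes `p = 2, 3` (Sturm bound `2·(p+1)/12 = 0`). -/
theorem h56_cuspForm_eq_zero_of_lt_five (p : ℕ) [Fact p.Prime] (hp : p < 5)
    (f : CuspForm (Gamma0 p) 2) : f = 0 := by
  have hpp : p.Prime := Fact.out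
  have : NeZero p := ⟨hpp.ne_zero⟩
  have hF : (f : ModularForm (Gamma0 p) 2) = 0 := by
    apply ModularForm.sturm_bound_Gamma0 p
    intro n hn
    have hidx := h56_index_Gamma0_prime p hpp
    have hn0 : n = 0 := by
      rw [hidx] at hn
      have : (2 * ((p + 1 : ℕ) : ℤ)).toNat / 12 = 0 := by
        omega
      omega
    subst hn0
    exact CuspFormClass.qExpansion_coeff_zero f one_pos
      (CongruenceSubgroup.one_mem_strictPeriods_Gamma0 p)
  ext z
  have := DFunLike.congr_fun hF z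
  simpa using this

/-- If `S₂(Γ₀(p)) = 0`, the key hypothesis of `exists_relation_of_key` holds for every `n`:
`δ = 0` and `σ'(1) = 1` force `M = 1`. -/
theorem h56_hkey_of_cuspForm_eq_zero (p : ℕ) [Fact p.Prime]
    (h0 : ∀ f : CuspForm (Gamma0 p) 2, f = 0) (n : ℕ) :
    ∀ (M : ℕ) (δ : CuspForm (Gamma0 p) 2), (∀ k, ∃ z : ℤ, qCoeff ⇑δ k = z) →
      (∀ k, 0 < k → ∃ z : ℤ, qCoeff ⇑δ k = (sigmaP p k : ℂ) + M * z) → M ∣ n := by
  intro M δ _ hcong
  have hpp : p.Prime := Fact.out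
  obtain ⟨z, hz⟩ := hcong 1 one_pos
  have hδ : qCoeff ⇑δ 1 = 0 := by
    rw [h0 δ]
    have h := h10_qCoeff_zsmul (N := p) 0 (0 : CuspForm (Gamma0 p) 2) 1
    rw [zero_smul] at h
    rw [h]; simp
  rw [hδ, sigmaP_one p hpp] at hz
  have hz' : (1 : ℤ) + (M : ℤ) * z = 0 := by
    have : (((1 : ℤ) + (M : ℤ) * z : ℤ) : ℂ) = 0 := by
      push_cast
      simpa using hz.symm
    exact_mod_cast this
  have hM1 : (M : ℤ) ∣ 1 := ⟨-z, by linarith⟩
  have hM : M = 1 := by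
    have := Int.natAbs_dvd_natAbs.mpr hM1
    simpa using this
  rw [hM]
  exact one_dvd n

/-- The key hypothesis of `exists_relation_of_key` for the small primes `p = 2, 3`. -/
theorem h56_hkey_of_lt_five (p : ℕ) [Fact p.Prime] (hp : p < 5) (n : ℕ) :
    ∀ (M : ℕ) (δ : CuspForm (Gamma0 p) 2), (∀ k, ∃ z : ℤ, qCoeff ⇑δ k = z) →
      (∀ k, 0 < k → ∃ z : ℤ, qCoeff ⇑δ k = (sigmaP p k : ℂ) + M * z) → M ∣ n :=
  h56_hkey_of_cuspForm_eq_zero p (h56_cuspForm_eq_zero_of_lt_five p hp) n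

end Fermat.Agent.S16
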