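import Mathlib
import Fermat.Prelude.Def_ModularCurve_ModularUnit
import Fermat.Prelude.Def_ModularCurve_PeriodMap

/-!
# S16: the Shimura character of `Γ₀(p)`

`shimuraChar p : Additive (Gamma0 p) →+ ZMod n`, `n = eisensteinNumerator p = (p-1)/gcd(p-1,12)`:
the lower right entry mod `p`, followed by a fixed surjection `(ZMod p)ˣ → ZMod n`.
It is surjective, parabolic and vanishes on every `γ` whose lower right entry `d` satisfies
`d ^ 12 = 1` mod `p` (in particular on elliptic elements).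
-/

set_option autoImplicit false

open ModularCurve CongruenceSubgroup
open scoped MatrixGroups

namespace Fermat.Agent.S16

theorem ch_eisensteinNumerator_pos (p : ℕ) [hp : Fact p.Prime] : 0 < eisensteinNumerator p := by
  unfold eisensteinNumerator
  have h1 : 0 < p - 1 := by have := hp.out.two_le; omega
  exact Nat.div_pos (Nat.le_of_dvd h1 (Nat.gcd_dvd_left _ _)) (Nat.gcd_pos_of_pos_left _ h1)

instance ch_neZero_eisensteinNumerator (p : ℕ) [Fact p.Prime] :
    NeZero (eisensteinNumerator p) :=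
  ⟨(ch_eisensteinNumerator_pos p).ne'⟩

theorem ch_eisensteinNumerator_mul_gcd (p : ℕ) :
    eisensteinNumerator p * Nat.gcd (p - 1) 12 = p - 1 :=
  Nat.div_mul_cancel (Nat.gcd_dvd_left _ _)

theorem ch_eisensteinNumerator_dvd_card_units (p : ℕ) [Fact p.Prime] :
    eisensteinNumerator p ∣ Nat.card (ZMod p)ˣ := by
  rw [Nat.card_eq_fintype_card, ZMod.card_units]
  exact eisensteinNumerator_dvd p

/-- A fixed surjective homomorphism `(ZMod p)ˣ → ZMod n`, `n = (p-1)/gcd(p-1,12)`. -/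
noncomputable def shimuraPsi (p : ℕ) [Fact p.Prime] :
    (ZMod p)ˣ →* Multiplicative (ZMod (eisensteinNumerator p)) :=
  (AddMonoidHom.toMultiplicative
    (ZMod.castHom (ch_eisensteinNumerator_dvd_card_units p)
      (ZMod (eisensteinNumerator p))).toAddMonoidHom).comp
    (zmodCyclicMulEquiv (inferInstance : IsCyclic (ZMod p)ˣ)).symm.toMonoidHom

theorem shimuraPsi_surjective (p : ℕ) [Fact p.Prime] : Function.Surjective (shimuraPsi p) := by
  intro y
  obtain ⟨a, ha⟩ := ZMod.castHom_surjective (ch_eisensteinNumerator_dvd_card_units p)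
    (Multiplicative.toAdd y)
  refine ⟨zmodCyclicMulEquiv (inferInstance : IsCyclic (ZMod p)ˣ) (Multiplicative.ofAdd a), ?_⟩
  simp only [shimuraPsi, MonoidHom.coe_comp, Function.comp_apply, MulEquiv.coe_toMonoidHom,
    MulEquiv.symm_apply_apply]
  change Multiplicative.ofAdd _ = y
  rw [show (ZMod.castHom (ch_eisensteinNumerator_dvd_card_units p)
      (ZMod (eisensteinNumerator p))).toAddMonoidHom (Multiplicative.toAdd (Multiplicative.ofAdd a))
      = Multiplicative.toAdd y from ha]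
  rfl

/-- `shimuraPsi` kills every `x` with `x ^ 12 = 1`. -/
theorem shimuraPsi_eq_one_of_pow_twelve (p : ℕ) [Fact p.Prime] (x : (ZMod p)ˣ)
    (hx : x ^ 12 = 1) : shimuraPsi p x = 1 := by
  set m := Nat.card (ZMod p)ˣ with hm
  have hmpos : 0 < m := Nat.card_pos
  have : NeZero m := ⟨hmpos.ne'⟩
  set e := zmodCyclicMulEquiv (inferInstance : IsCyclic (ZMod p)ˣ) with he
  set a : ZMod m := Multiplicative.toAdd (e.symm x) with ha
  have h12 : (12 : ℕ) • a = 0 := by
    have h1 : e.symm (x ^ 12) = 1 := by rw [hx, map_one]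
    rw [map_pow] at h1
    have h2 := congrArg Multiplicative.toAdd h1
    rwa [toAdd_pow, toAdd_one] at h2
  have h3 : m ∣ 12 * a.val := by
    have h4 : ((12 * a.val : ℕ) : ZMod m) = 0 := by
      rw [Nat.cast_mul, ZMod.natCast_zmod_val]
      simpa [nsmul_eq_mul] using h12
    exact (ZMod.natCast_eq_zero_iff _ _).mp h4
  have hmcard : m = p - 1 := by rw [hm, Nat.card_eq_fintype_card, ZMod.card_units]
  have h3' : p - 1 ∣ 12 * a.val := hmcard ▸ h3
  have h5 : eisensteinNumerator p ∣ a.val := by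
    have hg : 0 < Nat.gcd (p - 1) 12 := Nat.gcd_pos_of_pos_right _ (by norm_num)
    have h6 : eisensteinNumerator p * Nat.gcd (p - 1) 12 ∣ (12 / Nat.gcd (p - 1) 12 * a.val) *
        Nat.gcd (p - 1) 12 := by
      have : 12 / Nat.gcd (p - 1) 12 * a.val * Nat.gcd (p - 1) 12 = 12 * a.val := by
        rw [mul_right_comm, Nat.div_mul_cancel (Nat.gcd_dvd_right _ _)]
      rw [ch_eisensteinNumerator_mul_gcd, this]
      exact h3'
    have h7 : eisensteinNumerator p ∣ 12 / Nat.gcd (p - 1) 12 * a.val :=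
      Nat.dvd_of_mul_dvd_mul_right hg h6
    have hcop : Nat.Coprime (eisensteinNumerator p) (12 / Nat.gcd (p - 1) 12) := by
      unfold eisensteinNumerator
      exact Nat.coprime_div_gcd_div_gcd hg
    exact hcop.dvd_of_dvd_mul_left h7
  have h8 : (ZMod.castHom (ch_eisensteinNumerator_dvd_card_units p)
      (ZMod (eisensteinNumerator p))) a = 0 := by
    rw [ZMod.castHom_apply, ← ZMod.natCast_zmod_val a]
    rw [ZMod.cast_natCast (ch_eisensteinNumerator_dvd_card_units p)]
    exact (ZMod.natCast_eq_zero_iff _ _).mpr h5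
  change Multiplicative.ofAdd ((ZMod.castHom (ch_eisensteinNumerator_dvd_card_units p)
      (ZMod (eisensteinNumerator p))) a) = 1
  rw [h8]
  rfl

/-- The lower right entry mod `p` as a homomorphism `Γ₀(p) → (ZMod p)ˣ`. -/
noncomputable def gamma0Unit (p : ℕ) : ↥(Gamma0 p) →* (ZMod p)ˣ :=
  (Gamma0Map p).toHomUnits

theorem gamma0Unit_coe (p : ℕ) (γ : ↥(Gamma0 p)) :
    ((gamma0Unit p γ : (ZMod p)ˣ) : ZMod p) = (((γ : SL(2, ℤ)) 1 1 : ℤ) : ZMod p) := rfl

/-- The Shimura character `Γ₀(p) → ZMod n`. -/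
noncomputable def shimuraChar (p : ℕ) [Fact p.Prime] :
    Additive ↥(Gamma0 p) →+ ZMod (eisensteinNumerator p) :=
  MonoidHom.toAdditiveLeft ((shimuraPsi p).comp (gamma0Unit p))

theorem shimuraChar_apply (p : ℕ) [Fact p.Prime] (γ : ↥(Gamma0 p)) :
    shimuraChar p (Additive.ofMul γ) = Multiplicative.toAdd (shimuraPsi p (gamma0Unit p γ)) := rfl

theorem shimuraChar_eq_zero_of_pow_twelve (p : ℕ) [Fact p.Prime] (γ : ↥(Gamma0 p))
    (h : ((((γ : SL(2, ℤ)) 1 1 : ℤ) : ZMod p)) ^ 12 = 1) :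
    shimuraChar p (Additive.ofMul γ) = 0 := by
  rw [shimuraChar_apply, shimuraPsi_eq_one_of_pow_twelve p (gamma0Unit p γ)
    (Units.ext (by rw [Units.val_pow_eq_pow_val, gamma0Unit_coe, h]; rfl))]
  rfl

/-- In `ZMod p`, the diagonal entries of `γ ∈ Γ₀(p)` are inverse to each other. -/
theorem ch_gamma0_diag_mul (p : ℕ) (γ : ↥(Gamma0 p)) :
    ((((γ : SL(2, ℤ)) 0 0 : ℤ) : ZMod p)) * ((((γ : SL(2, ℤ)) 1 1 : ℤ) : ZMod p)) = 1 := by
  have hdet := Matrix.SpecialLinearGroup.det_coe (γ : SL(2, ℤ))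
  rw [Matrix.det_fin_two] at hdet
  have hc : ((((γ : SL(2, ℤ)) 1 0 : ℤ) : ZMod p)) = 0 := Gamma0_mem.mp γ.2
  have h := congrArg (Int.cast : ℤ → ZMod p) hdet
  push_cast at h
  rw [hc, mul_zero, sub_zero] at h
  exact h

/-- `shimuraChar` vanishes on elements of trace `t` with `t ^ 2 ≤ 4` (elliptic and parabolic
elements, and `± 1`). -/
theorem shimuraChar_eq_zero_of_trace (p : ℕ) [Fact p.Prime] (γ : ↥(Gamma0 p))
    (h : ((γ : SL(2, ℤ)) : Matrix (Fin 2) (Fin 2) ℤ).trace ^ 2 ≤ 4) :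
    shimuraChar p (Additive.ofMul γ) = 0 := by
  apply shimuraChar_eq_zero_of_pow_twelve
  have hmul := ch_gamma0_diag_mul p γ
  rw [Matrix.trace_fin_two] at h
  set a : ZMod p := ((((γ : SL(2, ℤ)) 0 0 : ℤ) : ZMod p)) with ha
  set d : ZMod p := ((((γ : SL(2, ℤ)) 1 1 : ℤ) : ZMod p)) with hd
  set t : ℤ := (γ : SL(2, ℤ)) 0 0 + (γ : SL(2, ℤ)) 1 1 with ht
  have hsum : a + d = (t : ZMod p) := by rw [ha, hd, ht]; push_cast; rfl
  have ht2 : -2 ≤ t ∧ t ≤ 2 := by
    constructor <;> nlinarith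
  have hq : d ^ 2 = (t : ZMod p) * d - 1 := by
    have : a = (t : ZMod p) - d := by rw [← hsum]; ring
    rw [this] at hmul
    linear_combination -hmul
  obtain ⟨h1, h2⟩ := ht2
  interval_cases t
  · -- t = -2
    have h3 : (d + 1) ^ 2 = 0 := by push_cast at hq; linear_combination hq
    have h4 : d = -1 := by
      have := pow_eq_zero_iff (two_ne_zero) |>.mp h3
      linear_combination this
    rw [h4]; norm_num
  · -- t = -1
    have h3 : d ^ 3 = 1 := by
      push_cast at hq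
      linear_combination (d - 1) * hq
    calc d ^ 12 = (d ^ 3) ^ 4 := by ring
      _ = 1 := by rw [h3, one_pow]
  · -- t = 0
    have h3 : d ^ 2 = -1 := by push_cast at hq; linear_combination hq
    calc d ^ 12 = (d ^ 2) ^ 6 := by ring
      _ = 1 := by rw [h3]; norm_num
  · -- t = 1
    have h3 : d ^ 3 = -1 := by
      push_cast at hq
      linear_combination (d + 1) * hq
    calc d ^ 12 = (d ^ 3) ^ 4 := by ring
      _ = 1 := by rw [h3]; norm_num
  · -- t = 2
    have h3 : (d - 1) ^ 2 = 0 := by push_cast at hq; linear_combination hq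
    have h4 : d = 1 := by
      have := pow_eq_zero_iff (two_ne_zero) |>.mp h3
      linear_combination this
    rw [h4]; norm_num

theorem shimuraChar_mem_parabolicHoms (p : ℕ) [Fact p.Prime] :
    shimuraChar p ∈ ModularCurve.Period.parabolicHoms ℤ (Gamma0 p)
      (ZMod (eisensteinNumerator p)) := by
  intro γ hγ
  exact shimuraChar_eq_zero_of_trace p γ hγ.le

theorem gamma0Unit_surjective (p : ℕ) [hp : Fact p.Prime] : Function.Surjective (gamma0Unit p) := by
  intro u
  have hcop : IsCoprime ((u : ZMod p).val : ℤ) (p : ℤ) := by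
    rw [Int.isCoprime_iff_gcd_eq_one, Int.gcd_natCast_natCast]
    exact ((ZMod.isUnit_iff_coprime _ _).mp (by rw [ZMod.natCast_zmod_val]; exact u.isUnit))
  obtain ⟨a, b, hab⟩ := hcop
  let g : SL(2, ℤ) := ⟨!![a, -b; (p : ℤ), ((u : ZMod p).val : ℤ)], by
    rw [Matrix.det_fin_two_of]; linarith⟩
  have hg : g ∈ Gamma0 p := by
    rw [Gamma0_mem]
    simp [g]
  refine ⟨⟨g, hg⟩, Units.ext ?_⟩
  rw [gamma0Unit_coe]
  simp [g]

theorem shimuraChar_surjective (p : ℕ) [Fact p.Prime] : Function.Surjective (shimuraChar p) := by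
  intro y
  obtain ⟨u, hu⟩ := shimuraPsi_surjective p (Multiplicative.ofAdd y)
  obtain ⟨γ, hγ⟩ := gamma0Unit_surjective p u
  refine ⟨Additive.ofMul γ, ?_⟩
  rw [shimuraChar_apply, hγ, hu]
  rfl

end Fermat.Agent.S16
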