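import Fermat.Agent.S16.ShimuraChar

/-!
# S16: consumer lemmas for the Shimura character

* `shimuraChar_hpar`, `shimuraChar_htor`: the two hypotheses of the lifting lemma
  (vanishing on parabolic elements and on elements of order dividing `12`);
* `shimuraChar_lift_of`: the lifting statement in the shape used by the assembly, from the
  general lifting lemma taken as a hypothesis;
* `shimuraChar_eq_neg_of_upper`: the value through the upper left entry;
* `shimuraChar_dvd_of_smul_eq_zero`: the order of `shimuraChar` is `eisensteinNumerator p`;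
* `ch_natCast_self`: `p = 1` in `ZMod (eisensteinNumerator p)`.
-/

set_option autoImplicit false

open ModularCurve CongruenceSubgroup
open scoped MatrixGroups

namespace Fermat.Agent.S16

/-- `shimuraChar` vanishes on parabolic elements (hypothesis `hpar` of the lifting lemma). -/
theorem shimuraChar_hpar (p : ℕ) [Fact p.Prime] (γ : ↥(Gamma0 p))
    (h : ((γ : SL(2, ℤ)) : Matrix (Fin 2) (Fin 2) ℤ).trace ^ 2 = 4) :
    shimuraChar p (Additive.ofMul γ) = 0 :=
  shimuraChar_eq_zero_of_trace p γ h.le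

/-- `shimuraChar` vanishes on elements of order dividing `12` (hypothesis `htor` of the lifting
lemma). -/
theorem shimuraChar_htor (p : ℕ) [Fact p.Prime] (γ : ↥(Gamma0 p)) (h : γ ^ 12 = 1) :
    shimuraChar p (Additive.ofMul γ) = 0 := by
  rw [shimuraChar_apply, shimuraPsi_eq_one_of_pow_twelve p (gamma0Unit p γ)
    (by rw [← map_pow, h, map_one])]
  rfl

/-- The lifting statement in the shape used by the assembly of the lower bound, deduced from the
general lifting lemma (taken as the hypothesis `hL`). -/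
theorem shimuraChar_lift_of (p : ℕ) [Fact p.Prime]
    (hL : ∀ φ : Additive ↥(Gamma0 p) →+ ZMod (eisensteinNumerator p),
      (∀ γ : ↥(Gamma0 p), ((γ : SL(2, ℤ)) : Matrix (Fin 2) (Fin 2) ℤ).trace ^ 2 = 4 →
        φ (Additive.ofMul γ) = 0) →
      (∀ γ : ↥(Gamma0 p), γ ^ 12 = 1 → φ (Additive.ofMul γ) = 0) →
      ∃ ψ : Additive ↥(Gamma0 p) →+ ℤ,
        (Int.castAddHom ℂ).comp ψ ∈ ModularCurve.Period.parabolicHoms ℂ (Gamma0 p) ℂ ∧
        ∀ γ, ((ψ γ : ℤ) : ZMod (eisensteinNumerator p)) = φ γ) :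
    ∃ φ : Additive ↥(Gamma0 p) →+ ℤ,
      (Int.castAddHom ℂ).comp φ ∈ ModularCurve.Period.parabolicHoms ℂ (Gamma0 p) ℂ ∧
      (Int.castAddHom (ZMod (eisensteinNumerator p))).comp φ = shimuraChar p := by
  obtain ⟨ψ, hψ, hcast⟩ := hL (shimuraChar p) (shimuraChar_hpar p) (shimuraChar_htor p)
  exact ⟨ψ, hψ, AddMonoidHom.ext fun γ => hcast γ⟩

/-- The value of `shimuraChar` through the upper left entry: if `u` is the class of the upper
left entry of `γ`, then `shimuraChar γ = - ψ(u)`. -/
theorem shimuraChar_eq_neg_of_upper (p : ℕ) [Fact p.Prime] (γ : ↥(Gamma0 p)) (u : (ZMod p)ˣ)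
    (hu : (u : ZMod p) = (((γ : SL(2, ℤ)) 0 0 : ℤ) : ZMod p)) :
    shimuraChar p (Additive.ofMul γ) = - Multiplicative.toAdd (shimuraPsi p u) := by
  have h1 : u * gamma0Unit p γ = 1 := by
    apply Units.ext
    rw [Units.val_mul, hu, gamma0Unit_coe, Units.val_one]
    exact ch_gamma0_diag_mul p γ
  have h2 : shimuraPsi p u * shimuraPsi p (gamma0Unit p γ) = 1 := by
    rw [← map_mul, h1, map_one]
  have h3 := congrArg Multiplicative.toAdd h2
  rw [toAdd_mul, toAdd_one] at h3
  rw [shimuraChar_apply]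
  exact eq_neg_of_add_eq_zero_right h3

/-- The value of `shimuraChar` through any unit congruent to the lower right entry. -/
theorem shimuraChar_eq_of_lower (p : ℕ) [Fact p.Prime] (γ : ↥(Gamma0 p)) (u : (ZMod p)ˣ)
    (hu : (u : ZMod p) = (((γ : SL(2, ℤ)) 1 1 : ℤ) : ZMod p)) :
    shimuraChar p (Additive.ofMul γ) = Multiplicative.toAdd (shimuraPsi p u) := by
  rw [shimuraChar_apply]
  congr 2
  exact Units.ext (by rw [gamma0Unit_coe, hu])

/-- There is `γ ∈ Γ₀(p)` with `shimuraChar γ = 1`. -/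
theorem shimuraChar_exists_eq_one (p : ℕ) [Fact p.Prime] :
    ∃ γ : ↥(Gamma0 p), shimuraChar p (Additive.ofMul γ) = 1 := by
  obtain ⟨x, hx⟩ := shimuraChar_surjective p 1
  exact ⟨Additive.toMul x, hx⟩

/-- The order of `shimuraChar` is exactly `eisensteinNumerator p`. -/
theorem shimuraChar_dvd_of_smul_eq_zero (p : ℕ) [Fact p.Prime] (e : ℤ)
    (h : e • shimuraChar p = 0) : (eisensteinNumerator p : ℤ) ∣ e := by
  obtain ⟨γ, hγ⟩ := shimuraChar_exists_eq_one p
  have h1 := DFunLike.congr_fun h (Additive.ofMul γ)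
  rw [AddMonoidHom.smul_apply, hγ, AddMonoidHom.zero_apply, zsmul_eq_mul, mul_one] at h1
  exact (ZMod.intCast_zmod_eq_zero_iff_dvd e _).mp h1

/-- `p = 1` in `ZMod (eisensteinNumerator p)`. -/
theorem ch_natCast_self (p : ℕ) [hp : Fact p.Prime] :
    ((p : ℕ) : ZMod (eisensteinNumerator p)) = 1 := by
  have h1 : 1 ≤ p := hp.out.one_lt.le
  have h2 : ((p - 1 : ℕ) : ZMod (eisensteinNumerator p)) = 0 :=
    (ZMod.natCast_eq_zero_iff _ _).mpr (eisensteinNumerator_dvd p)
  rw [Nat.cast_sub h1, Nat.cast_one, sub_eq_zero] at h2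
  exact h2

/-- `p • shimuraChar = shimuraChar`. -/
theorem shimuraChar_prime_smul (p : ℕ) [Fact p.Prime] :
    (p : ℕ) • shimuraChar p = shimuraChar p := by
  refine AddMonoidHom.ext fun γ => ?_
  rw [AddMonoidHom.smul_apply, nsmul_eq_mul, ch_natCast_self, one_mul]

end Fermat.Agent.S16
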