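/-
S16 / L-coh (helper8).  Surjectivity of the Shapiro cocycle map for `Γ₀(N) ≤ SL(2, ℤ)`:
every pair `(a, b)` in `zSpace` (cycle sums along `S`, `T`, `S * T` vanish) is of the form
`(h48_coc φ m S, h48_coc φ m T)` with `φ` a parabolic homomorphism `Γ₀(N) → ℂ`.

Proof: the explicit map `ss_lam` has kernel of dimension `≤ 1`, and the exact dimension of the
parabolic homs (Eichler–Shimura S21 + dimension formula S20) together with the upper bound for
`zSpace` (S21/ShapiroDim) forces `ss_lam` to be onto.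
-/
import Mathlib
import Fermat.Agent.S21

set_option autoImplicit false

open CongruenceSubgroup ModularCurve ModularCurve.Period
open scoped MatrixGroups

namespace Fermat.Agent.S16

open Fermat.Agent.S21

/-- Parabolic homs kill every element of `Γ₀(N)` conjugate to a power of `S`, `T` or `S * T`. -/
theorem ss_par_kills (N : ℕ) [NeZero N] (φ : Additive (Gamma0 N) →+ ℂ)
    (hφ : φ ∈ parabolicHoms ℂ (Gamma0 N) ℂ) (γ : Gamma0 N)
    (hγ : ∃ (g h : SL(2, ℤ)) (k : ℤ),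
      (h = ModularGroup.S ∨ h = ModularGroup.T ∨ h = ModularGroup.S * ModularGroup.T) ∧
        (γ : SL(2, ℤ)) = g⁻¹ * h ^ k * g) :
    φ (Additive.ofMul γ) = 0 := by
  obtain ⟨g, h, k, hh, hγ⟩ := hγ
  rcases hh with rfl | rfl | rfl
  · exact h58_addHom_eq_zero_of_pow_eq_one φ γ 4 (by norm_num)
      (by rw [hγ]; exact h58_conj_zpow_pow_eq_one g _ k 4 h58_S_pow_four)
  · apply (mem_parabolicHoms_iff.mp hφ) γ
    rw [hγ, h58_trace_conj_T_zpow]
    norm_num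
  · exact h58_addHom_eq_zero_of_pow_eq_one φ γ 6 (by norm_num)
      (by rw [hγ]; exact h58_conj_zpow_pow_eq_one g _ k 6 h58_ST_pow_six)

/-- Cycle sums of the Shapiro cocycle of a parabolic hom vanish along `S`, `T`, `S * T`. -/
theorem ss_orbSumZero (N : ℕ) [NeZero N] (φ : Additive (Gamma0 N) →+ ℂ)
    (hφ : φ ∈ parabolicHoms ℂ (Gamma0 N) ℂ) (m : SL(2, ℤ) ⧸ Gamma0 N → ℂ) (h : SL(2, ℤ))
    (hh : h = ModularGroup.S ∨ h = ModularGroup.T ∨ h = ModularGroup.S * ModularGroup.T) :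
    OrbSumZero h (h48_coc (Gamma0 N) φ m h) := by
  intro x n hx
  rw [h48_coc_pow _ (h48_coc_cocycle (Gamma0 N) φ m)]
  have h0 : φ (Additive.ofMul (h48_kappa (Gamma0 N) (h ^ n) x)) = 0 := by
    apply ss_par_kills N φ hφ
    refine ⟨Quotient.out x, h, (n : ℤ), hh, ?_⟩
    simp only [h48_kappa, hx, zpow_natCast, mul_assoc]
  simp only [h48_coc, h0, hx, sub_self, add_zero]

/-- The pair of values at `S`, `T` of the Shapiro cocycle of a parabolic hom lies in `zSpace`. -/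
theorem ss_mem_zSpace (N : ℕ) [NeZero N] (φ : Additive (Gamma0 N) →+ ℂ)
    (hφ : φ ∈ parabolicHoms ℂ (Gamma0 N) ℂ) (m : SL(2, ℤ) ⧸ Gamma0 N → ℂ) :
    (h48_coc (Gamma0 N) φ m ModularGroup.S, h48_coc (Gamma0 N) φ m ModularGroup.T) ∈
      zSpace SL(2, ℤ) (SL(2, ℤ) ⧸ Gamma0 N) ModularGroup.S ModularGroup.T := by
  rw [mem_zSpace]
  refine ⟨ss_orbSumZero N φ hφ m _ (Or.inl rfl), ss_orbSumZero N φ hφ m _ (Or.inr (Or.inl rfl)),
    ?_⟩
  have h3 := ss_orbSumZero N φ hφ m (ModularGroup.S * ModularGroup.T) (Or.inr (Or.inr rfl))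
  have he : (fun x => h48_coc (Gamma0 N) φ m ModularGroup.S (ModularGroup.T • x)
      + h48_coc (Gamma0 N) φ m ModularGroup.T x)
      = h48_coc (Gamma0 N) φ m (ModularGroup.S * ModularGroup.T) := by
    funext x
    rw [h48_coc_cocycle]
  simpa only [he] using h3

/-- The explicit Shapiro map `(φ, m) ↦ (c_{φ,m}(S), c_{φ,m}(T))`. -/
noncomputable def ss_lam (N : ℕ) [NeZero N] :
    (↥(parabolicHoms ℂ (Gamma0 N) ℂ) × (SL(2, ℤ) ⧸ Gamma0 N → ℂ)) →ₗ[ℂ]
      ↥(zSpace SL(2, ℤ) (SL(2, ℤ) ⧸ Gamma0 N) ModularGroup.S ModularGroup.T) where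
  toFun p := ⟨(h48_coc (Gamma0 N) p.1.1 p.2 ModularGroup.S,
      h48_coc (Gamma0 N) p.1.1 p.2 ModularGroup.T), ss_mem_zSpace N p.1.1 p.1.2 p.2⟩
  map_add' := by
    intro p q
    apply Subtype.ext
    apply Prod.ext
    · funext x
      exact h48_coc_add (Gamma0 N) _ _ _ _ ModularGroup.S x
    · funext x
      exact h48_coc_add (Gamma0 N) _ _ _ _ ModularGroup.T x
  map_smul' := by
    intro a p
    apply Subtype.ext
    apply Prod.ext
    · funext x
      exact h48_coc_smul (Gamma0 N) a _ _ ModularGroup.S x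
    · funext x
      exact h48_coc_smul (Gamma0 N) a _ _ ModularGroup.T x

theorem ss_lam_apply_coe (N : ℕ) [NeZero N]
    (p : ↥(parabolicHoms ℂ (Gamma0 N) ℂ) × (SL(2, ℤ) ⧸ Gamma0 N → ℂ)) :
    ((ss_lam N p : ↥(zSpace SL(2, ℤ) (SL(2, ℤ) ⧸ Gamma0 N) ModularGroup.S ModularGroup.T)) :
      (SL(2, ℤ) ⧸ Gamma0 N → ℂ) × (SL(2, ℤ) ⧸ Gamma0 N → ℂ)) =
      (h48_coc (Gamma0 N) p.1.1 p.2 ModularGroup.S,
        h48_coc (Gamma0 N) p.1.1 p.2 ModularGroup.T) := rfl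

/-- The kernel of `ss_lam` consists of pairs `(0, const)`. -/
theorem ss_lam_ker (N : ℕ) [NeZero N]
    (p : ↥(parabolicHoms ℂ (Gamma0 N) ℂ) × (SL(2, ℤ) ⧸ Gamma0 N → ℂ)) (hp : ss_lam N p = 0) :
    p.1 = 0 ∧ ∀ x y : SL(2, ℤ) ⧸ Gamma0 N, p.2 x = p.2 y := by
  obtain ⟨⟨φ, hφ⟩, m⟩ := p
  have hp' := congrArg Subtype.val hp
  rw [ss_lam_apply_coe] at hp'
  have hs : ∀ x, h48_coc (Gamma0 N) φ m ModularGroup.S x = 0 :=
    fun x => congrFun (congrArg Prod.fst hp') x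
  have ht : ∀ x, h48_coc (Gamma0 N) φ m ModularGroup.T x = 0 :=
    fun x => congrFun (congrArg Prod.snd hp') x
  have hall : ∀ g x, h48_coc (Gamma0 N) φ m g x = 0 :=
    h48_coc_eq_zero _ (h48_coc_cocycle (Gamma0 N) φ m) ModularGroup.S ModularGroup.T
      SpecialLinearGroup.SL2Z_generators hs ht
  -- φ = 0
  have hφ0 : φ = 0 := by
    refine DFunLike.ext _ _ fun γ => ?_
    obtain ⟨γ, rfl⟩ := Additive.ofMul.surjective γ
    rw [AddMonoidHom.zero_apply]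
    have hx0 : (γ : SL(2, ℤ)) • ((1 : SL(2, ℤ)) : SL(2, ℤ) ⧸ Gamma0 N)
        = ((1 : SL(2, ℤ)) : SL(2, ℤ) ⧸ Gamma0 N) := by
      rw [MulAction.Quotient.smul_mk, QuotientGroup.eq]
      simp
    have h1 := hall (γ : SL(2, ℤ)) ((1 : SL(2, ℤ)) : SL(2, ℤ) ⧸ Gamma0 N)
    simp only [h48_coc, hx0, sub_self, add_zero] at h1
    have hρ : (Quotient.out ((1 : SL(2, ℤ)) : SL(2, ℤ) ⧸ Gamma0 N)) ∈ Gamma0 N := by
      have := QuotientGroup.out_eq' ((1 : SL(2, ℤ)) : SL(2, ℤ) ⧸ Gamma0 N)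
      rw [QuotientGroup.eq] at this
      simpa using (Gamma0 N).inv_mem this
    have hk : h48_kappa (Gamma0 N) (γ : SL(2, ℤ)) ((1 : SL(2, ℤ)) : SL(2, ℤ) ⧸ Gamma0 N)
        = (⟨_, hρ⟩ : Gamma0 N)⁻¹ * γ * ⟨_, hρ⟩ := by
      apply Subtype.ext
      simp only [h48_kappa, hx0, Subgroup.coe_mul, Subgroup.coe_inv, mul_assoc]
    rw [hk] at h1
    simp only [ofMul_mul, ofMul_inv, map_add, map_neg] at h1
    simpa using h1
  refine ⟨Subtype.ext hφ0, ?_⟩
  intro x y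
  obtain ⟨g, rfl⟩ := MulAction.exists_smul_eq SL(2, ℤ) x y
  have h1 := hall g x
  subst hφ0
  simp only [h48_coc, AddMonoidHom.zero_apply, zero_add] at h1
  exact (sub_eq_zero.mp h1).symm

/-- The exact dimension of the parabolic homs: `dim = 2 * dim S₂(Γ₀(N))`. -/
theorem ss_finrank_parabolicHoms_eq (N : ℕ) [NeZero N] :
    Module.finrank ℂ ↥(parabolicHoms ℂ (Gamma0 N) ℂ) =
      2 * Module.finrank ℂ (CuspForm (Gamma0 N) 2) := by
  obtain ⟨hinj, hrange⟩ := Fermat.Agent.S21.result N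
  have hPfin := finiteDimensional_parabolicHoms N
  have hfinR : FiniteDimensional ℂ ↥(LinearMap.range (periodHomPair N)) := by
    rw [hrange]
    exact hPfin
  have hfinD : FiniteDimensional ℂ (CuspForm (Gamma0 N) 2 × CuspForm (Gamma0 N) 2) :=
    Module.Finite.equiv (LinearEquiv.ofInjective (periodHomPair N) hinj).symm
  have hfinS : FiniteDimensional ℂ (CuspForm (Gamma0 N) 2) :=
    Module.Finite.of_surjective (LinearMap.fst ℂ (CuspForm (Gamma0 N) 2) (CuspForm (Gamma0 N) 2))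
      LinearMap.fst_surjective
  rw [← hrange, LinearMap.finrank_range_of_inj hinj, Module.finrank_prod]
  ring

/-- The exact count: `dim parabolicHoms + #(X/S) + #(X/T) + #(X/ST) = #X + 2`. -/
theorem ss_finrank_parabolicHoms (N : ℕ) [NeZero N] :
    Module.finrank ℂ ↥(parabolicHoms ℂ (Gamma0 N) ℂ)
      + Nat.card (MulAction.orbitRel.Quotient (Subgroup.zpowers ModularGroup.S)
          (SL(2, ℤ) ⧸ Gamma0 N))
      + Nat.card (MulAction.orbitRel.Quotient (Subgroup.zpowers ModularGroup.T)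
          (SL(2, ℤ) ⧸ Gamma0 N))
      + Nat.card (MulAction.orbitRel.Quotient
          (Subgroup.zpowers (ModularGroup.S * ModularGroup.T)) (SL(2, ℤ) ⧸ Gamma0 N))
      = Nat.card (SL(2, ℤ) ⧸ Gamma0 N) + 2 := by
  have hX : Nat.card (SL(2, ℤ) ⧸ Gamma0 N) = ModularCurve.dedekindPsi N :=
    Fermat.Agent.Lib.card_quotient_Gamma0 N
  have hS : 2 * Nat.card (MulAction.orbitRel.Quotient (Subgroup.zpowers ModularGroup.S)
      (SL(2, ℤ) ⧸ Gamma0 N)) = ModularCurve.dedekindPsi N + ModularCurve.nuTwo N := by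
    rw [Fermat.Agent.Lib.Gamma0Orbits.two_mul_card_orbits_S, hX, Fermat.Agent.Lib.card_fixedBy_S]
  have hR : 3 * Nat.card (MulAction.orbitRel.Quotient
      (Subgroup.zpowers (ModularGroup.S * ModularGroup.T))
      (SL(2, ℤ) ⧸ Gamma0 N)) = ModularCurve.dedekindPsi N + 2 * ModularCurve.nuThree N := by
    rw [Fermat.Agent.Lib.Gamma0Orbits.three_mul_card_orbits_ST, hX,
      Fermat.Agent.Lib.card_fixedBy_ST]
  have hT : Nat.card (MulAction.orbitRel.Quotient (Subgroup.zpowers ModularGroup.T)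
      (SL(2, ℤ) ⧸ Gamma0 N)) = ModularCurve.cuspCount N := Fermat.Agent.Lib.card_orbits_T N
  have hdim : (Module.finrank ℂ (CuspForm (Gamma0 N) 2) : ℚ) = ModularCurve.genusFormula N :=
    Fermat.Agent.S20.result N
  have hP := ss_finrank_parabolicHoms_eq N
  have hP' : (Module.finrank ℂ ↥(parabolicHoms ℂ (Gamma0 N) ℂ) : ℚ) =
      2 * ModularCurve.genusFormula N := by
    rw [hP, ← hdim]
    push_cast
    ring
  have hS' : (2 : ℚ) * (Nat.card (MulAction.orbitRel.Quotient (Subgroup.zpowers ModularGroup.S)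
      (SL(2, ℤ) ⧸ Gamma0 N)) : ℚ)
      = (ModularCurve.dedekindPsi N : ℚ) + (ModularCurve.nuTwo N : ℚ) := by
    exact_mod_cast hS
  have hR' : (3 : ℚ) * (Nat.card (MulAction.orbitRel.Quotient
      (Subgroup.zpowers (ModularGroup.S * ModularGroup.T)) (SL(2, ℤ) ⧸ Gamma0 N)) : ℚ)
      = (ModularCurve.dedekindPsi N : ℚ) + 2 * (ModularCurve.nuThree N : ℚ) := by
    exact_mod_cast hR
  have goalQ : (Module.finrank ℂ ↥(parabolicHoms ℂ (Gamma0 N) ℂ) : ℚ)
      + (Nat.card (MulAction.orbitRel.Quotient (Subgroup.zpowers ModularGroup.S)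
          (SL(2, ℤ) ⧸ Gamma0 N)) : ℚ)
      + (Nat.card (MulAction.orbitRel.Quotient (Subgroup.zpowers ModularGroup.T)
          (SL(2, ℤ) ⧸ Gamma0 N)) : ℚ)
      + (Nat.card (MulAction.orbitRel.Quotient
          (Subgroup.zpowers (ModularGroup.S * ModularGroup.T)) (SL(2, ℤ) ⧸ Gamma0 N)) : ℚ)
      = (Nat.card (SL(2, ℤ) ⧸ Gamma0 N) : ℚ) + 2 := by
    rw [hP', hT, hX]
    unfold ModularCurve.genusFormula
    linarith
  exact_mod_cast goalQ

/-- `ss_lam` is surjective. -/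
theorem ss_lam_surjective (N : ℕ) [NeZero N] : Function.Surjective (ss_lam N) := by
  classical
  have hPfin := finiteDimensional_parabolicHoms N
  have : Fintype (SL(2, ℤ) ⧸ Gamma0 N) := Fintype.ofFinite _
  rw [← LinearMap.range_eq_top]
  -- the kernel is contained in the line spanned by `(0, 1)`
  have hker : LinearMap.ker (ss_lam N) ≤
      Submodule.span ℂ {((0 : ↥(parabolicHoms ℂ (Gamma0 N) ℂ)),
        (fun _ : SL(2, ℤ) ⧸ Gamma0 N => (1 : ℂ)))} := by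
    intro p hp
    obtain ⟨h1, h2⟩ := ss_lam_ker N p (LinearMap.mem_ker.mp hp)
    rw [Submodule.mem_span_singleton]
    refine ⟨p.2 ((1 : SL(2, ℤ)) : SL(2, ℤ) ⧸ Gamma0 N), ?_⟩
    refine Prod.ext ?_ ?_
    · simp [h1]
    · funext x
      simp [h2 x ((1 : SL(2, ℤ)) : SL(2, ℤ) ⧸ Gamma0 N)]
  have hkerdim : Module.finrank ℂ (LinearMap.ker (ss_lam N)) ≤ 1 := by
    refine (Submodule.finrank_mono hker).trans ?_
    exact (finrank_span_le_card _).trans (by simp)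
  have hrn := LinearMap.finrank_range_add_finrank_ker (ss_lam N)
  have hprod : Module.finrank ℂ
      (↥(parabolicHoms ℂ (Gamma0 N) ℂ) × (SL(2, ℤ) ⧸ Gamma0 N → ℂ)) =
      Module.finrank ℂ ↥(parabolicHoms ℂ (Gamma0 N) ℂ) + Nat.card (SL(2, ℤ) ⧸ Gamma0 N) := by
    rw [Module.finrank_prod, Module.finrank_fintype_fun_eq_card, Nat.card_eq_fintype_card]
  have hz : Module.finrank ℂ
        ↥(zSpace SL(2, ℤ) (SL(2, ℤ) ⧸ Gamma0 N) ModularGroup.S ModularGroup.T)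
      + Nat.card (MulAction.orbitRel.Quotient (Subgroup.zpowers ModularGroup.S)
          (SL(2, ℤ) ⧸ Gamma0 N))
      + Nat.card (MulAction.orbitRel.Quotient (Subgroup.zpowers ModularGroup.T)
          (SL(2, ℤ) ⧸ Gamma0 N))
      + Nat.card (MulAction.orbitRel.Quotient
          (Subgroup.zpowers (ModularGroup.S * ModularGroup.T)) (SL(2, ℤ) ⧸ Gamma0 N))
      ≤ 2 * Nat.card (SL(2, ℤ) ⧸ Gamma0 N) + 1 :=
    finrank_zSpace_add_le (G := SL(2, ℤ)) (X := SL(2, ℤ) ⧸ Gamma0 N)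
      ModularGroup.S ModularGroup.T SpecialLinearGroup.SL2Z_generators
  have hc := ss_finrank_parabolicHoms N
  have hle : Module.finrank ℂ (LinearMap.range (ss_lam N)) ≤
      Module.finrank ℂ ↥(zSpace SL(2, ℤ) (SL(2, ℤ) ⧸ Gamma0 N) ModularGroup.S ModularGroup.T) :=
    Submodule.finrank_le _
  apply Submodule.eq_top_of_finrank_eq
  omega

/-- **Shapiro surjectivity.**  Every pair in `zSpace` is the pair of values at `S`, `T` of the
Shapiro cocycle of a parabolic homomorphism `Γ₀(N) → ℂ` (twisted by a function `m` on cosets). -/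
theorem ss_shapiro_surj (N : ℕ) [NeZero N] (a b : SL(2, ℤ) ⧸ Gamma0 N → ℂ)
    (hab : (a, b) ∈ Fermat.Agent.S21.zSpace SL(2, ℤ) (SL(2, ℤ) ⧸ Gamma0 N)
      ModularGroup.S ModularGroup.T) :
    ∃ (φ : Additive (Gamma0 N) →+ ℂ) (m : SL(2, ℤ) ⧸ Gamma0 N → ℂ),
      φ ∈ ModularCurve.Period.parabolicHoms ℂ (Gamma0 N) ℂ ∧
      Fermat.Agent.S21.h48_coc (Gamma0 N) φ m ModularGroup.S = a ∧
      Fermat.Agent.S21.h48_coc (Gamma0 N) φ m ModularGroup.T = b := by
  obtain ⟨⟨⟨φ, hφ⟩, m⟩, hp⟩ := ss_lam_surjective N ⟨(a, b), hab⟩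
  have hp' := congrArg Subtype.val hp
  rw [ss_lam_apply_coe] at hp'
  exact ⟨φ, m, hφ, congrArg Prod.fst hp', congrArg Prod.snd hp'⟩

end Fermat.Agent.S16
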