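/-
S16 / cohomological lower bound, module L-C1 LIFT (helper80).

`sl_exists_lift`: a homomorphism `Γ₀(N) → ZMod n` killing the elements of trace `±2` and the
elements of order dividing `12` lifts to a `ℤ`-valued parabolic homomorphism.

Proof: Shapiro cocycles on `X = SL(2, ℤ) ⧸ Γ₀(N)`.  The class of `φ` is represented by a cocycle
`c` with `c(T) = 0`, and `c(S)` has vanishing cycle sums along `S` and along `T * S`.  Such a
function lifts to an integer-valued one (`sl_graph_lift`).  The Shapiro map of S21 is surjective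
(`ss_shapiro_surj`, by the dimension count of S20/S21), so the integer pair is the cocycle of a
complex parabolic homomorphism, which is then automatically integer-valued.
-/
import Mathlib
import Fermat.Agent.S16.GraphLift
import Fermat.Agent.S16.ShapiroSurj
import Fermat.Agent.S16.ShimuraChar

set_option autoImplicit false

open CongruenceSubgroup ModularCurve ModularCurve.Period
open scoped MatrixGroups

namespace Fermat.Agent.S16

open Fermat.Agent.S21

section Coc

variable {G : Type} [Group G] {A : Type} [AddCommGroup A]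

/-- cocycle condition (same convention as S21: `C (g h) x = C g (h • x) + C h x`). -/
def sl_IsCoc {X : Type} [MulAction G X] (C : G → X → A) : Prop :=
  ∀ g h x, C (g * h) x = C g (h • x) + C h x

theorem sl_coc_one {X : Type} [MulAction G X] (C : G → X → A) (hC : sl_IsCoc C) (x : X) :
    C 1 x = 0 := by
  have h := hC 1 1 x
  rw [mul_one, one_smul] at h
  exact left_eq_add.mp h

theorem sl_coc_pow {X : Type} [MulAction G X] (C : G → X → A) (hC : sl_IsCoc C) (h : G) (x : X)
    (n : ℕ) : ∑ i ∈ Finset.range n, C h (h ^ i • x) = C (h ^ n) x := by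
  induction n with
  | zero => simp [sl_coc_one C hC]
  | succ n ih => rw [Finset.sum_range_succ, ih, pow_succ', hC, add_comm]

theorem sl_coc_inv {X : Type} [MulAction G X] (C : G → X → A) (hC : sl_IsCoc C) (g : G) (x : X) :
    C g⁻¹ x = - C g (g⁻¹ • x) := by
  have h := hC g g⁻¹ x
  rw [mul_inv_cancel, sl_coc_one C hC] at h
  exact eq_neg_of_add_eq_zero_right h.symm

theorem sl_coc_eq_zero {X : Type} [MulAction G X] (C : G → X → A) (hC : sl_IsCoc C) (s t : G)
    (hgen : Subgroup.closure {s, t} = ⊤) (hs : ∀ x, C s x = 0) (ht : ∀ x, C t x = 0)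
    (g : G) (x : X) : C g x = 0 := by
  have hg : g ∈ Subgroup.closure ({s, t} : Set G) := by rw [hgen]; trivial
  revert x
  induction hg using Subgroup.closure_induction with
  | mem y hy =>
    rcases hy with rfl | hy
    · exact hs
    · rw [Set.mem_singleton_iff] at hy
      subst hy
      exact ht
  | one => exact fun x => sl_coc_one C hC x
  | mul a b _ _ iha ihb =>
    intro x
    rw [hC, iha, ihb, add_zero]
  | inv a _ iha =>
    intro x
    rw [sl_coc_inv C hC, iha, neg_zero]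

theorem sl_coc_ext {X : Type} [MulAction G X] (C C' : G → X → A) (hC : sl_IsCoc C)
    (hC' : sl_IsCoc C') (s t : G) (hgen : Subgroup.closure {s, t} = ⊤)
    (hs : ∀ x, C s x = C' s x) (ht : ∀ x, C t x = C' t x) (g : G) (x : X) : C g x = C' g x := by
  have hD : sl_IsCoc (fun g x => C g x - C' g x) := by
    intro g h x
    simp only [hC g h x, hC' g h x]
    abel
  have := sl_coc_eq_zero (fun g x => C g x - C' g x) hD s t hgen
    (fun x => by simp [hs x]) (fun x => by simp [ht x]) g x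
  exact sub_eq_zero.mp this

/-- a complex cocycle with integer values on the generators is integer-valued. -/
theorem sl_coc_int {X : Type} [MulAction G X] (C : G → X → ℂ) (hC : sl_IsCoc C) (s t : G)
    (hgen : Subgroup.closure {s, t} = ⊤) (hs : ∀ x, ∃ k : ℤ, C s x = k)
    (ht : ∀ x, ∃ k : ℤ, C t x = k) (g : G) (x : X) : ∃ k : ℤ, C g x = k := by
  have hg : g ∈ Subgroup.closure ({s, t} : Set G) := by rw [hgen]; trivial
  revert x
  induction hg using Subgroup.closure_induction with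
  | mem y hy =>
    rcases hy with rfl | hy
    · exact hs
    · rw [Set.mem_singleton_iff] at hy
      subst hy
      exact ht
  | one => exact fun x => ⟨0, by simp [sl_coc_one C hC x]⟩
  | mul a b _ _ iha ihb =>
    intro x
    obtain ⟨k1, h1⟩ := iha (b • x)
    obtain ⟨k2, h2⟩ := ihb x
    exact ⟨k1 + k2, by rw [hC, h1, h2]; push_cast; ring⟩
  | inv a _ iha =>
    intro x
    obtain ⟨k1, h1⟩ := iha (a⁻¹ • x)
    exact ⟨-k1, by rw [sl_coc_inv C hC, h1]; push_cast; ring⟩

/-- The Shapiro cocycle with general coefficients (for `A = ℂ` this is `S21.h48_coc`). -/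
noncomputable def sl_coc (Γ : Subgroup G) (φ : Additive Γ →+ A) (m : G ⧸ Γ → A)
    (g : G) (x : G ⧸ Γ) : A :=
  φ (Additive.ofMul (h48_kappa Γ g x)) + (m (g • x) - m x)

theorem sl_coc_isCoc (Γ : Subgroup G) (φ : Additive Γ →+ A) (m : G ⧸ Γ → A) :
    sl_IsCoc (sl_coc Γ φ m) := by
  intro g h x
  simp only [sl_coc, h48_kappa_mul, ofMul_mul, map_add, mul_smul]
  abel

theorem sl_coc_eq_h48 (Γ : Subgroup G) (φ : Additive Γ →+ ℂ) (m : G ⧸ Γ → ℂ) :
    sl_coc Γ φ m = h48_coc Γ φ m := rfl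

/-- value of the Shapiro cocycle at the base point. -/
theorem sl_coc_base (Γ : Subgroup G) (φ : Additive Γ →+ A) (m : G ⧸ Γ → A) (γ : Γ) :
    sl_coc Γ φ m (γ : G) ((1 : G) : G ⧸ Γ) = φ (Additive.ofMul γ) := by
  have hx0 : (γ : G) • ((1 : G) : G ⧸ Γ) = ((1 : G) : G ⧸ Γ) := by
    rw [MulAction.Quotient.smul_mk, QuotientGroup.eq]
    simp
  have hρ : (Quotient.out ((1 : G) : G ⧸ Γ)) ∈ Γ := by
    have := QuotientGroup.out_eq' ((1 : G) : G ⧸ Γ)
    rw [QuotientGroup.eq] at this
    simpa using Γ.inv_mem this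
  have hk : h48_kappa Γ (γ : G) ((1 : G) : G ⧸ Γ)
      = (⟨_, hρ⟩ : Γ)⁻¹ * γ * ⟨_, hρ⟩ := by
    apply Subtype.ext
    simp only [h48_kappa, hx0, Subgroup.coe_mul, Subgroup.coe_inv, mul_assoc]
  simp only [sl_coc, hx0, sub_self, add_zero, hk, ofMul_mul, ofMul_inv, map_add, map_neg]
  abel

/-- cycle sums of the Shapiro cocycle along `h` vanish if `φ` kills the conjugates of the powers
of `h` lying in `Γ`. -/
theorem sl_coc_OSZ (Γ : Subgroup G) (φ : Additive Γ →+ A) (m : G ⧸ Γ → A) (h : G)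
    (hφ : ∀ γ : Γ, (∃ (g : G) (k : ℤ), (γ : G) = g⁻¹ * h ^ k * g) → φ (Additive.ofMul γ) = 0) :
    sl_OSZ h (sl_coc Γ φ m h) := by
  intro x n hx
  rw [sl_coc_pow _ (sl_coc_isCoc Γ φ m)]
  have h0 : φ (Additive.ofMul (h48_kappa Γ (h ^ n) x)) = 0 := by
    apply hφ
    refine ⟨Quotient.out x, (n : ℤ), ?_⟩
    simp only [h48_kappa, hx, zpow_natCast, mul_assoc]
  simp only [sl_coc, h0, hx, sub_self, add_zero]

end Coc

section Potential

variable {G X A : Type} [Group G] [MulAction G X] [AddCommGroup A]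

/-- partial sums along an orbit only depend on the end point. -/
theorem sl_partial_sum_eq (h : G) (u : X → A) (hu : sl_OSZ h u) (r : X) (j j' : ℕ)
    (hjj : h ^ j • r = h ^ j' • r) :
    ∑ i ∈ Finset.range j, u (h ^ i • r) = ∑ i ∈ Finset.range j', u (h ^ i • r) := by
  wlog hle : j ≤ j' generalizing j j'
  · exact (this j' j hjj.symm (le_of_not_ge hle)).symm
  obtain ⟨d, rfl⟩ := Nat.exists_eq_add_of_le hle
  rw [Finset.sum_range_add]
  have h0 : ∑ i ∈ Finset.range d, u (h ^ (j + i) • r) = 0 := by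
    have h1 := hu (h ^ j • r) d (by rw [← mul_smul, ← pow_add, add_comm d j]; exact hjj.symm)
    rw [← h1]
    refine Finset.sum_congr rfl fun i _ => ?_
    rw [← mul_smul, ← pow_add, add_comm i j]
  rw [h0, add_zero]

/-- a function with vanishing cycle sums along `h` is a coboundary along `h`. -/
theorem sl_exists_potential [Finite X] (h : G) (u : X → A) (hu : sl_OSZ h u) :
    ∃ m : X → A, ∀ x, m (h • x) - m x = u x := by
  classical
  let r : X → X := fun x =>
    (Quotient.mk'' x : MulAction.orbitRel.Quotient (Subgroup.zpowers h) X).out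
  have hr : ∀ x, ∃ j : ℕ, h ^ j • r x = x := by
    intro x
    have h1 : (Quotient.mk'' x : MulAction.orbitRel.Quotient (Subgroup.zpowers h) X)
        = Quotient.mk'' (r x) := (Quotient.out_eq' _).symm
    have h2 : x ∈ MulAction.orbit (Subgroup.zpowers h) (r x) := Quotient.exact' h1
    obtain ⟨⟨g, hg⟩, hgx⟩ := h2
    obtain ⟨j, rfl⟩ := Subgroup.mem_zpowers_iff.mp hg
    have hgx' : h ^ j • r x = x := hgx
    have hpos := sl_period_pos h (r x)
    have hmod : 0 ≤ j % (MulAction.period h (r x) : ℤ) :=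
      Int.emod_nonneg _ (by exact_mod_cast hpos.ne')
    refine ⟨(j % (MulAction.period h (r x) : ℤ)).toNat, ?_⟩
    rw [← zpow_natCast, Int.toNat_of_nonneg hmod, MulAction.zpow_mod_period_smul, hgx']
  have hrh : ∀ x, r (h • x) = r x := by
    intro x
    simp only [r]
    rw [sl_mk_smul _ (Subgroup.mem_zpowers h) x]
  let J : X → ℕ := fun x => (hr x).choose
  have hJ : ∀ x, h ^ J x • r x = x := fun x => (hr x).choose_spec
  refine ⟨fun x => ∑ i ∈ Finset.range (J x), u (h ^ i • r x), fun x => ?_⟩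
  simp only
  have h1 : h ^ J (h • x) • r x = h ^ (J x + 1) • r x := by
    have := hJ (h • x)
    rw [hrh] at this
    rw [this, pow_succ', mul_smul, hJ x]
  rw [hrh, sl_partial_sum_eq h u hu (r x) _ _ h1, Finset.sum_range_succ, hJ x]
  abel

end Potential

section Main

theorem sl_closure_S_TS :
    Subgroup.closure ({ModularGroup.S, ModularGroup.T * ModularGroup.S} : Set SL(2, ℤ)) = ⊤ := by
  rw [eq_top_iff, ← SpecialLinearGroup.SL2Z_generators, Subgroup.closure_le]
  rintro g (rfl | hg)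
  · exact Subgroup.subset_closure (Or.inl rfl)
  · rw [Set.mem_singleton_iff] at hg
    subst hg
    have h1 : ModularGroup.T * ModularGroup.S ∈ Subgroup.closure
        ({ModularGroup.S, ModularGroup.T * ModularGroup.S} : Set SL(2, ℤ)) :=
      Subgroup.subset_closure (Or.inr rfl)
    have h2 : ModularGroup.S ∈ Subgroup.closure
        ({ModularGroup.S, ModularGroup.T * ModularGroup.S} : Set SL(2, ℤ)) :=
      Subgroup.subset_closure (Or.inl rfl)
    have h3 := Subgroup.mul_mem _ h1 (Subgroup.inv_mem _ h2)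
    rw [mul_inv_cancel_right] at h3
    exact h3

theorem sl_semiconj (i : ℕ) :
    ModularGroup.T * (ModularGroup.S * ModularGroup.T) ^ i
      = (ModularGroup.T * ModularGroup.S) ^ i * ModularGroup.T := by
  have hsc : SemiconjBy ModularGroup.T (ModularGroup.S * ModularGroup.T)
      (ModularGroup.T * ModularGroup.S) := by
    unfold SemiconjBy
    rw [mul_assoc]
  exact (hsc.pow_right i).eq

/-- **Lift.**  A homomorphism `Γ₀(N) → ZMod n` killing the elements of trace `±2` and the elements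
of order dividing `12` is the reduction of a `ℤ`-valued parabolic homomorphism. -/
theorem sl_exists_lift (N : ℕ) [NeZero N] (n : ℕ) [NeZero n] (φ : Additive (Gamma0 N) →+ ZMod n)
    (hpar : ∀ γ : Gamma0 N, ((γ : SL(2, ℤ)) : Matrix (Fin 2) (Fin 2) ℤ).trace ^ 2 = 4 →
      φ (Additive.ofMul γ) = 0)
    (htor : ∀ γ : Gamma0 N, γ ^ 12 = 1 → φ (Additive.ofMul γ) = 0) :
    ∃ ψ : Additive (Gamma0 N) →+ ℤ,
      (Int.castAddHom ℂ).comp ψ ∈ parabolicHoms ℂ (Gamma0 N) ℂ ∧
      ∀ γ, ((ψ γ : ℤ) : ZMod n) = φ γ := by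
  classical
  -- Step 1: `φ` kills the conjugates of powers of `S`, `T`, `S * T`
  have hkS : ∀ γ : Gamma0 N, (∃ (g : SL(2, ℤ)) (k : ℤ),
      (γ : SL(2, ℤ)) = g⁻¹ * ModularGroup.S ^ k * g) → φ (Additive.ofMul γ) = 0 := by
    rintro γ ⟨g, k, hγ⟩
    apply htor
    apply Subtype.ext
    rw [SubgroupClass.coe_pow, hγ, OneMemClass.coe_one]
    have h12 : ModularGroup.S ^ 12 = 1 := by
      rw [show 12 = 4 * 3 from rfl, pow_mul, h58_S_pow_four, one_pow]
    exact h58_conj_zpow_pow_eq_one g ModularGroup.S k 12 h12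
  have hkST : ∀ γ : Gamma0 N, (∃ (g : SL(2, ℤ)) (k : ℤ),
      (γ : SL(2, ℤ)) = g⁻¹ * (ModularGroup.S * ModularGroup.T) ^ k * g) →
      φ (Additive.ofMul γ) = 0 := by
    rintro γ ⟨g, k, hγ⟩
    apply htor
    apply Subtype.ext
    rw [SubgroupClass.coe_pow, hγ, OneMemClass.coe_one]
    have h12 : (ModularGroup.S * ModularGroup.T) ^ 12 = 1 := by
      rw [show 12 = 6 * 2 from rfl, pow_mul, h58_ST_pow_six, one_pow]
    exact h58_conj_zpow_pow_eq_one g (ModularGroup.S * ModularGroup.T) k 12 h12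
  have hkT : ∀ γ : Gamma0 N, (∃ (g : SL(2, ℤ)) (k : ℤ),
      (γ : SL(2, ℤ)) = g⁻¹ * ModularGroup.T ^ k * g) → φ (Additive.ofMul γ) = 0 := by
    rintro γ ⟨g, k, hγ⟩
    apply hpar
    rw [hγ, h58_trace_conj_T_zpow]
    norm_num
  -- Step 2: normalise the cocycle so that it vanishes at `T`
  obtain ⟨m0, hm0⟩ := sl_exists_potential ModularGroup.T (sl_coc (Gamma0 N) φ 0 ModularGroup.T)
    (sl_coc_OSZ (Gamma0 N) φ 0 ModularGroup.T hkT)
  set cbar : SL(2, ℤ) → SL(2, ℤ) ⧸ Gamma0 N → ZMod n := sl_coc (Gamma0 N) φ (-m0) with hcbar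
  have hcoc : sl_IsCoc cbar := sl_coc_isCoc _ _ _
  have hcbarT : ∀ x, cbar ModularGroup.T x = 0 := by
    intro x
    have h1 := hm0 x
    simp only [sl_coc, Pi.zero_apply, sub_self, add_zero] at h1
    simp only [hcbar, sl_coc, Pi.neg_apply]
    rw [← h1]
    abel
  -- Step 3: the value at `S`
  have hvS : sl_OSZ ModularGroup.S (cbar ModularGroup.S) :=
    sl_coc_OSZ (Gamma0 N) φ (-m0) ModularGroup.S hkS
  have hvST : sl_OSZ (ModularGroup.S * ModularGroup.T) (cbar (ModularGroup.S * ModularGroup.T)) :=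
    sl_coc_OSZ (Gamma0 N) φ (-m0) (ModularGroup.S * ModularGroup.T) hkST
  have hcST : ∀ x, cbar (ModularGroup.S * ModularGroup.T) x
      = cbar ModularGroup.S (ModularGroup.T • x) := by
    intro x
    rw [hcoc ModularGroup.S ModularGroup.T x, hcbarT, add_zero]
  have hvTS : sl_OSZ (ModularGroup.T * ModularGroup.S) (cbar ModularGroup.S) := by
    intro y k hy
    have hx : (ModularGroup.S * ModularGroup.T) ^ k • (ModularGroup.T⁻¹ • y)
        = ModularGroup.T⁻¹ • y := by
      apply MulAction.injective ModularGroup.T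
      show ModularGroup.T • (ModularGroup.S * ModularGroup.T) ^ k • ModularGroup.T⁻¹ • y
        = ModularGroup.T • ModularGroup.T⁻¹ • y
      rw [← mul_smul, sl_semiconj, mul_smul, smul_inv_smul, hy]
    have h1 := hvST (ModularGroup.T⁻¹ • y) k hx
    rw [← h1]
    refine Finset.sum_congr rfl fun i _ => ?_
    rw [hcST, ← mul_smul, sl_semiconj, mul_smul, smul_inv_smul]
  -- Step 4: integer lift of the value at `S`
  obtain ⟨v, hv, hvS', hvTS'⟩ := sl_graph_lift n ModularGroup.S (ModularGroup.T * ModularGroup.S)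
    sl_closure_S_TS (cbar ModularGroup.S) hvS hvTS
  -- Step 5: the integer pair lies in `zSpace`
  have hz : ((fun x => (v x : ℂ)), (0 : SL(2, ℤ) ⧸ Gamma0 N → ℂ)) ∈
      zSpace SL(2, ℤ) (SL(2, ℤ) ⧸ Gamma0 N) ModularGroup.S ModularGroup.T := by
    rw [mem_zSpace]
    refine ⟨?_, OrbSumZero.zero ModularGroup.T, ?_⟩
    · intro x k hx
      have h1 := hvS' x k hx
      have h2 := congrArg (Int.cast : ℤ → ℂ) h1
      push_cast at h2
      exact h2
    · intro x k hx
      have hy : (ModularGroup.T * ModularGroup.S) ^ k • (ModularGroup.T • x)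
          = ModularGroup.T • x := by
        rw [← mul_smul, ← sl_semiconj, mul_smul, hx]
      have h1 := hvTS' (ModularGroup.T • x) k hy
      have h2 := congrArg (Int.cast : ℤ → ℂ) h1
      push_cast at h2
      simp only [Pi.zero_apply, add_zero]
      rw [← h2]
      refine Finset.sum_congr rfl fun i _ => ?_
      rw [← mul_smul, ← mul_smul, sl_semiconj]
  -- Step 6: surjectivity of the Shapiro map
  obtain ⟨Φ, m, hΦ, hS, hT⟩ := ss_shapiro_surj N _ _ hz
  -- Step 7: integrality and comparison mod `n`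
  have hCcoc : sl_IsCoc (sl_coc (Gamma0 N) Φ m) := sl_coc_isCoc _ _ _
  have hCS : ∀ x, sl_coc (Gamma0 N) Φ m ModularGroup.S x = (v x : ℂ) := fun x => congrFun hS x
  have hCT : ∀ x, sl_coc (Gamma0 N) Φ m ModularGroup.T x = 0 := fun x => congrFun hT x
  have hint : ∀ g x, ∃ k : ℤ, sl_coc (Gamma0 N) Φ m g x = k :=
    sl_coc_int _ hCcoc ModularGroup.S ModularGroup.T SpecialLinearGroup.SL2Z_generators
      (fun x => ⟨v x, hCS x⟩) (fun x => ⟨0, by rw [hCT x]; simp⟩)
  choose Cz hCz using hint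
  have hCzadd : ∀ g h x, Cz (g * h) x = Cz g (h • x) + Cz h x := by
    intro g h x
    have h1 := hCcoc g h x
    rw [hCz, hCz, hCz] at h1
    exact_mod_cast h1
  have hCzcoc : sl_IsCoc (fun g x => ((Cz g x : ℤ) : ZMod n)) := by
    intro g h x
    simp only [hCzadd g h x]
    push_cast
    ring
  have hCzS : ∀ x, Cz ModularGroup.S x = v x := by
    intro x
    have h1 := (hCz ModularGroup.S x).symm.trans (hCS x)
    exact_mod_cast h1
  have hCzT : ∀ x, Cz ModularGroup.T x = 0 := by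
    intro x
    have h1 := (hCz ModularGroup.T x).symm.trans (hCT x)
    exact_mod_cast h1
  have hext : ∀ g x, ((Cz g x : ℤ) : ZMod n) = cbar g x := by
    intro g x
    refine sl_coc_ext _ _ hCzcoc hcoc ModularGroup.S ModularGroup.T
      SpecialLinearGroup.SL2Z_generators ?_ ?_ g x
    · intro x
      simp only [hCzS x]
      exact hv x
    · intro x
      simp only [hCzT x, hcbarT x]
      simp
  -- Step 8: the homomorphism
  have hval : ∀ γ : Gamma0 N, Φ (Additive.ofMul γ)
      = (Cz (γ : SL(2, ℤ)) ((1 : SL(2, ℤ)) : SL(2, ℤ) ⧸ Gamma0 N) : ℂ) := by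
    intro γ
    rw [← hCz, sl_coc_base]
  have hadd : ∀ a b : Additive (Gamma0 N),
      Cz (((Additive.toMul (a + b) : Gamma0 N)) : SL(2, ℤ)) ((1 : SL(2, ℤ)) : SL(2, ℤ) ⧸ Gamma0 N)
        = Cz ((Additive.toMul a : Gamma0 N) : SL(2, ℤ)) ((1 : SL(2, ℤ)) : SL(2, ℤ) ⧸ Gamma0 N)
          + Cz ((Additive.toMul b : Gamma0 N) : SL(2, ℤ))
            ((1 : SL(2, ℤ)) : SL(2, ℤ) ⧸ Gamma0 N) := by
    intro a b
    have h1 := hval (Additive.toMul (a + b))
    have h2 := hval (Additive.toMul a)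
    have h3 := hval (Additive.toMul b)
    simp only [ofMul_toMul] at h1 h2 h3
    rw [map_add, h2, h3] at h1
    exact_mod_cast h1.symm
  refine ⟨AddMonoidHom.mk' (fun γ => Cz ((Additive.toMul γ : Gamma0 N) : SL(2, ℤ))
    ((1 : SL(2, ℤ)) : SL(2, ℤ) ⧸ Gamma0 N)) hadd, ?_, ?_⟩
  · have hcomp : (Int.castAddHom ℂ).comp (AddMonoidHom.mk'
        (fun γ => Cz ((Additive.toMul γ : Gamma0 N) : SL(2, ℤ))
          ((1 : SL(2, ℤ)) : SL(2, ℤ) ⧸ Gamma0 N)) hadd) = Φ := by
      refine AddMonoidHom.ext fun γ => ?_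
      have h1 := hval (Additive.toMul γ)
      simp only [ofMul_toMul] at h1
      simp [h1]
    rw [hcomp]
    exact hΦ
  · intro γ
    show ((Cz ((Additive.toMul γ : Gamma0 N) : SL(2, ℤ))
      ((1 : SL(2, ℤ)) : SL(2, ℤ) ⧸ Gamma0 N) : ℤ) : ZMod n) = φ γ
    rw [hext, hcbar, sl_coc_base]
    rfl

/-- `sl_exists_lift` with the reduction stated as an equality of homomorphisms. -/
theorem sl_exists_lift_comp (N : ℕ) [NeZero N] (n : ℕ) [NeZero n]
    (φ : Additive (Gamma0 N) →+ ZMod n)
    (hpar : ∀ γ : Gamma0 N, ((γ : SL(2, ℤ)) : Matrix (Fin 2) (Fin 2) ℤ).trace ^ 2 = 4 →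
      φ (Additive.ofMul γ) = 0)
    (htor : ∀ γ : Gamma0 N, γ ^ 12 = 1 → φ (Additive.ofMul γ) = 0) :
    ∃ ψ : Additive (Gamma0 N) →+ ℤ,
      (Int.castAddHom ℂ).comp ψ ∈ parabolicHoms ℂ (Gamma0 N) ℂ ∧
      (Int.castAddHom (ZMod n)).comp ψ = φ := by
  obtain ⟨ψ, h1, h2⟩ := sl_exists_lift N n φ hpar htor
  exact ⟨ψ, h1, AddMonoidHom.ext fun γ => h2 γ⟩

/-- **L-C1.**  The Shimura character lifts to a `ℤ`-valued parabolic homomorphism. -/
theorem sl_exists_shimura_lift (p : ℕ) [Fact p.Prime] :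
    ∃ φ : Additive (Gamma0 p) →+ ℤ,
      (Int.castAddHom ℂ).comp φ ∈ parabolicHoms ℂ (Gamma0 p) ℂ ∧
      (Int.castAddHom (ZMod (eisensteinNumerator p))).comp φ = shimuraChar p := by
  have : NeZero p := ⟨(Fact.out : p.Prime).ne_zero⟩
  refine sl_exists_lift_comp p (eisensteinNumerator p) (shimuraChar p) ?_ ?_
  · intro γ hγ
    exact shimuraChar_eq_zero_of_trace p γ hγ.le
  · intro γ hγ
    apply shimuraChar_eq_zero_of_pow_twelve
    have h1 : (gamma0Unit p γ) ^ 12 = 1 := by rw [← map_pow, hγ, map_one]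
    have h2 := congrArg (fun u : (ZMod p)ˣ => (u : ZMod p)) h1
    simpa [gamma0Unit_coe] using h2

end Main

end Fermat.Agent.S16
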