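import Fermat.Agent.S16.Psi
import Fermat.Agent.S16.LowerFromPsi

/-!
# S16: the lower bound `n ∣ #(T / I)` by the theta route (helper47, L-theta deputy)

`lower_theta p` is exactly the hypothesis `hLB` of `Top.h36_card_quot_eq` with
`n = eisensteinNumerator p`:  every Hecke polynomial vanishing on cusp forms has Eisenstein
value divisible by the numerator of `(p - 1) / 12`.

Chain: `ThetaBinary` (Poisson/Hecke transformation of the binary theta series of
`x² + xy + ((q+1)/4) y²`) → `GaussPrime` + `ThetaChar` + `ThetaMod` (multiplier = `(d/q)`) →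
`ThetaSeries`/`ThetaBridge`/`RepCount` (q-expansion and parity of representation numbers) →
`Pack` + `ThetaFormCore` (`θ(z) θ(pz) ∈ M₂(Γ₀(pq))`) → `TraceQ` (trace to `Γ₀(p)`) →
`Psi` (`Ψ ≡ 1 mod 2`, `a₀ = 1`) → `LowerFromPsi` (`δ = u (ν E' - n Ψ) / 2`, duality).
-/

set_option autoImplicit false

open ModularCurve CuspForm

namespace Fermat.Agent.S16

/-- **The lower bound of S16 (theta route).** -/
theorem lower_theta (p : ℕ) [Fact p.Prime] :
    ∀ P : HeckeAlg, h36_pi p P = 0 → (eisensteinNumerator p : ℤ) ∣ h36_eis p P := by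
  obtain ⟨Ψ, h0, hev⟩ := exists_psi p
  exact lower_of_psi p Ψ h0 hev

end Fermat.Agent.S16
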