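import Mathlib

/-!
# S16, Blocker A (norm route): the ring algebra

Pure commutative algebra behind "no weight-2 form `Θ ≡ 1 mod 8`":
with `Θ = 1 + 8t`, `E₄ = 1 + 16a`, `E₆ = 1 + 8c`, `E₄³ - E₆² = 1728 D`, the weight-8 combination
`14 E₄ Θ² - 5 Θ⁴ - 8 E₆ Θ - E₄²` equals `256 * (27 D) + 1024 * G` for an explicit polynomial `G`.
-/

set_option autoImplicit false

open PowerSeries

namespace Fermat.Agent.S16

/-- The explicit remainder polynomial. -/
def m8_G {R : Type*} [CommRing R] (t a w : R) : R :=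
  -a ^ 2 - 16 * a ^ 3 - 6 * a * w + 4 * w ^ 2 + 2 * t * w - t ^ 2 - 10 * t ^ 3 + 2 * t * a
    + 14 * t ^ 2 * a - 20 * t ^ 4

/-- The auxiliary element `w = (3a - c)/4`, written without division. -/
def m8_w {R : Type*} [CommRing R] (a c D : R) : R :=
  27 * D - 12 * a ^ 2 - 64 * a ^ 3 + c ^ 2

theorem m8_sixteen_mul {R : Type*} [CommRing R] (a c D : R)
    (hrel : (1 + 16 * a) ^ 3 - (1 + 8 * c) ^ 2 = 1728 * D) :
    16 * (c - (3 * a - 4 * m8_w a c D)) = 0 := by
  unfold m8_w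
  linear_combination (-1 : R) * hrel

theorem m8_key_aux {R : Type*} [CommRing R] (t a c D w : R)
    (hw : w = 27 * D - 12 * a ^ 2 - 64 * a ^ 3 + c ^ 2) (hc : c = 3 * a - 4 * w) :
    14 * (1 + 16 * a) * (1 + 8 * t) ^ 2 - 5 * (1 + 8 * t) ^ 4 - 8 * (1 + 8 * c) * (1 + 8 * t)
        - (1 + 16 * a) ^ 2 = 256 * (27 * D) + 1024 * m8_G t a w := by
  unfold m8_G
  linear_combination (256 * c + 768 * a - 1024 * w - 64 - 512 * t) * hc + 256 * hw

/-- The key identity, in a ring where `16` can be cancelled. -/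
theorem m8_key {R : Type*} [CommRing R] (h16 : ∀ x : R, 16 * x = 0 → x = 0) (t a c D : R)
    (hrel : (1 + 16 * a) ^ 3 - (1 + 8 * c) ^ 2 = 1728 * D) :
    14 * (1 + 16 * a) * (1 + 8 * t) ^ 2 - 5 * (1 + 8 * t) ^ 4 - 8 * (1 + 8 * c) * (1 + 8 * t)
        - (1 + 16 * a) ^ 2 = 256 * (27 * D) + 1024 * m8_G t a (m8_w a c D) := by
  have hc : c = 3 * a - 4 * m8_w a c D :=
    sub_eq_zero.mp (h16 _ (m8_sixteen_mul a c D hrel))
  exact m8_key_aux t a c D (m8_w a c D) rfl hc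



/-- Power series over `ℂ` all of whose coefficients lie in the subring `O`. -/
def m8_ser (O : Subring ℂ) : Subring (PowerSeries ℂ) where
  carrier := {f | ∀ n, coeff n f ∈ O}
  mul_mem' {f g} hf hg n := by
    rw [coeff_mul]
    exact Subring.sum_mem _ fun x _ => O.mul_mem (hf _) (hg _)
  one_mem' n := by
    rw [coeff_one]
    split_ifs
    · exact O.one_mem
    · exact O.zero_mem
  add_mem' {f g} hf hg n := by
    rw [map_add]
    exact O.add_mem (hf n) (hg n)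
  zero_mem' n := by
    rw [map_zero]
    exact O.zero_mem
  neg_mem' {f} hf n := by
    rw [map_neg]
    exact O.neg_mem (hf n)

theorem m8_mem_ser_iff (O : Subring ℂ) (f : PowerSeries ℂ) :
    f ∈ m8_ser O ↔ ∀ n, coeff n f ∈ O := Iff.rfl

theorem m8_expand_mem (O : Subring ℂ) (p : ℕ) (hp : p ≠ 0) {f : PowerSeries ℂ}
    (hf : f ∈ m8_ser O) : expand p hp f ∈ m8_ser O := by
  intro n
  rw [coeff_expand]
  split_ifs
  · exact hf _
  · exact O.zero_mem

theorem m8_rescale_mem (O : Subring ℂ) {ζ : ℂ} (hζ : ζ ∈ O) {f : PowerSeries ℂ}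
    (hf : f ∈ m8_ser O) : rescale ζ f ∈ m8_ser O := by
  intro n
  rw [coeff_rescale]
  exact O.mul_mem (O.pow_mem hζ n) (hf n)

theorem m8_rescale_expand (p : ℕ) (hp : p ≠ 0) {ζ : ℂ} (hζ : ζ ^ p = 1) (f : PowerSeries ℂ) :
    rescale ζ (expand p hp f) = expand p hp f := by
  ext n
  rw [coeff_rescale, coeff_expand]
  split_ifs with h
  · obtain ⟨m, rfl⟩ := h
    rw [pow_mul, hζ, one_pow, one_mul]
  · rw [mul_zero]

theorem m8_G_mem {R : Type*} [CommRing R] (S : Subring R) {t a w : R} (ht : t ∈ S) (ha : a ∈ S)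
    (hw : w ∈ S) : m8_G t a w ∈ S := by
  unfold m8_G
  have h2 : (2 : R) ∈ S := by exact_mod_cast natCast_mem S 2
  have h4 : (4 : R) ∈ S := by exact_mod_cast natCast_mem S 4
  have h6 : (6 : R) ∈ S := by exact_mod_cast natCast_mem S 6
  have h10 : (10 : R) ∈ S := by exact_mod_cast natCast_mem S 10
  have h14 : (14 : R) ∈ S := by exact_mod_cast natCast_mem S 14
  have h16 : (16 : R) ∈ S := by exact_mod_cast natCast_mem S 16
  have h20 : (20 : R) ∈ S := by exact_mod_cast natCast_mem S 20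
  refine S.sub_mem (S.add_mem (S.add_mem (S.sub_mem (S.sub_mem (S.add_mem (S.add_mem (S.sub_mem
    (S.sub_mem (S.neg_mem (S.pow_mem ha 2)) (S.mul_mem h16 (S.pow_mem ha 3)))
    (S.mul_mem (S.mul_mem h6 ha) hw)) (S.mul_mem h4 (S.pow_mem hw 2)))
    (S.mul_mem (S.mul_mem h2 ht) hw)) (S.pow_mem ht 2)) (S.mul_mem h10 (S.pow_mem ht 3)))
    (S.mul_mem (S.mul_mem h2 ht) ha)) (S.mul_mem (S.mul_mem h14 (S.pow_mem ht 2)) ha))
    (S.mul_mem h20 (S.pow_mem ht 4))

theorem m8_w_mem {R : Type*} [CommRing R] (S : Subring R) {a c D : R} (ha : a ∈ S) (hc : c ∈ S)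
    (hD : D ∈ S) : m8_w a c D ∈ S := by
  unfold m8_w
  have h27 : (27 : R) ∈ S := by exact_mod_cast natCast_mem S 27
  have h12 : (12 : R) ∈ S := by exact_mod_cast natCast_mem S 12
  have h64 : (64 : R) ∈ S := by exact_mod_cast natCast_mem S 64
  exact S.add_mem (S.sub_mem (S.sub_mem (S.mul_mem h27 hD) (S.mul_mem h12 (S.pow_mem ha 2)))
    (S.mul_mem h64 (S.pow_mem ha 3))) (S.pow_mem hc 2)

/-- The weight-8 combination `14 E₄ Θ² - 5 Θ⁴ - 8 E₆ Θ - E₄²` (`= 256 (eΘ - b²)`). -/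
def m8_P {R : Type*} [CommRing R] (Th E4 E6 : R) : R :=
  14 * E4 * Th ^ 2 - 5 * Th ^ 4 - 8 * E6 * Th - E4 ^ 2

theorem m8_P_eq {R : Type*} [CommRing R] (h16 : ∀ x : R, 16 * x = 0 → x = 0) (t a c D : R)
    (hrel : (1 + 16 * a) ^ 3 - (1 + 8 * c) ^ 2 = 1728 * D) :
    m8_P (1 + 8 * t) (1 + 16 * a) (1 + 8 * c) = 256 * (27 * D + 4 * m8_G t a (m8_w a c D)) := by
  unfold m8_P
  linear_combination m8_key h16 t a c D hrel

theorem m8_prod_congr {R : Type*} [CommRing R] (S : Subring R) {x : R} (hx : x ∈ S) {ι : Type*}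
    (s : Finset ι) (y : ι → R) (hy : ∀ i ∈ s, y i ∈ S) :
    ∃ Y ∈ S, ∏ i ∈ s, (x + 4 * y i) = x ^ s.card + 4 * Y := by
  classical
  induction s using Finset.induction_on with
  | empty => exact ⟨0, S.zero_mem, by simp⟩
  | insert i s hi ih =>
    obtain ⟨Y, hY, hprod⟩ := ih fun j hj => hy j (Finset.mem_insert_of_mem hj)
    have hyi : y i ∈ S := hy i (Finset.mem_insert_self i s)
    have h4 : (4 : R) ∈ S := by exact_mod_cast natCast_mem S 4
    refine ⟨y i * x ^ s.card + x * Y + 4 * (y i * Y), ?_, ?_⟩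
    · exact S.add_mem (S.add_mem (S.mul_mem hyi (S.pow_mem hx _)) (S.mul_mem hx hY))
        (S.mul_mem h4 (S.mul_mem hyi hY))
    · rw [Finset.prod_insert hi, hprod, Finset.card_insert_of_notMem hi]
      ring

theorem m8_coeff_pow_of_lt {D : PowerSeries ℂ} (hD0 : coeff 0 D = 0) (k n : ℕ) (hn : n < k) :
    coeff n (D ^ k) = 0 := by
  have hX : (X : PowerSeries ℂ) ∣ D := by
    rw [X_dvd_iff, ← coeff_zero_eq_constantCoeff_apply]
    exact hD0
  obtain ⟨U, rfl⟩ := hX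
  rw [mul_pow, coeff_X_pow_mul', if_neg (by omega)]

theorem m8_coeff_pow_self {D : PowerSeries ℂ} (hD0 : coeff 0 D = 0) (hD1 : coeff 1 D = 1)
    (k : ℕ) : coeff k (D ^ k) = 1 := by
  have hX : (X : PowerSeries ℂ) ∣ D := by
    rw [X_dvd_iff, ← coeff_zero_eq_constantCoeff_apply]
    exact hD0
  obtain ⟨U, rfl⟩ := hX
  have hU : constantCoeff U = 1 := by
    have := hD1
    rw [show (1 : ℕ) = 0 + 1 from rfl, coeff_succ_X_mul, coeff_zero_eq_constantCoeff_apply] at this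
    exact this
  rw [mul_pow, coeff_X_pow_mul', if_pos le_rfl, Nat.sub_self, coeff_zero_eq_constantCoeff_apply,
    map_pow, hU, one_pow]


/-- **Abstract form of the norm argument.**  `N` is the `q`-expansion of the norm (to level one)
of the weight-8 form `P = 14 E₄ Θ² - 5 Θ⁴ - 8 E₆ Θ - E₄²`; `1 + 8 tA` is the expansion of `Θ` at
`∞` and `1 + 8 tB` the `q^(1/p)`-expansion of `Θ ∣ S`.  The "Sturm" hypothesis says that
membership of the coefficients of `N` in an additive subgroup only has to be tested up to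
`weight / 12`. -/
theorem m8_abstract (p : ℕ) (hp : p ≠ 0) (O : Subring ℂ) (h2 : ¬ ∃ x ∈ O, (1 : ℂ) = 2 * x)
    (ζ : ℂ) (hζO : ζ ∈ O) (hζ : ζ ^ p = 1)
    (a c D tA tB N : PowerSeries ℂ)
    (ha : a ∈ m8_ser O) (hc : c ∈ m8_ser O) (hD : D ∈ m8_ser O)
    (htA : tA ∈ m8_ser O) (htB : tB ∈ m8_ser O)
    (hrel : (1 + 16 * a) ^ 3 - (1 + 8 * c) ^ 2 = 1728 * D)
    (hD0 : coeff 0 D = 0) (hD1 : coeff 1 D = 1)
    (hN : expand p hp N = expand p hp (m8_P (1 + 8 * tA) (1 + 16 * a) (1 + 8 * c)) *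
      ∏ j ∈ Finset.range p, rescale (ζ ^ j)
        (m8_P (1 + 8 * tB) (expand p hp (1 + 16 * a)) (expand p hp (1 + 8 * c))))
    (hSturm : ∀ M : AddSubgroup ℂ, (∀ n : ℕ, 3 * n ≤ 2 * (p + 1) → coeff n N ∈ M) →
      ∀ n, coeff n N ∈ M) : False := by
  have h16 : ∀ x : PowerSeries ℂ, 16 * x = 0 → x = 0 := by
    intro x hx
    rcases mul_eq_zero.mp hx with h | h
    · exact absurd h (by
        intro h0
        have := congrArg (coeff 0) h0
        rw [show (16 : PowerSeries ℂ) = C (16 : ℂ) from (map_ofNat C 16).symm] at this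
        simp at this)
    · exact h
  set S := m8_ser O with hS
  -- A side
  have hA := m8_P_eq h16 tA a c D hrel
  have hGA : m8_G tA a (m8_w a c D) ∈ S := m8_G_mem S htA ha (m8_w_mem S ha hc hD)
  -- B side
  have hrel' : (1 + 16 * expand p hp a) ^ 3 - (1 + 8 * expand p hp c) ^ 2
      = 1728 * expand p hp D := by
    have := congrArg (expand p hp) hrel
    simpa only [map_sub, map_pow, map_add, map_mul, map_one, map_ofNat] using this
  have hB := m8_P_eq h16 tB (expand p hp a) (expand p hp c) (expand p hp D) hrel'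
  have ha' := m8_expand_mem O p hp ha
  have hc' := m8_expand_mem O p hp hc
  have hD' := m8_expand_mem O p hp hD
  have hGB : m8_G tB (expand p hp a) (m8_w (expand p hp a) (expand p hp c) (expand p hp D)) ∈ S :=
    m8_G_mem S htB ha' (m8_w_mem S ha' hc' hD')
  set GA := m8_G tA a (m8_w a c D) with hGAdef
  set GB := m8_G tB (expand p hp a) (m8_w (expand p hp a) (expand p hp c) (expand p hp D))
    with hGBdef
  set x := 27 * expand p hp D with hxdef
  have hx : x ∈ S := S.mul_mem (by exact_mod_cast natCast_mem S 27) hD'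
  -- rewrite the product
  have hfac : ∀ j ∈ Finset.range p, rescale (ζ ^ j)
      (m8_P (1 + 8 * tB) (expand p hp (1 + 16 * a)) (expand p hp (1 + 8 * c)))
      = 256 * (x + 4 * rescale (ζ ^ j) GB) := by
    intro j _
    have hζj : (ζ ^ j) ^ p = 1 := by rw [← pow_mul, mul_comm, pow_mul, hζ, one_pow]
    have e1 : expand p hp (1 + 16 * a) = 1 + 16 * expand p hp a := by
      simp only [map_add, map_mul, map_one, map_ofNat]
    have e2 : expand p hp (1 + 8 * c) = 1 + 8 * expand p hp c := by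
      simp only [map_add, map_mul, map_one, map_ofNat]
    rw [e1, e2, hB]
    simp only [map_mul, map_add, map_ofNat, m8_rescale_expand p hp hζj, hxdef]
  have hprodB : ∃ Y ∈ S, ∏ j ∈ Finset.range p, rescale (ζ ^ j)
      (m8_P (1 + 8 * tB) (expand p hp (1 + 16 * a)) (expand p hp (1 + 8 * c)))
      = 256 ^ p * (x ^ p + 4 * Y) := by
    obtain ⟨Y, hY, hprod⟩ := m8_prod_congr S hx (Finset.range p)
      (fun j => rescale (ζ ^ j) GB)
      (fun j _ => m8_rescale_mem O (O.pow_mem hζO j) hGB)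
    refine ⟨Y, hY, ?_⟩
    rw [Finset.prod_congr rfl hfac, Finset.prod_mul_distrib, Finset.prod_const,
      Finset.card_range, hprod, Finset.card_range]
  obtain ⟨Y, hY, hprodB⟩ := hprodB
  have hAexp : expand p hp (m8_P (1 + 8 * tA) (1 + 16 * a) (1 + 8 * c))
      = 256 * (x + 4 * expand p hp GA) := by
    rw [hA]
    simp only [map_mul, map_add, map_ofNat, hxdef]
  have hGA' : expand p hp GA ∈ S := m8_expand_mem O p hp hGA
  -- total
  obtain ⟨Z, hZ, hNZ⟩ : ∃ Z ∈ S, expand p hp N = 256 ^ (p + 1) * (x ^ (p + 1) + 4 * Z) := by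
    refine ⟨expand p hp GA * x ^ p + x * Y + 4 * (expand p hp GA * Y), ?_, ?_⟩
    · exact S.add_mem (S.add_mem (S.mul_mem hGA' (S.pow_mem hx _)) (S.mul_mem hx hY))
        (S.mul_mem (by exact_mod_cast natCast_mem S 4) (S.mul_mem hGA' hY))
    · rw [hN, hAexp, hprodB]
      ring
  have hxpow : x ^ (p + 1) = C ((27 : ℂ) ^ (p + 1)) * expand p hp (D ^ (p + 1)) := by
    rw [hxdef, mul_pow, map_pow, map_pow, map_ofNat]
  -- coefficients of N
  have hcoeff : ∀ n : ℕ, coeff n N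
      = 256 ^ (p + 1) * (27 ^ (p + 1) * coeff n (D ^ (p + 1)) + 4 * coeff (p * n) Z) := by
    intro n
    have h1 : coeff (p * n) (expand p hp N) = coeff n N := coeff_expand_mul p hp N n
    rw [← h1, hNZ, hxpow]
    rw [show (256 : PowerSeries ℂ) ^ (p + 1) = C ((256 : ℂ) ^ (p + 1)) by
      rw [map_pow, show (256 : PowerSeries ℂ) = C (256 : ℂ) from (map_ofNat C 256).symm]]
    rw [coeff_C_mul, map_add, coeff_C_mul, coeff_expand_mul]
    rw [show (4 : PowerSeries ℂ) = C (4 : ℂ) from (map_ofNat C 4).symm, coeff_C_mul]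
  -- the subgroup
  let M : AddSubgroup ℂ :=
    O.toAddSubgroup.map (AddMonoidHom.mulLeft ((256 : ℂ) ^ (p + 1) * 4))
  have hmemM : ∀ y : ℂ, y ∈ M ↔ ∃ z ∈ O, (256 : ℂ) ^ (p + 1) * 4 * z = y := by
    intro y
    simp only [M, AddSubgroup.mem_map, Subring.mem_toAddSubgroup, AddMonoidHom.coe_mulLeft]
  have hsmall : ∀ n : ℕ, 3 * n ≤ 2 * (p + 1) → coeff n N ∈ M := by
    intro n hn
    rw [hcoeff n, m8_coeff_pow_of_lt hD0 (p + 1) n (by omega), hmemM]
    exact ⟨coeff (p * n) Z, hZ _, by ring⟩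
  have hall := hSturm M hsmall (p + 1)
  rw [hcoeff (p + 1), m8_coeff_pow_self hD0 hD1, hmemM] at hall
  obtain ⟨z, hz, hzeq⟩ := hall
  have h256 : ((256 : ℂ) ^ (p + 1)) ≠ 0 := pow_ne_zero _ (by norm_num)
  have h27 : (27 : ℂ) ^ (p + 1) = 4 * (z - coeff (p * (p + 1)) Z) := by
    have : (256 : ℂ) ^ (p + 1) * (4 * z) = 256 ^ (p + 1) * (27 ^ (p + 1) * 1
        + 4 * coeff (p * (p + 1)) Z) := by rw [← hzeq]; ring
    have := mul_left_cancel₀ h256 this
    linear_combination -this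
  -- an odd integer lying in `2 O`
  obtain ⟨k, hk⟩ : ∃ k : ℤ, (27 : ℤ) ^ (p + 1) = 1 + 2 * k := by
    have hodd : Odd ((27 : ℤ) ^ (p + 1)) := Odd.pow (by decide)
    obtain ⟨k, hk⟩ := hodd
    exact ⟨k, by rw [hk]; ring⟩
  apply h2
  refine ⟨2 * (z - coeff (p * (p + 1)) Z) - (k : ℂ), ?_, ?_⟩
  · exact O.sub_mem (O.mul_mem (by exact_mod_cast natCast_mem O 2) (O.sub_mem hz (hZ _)))
      (intCast_mem O k)
  · have hkC : (27 : ℂ) ^ (p + 1) = 1 + 2 * (k : ℂ) := by exact_mod_cast congrArg (Int.cast : ℤ → ℂ) hk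
    linear_combination h27 - hkC

end Fermat.Agent.S16
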