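/-
S16 helper module (helper78), task row U-K2-EllEqP: the case `ℓ = p` of the key lemma.

For a prime `p ≥ 5` there is no `Θ ∈ M₂(Γ₀(p))` with `a₀(Θ) = 1` and `aₙ(Θ) ∈ p ℤ_(p)` for
all `n ≥ 1`.

Route: `V := E₄ ∣[4] diag(p, 1)` (level raising), `F := Θ · V ∈ M₆(Γ₀(p))`; the trace of `F`
to level one is `Θ V − (1/p) U_p((U_p Θ) E₄) ∈ M₆(SL₂(ℤ)) = ℂ E₆`, which gives, on
`q`-expansions, `p⁴ [a e(q^p)]_m − [(U_p a) e]_{pm} = (p⁴ − 1) [E₆]_m`; the cases `m = 1, 2`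
give `p ∣ 744` and `p ∣ 18792`, hence `p ∣ 24`.
-/
import Mathlib
import Fermat.Prelude.Def_ModularForm_HeckeOperator
import Fermat.Prelude.Def_ModularForm_HeckeOperatorForms
import Fermat.Prelude.Thm_CongruenceSubgroup_one_mem_strictPeriods_Gamma0
import Fermat.Prelude.Thm_ModularFormClass_qCoeff_heckeU
import Fermat.Prelude.Thm_UpperHalfPlane_qCoeff_heckeU
import Fermat.Prelude.Thm_ModularForm_isBoundedAtImInfty_heckeU
import Fermat.Prelude.Thm_ModularForm_periodic_heckeU_comp_ofComplex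
import Fermat.Prelude.Thm_ModularForm_mdifferentiable_heckeU
import Fermat.Agent.S16.EisP
import Fermat.Agent.S16.LevelOneSturm
import Fermat.Agent.S16.TraceLemma
import Fermat.Agent.S16.ThetaCong

set_option autoImplicit false

open UpperHalfPlane ModularForm CongruenceSubgroup EisensteinSeries
open scoped MatrixGroups ModularForm Manifold

noncomputable section

namespace Fermat.Agent.S16

/-! ### Level raising -/

/-- A level one form is invariant under the slash action of `SL(2, ℤ)`. -/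
theorem nts_levelOne_slash {k : ℤ} (g : ModularForm 𝒮ℒ k) (γ : SL(2, ℤ)) :
    (⇑g : ℍ → ℂ) ∣[k] γ = ⇑g := by
  rw [SL_slash]
  exact SlashInvariantFormClass.slash_action_eq g _ ⟨γ, rfl⟩

/-- `diag(N, 1) · γ = γ' · diag(N, 1)` for `γ ∈ Γ₀(N)`, with `γ' ∈ SL(2, ℤ)`. -/
theorem nts_diag_mul_Gamma0 (N : ℕ) [NeZero N] (γ : SL(2, ℤ)) (hγ : γ ∈ Gamma0 N) :
    ∃ γ' : SL(2, ℤ),
      heckeDiagMatrix N * (γ : GL (Fin 2) ℝ) = (γ' : GL (Fin 2) ℝ) * heckeDiagMatrix N := by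
  have hN : N ≠ 0 := NeZero.ne N
  rw [Gamma0_mem, ZMod.intCast_zmod_eq_zero_iff_dvd] at hγ
  obtain ⟨c', hc'⟩ := hγ
  have hdet : γ 0 0 * γ 1 1 - (N * γ 0 1) * c' = 1 := by
    have h1 := γ.det_coe
    rw [Matrix.det_fin_two, hc'] at h1
    linear_combination h1
  obtain ⟨γ', e00, e01, e10, e11⟩ : ∃ γ' : SL(2, ℤ), γ' 0 0 = γ 0 0 ∧ γ' 0 1 = N * γ 0 1 ∧
      γ' 1 0 = c' ∧ γ' 1 1 = γ 1 1 :=
    ⟨⟨!![γ 0 0, N * γ 0 1; c', γ 1 1], by rw [Matrix.det_fin_two_of]; exact hdet⟩,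
      rfl, rfl, rfl, rfl⟩
  refine ⟨γ', ?_⟩
  apply Matrix.GeneralLinearGroup.ext
  intro i j
  have hc'' : ((γ 1 0 : ℤ) : ℝ) = N * c' := by rw [hc']; push_cast; ring
  simp only [Matrix.GeneralLinearGroup.coe_mul, val_heckeDiagMatrix hN, Matrix.mul_apply,
    Fin.sum_univ_two]
  fin_cases i <;> fin_cases j <;> simp [hc'', e00, e01, e10, e11] <;> ring

/-- Level raising: `g ∣[k] diag(N, 1)`, i.e. `z ↦ N^(k-1) g(N z)`, as a modular form on
`Γ₀(N)`, for `g` of level one. -/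
def nts_raise (N : ℕ) [NeZero N] {k : ℤ} (g : ModularForm 𝒮ℒ k) : ModularForm (Gamma0 N) k where
  toFun := (⇑g : ℍ → ℂ) ∣[k] heckeDiagMatrix N
  slash_action_eq' := by
    rintro _ ⟨γ, hγ, rfl⟩
    obtain ⟨γ', hγ'⟩ := nts_diag_mul_Gamma0 N γ hγ
    have h := nts_levelOne_slash g γ'
    rw [SL_slash] at h
    show ((⇑g : ℍ → ℂ) ∣[k] heckeDiagMatrix N) ∣[k] (γ : GL (Fin 2) ℝ) = _
    rw [← SlashAction.slash_mul, hγ', SlashAction.slash_mul]
    exact congrArg (fun f => f ∣[k] heckeDiagMatrix N) h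
  holo' := (ModularFormClass.holo g).slash k _
  bdd_at_cusps' {c} hc := by
    rw [Subgroup.IsArithmetic.isCusp_iff_isCusp_SL2Z] at hc
    rw [OnePoint.isBoundedAt_iff_forall_SL2Z hc]
    intro γ _
    obtain ⟨γ', β, hβ, hdec⟩ := eisP_exists_decomp N (NeZero.ne N) γ
    have h1 : ((⇑g : ℍ → ℂ) ∣[k] heckeDiagMatrix N) ∣[k] γ = ((⇑g : ℍ → ℂ) ∣[k] γ') ∣[k] β := by
      rw [SL_slash, ← SlashAction.slash_mul, hdec, SlashAction.slash_mul, ← SL_slash]
    rw [h1, nts_levelOne_slash]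
    exact (ModularFormClass.bdd_at_infty g).slash k hβ

theorem nts_raise_coe (N : ℕ) [NeZero N] {k : ℤ} (g : ModularForm 𝒮ℒ k) :
    (⇑(nts_raise N g) : ℍ → ℂ) = (⇑g : ℍ → ℂ) ∣[k] heckeDiagMatrix N := rfl

theorem nts_raise_apply (N : ℕ) [NeZero N] {k : ℤ} (g : ModularForm 𝒮ℒ k) (z : ℍ) :
    nts_raise N g z = (N : ℂ) ^ (k - 1) * g (heckeDiagMatrix N • z) := by
  rw [nts_raise_coe, slash_heckeDiagMatrix_apply k (NeZero.ne N)]

/-- The `q`-expansion of a raised form, as a sum. -/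
theorem nts_raise_hasSum (N : ℕ) [NeZero N] {k : ℤ} (g : ModularForm 𝒮ℒ k) (τ : ℍ) :
    HasSum (fun n : ℕ => ((N : ℂ) ^ (k - 1) *
        (if N ∣ n then (qExpansion 1 g).coeff (n / N) else 0)) •
          Function.Periodic.qParam 1 (τ : ℂ) ^ n) (nts_raise N g τ) := by
  have hN : N ≠ 0 := NeZero.ne N
  have h2 := ModularForm.hasSum_qExpansion g one_pos one_mem_strictPeriods_SL
    (heckeDiagMatrix N • τ)
  rw [eisP_qParam_heckeDiagMatrix_smul] at h2
  have hinj : Function.Injective (fun m : ℕ => N * m) :=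
    fun a b hab => Nat.eq_of_mul_eq_mul_left (Nat.pos_of_ne_zero hN) hab
  have h3 : HasSum (fun n : ℕ => (if N ∣ n then (qExpansion 1 g).coeff (n / N) else 0) *
      Function.Periodic.qParam 1 (τ : ℂ) ^ n) (g (heckeDiagMatrix N • τ)) := by
    rw [← hinj.hasSum_iff]
    · convert h2 using 1
      funext m
      simp only [Function.comp_apply, dvd_mul_right, if_true,
        Nat.mul_div_cancel_left m (Nat.pos_of_ne_zero hN), pow_mul]
    · intro n hn
      have hnd : ¬ N ∣ n := fun ⟨m, hm⟩ => hn ⟨m, hm.symm⟩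
      simp [hnd]
  rw [nts_raise_apply]
  have h4 := h3.mul_left ((N : ℂ) ^ (k - 1))
  have h5 : (fun n : ℕ => ((N : ℂ) ^ (k - 1) *
        (if N ∣ n then (qExpansion 1 g).coeff (n / N) else 0)) •
          Function.Periodic.qParam 1 (τ : ℂ) ^ n) =
      fun i : ℕ => (N : ℂ) ^ (k - 1) *
        ((if N ∣ i then (qExpansion 1 g).coeff (i / N) else 0) *
          Function.Periodic.qParam 1 (τ : ℂ) ^ i) := by
    funext n
    simp only [smul_eq_mul]
    ring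
  rw [h5]
  exact h4

/-- The `q`-expansion coefficients of a raised form. -/
theorem nts_raise_coeff (N : ℕ) [NeZero N] {k : ℤ} (g : ModularForm 𝒮ℒ k) (n : ℕ) :
    (qExpansion 1 (nts_raise N g)).coeff n =
      (N : ℂ) ^ (k - 1) * (if N ∣ n then (qExpansion 1 g).coeff (n / N) else 0) :=
  (ModularFormClass.qExpansion_coeff_unique one_pos
    (CongruenceSubgroup.one_mem_strictPeriods_Gamma0 N) (nts_raise_hasSum N g) n).symm

/-! ### The conjugates of a raised form -/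

theorem nts_ST_coe (b : ℕ) :
    ((ModularGroup.S * ModularGroup.T ^ b : SL(2, ℤ)) : Matrix (Fin 2) (Fin 2) ℤ) =
      !![0, -1; 1, (b : ℤ)] := by
  have hT : ((ModularGroup.T ^ b : SL(2, ℤ)) : Matrix (Fin 2) (Fin 2) ℤ) =
      !![1, (b : ℤ); 0, 1] := by
    have := ModularGroup.coe_T_zpow (b : ℤ)
    rwa [zpow_natCast] at this
  rw [Matrix.SpecialLinearGroup.coe_mul, hT, ModularGroup.coe_S]
  ext i j
  fin_cases i <;> fin_cases j <;> simp [Matrix.mul_apply, Fin.sum_univ_two]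

/-- `diag(p, 1) · S T^b = S · (1 b; 0 p)` in `GL(2, ℝ)`. -/
theorem nts_diag_mul_ST (p : ℕ) (hp : p ≠ 0) (b : ℕ) :
    heckeDiagMatrix p * ((ModularGroup.S * ModularGroup.T ^ b : SL(2, ℤ)) : GL (Fin 2) ℝ) =
      ((ModularGroup.S : SL(2, ℤ)) : GL (Fin 2) ℝ) * heckeMatrix p b := by
  have hM := nts_ST_coe b
  generalize (ModularGroup.S * ModularGroup.T ^ b : SL(2, ℤ)) = M at hM
  have e00 : M 0 0 = 0 := by
    have := congrFun (congrFun hM 0) 0
    simpa using this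
  have e01 : M 0 1 = -1 := by
    have := congrFun (congrFun hM 0) 1
    simpa using this
  have e10 : M 1 0 = 1 := by
    have := congrFun (congrFun hM 1) 0
    simpa using this
  have e11 : M 1 1 = b := by
    have := congrFun (congrFun hM 1) 1
    simpa using this
  apply Matrix.GeneralLinearGroup.ext
  intro i j
  simp only [Matrix.GeneralLinearGroup.coe_mul, val_heckeDiagMatrix hp, val_heckeMatrix hp,
    Matrix.mul_apply, Fin.sum_univ_two]
  fin_cases i <;> fin_cases j <;> simp [ModularGroup.coe_S, e00, e01, e10, e11]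

/-- Slash of a raised form by `S T^b`. -/
theorem nts_raise_slash_ST (p : ℕ) [NeZero p] {k : ℤ} (g : ModularForm 𝒮ℒ k) (b : ℕ) :
    (⇑(nts_raise p g) : ℍ → ℂ) ∣[k] (ModularGroup.S * ModularGroup.T ^ b : SL(2, ℤ)) =
      (⇑g : ℍ → ℂ) ∣[k] heckeMatrix p b := by
  have h := nts_levelOne_slash g ModularGroup.S
  rw [SL_slash] at h
  rw [nts_raise_coe, SL_slash, ← SlashAction.slash_mul]
  have h2 := nts_diag_mul_ST p (NeZero.ne p) b
  rw [show (Matrix.SpecialLinearGroup.toGL ((Matrix.SpecialLinearGroup.map (Int.castRingHom ℝ))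
      (ModularGroup.S * ModularGroup.T ^ b)) : GL (Fin 2) ℝ) =
      ((ModularGroup.S * ModularGroup.T ^ b : SL(2, ℤ)) : GL (Fin 2) ℝ) from rfl, h2,
    SlashAction.slash_mul]
  exact congrArg (fun f => f ∣[k] heckeMatrix p b) h

/-! ### The trace identity -/

section trace

variable (p : ℕ) [Fact p.Prime]

/-- The product `Θ · (E₄ ∣ diag(p, 1))` as a form of weight `6`. -/
def nts_F (Θ : ModularForm (Gamma0 p) 2) : ModularForm (Gamma0 p) 6 :=
  ModularForm.mcast (show (2 : ℤ) + 4 = 6 by norm_num) (Θ.mul (nts_raise p E₄))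

theorem nts_F_coe (Θ : ModularForm (Gamma0 p) 2) :
    (⇑(nts_F p Θ) : ℍ → ℂ) = ⇑Θ * ⇑(nts_raise p E₄) := rfl

/-- The conjugates of `F = Θ · V`, given the conjugates of `Θ`. -/
theorem nts_F_slash_ST (Θ : ModularForm (Gamma0 p) 2)
    (hS : ∀ (b : ℕ) (z : ℍ),
      ((⇑Θ : ℍ → ℂ) ∣[(2 : ℤ)] (ModularGroup.S * ModularGroup.T ^ b : SL(2, ℤ))) z =
        -(1 / (p : ℂ)) * heckeU 2 p ⇑Θ (heckeMatrix p b • z)) (b : ℕ) (z : ℍ) :
    ((⇑(nts_F p Θ) : ℍ → ℂ) ∣[(6 : ℤ)] (ModularGroup.S * ModularGroup.T ^ b : SL(2, ℤ))) z =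
      -(1 / (p : ℂ)) * ((heckeU 2 p ⇑Θ * ⇑E₄) ∣[(6 : ℤ)] heckeMatrix p b) z := by
  have hp0 : p ≠ 0 := (Fact.out : p.Prime).ne_zero
  have h1 : ((⇑Θ : ℍ → ℂ) * ⇑(nts_raise p E₄)) ∣[(6 : ℤ)]
      (ModularGroup.S * ModularGroup.T ^ b : SL(2, ℤ)) =
      ((⇑Θ : ℍ → ℂ) ∣[(2 : ℤ)] (ModularGroup.S * ModularGroup.T ^ b : SL(2, ℤ))) *
        ((⇑(nts_raise p E₄) : ℍ → ℂ) ∣[(4 : ℤ)] (ModularGroup.S * ModularGroup.T ^ b : SL(2, ℤ))) :=
    mul_slash_SL2 2 4 _ _ _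
  rw [nts_F_coe, h1, Pi.mul_apply, hS b z, nts_raise_slash_ST, slash_heckeMatrix_apply 4 hp0,
    slash_heckeMatrix_apply 6 hp0, Pi.mul_apply]
  ring

/-- **Trace identity**: if `G(z) = F(z) + ∑_b (F ∣ S T^b)(z)` then
`G = Θ V − (1/p) U_p((U_p Θ) E₄)`. -/
theorem nts_trace_identity (Θ : ModularForm (Gamma0 p) 2)
    (hS : ∀ (b : ℕ) (z : ℍ),
      ((⇑Θ : ℍ → ℂ) ∣[(2 : ℤ)] (ModularGroup.S * ModularGroup.T ^ b : SL(2, ℤ))) z =
        -(1 / (p : ℂ)) * heckeU 2 p ⇑Θ (heckeMatrix p b • z))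
    (G : ℍ → ℂ)
    (hG : ∀ z : ℍ, G z = nts_F p Θ z + ∑ b ∈ Finset.range p,
      ((⇑(nts_F p Θ) : ℍ → ℂ) ∣[(6 : ℤ)] (ModularGroup.S * ModularGroup.T ^ b : SL(2, ℤ))) z) :
    G = (⇑Θ : ℍ → ℂ) * ⇑(nts_raise p E₄) -
      (1 / (p : ℂ)) • heckeU 6 p (heckeU 2 p ⇑Θ * ⇑E₄) := by
  funext z
  have hU : heckeU 6 p (heckeU 2 p ⇑Θ * ⇑E₄) z = ∑ b ∈ Finset.range p,
      ((heckeU 2 p ⇑Θ * ⇑E₄) ∣[(6 : ℤ)] heckeMatrix p b) z := by
    rw [heckeU_def 6 p, Finset.sum_apply]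
  rw [hG z, Finset.sum_congr rfl (fun b _ => nts_F_slash_ST p Θ hS b z), ← Finset.mul_sum,
    nts_F_coe, Pi.sub_apply, Pi.smul_apply, hU, smul_eq_mul]
  ring

/-- `q`-expansion form of the trace identity. -/
theorem nts_qexp (Θ : ModularForm (Gamma0 p) 2) (G : ModularForm 𝒮ℒ 6)
    (hG : (⇑G : ℍ → ℂ) = (⇑Θ : ℍ → ℂ) * ⇑(nts_raise p E₄) -
      (1 / (p : ℂ)) • heckeU 6 p (heckeU 2 p ⇑Θ * ⇑E₄)) (m : ℕ) :
    (qExpansion 1 G).coeff m = (qExpansion 1 Θ * qExpansion 1 (nts_raise p E₄)).coeff m -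
      (1 / (p : ℂ)) * (qExpansion 1 (heckeU 2 p ⇑Θ) * qExpansion 1 E₄).coeff (m * p) := by
  have hp0 : p ≠ 0 := (Fact.out : p.Prime).ne_zero
  have hper := CongruenceSubgroup.one_mem_strictPeriods_Gamma0 p
  have hΘ : AnalyticAt ℂ (cuspFunction 1 ⇑Θ) 0 :=
    ModularFormClass.analyticAt_cuspFunction_zero Θ one_pos hper
  have hV : AnalyticAt ℂ (cuspFunction 1 ⇑(nts_raise p E₄)) 0 :=
    ModularFormClass.analyticAt_cuspFunction_zero _ one_pos hper
  have hE : AnalyticAt ℂ (cuspFunction 1 ⇑E₄) 0 :=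
    ModularFormClass.analyticAt_cuspFunction_zero E₄ one_pos one_mem_strictPeriods_SL
  have hUcoe : heckeU 2 p ⇑Θ = ⇑(ModularForm.heckeULin 2 (dvd_refl p) Θ) := rfl
  have hU : AnalyticAt ℂ (cuspFunction 1 (heckeU 2 p ⇑Θ)) 0 := by
    rw [hUcoe]
    exact ModularFormClass.analyticAt_cuspFunction_zero _ one_pos hper
  have hHper : Function.Periodic ((heckeU 2 p ⇑Θ * ⇑E₄) ∘ ofComplex) 1 := by
    have h1 : Function.Periodic (heckeU 2 p ⇑Θ ∘ ofComplex) 1 := by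
      rw [hUcoe]
      exact SlashInvariantFormClass.periodic_comp_ofComplex _ hper
    have h2 : Function.Periodic ((⇑E₄ : ℍ → ℂ) ∘ ofComplex) 1 :=
      SlashInvariantFormClass.periodic_comp_ofComplex _ one_mem_strictPeriods_SL
    exact h1.mul h2
  have hHhol : MDiff (heckeU 2 p ⇑Θ * ⇑E₄) := by
    have h1 : MDiff (heckeU 2 p ⇑Θ) := by
      rw [hUcoe]
      exact ModularFormClass.holo _
    exact h1.mul (ModularFormClass.holo E₄)
  have hHbdd : IsBoundedAtImInfty (heckeU 2 p ⇑Θ * ⇑E₄) := by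
    have h1 : IsBoundedAtImInfty (heckeU 2 p ⇑Θ) := by
      rw [hUcoe]
      exact ModularFormClass.bdd_at_infty _
    exact h1.mul (ModularFormClass.bdd_at_infty E₄)
  have hUH : AnalyticAt ℂ (cuspFunction 1 (heckeU 6 p (heckeU 2 p ⇑Θ * ⇑E₄))) 0 :=
    UpperHalfPlane.analyticAt_cuspFunction_zero one_pos
      (periodic_heckeU_comp_ofComplex hHper 6 p) (mdifferentiable_heckeU hHhol 6 p)
      (isBoundedAtImInfty_heckeU hHbdd 6 p)
  have hcUH : AnalyticAt ℂ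
      (cuspFunction 1 ((1 / (p : ℂ)) • heckeU 6 p (heckeU 2 p ⇑Θ * ⇑E₄))) 0 := by
    rw [cuspFunction_smul hUH.continuousAt]
    exact hUH.const_smul
  have hΘV : AnalyticAt ℂ (cuspFunction 1 ((⇑Θ : ℍ → ℂ) * ⇑(nts_raise p E₄))) 0 := by
    rw [cuspFunction_mul hΘ.continuousAt hV.continuousAt]
    exact hΘ.mul hV
  have hcoef : (qExpansion 1 (heckeU 6 p (heckeU 2 p ⇑Θ * ⇑E₄))).coeff m =
      (qExpansion 1 (heckeU 2 p ⇑Θ) * qExpansion 1 E₄).coeff (m * p) := by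
    have h := UpperHalfPlane.qCoeff_heckeU hHper hHhol hHbdd 6 hp0 m
    rw [coeffHeckeU_apply] at h
    rw [← qExpansion_mul hU hE]
    exact h
  rw [hG, qExpansion_sub hΘV hcUH, qExpansion_smul hUH, qExpansion_mul hΘ hV, map_sub,
    PowerSeries.coeff_smul, smul_eq_mul, hcoef]

end trace

/-! ### `p`-integrality bookkeeping -/

/-- `p ℤ_(p)` inside `ℂ`: the `x` with `m x = p c` for integers `m`, `c` with `p ∤ m`. -/
def nts_M (p : ℕ) (hp : p.Prime) : AddSubgroup ℂ where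
  carrier := {x | ∃ m c : ℤ, ¬ (p : ℤ) ∣ m ∧ (m : ℂ) * x = (p : ℂ) * c}
  zero_mem' := ⟨1, 0, (Nat.prime_iff_prime_int.mp hp).not_dvd_one, by simp⟩
  add_mem' := by
    rintro x y ⟨m, c, hm, hx⟩ ⟨n, d, hn, hy⟩
    refine ⟨m * n, n * c + m * d, ?_, ?_⟩
    · intro h
      rcases (Nat.prime_iff_prime_int.mp hp).dvd_or_dvd h with h | h
      exacts [hm h, hn h]
    · push_cast
      linear_combination (n : ℂ) * hx + (m : ℂ) * hy
  neg_mem' := by
    rintro x ⟨m, c, hm, hx⟩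
    exact ⟨m, -c, hm, by push_cast; linear_combination -hx⟩

theorem nts_M_mem_iff (p : ℕ) (hp : p.Prime) (x : ℂ) :
    x ∈ nts_M p hp ↔ ∃ m c : ℤ, ¬ (p : ℤ) ∣ m ∧ (m : ℂ) * x = (p : ℂ) * c := Iff.rfl

theorem nts_M_intCast (p : ℕ) (hp : p.Prime) {k : ℤ} (h : (p : ℤ) ∣ k) :
    (k : ℂ) ∈ nts_M p hp := by
  obtain ⟨c, rfl⟩ := h
  exact ⟨1, c, (Nat.prime_iff_prime_int.mp hp).not_dvd_one, by push_cast; ring⟩

theorem nts_M_dvd (p : ℕ) (hp : p.Prime) {k : ℤ} (h : (k : ℂ) ∈ nts_M p hp) :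
    (p : ℤ) ∣ k := by
  obtain ⟨m, c, hm, hx⟩ := h
  have h1 : m * k = p * c := by exact_mod_cast hx
  have h2 : (p : ℤ) ∣ m * k := ⟨c, h1⟩
  exact ((Nat.prime_iff_prime_int.mp hp).dvd_or_dvd h2).resolve_left hm

/-! ### Integral series of `E₄` and `E₆` -/

theorem nts_A4_coeff_zero : (1 + 240 * sturmA : PowerSeries ℤ).coeff 0 = 1 := by
  have h240 : (240 : PowerSeries ℤ) = PowerSeries.C (240 : ℤ) := by simp
  rw [h240, map_add, PowerSeries.coeff_C_mul]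
  simp [sturmA]

theorem nts_A4_coeff (n : ℕ) (hn : n ≠ 0) :
    (1 + 240 * sturmA : PowerSeries ℤ).coeff n = 240 * (ArithmeticFunction.sigma 3 n : ℤ) := by
  have h240 : (240 : PowerSeries ℤ) = PowerSeries.C (240 : ℤ) := by simp
  rw [h240, map_add, PowerSeries.coeff_C_mul]
  simp [sturmA, PowerSeries.coeff_one, hn]

theorem nts_B6_coeff_zero : (1 - 504 * sturmB : PowerSeries ℤ).coeff 0 = 1 := by
  have h504 : (504 : PowerSeries ℤ) = PowerSeries.C (504 : ℤ) := by simp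
  rw [h504, map_sub, PowerSeries.coeff_C_mul]
  simp [sturmB]

theorem nts_B6_coeff (n : ℕ) (hn : n ≠ 0) :
    (1 - 504 * sturmB : PowerSeries ℤ).coeff n = -(504 * (ArithmeticFunction.sigma 5 n : ℤ)) := by
  have h504 : (504 : PowerSeries ℤ) = PowerSeries.C (504 : ℤ) := by simp
  rw [h504, map_sub, PowerSeries.coeff_C_mul]
  simp [sturmB, PowerSeries.coeff_one, hn]

/-- A level one form of weight `6` is a multiple of `E₆`. -/
theorem nts_weight_six (G : ModularForm 𝒮ℒ 6) (m : ℕ) :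
    (qExpansion 1 G).coeff m =
      (qExpansion 1 G).coeff 0 * ((1 - 504 * sturmB : PowerSeries ℤ).coeff m : ℂ) := by
  set c := (qExpansion 1 G).coeff 0 with hc
  set D : ModularForm 𝒮ℒ 6 := G - c • E₆ with hDdef
  have hq : qExpansion 1 D = qExpansion 1 G - c • qExpansion 1 E₆ := by
    rw [hDdef, FunLike.coe_sub, ModularForm.qExpansion_sub one_pos one_mem_strictPeriods_SL,
      FunLike.coe_smul, ModularForm.qExpansion_smul one_pos one_mem_strictPeriods_SL]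
  have hD : ∀ n, (qExpansion 1 D).coeff n ∈ (⊥ : AddSubgroup ℂ) := by
    refine levelOne_coeff_mem ⊥ D ?_
    intro n hn
    have hn0 : n = 0 := by omega
    subst hn0
    rw [AddSubgroup.mem_bot, hq, sturm_E6_qExpansion, map_sub, PowerSeries.coeff_smul,
      PowerSeries.coeff_map, nts_B6_coeff_zero, smul_eq_mul, eq_intCast, Int.cast_one, mul_one,
      sub_self]
  have h := hD m
  rw [AddSubgroup.mem_bot, hq, sturm_E6_qExpansion, map_sub, PowerSeries.coeff_smul,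
    PowerSeries.coeff_map, smul_eq_mul, eq_intCast] at h
  linear_combination h

/-! ### The key divisibility -/

/-- The key divisibility `p ∣ [E₆]_m − [E₄]_{m p}`, from the trace identity. -/
theorem nts_dvd (p : ℕ) [Fact p.Prime] (Θ : ModularForm (Gamma0 p) 2)
    (hS : ∀ (b : ℕ) (z : ℍ),
      ((⇑Θ : ℍ → ℂ) ∣[(2 : ℤ)] (ModularGroup.S * ModularGroup.T ^ b : SL(2, ℤ))) z =
        -(1 / (p : ℂ)) * heckeU 2 p ⇑Θ (heckeMatrix p b • z))
    (G : ModularForm 𝒮ℒ 6)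
    (hG : ∀ z : ℍ, G z = nts_F p Θ z + ∑ b ∈ Finset.range p,
      ((⇑(nts_F p Θ) : ℍ → ℂ) ∣[(6 : ℤ)] (ModularGroup.S * ModularGroup.T ^ b : SL(2, ℤ))) z)
    (h0 : (qExpansion 1 Θ).coeff 0 = 1)
    (hcong : ∀ n, 0 < n → ∃ m c : ℤ, ¬ (p : ℤ) ∣ m ∧
      (m : ℂ) * (qExpansion 1 Θ).coeff n = (p : ℂ) * c) (m : ℕ) :
    (p : ℤ) ∣ (1 - 504 * sturmB : PowerSeries ℤ).coeff m -
      (1 + 240 * sturmA : PowerSeries ℤ).coeff (m * p) := by
  have hp : p.Prime := Fact.out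
  have hp0 : p ≠ 0 := hp.ne_zero
  have hpC : (p : ℂ) ≠ 0 := by exact_mod_cast hp0
  have hper := CongruenceSubgroup.one_mem_strictPeriods_Gamma0 p
  -- the integral series of `V`
  have hv : qExpansion 1 (nts_raise p E₄) =
      (PowerSeries.mk fun n => (p : ℤ) ^ 3 *
        (if p ∣ n then (1 + 240 * sturmA : PowerSeries ℤ).coeff (n / p) else 0)).map
          (Int.castRingHom ℂ) := by
    ext n
    have h3 : (p : ℂ) ^ ((4 : ℤ) - 1) = (p : ℂ) ^ 3 := by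
      rw [show (4 : ℤ) - 1 = ((3 : ℕ) : ℤ) by norm_num, zpow_natCast]
    rw [nts_raise_coeff, sturm_E4_qExpansion, h3]
    simp only [PowerSeries.coeff_map, PowerSeries.coeff_mk]
    split_ifs with h
    · simp
    · simp
  have hucoeff : ∀ n, (qExpansion 1 (heckeU 2 p ⇑Θ)).coeff n = (qExpansion 1 Θ).coeff (n * p) := by
    intro n
    have h := ModularFormClass.qCoeff_heckeU Θ hper hp0 n
    rw [coeffHeckeU_apply] at h
    exact h
  generalize hWdef : (PowerSeries.mk fun n => (p : ℤ) ^ 3 *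
        (if p ∣ n then (1 + 240 * sturmA : PowerSeries ℤ).coeff (n / p) else 0)) = W at hv
  have hW0 : W.coeff 0 = (p : ℤ) ^ 3 := by
    rw [← hWdef, PowerSeries.coeff_mk, if_pos (dvd_zero p), Nat.zero_div, nts_A4_coeff_zero, mul_one]
  have hWm : (p : ℤ) ∣ W.coeff m := by
    rw [← hWdef, PowerSeries.coeff_mk]
    exact Dvd.dvd.mul_right (dvd_pow_self _ (by norm_num)) _
  -- the identity
  have hfun := nts_trace_identity p Θ hS (⇑G) hG
  have hq := fun k => nts_qexp p Θ G hfun k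
  have hw := fun k => nts_weight_six G k
  generalize qExpansion 1 (heckeU 2 p ⇑Θ) = u at hucoeff hq
  generalize qExpansion 1 Θ = a at h0 hcong hucoeff hq
  rw [hv, sturm_E4_qExpansion] at hq
  have hA40 := nts_A4_coeff_zero
  generalize (1 + 240 * sturmA : PowerSeries ℤ) = A4 at hq hA40 ⊢
  generalize (1 - 504 * sturmB : PowerSeries ℤ) = B6 at hw ⊢
  -- coefficients of `a − 1`, `u − 1` lie in `M`
  have ha1 : ∀ n, (a - 1).coeff n ∈ nts_M p hp := by
    intro n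
    rcases Nat.eq_zero_or_pos n with rfl | hn
    · rw [map_sub, h0, PowerSeries.coeff_one, if_pos rfl, sub_self]
      exact (nts_M p hp).zero_mem
    · rw [map_sub, PowerSeries.coeff_one, if_neg hn.ne', sub_zero]
      exact hcong n hn
  have hu1 : ∀ n, (u - 1).coeff n ∈ nts_M p hp := by
    intro n
    rcases Nat.eq_zero_or_pos n with rfl | hn
    · rw [map_sub, hucoeff, zero_mul, h0, PowerSeries.coeff_one, if_pos rfl, sub_self]
      exact (nts_M p hp).zero_mem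
    · rw [map_sub, PowerSeries.coeff_one, if_neg hn.ne', sub_zero, hucoeff]
      exact hcong _ (Nat.mul_pos hn hp.pos)
  have hX : (W.map (Int.castRingHom ℂ) * (a - 1)).coeff m ∈ nts_M p hp :=
    sturm_mul_mem _ W (a - 1) m (fun n _ => ha1 n) m le_rfl
  have hY : (A4.map (Int.castRingHom ℂ) * (u - 1)).coeff (m * p) ∈ nts_M p hp :=
    sturm_mul_mem _ A4 (u - 1) (m * p) (fun n _ => hu1 n) (m * p) le_rfl
  -- the constant term of `G`
  have hg0 : (qExpansion 1 G).coeff 0 = (p : ℂ) ^ 3 - 1 / (p : ℂ) := by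
    rw [hq 0, zero_mul, PowerSeries.coeff_mul, PowerSeries.coeff_mul,
      Finset.Nat.antidiagonal_zero, Finset.sum_singleton, Finset.sum_singleton, h0, hucoeff,
      zero_mul, h0, PowerSeries.coeff_map, PowerSeries.coeff_map, hW0, hA40]
    simp
  have h1 := hq m
  rw [hw m, hg0] at h1
  have e1 : (a * W.map (Int.castRingHom ℂ)).coeff m =
      (W.coeff m : ℂ) + (W.map (Int.castRingHom ℂ) * (a - 1)).coeff m := by
    have h : a * W.map (Int.castRingHom ℂ) =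
        W.map (Int.castRingHom ℂ) + W.map (Int.castRingHom ℂ) * (a - 1) := by ring
    rw [h, map_add, PowerSeries.coeff_map, eq_intCast]
  have e2 : (u * A4.map (Int.castRingHom ℂ)).coeff (m * p) =
      (A4.coeff (m * p) : ℂ) + (A4.map (Int.castRingHom ℂ) * (u - 1)).coeff (m * p) := by
    have h : u * A4.map (Int.castRingHom ℂ) =
        A4.map (Int.castRingHom ℂ) + A4.map (Int.castRingHom ℂ) * (u - 1) := by ring
    rw [h, map_add, PowerSeries.coeff_map, eq_intCast]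
  rw [e1, e2] at h1
  generalize (W.map (Int.castRingHom ℂ) * (a - 1)).coeff m = X at hX h1
  generalize (A4.map (Int.castRingHom ℂ) * (u - 1)).coeff (m * p) = Y at hY h1
  apply nts_M_dvd p hp
  have h2 : (p : ℂ) * ((p : ℂ) ^ 3 - 1 / (p : ℂ)) = (p : ℂ) ^ 4 - 1 := by field_simp
  have h3 : (p : ℂ) * (1 / (p : ℂ)) = 1 := by field_simp
  have key : ((B6.coeff m - A4.coeff (m * p) : ℤ) : ℂ) =
      (((p : ℤ) ^ 4 * B6.coeff m : ℤ) : ℂ) - ((W.coeff m * p : ℤ) : ℂ) - (p : ℤ) • X + Y := by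
    rw [zsmul_eq_mul]
    push_cast
    linear_combination (-(p : ℂ)) * h1 + (B6.coeff m : ℂ) * h2 +
      ((A4.coeff (m * p) : ℂ) + Y) * h3
  rw [key]
  refine (nts_M p hp).add_mem ((nts_M p hp).sub_mem ((nts_M p hp).sub_mem
    (nts_M_intCast p hp ?_) (nts_M_intCast p hp (dvd_mul_left _ _)))
    ((nts_M p hp).zsmul_mem hX _)) hY
  exact Dvd.dvd.mul_right (dvd_pow_self _ (by norm_num)) _

/-- **Case `ℓ = p` of the key lemma**, with the trace input as hypotheses: `hS` is the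
weight-two trace lemma `Θ ∣ S T^b = −(1/p) (U_p Θ)((z + b)/p)` and `G` is the trace of
`F = Θ · (E₄ ∣ diag(p, 1))` to level one. -/
theorem nts_core (p : ℕ) [Fact p.Prime] (hp5 : 5 ≤ p) (Θ : ModularForm (Gamma0 p) 2)
    (hS : ∀ (b : ℕ) (z : ℍ),
      ((⇑Θ : ℍ → ℂ) ∣[(2 : ℤ)] (ModularGroup.S * ModularGroup.T ^ b : SL(2, ℤ))) z =
        -(1 / (p : ℂ)) * heckeU 2 p ⇑Θ (heckeMatrix p b • z))
    (G : ModularForm 𝒮ℒ 6)
    (hG : ∀ z : ℍ, G z = nts_F p Θ z + ∑ b ∈ Finset.range p,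
      ((⇑(nts_F p Θ) : ℍ → ℂ) ∣[(6 : ℤ)] (ModularGroup.S * ModularGroup.T ^ b : SL(2, ℤ))) z)
    (h0 : (qExpansion 1 Θ).coeff 0 = 1)
    (hcong : ∀ n, 0 < n → ∃ m c : ℤ, ¬ (p : ℤ) ∣ m ∧
      (m : ℂ) * (qExpansion 1 Θ).coeff n = (p : ℂ) * c) : False := by
  have hp : p.Prime := Fact.out
  have d1 := nts_dvd p Θ hS G hG h0 hcong 1
  have d2 := nts_dvd p Θ hS G hG h0 hcong 2
  have hs3 : ArithmeticFunction.sigma 3 p = 1 + p ^ 3 := by
    rw [ArithmeticFunction.sigma_apply, hp.divisors, Finset.sum_pair hp.one_lt.ne, one_pow]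
  have hs51 : ArithmeticFunction.sigma 5 1 = 1 := by simp [ArithmeticFunction.sigma_apply]
  have hs52 : ArithmeticFunction.sigma 5 2 = 33 := by
    rw [ArithmeticFunction.sigma_apply, Nat.prime_two.divisors, Finset.sum_pair (by norm_num)]
    norm_num
  have hs32 : ArithmeticFunction.sigma 3 2 = 9 := by
    rw [ArithmeticFunction.sigma_apply, Nat.prime_two.divisors, Finset.sum_pair (by norm_num)]
    norm_num
  have hcop : Nat.Coprime 2 p := (Nat.coprime_primes Nat.prime_two hp).mpr (by omega)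
  have hs3' : ArithmeticFunction.sigma 3 (2 * p) = 9 * (1 + p ^ 3) := by
    rw [ArithmeticFunction.isMultiplicative_sigma.map_mul_of_coprime hcop, hs32, hs3]
  rw [nts_B6_coeff 1 one_ne_zero, one_mul, nts_A4_coeff p hp.ne_zero, hs51, hs3] at d1
  rw [nts_B6_coeff 2 two_ne_zero, nts_A4_coeff (2 * p) (by positivity), hs52, hs3'] at d2
  push_cast at d1 d2
  have e1 : (p : ℤ) ∣ 744 := by
    have h : (744 : ℤ) = -(-(504 * 1) - 240 * (1 + (p : ℤ) ^ 3)) - p * (240 * (p : ℤ) ^ 2) := by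
      ring
    rw [h]
    exact dvd_sub (dvd_neg.mpr d1) (dvd_mul_right _ _)
  have e2 : (p : ℤ) ∣ 18792 := by
    have h : (18792 : ℤ) = -(-(504 * 33) - 240 * (9 * (1 + (p : ℤ) ^ 3))) -
        p * (2160 * (p : ℤ) ^ 2) := by
      ring
    rw [h]
    exact dvd_sub (dvd_neg.mpr d2) (dvd_mul_right _ _)
  have e1' : p ∣ 744 := by exact_mod_cast e1
  have e2' : p ∣ 18792 := by exact_mod_cast e2
  have e3 : p ∣ 24 := by
    have h := Nat.dvd_gcd e1' e2'
    have hg : Nat.gcd 744 18792 = 24 := by norm_num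
    rwa [hg] at h
  have hle : p ≤ 24 := Nat.le_of_dvd (by norm_num) e3
  have hne : ¬ p ∣ 24 := by
    intro _
    interval_cases p <;> first | omega | exact absurd hp (by norm_num)
  exact hne e3

/-- **Case `ℓ = p` of the key lemma** (task row U-K2): for a prime `p ≥ 5` no
`Θ ∈ M₂(Γ₀(p))` has `a₀ = 1` and `aₙ ∈ p ℤ_(p)` for all `n ≥ 1`. -/
theorem noTheta_self (p : ℕ) [Fact p.Prime] (hp5 : 5 ≤ p) (Θ : ModularForm (Gamma0 p) 2)
    (h : ThetaCong p p 1 Θ) : False := by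
  refine nts_core p hp5 Θ (fun b z => tl_slash_ST_two Θ b z)
    (ModularForm.trace 𝒮ℒ (nts_F p Θ)) (fun z => tl_trace_apply (nts_F p Θ) z) h.1 ?_
  intro n hn
  obtain ⟨m, c, hm, hc⟩ := h.2 n hn
  exact ⟨m, c, hm, by rw [hc, pow_one]⟩

end Fermat.Agent.S16
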