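import Mathlib
import Fermat.Agent.S16.ThetaCong
import Fermat.Agent.S16.LevelOneSturm

/-!
# Shared endgame of all "norm + level one Sturm" arguments of S16

* `HasLead R M P d u` : the power series `P` has `R`-coefficients, its coefficients below `d` lie in
  `M`, and its `d`-th coefficient is `≡ u` mod `M` (closed under products and powers).
* `norm_congr_core` : from the norm identity
  `expand p N = expand p A * ∏_{b<p} rescale (ζ^b) B` and congruences `A ≡ A₀`,
  `B ≡ expand p B₀` mod `M`, deduce `N ≡ A₀ * B₀ ^ p` mod `M`.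
* `sturm_contra` : a level one form of weight `K` whose `q`-expansion is `≡ P` mod `ℓ`, where `P`
  vanishes mod `ℓ` below `d`, has unit `d`-th coefficient, and `K < 12 d`, cannot exist.
* `norm_sturm_main` : the combination.
-/

set_option autoImplicit false

open UpperHalfPlane ModularForm
open scoped MatrixGroups

namespace Fermat.Agent.S16

/-- `P` has `R`-coefficients, coefficients in `M` below index `d`, and `d`-th coefficient `≡ u`. -/
structure HasLead (R : Subring ℂ) (M : AddSubgroup ℂ) (P : PowerSeries ℂ) (d : ℕ) (u : ℂ) :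
    Prop where
  coeffIn : CoeffIn R.toAddSubgroup P
  low : ∀ n < d, P.coeff n ∈ M
  lead : P.coeff d - u ∈ M

theorem HasLead.u_mem {R : Subring ℂ} {M : AddSubgroup ℂ} (hMR : M ≤ R.toAddSubgroup)
    {P : PowerSeries ℂ} {d : ℕ} {u : ℂ} (h : HasLead R M P d u) : u ∈ R := by
  have h1 : P.coeff d ∈ R := h.coeffIn d
  have h2 : P.coeff d - u ∈ R := hMR h.lead
  have : u = P.coeff d - (P.coeff d - u) := by ring
  rw [this]
  exact R.sub_mem h1 h2

theorem HasLead.one (R : Subring ℂ) (M : AddSubgroup ℂ) : HasLead R M 1 0 1 where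
  coeffIn := CoeffIn.one R
  low := fun n hn => absurd hn (Nat.not_lt_zero n)
  lead := by simp

theorem HasLead.mul {R : Subring ℂ} {M : AddSubgroup ℂ} (hRM : ∀ r ∈ R, ∀ y ∈ M, r * y ∈ M)
    (hMR : M ≤ R.toAddSubgroup) {P Q : PowerSeries ℂ} {d e : ℕ} {u v : ℂ}
    (hP : HasLead R M P d u) (hQ : HasLead R M Q e v) : HasLead R M (P * Q) (d + e) (u * v) where
  coeffIn := hP.coeffIn.mul_ring hQ.coeffIn
  low := by
    intro n hn
    rw [PowerSeries.coeff_mul]
    refine M.sum_mem fun ij hij => ?_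
    have hsum := Finset.HasAntidiagonal.mem_antidiagonal.mp hij
    rcases lt_or_ge ij.1 d with h1 | h1
    · rw [mul_comm]
      exact hRM _ (hQ.coeffIn _) _ (hP.low _ h1)
    · exact hRM _ (hP.coeffIn _) _ (hQ.low _ (by omega))
  lead := by
    rw [PowerSeries.coeff_mul]
    have hmem : (d, e) ∈ Finset.HasAntidiagonal.antidiagonal (d + e) := by simp
    rw [← Finset.add_sum_erase _ _ hmem]
    have hrest : ∑ x ∈ (Finset.HasAntidiagonal.antidiagonal (d + e)).erase (d, e),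
        P.coeff x.1 * Q.coeff x.2 ∈ M := by
      refine M.sum_mem fun ij hij => ?_
      have hne := Finset.ne_of_mem_erase hij
      have hsum := Finset.HasAntidiagonal.mem_antidiagonal.mp (Finset.mem_of_mem_erase hij)
      rcases lt_trichotomy ij.1 d with h1 | h1 | h1
      · rw [mul_comm]
        exact hRM _ (hQ.coeffIn _) _ (hP.low _ h1)
      · exfalso
        apply hne
        ext
        · exact h1
        · simp only; omega
      · exact hRM _ (hP.coeffIn _) _ (hQ.low _ (by omega))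
    have hu : u ∈ R := hP.u_mem hMR
    have hmain : P.coeff d * Q.coeff e - u * v ∈ M := by
      have : P.coeff d * Q.coeff e - u * v =
          Q.coeff e * (P.coeff d - u) + u * (Q.coeff e - v) := by ring
      rw [this]
      exact M.add_mem (hRM _ (hQ.coeffIn _) _ hP.lead) (hRM _ hu _ hQ.lead)
    have : P.coeff d * Q.coeff e + ∑ x ∈ (Finset.HasAntidiagonal.antidiagonal (d + e)).erase (d, e),
        P.coeff x.1 * Q.coeff x.2 - u * v =
        (P.coeff d * Q.coeff e - u * v) + ∑ x ∈ (Finset.HasAntidiagonal.antidiagonal (d + e)).erase (d, e),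
        P.coeff x.1 * Q.coeff x.2 := by ring
    rw [this]
    exact M.add_mem hmain hrest

theorem HasLead.pow {R : Subring ℂ} {M : AddSubgroup ℂ} (hRM : ∀ r ∈ R, ∀ y ∈ M, r * y ∈ M)
    (hMR : M ≤ R.toAddSubgroup) {P : PowerSeries ℂ} {d : ℕ} {u : ℂ}
    (hP : HasLead R M P d u) (n : ℕ) : HasLead R M (P ^ n) (n * d) (u ^ n) := by
  induction n with
  | zero => simpa using HasLead.one R M
  | succ n ih =>
    have := HasLead.mul hRM hMR ih hP
    rw [pow_succ, pow_succ, Nat.succ_mul]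
    exact this

/-- Changing `P` by a series with coefficients in `M` does not change `HasLead`. -/
theorem HasLead.congr {R : Subring ℂ} {M : AddSubgroup ℂ} (hMR : M ≤ R.toAddSubgroup)
    {P Q : PowerSeries ℂ} {d : ℕ} {u : ℂ} (hP : HasLead R M P d u) (hPQ : CoeffIn M (Q - P)) :
    HasLead R M Q d u where
  coeffIn := fun n => by
    have : Q.coeff n = P.coeff n + (Q - P).coeff n := by simp
    rw [this]
    exact R.add_mem (hP.coeffIn n) (hMR (hPQ n))
  low := fun n hn => by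
    have : Q.coeff n = P.coeff n + (Q - P).coeff n := by simp
    rw [this]
    exact M.add_mem (hP.low n hn) (hPQ n)
  lead := by
    have : Q.coeff d - u = (P.coeff d - u) + (Q - P).coeff d := by simp
    rw [this]
    exact M.add_mem hP.lead (hPQ d)

/-- The `ℓ`-adic instance of the compatibility hypotheses. -/
theorem Ol_mul_OlIdeal (ℓ j : ℕ) : ∀ r ∈ Ol ℓ, ∀ y ∈ OlIdeal ℓ j, r * y ∈ OlIdeal ℓ j :=
  fun _ hr _ hy => mul_mem_OlIdeal hr hy

theorem OlIdeal_le (ℓ j : ℕ) : OlIdeal ℓ j ≤ (Ol ℓ).toAddSubgroup :=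
  fun _ hy => OlIdeal_le_Ol ℓ j hy

/-- **Norm congruence.** If `expand p N = expand p A * ∏_{b<p} rescale (ζ^b) B` with `ζ^p = 1`,
`ζ ∈ R`, and `A ≡ A₀`, `B ≡ expand p B₀` modulo `M` (with `A₀`, `B₀` having `R`-coefficients),
then `N ≡ A₀ * B₀ ^ p` modulo `M`. -/
theorem norm_congr_core {R : Subring ℂ} {M : AddSubgroup ℂ}
    (hRM : ∀ r ∈ R, ∀ y ∈ M, r * y ∈ M) (hMR : M ≤ R.toAddSubgroup)
    (p : ℕ) (hp : p ≠ 0) (ζ : ℂ) (hζR : ζ ∈ R) (hζ : ζ ^ p = 1)
    (N A B A₀ B₀ : PowerSeries ℂ)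
    (hN : PowerSeries.expand p hp N =
      PowerSeries.expand p hp A * ∏ b ∈ Finset.range p, PowerSeries.rescale (ζ ^ b) B)
    (hA₀ : CoeffIn R.toAddSubgroup A₀) (hB₀ : CoeffIn R.toAddSubgroup B₀)
    (hA : CoeffIn M (A - A₀)) (hB : CoeffIn M (B - PowerSeries.expand p hp B₀)) :
    CoeffIn M (N - A₀ * B₀ ^ p) := by
  -- expansions preserve `CoeffIn`
  have hexp : ∀ (S : AddSubgroup ℂ) (X : PowerSeries ℂ), CoeffIn S X →
      CoeffIn S (PowerSeries.expand p hp X) := by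
    intro S X hX n
    rw [PowerSeries.coeff_expand]
    split_ifs
    · exact hX _
    · exact S.zero_mem
  have hEB₀ : CoeffIn R.toAddSubgroup (PowerSeries.expand p hp B₀) := hexp _ _ hB₀
  have hEA₀ : CoeffIn R.toAddSubgroup (PowerSeries.expand p hp A₀) := hexp _ _ hA₀
  -- the factors
  have hresc : ∀ b, PowerSeries.rescale (ζ ^ b) (PowerSeries.expand p hp B₀) =
      PowerSeries.expand p hp B₀ := by
    intro b
    ext n
    rw [PowerSeries.coeff_rescale, PowerSeries.coeff_expand]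
    split_ifs with h
    · obtain ⟨m, rfl⟩ := h
      rw [← pow_mul, mul_comm b, mul_assoc, pow_mul, hζ, one_pow, one_mul]
    · simp
  have hfac : ∀ b ∈ Finset.range p,
      CoeffIn M (PowerSeries.rescale (ζ ^ b) B - PowerSeries.expand p hp B₀) := by
    intro b _ n
    have : PowerSeries.rescale (ζ ^ b) B - PowerSeries.expand p hp B₀ =
        PowerSeries.rescale (ζ ^ b) (B - PowerSeries.expand p hp B₀) := by
      rw [map_sub, hresc]
    rw [this, PowerSeries.coeff_rescale]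
    exact hRM _ (R.pow_mem (R.pow_mem hζR b) n) _ (hB n)
  have hfacR : ∀ b ∈ Finset.range p, CoeffIn R.toAddSubgroup (PowerSeries.rescale (ζ ^ b) B) := by
    intro b hb n
    have h1 := hfac b hb n
    have : (PowerSeries.rescale (ζ ^ b) B).coeff n =
        (PowerSeries.rescale (ζ ^ b) B - PowerSeries.expand p hp B₀).coeff n +
          (PowerSeries.expand p hp B₀).coeff n := by simp
    rw [this]
    exact R.add_mem (hMR h1) (hEB₀ n)
  have hprod : CoeffIn M (∏ b ∈ Finset.range p, PowerSeries.rescale (ζ ^ b) B -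
      ∏ _b ∈ Finset.range p, PowerSeries.expand p hp B₀) :=
    CoeffIn.prod_sub_prod hRM (Finset.range p) _ _ hfacR (fun _ _ => hEB₀) hfac
  rw [Finset.prod_const, Finset.card_range] at hprod
  have hEA : CoeffIn M (PowerSeries.expand p hp A - PowerSeries.expand p hp A₀) := by
    rw [← map_sub]
    exact hexp _ _ hA
  have hkey : CoeffIn M (PowerSeries.expand p hp (N - A₀ * B₀ ^ p)) := by
    have : PowerSeries.expand p hp (N - A₀ * B₀ ^ p) =
        (PowerSeries.expand p hp A - PowerSeries.expand p hp A₀) *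
          ∏ b ∈ Finset.range p, PowerSeries.rescale (ζ ^ b) B +
        PowerSeries.expand p hp A₀ * (∏ b ∈ Finset.range p, PowerSeries.rescale (ζ ^ b) B -
          PowerSeries.expand p hp B₀ ^ p) := by
      rw [map_sub, map_mul, map_pow, hN]
      ring
    rw [this]
    exact CoeffIn.add (CoeffIn.mul' hRM hEA (CoeffIn.prod _ _ hfacR)) (CoeffIn.mul hRM hEA₀ hprod)
  intro n
  have := hkey (p * n)
  rwa [PowerSeries.coeff_expand_mul] at this

/-- **Sturm endgame.** A level one form of weight `K` whose `q`-expansion is congruent mod `ℓ`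
to a series `P` with `HasLead (Ol ℓ) (ℓ Ol) P d u`, `u` a unit of `Ol ℓ`, and `K < 12 d`, cannot
exist. -/
theorem sturm_contra {ℓ : ℕ} (hℓ : 2 ≤ ℓ) {j : ℕ} (hj : 0 < j) {K : ℤ} (N : ModularForm 𝒮ℒ K)
    (P : PowerSeries ℂ) (d : ℕ) (u v : ℂ) (hK : K < 12 * (d : ℤ))
    (hNP : CoeffIn (OlIdeal ℓ j) (qExpansion 1 N - P))
    (hP : HasLead (Ol ℓ) (OlIdeal ℓ j) P d u) (hv : v ∈ Ol ℓ) (huv : u * v = 1) : False := by
  have hN : HasLead (Ol ℓ) (OlIdeal ℓ j) (qExpansion 1 N) d u := hP.congr (OlIdeal_le ℓ j) hNP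
  have hall := levelOne_coeff_mem (OlIdeal ℓ j) N (fun n hn => hN.low n (by
    have : (n : ℤ) < d := by linarith
    exact_mod_cast this))
  have hu : u ∈ OlIdeal ℓ j := by
    have : u = (qExpansion 1 N).coeff d - ((qExpansion 1 N).coeff d - u) := by ring
    rw [this]
    exact (OlIdeal ℓ j).sub_mem (hall d) hN.lead
  exact unit_not_mem_OlIdeal hℓ hj hv huv hu

/-- **Norm + Sturm.** `N` a level one form of weight `K`; `A`, `B` the expansions of a level `p`
form at the two cusps, related to `N` by the norm identity; `A ≡ A₀` and `B ≡ expand p B₀` mod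
`ℓ^j`; `A₀`, `B₀` have leading terms `u₁ q^d₁`, `u₂ q^d₂` mod `ℓ^j` with `u₁`, `u₂` units of
`Ol ℓ`, and `K < 12 (d₁ + p d₂)`.  Contradiction. -/
theorem norm_sturm_main {ℓ : ℕ} (hℓ : 2 ≤ ℓ) {j : ℕ} (hj : 0 < j) (p : ℕ) (hp : p ≠ 0)
    (ζ : ℂ) (hζ : ζ ^ p = 1) {K : ℤ} (N : ModularForm 𝒮ℒ K) (A B A₀ B₀ : PowerSeries ℂ)
    (hN : PowerSeries.expand p hp (qExpansion 1 N) =
      PowerSeries.expand p hp A * ∏ b ∈ Finset.range p, PowerSeries.rescale (ζ ^ b) B)
    (hA : CoeffIn (OlIdeal ℓ j) (A - A₀))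
    (hB : CoeffIn (OlIdeal ℓ j) (B - PowerSeries.expand p hp B₀))
    (d₁ d₂ : ℕ) (u₁ u₂ v₁ v₂ : ℂ)
    (hA₀ : HasLead (Ol ℓ) (OlIdeal ℓ j) A₀ d₁ u₁) (hB₀ : HasLead (Ol ℓ) (OlIdeal ℓ j) B₀ d₂ u₂)
    (hv₁ : v₁ ∈ Ol ℓ) (hv₂ : v₂ ∈ Ol ℓ) (huv₁ : u₁ * v₁ = 1) (huv₂ : u₂ * v₂ = 1)
    (hK : K < 12 * ((d₁ : ℤ) + p * d₂)) : False := by
  have hcong := norm_congr_core (Ol_mul_OlIdeal ℓ j) (OlIdeal_le ℓ j) p hp ζ
    (pow_eq_one_mem_Ol ℓ hp hζ) hζ (qExpansion 1 N) A B A₀ B₀ hN hA₀.coeffIn hB₀.coeffIn hA hB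
  have hlead := HasLead.mul (Ol_mul_OlIdeal ℓ j) (OlIdeal_le ℓ j) hA₀
    (HasLead.pow (Ol_mul_OlIdeal ℓ j) (OlIdeal_le ℓ j) hB₀ p)
  refine sturm_contra hℓ hj N (A₀ * B₀ ^ p) (d₁ + p * d₂) (u₁ * u₂ ^ p) (v₁ * v₂ ^ p) ?_ hcong
    hlead ((Ol ℓ).mul_mem hv₁ ((Ol ℓ).pow_mem hv₂ p)) ?_
  · push_cast; exact hK
  · calc u₁ * u₂ ^ p * (v₁ * v₂ ^ p) = (u₁ * v₁) * (u₂ * v₂) ^ p := by ring
      _ = 1 := by rw [huv₁, huv₂, one_pow, one_mul]

end Fermat.Agent.S16
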