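import Fermat.Agent.S16.PsiMod
import Fermat.Agent.S16.ThetaMod

/-!
# S16 / lower bound (II): the form `Ψ` (helper35)

`exists_psi`: for every prime `p` there is a weight-2 modular form `Ψ` on `Γ₀(p)` with constant
term `1` and all other `q`-coefficients even integers: half the trace from `Γ₀(pq)` of
`θ_q(z) θ_q(pz)`, `q ≡ 3 mod 4` an auxiliary prime with `(p/q) = -1`.  Final instantiation of
`PsiMod.exists_psi_of_mod` with the multiplier system `ThetaMod.thetaQ_modular` (helper47).
-/

set_option autoImplicit false

open UpperHalfPlane ModularForm CongruenceSubgroup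
open scoped MatrixGroups ModularForm

noncomputable section

namespace Fermat.Agent.S16

/-- **The form `Ψ`.** A weight-2 modular form on `Γ₀(p)` with constant term `1` and all other
`q`-coefficients even integers (the hypotheses `h0`, `hev` of `lower_of_psi`). -/
theorem exists_psi (p : ℕ) [Fact p.Prime] :
    ∃ Ψ : ModularForm (CongruenceSubgroup.Gamma0 p) 2,
      (qExpansion 1 Ψ).coeff 0 = 1 ∧
      ∀ k : ℕ, 0 < k → ∃ z : ℤ, (qExpansion 1 Ψ).coeff k = 2 * z :=
  exists_psi_of_mod p Fact.out
    (fun _ hq hq4 _ _ _ _ hdet hc _ hz => thetaQ_modular hq hq4 hdet hc hz)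

end Fermat.Agent.S16
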