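import Fermat.Agent.S16.ThetaBinary

/-!
# `F(z) = θ_q(z) θ_q(p z)` is invariant under the Atkin–Lehner involution `W_q` (helper96)

Disjoint half of the `L-T-FORM` row of S16 (lower bound, theta route): the hypothesis `hW` of the
abstract trace lemma, derived from the Fricke inversion `thetaQ_fricke` (ThetaBinary, helper47) and
the `Γ₀(q)`-transformation law of `thetaQ` with character `d ↦ (d / q)`, taken here as an explicit
hypothesis `hmod` (it is `thetaQ_modular` of ThetaChar).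
-/

set_option autoImplicit false

open Complex Real

namespace Fermat.Agent.S16

noncomputable section

/-- A real Möbius transformation of determinant one has non-vanishing denominator on the upper
half plane. -/
lemma h96_moebius_denom_ne_zero {a b c d : ℝ} (h : a * d - b * c = 1) {z : ℂ} (hz : 0 < z.im) :
    (c : ℂ) * z + d ≠ 0 := by
  intro h0
  have him : ((c : ℂ) * z + d).im = c * z.im := by simp
  have hre : ((c : ℂ) * z + d).re = c * z.re + d := by simp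
  rw [h0] at him hre
  simp only [Complex.zero_im, Complex.zero_re] at him hre
  have hc : c = 0 := by
    rcases mul_eq_zero.mp him.symm with hc | hc
    · exact hc
    · exact absurd hc hz.ne'
  rw [hc] at hre h
  have hd : d = 0 := by linarith
  rw [hd] at h
  simp at h

/-- A real Möbius transformation of determinant one preserves the upper half plane. -/
lemma h96_moebius_im_pos {a b c d : ℝ} (h : a * d - b * c = 1) {z : ℂ} (hz : 0 < z.im) :
    0 < (((a : ℂ) * z + b) / ((c : ℂ) * z + d)).im := by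
  have hden := h96_moebius_denom_ne_zero h hz
  have hns : 0 < Complex.normSq ((c : ℂ) * z + d) := Complex.normSq_pos.mpr hden
  have key : (((a : ℂ) * z + b) / ((c : ℂ) * z + d)).im =
      z.im / Complex.normSq ((c : ℂ) * z + d) := by
    rw [Complex.div_im]
    have e1 : ((a : ℂ) * z + b).im = a * z.im := by simp
    have e2 : ((a : ℂ) * z + b).re = a * z.re + b := by simp
    have e3 : ((c : ℂ) * z + d).im = c * z.im := by simp
    have e4 : ((c : ℂ) * z + d).re = c * z.re + d := by simp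
    rw [e1, e2, e3, e4, ← sub_div]
    congr 1
    linear_combination z.im * h
  rw [key]
  exact div_pos hz hns

/-- `W_q`-invariance of `θ_q(z) θ_q(p z)` from the Fricke inversion and the `Γ₀(q)`-law of `θ_q`
(the latter as hypothesis `hmod`). -/
theorem h96_thetaForm_W_of (p q : ℕ) (hq4 : q % 4 = 3)
    (hmod : ∀ {a b c d : ℤ}, a * d - b * c = 1 → (q : ℤ) ∣ c → ∀ {z : ℂ}, 0 < z.im →
      thetaQ q (((a : ℂ) * z + b) / ((c : ℂ) * z + d)) =
        ((jacobiSym d q : ℤ) : ℂ) * ((c : ℂ) * z + d) * thetaQ q z)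
    (hp0 : 0 < p) (hχ : jacobiSym (p : ℤ) q = -1) (a b c d : ℤ)
    (hdet : (q : ℤ) * a * d - p * b * c = 1) (z : ℂ) (hz : 0 < z.im) :
    thetaQ q (((q : ℂ) * a * z + b) / ((p : ℂ) * q * c * z + q * d)) *
        thetaQ q ((p : ℂ) * (((q : ℂ) * a * z + b) / ((p : ℂ) * q * c * z + q * d))) =
      q * ((p : ℂ) * c * z + d) ^ 2 * (thetaQ q z * thetaQ q ((p : ℂ) * z)) := by
  have hq0 : 0 < q := by omega
  have hqC : (q : ℂ) ≠ 0 := by exact_mod_cast hq0.ne'
  have hpC : (p : ℂ) ≠ 0 := by exact_mod_cast hp0.ne'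
  have hk : q + 1 = 4 * ((q + 1) / 4) := by omega
  -- the two matrices of `Γ₀(q)`
  have hdet1 : (-(p * c) : ℤ) * b - (-d) * (q * a) = 1 := by linarith
  have hdet2 : (-c : ℤ) * (p * b) - (-d) * (q * a) = 1 := by linarith
  have hqa : (q : ℤ) ∣ q * a := dvd_mul_right _ _
  -- `z₂ = p z`
  have hz2 : 0 < ((p : ℂ) * z).im := by
    have : ((p : ℂ) * z).im = p * z.im := by simp
    rw [this]; exact mul_pos (by exact_mod_cast hp0) hz
  -- real forms of the determinants, for positivity of imaginary parts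
  have hdet1R : ((-(p * c) : ℤ) : ℝ) * ((b : ℤ) : ℝ) - ((-d : ℤ) : ℝ) * ((q * a : ℤ) : ℝ) = 1 := by
    exact_mod_cast hdet1
  have hdet2R : ((-c : ℤ) : ℝ) * ((p * b : ℤ) : ℝ) - ((-d : ℤ) : ℝ) * ((q * a : ℤ) : ℝ) = 1 := by
    exact_mod_cast hdet2
  -- notation
  set D : ℂ := (p : ℂ) * c * z + d with hD
  set N₁ : ℂ := (q : ℂ) * a * z + b with hN₁
  -- `t₁ = γ₁ z`, `t₂ = γ₂ (p z)`
  set t₁ : ℂ := (((-(p * c) : ℤ) : ℂ) * z + ((-d : ℤ) : ℂ)) / (((q * a : ℤ) : ℂ) * z + ((b : ℤ) : ℂ))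
    with ht₁
  set t₂ : ℂ := (((-c : ℤ) : ℂ) * ((p : ℂ) * z) + ((-d : ℤ) : ℂ)) /
      (((q * a : ℤ) : ℂ) * ((p : ℂ) * z) + ((p * b : ℤ) : ℂ)) with ht₂
  have ht₁im : 0 < t₁.im := by
    have := h96_moebius_im_pos hdet1R hz
    have e : t₁ = ((((-(p * c) : ℤ) : ℝ) : ℂ) * z + (((-d : ℤ) : ℝ) : ℂ)) /
        ((((q * a : ℤ) : ℝ) : ℂ) * z + (((b : ℤ) : ℝ) : ℂ)) := by
      rw [ht₁]; push_cast; ring
    rw [e]; exact this
  have ht₂im : 0 < t₂.im := by
    have := h96_moebius_im_pos hdet2R hz2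
    have e : t₂ = ((((-c : ℤ) : ℝ) : ℂ) * ((p : ℂ) * z) + (((-d : ℤ) : ℝ) : ℂ)) /
        ((((q * a : ℤ) : ℝ) : ℂ) * ((p : ℂ) * z) + (((p * b : ℤ) : ℝ) : ℂ)) := by
      rw [ht₂]; push_cast; ring
    rw [e]; exact this
  -- denominators
  have hN₁0 : N₁ ≠ 0 := by
    have := h96_moebius_denom_ne_zero hdet1R hz
    have e : N₁ = (((q * a : ℤ) : ℝ) : ℂ) * z + (((b : ℤ) : ℝ) : ℂ) := by
      rw [hN₁]; push_cast; ring
    rw [e]; exact this
  have ht₁e : t₁ = -D / N₁ := by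
    rw [ht₁, hD, hN₁]; push_cast; ring
  have ht₂e : t₂ = -D / ((p : ℂ) * N₁) := by
    rw [ht₂, hD, hN₁]; push_cast; ring
  have hD0 : D ≠ 0 := by
    intro h0
    rw [ht₁e, h0] at ht₁im
    simp at ht₁im
  -- the arguments
  have hw1 : ((q : ℂ) * a * z + b) / ((p : ℂ) * q * c * z + q * d) = -1 / (q * t₁) := by
    rw [ht₁e, ← hN₁]
    have e : (p : ℂ) * q * c * z + q * d = q * D := by rw [hD]; ring
    rw [e]
    field_simp
  have hw2 : (p : ℂ) * (((q : ℂ) * a * z + b) / ((p : ℂ) * q * c * z + q * d)) =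
      -1 / (q * t₂) := by
    rw [ht₂e, ← hN₁]
    have e : (p : ℂ) * q * c * z + q * d = q * D := by rw [hD]; ring
    rw [e]
    field_simp
  -- Fricke and modularity
  have hF1 := thetaQ_fricke hk ht₁im
  have hF2 := thetaQ_fricke hk ht₂im
  have hM1 := hmod hdet1 hqa hz
  have hM2 := hmod hdet2 hqa hz2
  rw [← ht₁] at hM1
  rw [← ht₂] at hM2
  have hden1 : ((q * a : ℤ) : ℂ) * z + ((b : ℤ) : ℂ) = N₁ := by rw [hN₁]; push_cast; ring
  have hden2 : ((q * a : ℤ) : ℂ) * ((p : ℂ) * z) + ((p * b : ℤ) : ℂ) = (p : ℂ) * N₁ := by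
    rw [hN₁]; push_cast; ring
  rw [hden1] at hM1
  rw [hden2] at hM2
  -- characters
  have hgcd : Int.gcd b q = 1 := by
    have h1 : IsCoprime b (q : ℤ) := ⟨-(p * c), a * d, by linarith⟩
    exact Int.isCoprime_iff_gcd_eq_one.mp h1
  have hsq : (jacobiSym b q) ^ 2 = 1 := jacobiSym.sq_one hgcd
  have hmul : jacobiSym (p * b) q = jacobiSym p q * jacobiSym b q := jacobiSym.mul_left _ _ _
  have hchar : ((jacobiSym b q : ℤ) : ℂ) * ((jacobiSym (p * b) q : ℤ) : ℂ) = -1 := by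
    rw [hmul, hχ]
    have : ((jacobiSym b q : ℤ) : ℂ) ^ 2 = 1 := by exact_mod_cast hsq
    push_cast
    linear_combination -this
  have hsqrt : ((Real.sqrt q : ℝ) : ℂ) ^ 2 = q := by
    have : (Real.sqrt q) ^ 2 = (q : ℝ) := Real.sq_sqrt (by positivity)
    exact_mod_cast this
  have h1 : thetaQ q (-1 / (q * t₁)) =
      I * ((Real.sqrt q : ℝ) : ℂ) * D * ((jacobiSym b q : ℤ) : ℂ) * thetaQ q z := by
    rw [hF1, hM1, ht₁e]
    field_simp
  have hpN : (p : ℂ) * N₁ ≠ 0 := mul_ne_zero hpC hN₁0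
  have h2 : thetaQ q (-1 / (q * t₂)) =
      I * ((Real.sqrt q : ℝ) : ℂ) * D * ((jacobiSym (p * b) q : ℤ) : ℂ) *
        thetaQ q ((p : ℂ) * z) := by
    rw [hF2, hM2, ht₂e]
    field_simp
  have hI : (I : ℂ) ^ 2 = -1 := Complex.I_sq
  rw [hw2, hw1, h1, h2]
  linear_combination
    (D ^ 2 * thetaQ q z * thetaQ q ((p : ℂ) * z) * ((jacobiSym b q : ℤ) : ℂ) *
        ((jacobiSym (p * b) q : ℤ) : ℂ) * ((Real.sqrt q : ℝ) : ℂ) ^ 2) * hI
    - (D ^ 2 * thetaQ q z * thetaQ q ((p : ℂ) * z) * ((jacobiSym b q : ℤ) : ℂ) *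
        ((jacobiSym (p * b) q : ℤ) : ℂ)) * hsqrt
    - ((q : ℂ) * D ^ 2 * thetaQ q z * thetaQ q ((p : ℂ) * z)) * hchar

end

end Fermat.Agent.S16
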