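import Mathlib

/-!
# S16, lower bound (theta route): the auxiliary prime `q`

For every prime `p` there is a prime `q ≡ 3 (mod 4)`, `q ≠ p`, such that `p` is not a square
modulo `q` (Dirichlet's theorem on primes in arithmetic progressions + quadratic reciprocity).
-/

set_option autoImplicit false

open NumberTheorySymbols

namespace Fermat.Agent.S16

theorem h65_exists_prime (p : ℕ) [Fact p.Prime] :
    ∃ q : ℕ, q.Prime ∧ q % 4 = 3 ∧ q ≠ p ∧ J((p : ℤ) | q) = -1 := by
  have hp := (Fact.out : p.Prime)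
  rcases hp.eq_two_or_odd with rfl | hodd
  · refine ⟨3, Nat.prime_three, rfl, by decide, ?_⟩
    have h := jacobiSym.at_two (b := 3) (by decide)
    rw [show ((2 : ℕ) : ℤ) = 2 from rfl, h]
    rfl
  have hcop : ∀ a : ℕ, a % 2 = 1 → ¬ p ∣ a → a.Coprime (4 * p) := by
    intro a ha hpa
    apply Nat.Coprime.mul_right
    · have h2 : Nat.Coprime a 2 := Nat.coprime_two_right.mpr (Nat.odd_iff.mpr ha)
      exact Nat.Coprime.pow_right 2 h2
    · exact ((Nat.Prime.coprime_iff_not_dvd hp).mpr hpa).symm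
  -- from a suitable residue class `a` mod `4p` to the prime
  have main : ∀ a : ℕ, a % 4 = 3 → ¬ p ∣ a → J((p : ℤ) | a) = -1 →
      ∃ q : ℕ, q.Prime ∧ q % 4 = 3 ∧ q ≠ p ∧ J((p : ℤ) | q) = -1 := by
    intro a ha hpa hJ
    have ha2 : a % 2 = 1 := by omega
    obtain ⟨q, hqp, hq, hqa⟩ := Nat.forall_exists_prime_gt_and_modEq p
      (q := 4 * p) (a := a) (by have := hp.pos; omega) (hcop a ha2 hpa)
    have hq4 : q % 4 = 3 := by
      have h1 : q % 4 = a % 4 := (hqa.of_mul_right p)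
      omega
    have hqodd : Odd q := Nat.odd_iff.mpr (by omega)
    have haodd : Odd a := Nat.odd_iff.mpr ha2
    refine ⟨q, hq, hq4, by omega, ?_⟩
    have h1 := jacobiSym.mod_right (p : ℤ) hqodd
    have h2 := jacobiSym.mod_right (p : ℤ) haodd
    rw [Int.natAbs_natCast] at h1 h2
    rw [h1, hqa, ← h2, hJ]
  have h4 : p % 4 = 1 ∨ p % 4 = 3 := by omega
  rcases h4 with h1 | h3
  · -- `p ≡ 1 mod 4`: take `a` a non-residue mod `p`, `a ≡ 3 mod 4`
    obtain ⟨n, hn⟩ := FiniteField.exists_nonsquare (F := ZMod p)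
      (by rw [ZMod.ringChar_zmod_n]; omega)
    have hnJ : J((n.val : ℤ) | p) = -1 := by
      rw [← jacobiSym.legendreSym.to_jacobiSym, legendreSym.eq_neg_one_iff]
      simpa using hn
    have hn0 : ¬ p ∣ n.val := by
      intro hdvd
      have h0 : n.val = 0 := Nat.eq_zero_of_dvd_of_lt hdvd (ZMod.val_lt n)
      rw [ZMod.val_eq_zero] at h0
      exact hn (h0 ▸ IsSquare.zero)
    set a := n.val + p * ((3 + 3 * n.val) % 4) with ha
    have ha4 : a % 4 = 3 := by
      rw [ha, Nat.add_mod, Nat.mul_mod, h1]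
      omega
    have hpa : ¬ p ∣ a := by
      rw [ha, Nat.dvd_add_left (Dvd.intro _ rfl)]
      exact hn0
    refine main a ha4 hpa ?_
    have haodd : Odd a := Nat.odd_iff.mpr (by omega)
    rw [jacobiSym.quadratic_reciprocity_one_mod_four h1 haodd, jacobiSym.mod_left, ha]
    have h5 : ((n.val + p * ((3 + 3 * n.val) % 4) : ℕ) : ℤ) % (p : ℤ) = (n.val : ℤ) % (p : ℤ) := by
      push_cast
      rw [Int.add_mul_emod_self_left]
    rw [h5, ← jacobiSym.mod_left, hnJ]
  · -- `p ≡ 3 mod 4`: take `a = 1 + 2p`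
    have ha4 : (1 + 2 * p) % 4 = 3 := by omega
    have hpa : ¬ p ∣ 1 + 2 * p := by
      rw [Nat.dvd_add_left (Dvd.intro_left _ rfl)]
      exact fun h => hp.one_lt.ne' (Nat.dvd_one.mp h)
    refine main (1 + 2 * p) ha4 hpa ?_
    rw [jacobiSym.quadratic_reciprocity_three_mod_four h3 ha4, jacobiSym.mod_left]
    have h5 : ((1 + 2 * p : ℕ) : ℤ) % (p : ℤ) = (1 : ℤ) % (p : ℤ) := by
      push_cast
      rw [Int.add_mul_emod_self_right]
    rw [h5, ← jacobiSym.mod_left, jacobiSym.one_left]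

/-- The same statement with an explicit primality hypothesis (the shape of row L-T-AUXPRIME). -/
theorem h65_exists_aux_prime (p : ℕ) (hp : p.Prime) :
    ∃ q : ℕ, q.Prime ∧ q % 4 = 3 ∧ q ≠ p ∧ jacobiSym (p : ℤ) q = -1 :=
  haveI : Fact p.Prime := ⟨hp⟩
  h65_exists_prime p

end Fermat.Agent.S16
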