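/-
S16, lower bound route (II): the TRACE module (helper97).

Abstract statement (no theta series inside): a weight-2 modular form `F` on `Γ₀(pq)` which is
invariant under the Atkin–Lehner-type matrix `W_q = [[q a, b], [p q c, q d]]` (`det = q`) has
`trace_{Γ₀(pq) → Γ₀(p)} F = F + U_q F`; so `Ψ := trace / 2` is a modular form on `Γ₀(p)` with
`a_n(Ψ) = (a_n(F) + a_{qn}(F)) / 2`.
-/
import Mathlib
import Fermat.Prelude.Thm_CongruenceSubgroup_one_mem_strictPeriods_Gamma0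

set_option autoImplicit false

namespace Fermat.Agent.S16

open UpperHalfPlane ModularForm CongruenceSubgroup ModularFormClass
open scoped MatrixGroups ModularForm

/-- The coset representative `β_j = [[a, a j + b], [p c, p c j + q d]]`. -/
def trq_beta (p q : ℕ) (a b c d : ℤ) (hdet : (q : ℤ) * a * d - p * b * c = 1) (j : ℤ) :
    SL(2, ℤ) :=
  ⟨!![a, a * j + b; p * c, p * c * j + q * d], by
    rw [Matrix.det_fin_two_of]; linear_combination hdet⟩

theorem trq_beta_mem (p q : ℕ) (a b c d : ℤ) (hdet : (q : ℤ) * a * d - p * b * c = 1) (j : ℤ) :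
    trq_beta p q a b c d hdet j ∈ Gamma0 p := by
  rw [Gamma0_mem]
  simp [trq_beta]

/-- `q ∤ c` follows from the determinant condition. -/
theorem trq_not_dvd (p q : ℕ) (hq : q.Prime) (a b c d : ℤ)
    (hdet : (q : ℤ) * a * d - p * b * c = 1) : ¬ (q : ℤ) ∣ c := by
  intro h
  obtain ⟨c', rfl⟩ := h
  have h1 : (q : ℤ) ∣ 1 := ⟨a * d - p * b * c', by linear_combination -hdet⟩
  have h2 := Int.isUnit_iff.mp (isUnit_of_dvd_one h1)
  have h3 : (2 : ℤ) ≤ q := by exact_mod_cast hq.two_le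
  omega

/-- The lower-left entry of `β_i * γ`. -/
theorem trq_beta_mul_entry (p q : ℕ) (a b c d : ℤ) (hdet : (q : ℤ) * a * d - p * b * c = 1)
    (j : ℤ) (γ : SL(2, ℤ)) :
    (trq_beta p q a b c d hdet j * γ) 1 0 = p * c * γ 0 0 + (p * c * j + q * d) * γ 1 0 := by
  rw [Matrix.SpecialLinearGroup.coe_mul, Matrix.mul_apply, Fin.sum_univ_two]
  simp [trq_beta]

/-- The lower-left entry of `β_i * β_j⁻¹`. -/
theorem trq_beta_mul_inv_entry (p q : ℕ) (a b c d : ℤ)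
    (hdet : (q : ℤ) * a * d - p * b * c = 1) (i j : ℤ) :
    (trq_beta p q a b c d hdet i * (trq_beta p q a b c d hdet j)⁻¹) 1 0 =
      p * c * (p * c) * (j - i) := by
  rw [trq_beta_mul_entry, Matrix.SpecialLinearGroup.coe_inv, Matrix.adjugate_fin_two]
  simp [trq_beta]
  ring

/-- An element of `Γ₀(p)`, as an element of the image subgroup of `GL(2, ℝ)`. -/
def trq_toH (p : ℕ) (γ : SL(2, ℤ)) (hγ : γ ∈ Gamma0 p) :
    ↥(Gamma0 p : Subgroup (GL (Fin 2) ℝ)) :=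
  ⟨Matrix.SpecialLinearGroup.mapGL ℝ γ, Subgroup.mem_map_of_mem _ hγ⟩

theorem trq_toH_eq_iff (p q : ℕ) (γ₁ γ₂ : SL(2, ℤ)) (h₁ : γ₁ ∈ Gamma0 p) (h₂ : γ₂ ∈ Gamma0 p) :
    (QuotientGroup.mk (trq_toH p γ₁ h₁) : ↥(Gamma0 p : Subgroup (GL (Fin 2) ℝ)) ⧸
        (Gamma0 (p * q) : Subgroup (GL (Fin 2) ℝ)).subgroupOf
          (Gamma0 p : Subgroup (GL (Fin 2) ℝ))) = QuotientGroup.mk (trq_toH p γ₂ h₂) ↔
      γ₁⁻¹ * γ₂ ∈ Gamma0 (p * q) := by
  rw [QuotientGroup.eq, Subgroup.mem_subgroupOf]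
  have : (((trq_toH p γ₁ h₁)⁻¹ * trq_toH p γ₂ h₂ : ↥(Gamma0 p : Subgroup (GL (Fin 2) ℝ))) :
      GL (Fin 2) ℝ) = Matrix.SpecialLinearGroup.mapGL ℝ (γ₁⁻¹ * γ₂) := by
    simp [trq_toH]
  rw [this]
  exact Subgroup.mem_map_iff_mem Matrix.SpecialLinearGroup.mapGL_injective

theorem trq_toH_surj (p : ℕ) (h : ↥(Gamma0 p : Subgroup (GL (Fin 2) ℝ))) :
    ∃ (γ : SL(2, ℤ)) (hγ : γ ∈ Gamma0 p), trq_toH p γ hγ = h := by
  obtain ⟨γ, hγ, hγh⟩ := Subgroup.mem_map.mp h.2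
  exact ⟨γ, hγ, Subtype.ext hγh⟩

/-- The `q + 1` coset representatives. -/
def trq_rep (p q : ℕ) (a b c d : ℤ) (hdet : (q : ℤ) * a * d - p * b * c = 1) :
    Option (Fin q) → ↥(Gamma0 p : Subgroup (GL (Fin 2) ℝ))
  | none => trq_toH p 1 (one_mem _)
  | some j => trq_toH p (trq_beta p q a b c d hdet j)⁻¹ (inv_mem (trq_beta_mem p q a b c d hdet j))

theorem trq_mem_Gamma0_mul (p q : ℕ) (hp : p.Prime) (hq : q.Prime) (hpq : p ≠ q) (γ : SL(2, ℤ)) :
    γ ∈ Gamma0 (p * q) ↔ (p : ℤ) ∣ γ 1 0 ∧ (q : ℤ) ∣ γ 1 0 := by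
  rw [Gamma0_mem, ZMod.intCast_zmod_eq_zero_iff_dvd]
  push_cast
  constructor
  · intro h
    exact ⟨dvd_trans (dvd_mul_right _ _) h, dvd_trans (dvd_mul_left _ _) h⟩
  · rintro ⟨h1, h2⟩
    have hcop : IsCoprime (p : ℤ) (q : ℤ) := by
      rw [Int.isCoprime_iff_gcd_eq_one, Int.gcd_natCast_natCast]
      exact (Nat.coprime_primes hp hq).mpr hpq
    exact hcop.mul_dvd h1 h2

theorem trq_rep_bijective (p q : ℕ) (hp : p.Prime) (hq : q.Prime) (hpq : p ≠ q) (a b c d : ℤ)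
    (hdet : (q : ℤ) * a * d - p * b * c = 1) :
    Function.Bijective (fun o : Option (Fin q) =>
      (QuotientGroup.mk (trq_rep p q a b c d hdet o) :
        ↥(Gamma0 p : Subgroup (GL (Fin 2) ℝ)) ⧸
          (Gamma0 (p * q) : Subgroup (GL (Fin 2) ℝ)).subgroupOf
            (Gamma0 p : Subgroup (GL (Fin 2) ℝ)))) := by
  have hqc := trq_not_dvd p q hq a b c d hdet
  have hqp : ¬ (q : ℤ) ∣ (p : ℤ) := by
    intro h
    have := (Nat.prime_dvd_prime_iff_eq hq hp).mp (Int.natCast_dvd_natCast.mp h)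
    exact hpq this.symm
  have hqZ : Prime (q : ℤ) := Nat.prime_iff_prime_int.mp hq
  constructor
  · rintro (_ | i) (_ | j) h
    · rfl
    · exfalso
      simp only [trq_rep] at h
      rw [trq_toH_eq_iff, trq_mem_Gamma0_mul p q hp hq hpq] at h
      have h2 := h.2
      rw [inv_one, one_mul] at h2
      have h3 : ((trq_beta p q a b c d hdet j)⁻¹ : SL(2, ℤ)) 1 0 = -(p * c) := by
        rw [Matrix.SpecialLinearGroup.coe_inv, Matrix.adjugate_fin_two]
        simp [trq_beta]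
      rw [h3, dvd_neg] at h2
      rcases hqZ.dvd_or_dvd h2 with h4 | h4
      · exact hqp h4
      · exact hqc h4
    · exfalso
      simp only [trq_rep] at h
      rw [trq_toH_eq_iff, trq_mem_Gamma0_mul p q hp hq hpq] at h
      have h2 := h.2
      rw [inv_inv, mul_one] at h2
      have h3 : (trq_beta p q a b c d hdet i : SL(2, ℤ)) 1 0 = p * c := by
        simp [trq_beta]
      rw [h3] at h2
      rcases hqZ.dvd_or_dvd h2 with h4 | h4
      · exact hqp h4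
      · exact hqc h4
    · simp only [trq_rep] at h
      rw [trq_toH_eq_iff, trq_mem_Gamma0_mul p q hp hq hpq] at h
      have h2 := h.2
      rw [inv_inv, trq_beta_mul_inv_entry] at h2
      have h5 : (q : ℤ) ∣ (j : ℤ) - (i : ℤ) := by
        rcases hqZ.dvd_or_dvd h2 with h4 | h4
        · exfalso
          rcases hqZ.dvd_or_dvd h4 with h6 | h6
          · rcases hqZ.dvd_or_dvd h6 with h7 | h7
            · exact hqp h7
            · exact hqc h7
          · rcases hqZ.dvd_or_dvd h6 with h7 | h7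
            · exact hqp h7
            · exact hqc h7
        · exact h4
      congr 1
      apply Fin.ext
      have hi := i.2
      have hj := j.2
      obtain ⟨k, hk⟩ := h5
      have hk0 : k = 0 := by
        by_contra hne
        rcases lt_or_gt_of_ne hne with h' | h'
        · have : (q : ℤ) * k ≤ -q := by nlinarith
          omega
        · have : (q : ℤ) ≤ q * k := by nlinarith
          omega
      rw [hk0, mul_zero] at hk
      omega
  · intro x
    obtain ⟨h, rfl⟩ := QuotientGroup.mk_surjective x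
    obtain ⟨γ, hγ, rfl⟩ := trq_toH_surj p h
    have hpγ : (p : ℤ) ∣ γ 1 0 := by
      rw [Gamma0_mem, ZMod.intCast_zmod_eq_zero_iff_dvd] at hγ
      exact hγ
    by_cases hqγ : (q : ℤ) ∣ γ 1 0
    · refine ⟨none, ?_⟩
      simp only [trq_rep]
      rw [trq_toH_eq_iff, trq_mem_Gamma0_mul p q hp hq hpq, inv_one, one_mul]
      exact ⟨hpγ, hqγ⟩
    · have : Fact q.Prime := ⟨hq⟩
      have hne : ((γ 1 0 : ℤ) : ZMod q) ≠ 0 := by
        rwa [Ne, ZMod.intCast_zmod_eq_zero_iff_dvd]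
      set t : ZMod q := -((γ 0 0 : ℤ) : ZMod q) * ((γ 1 0 : ℤ) : ZMod q)⁻¹ with ht
      refine ⟨some ⟨t.val, ZMod.val_lt t⟩, ?_⟩
      simp only [trq_rep]
      rw [trq_toH_eq_iff, trq_mem_Gamma0_mul p q hp hq hpq, inv_inv, trq_beta_mul_entry]
      constructor
      · exact dvd_add ⟨c * γ 0 0, by ring⟩ (dvd_mul_of_dvd_right hpγ _)
      · rw [← ZMod.intCast_zmod_eq_zero_iff_dvd]
        push_cast
        rw [ZMod.natCast_self, ZMod.natCast_zmod_val]
        obtain ⟨e, he⟩ := hpγ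
        have h1 : ((γ 0 0 : ℤ) : ZMod q) + t * ((γ 1 0 : ℤ) : ZMod q) = 0 := by
          rw [ht]
          field_simp
          ring
        linear_combination (p : ZMod q) * (c : ZMod q) * h1

/-- The translate of `F` by `β_j` is `q⁻¹ F((z + j)/q)` when `F ∣ W_q = F`. -/
theorem trq_slash_beta (p q : ℕ) (hq : 0 < q) (F : ℍ → ℂ) (a b c d : ℤ)
    (hdet : (q : ℤ) * a * d - p * b * c = 1)
    (hW : ∀ z : ℍ, F (ofComplex (((q : ℂ) * a * z + b) / ((p : ℂ) * q * c * z + q * d))) =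
      q * ((p : ℂ) * c * z + d) ^ 2 * F z) (j : ℤ) (z : ℍ) :
    (F ∣[(2 : ℤ)] (trq_beta p q a b c d hdet j)) z =
      (q : ℂ)⁻¹ * F (ofComplex (((z : ℂ) + j) / q)) := by
  have hq0 : (q : ℂ) ≠ 0 := Nat.cast_ne_zero.mpr hq.ne'
  have hqR : (0 : ℝ) < q := Nat.cast_pos.mpr hq
  have him : 0 < (((z : ℂ) + j) / q).im := by
    have h1 : (((z : ℂ) + j) / q) = (((z : ℂ) + ((j : ℝ) : ℂ)) / ((q : ℝ) : ℂ)) := by push_cast; rfl
    rw [h1, Complex.div_ofReal_im]
    simp only [Complex.add_im, Complex.ofReal_im, add_zero]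
    exact div_pos z.im_pos hqR
  set w : ℍ := ⟨((z : ℂ) + j) / q, him⟩ with hw
  have hwc : (w : ℂ) = ((z : ℂ) + j) / q := rfl
  rw [ofComplex_apply_of_im_pos him, ModularForm.SL_slash_apply]
  have hden : denom (Matrix.SpecialLinearGroup.toGL ((Matrix.SpecialLinearGroup.map
      (Int.castRingHom ℝ)) (trq_beta p q a b c d hdet j))) (z : ℂ) =
      (((trq_beta p q a b c d hdet j) 1 0 : ℤ) : ℂ) * z +
        (((trq_beta p q a b c d hdet j) 1 1 : ℤ) : ℂ) := by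
    simp [denom]
  have hden' : denom (Matrix.SpecialLinearGroup.toGL ((Matrix.SpecialLinearGroup.map
      (Int.castRingHom ℝ)) (trq_beta p q a b c d hdet j))) (z : ℂ) =
      (p : ℂ) * c * z + ((p : ℂ) * c * j + q * d) := by
    rw [hden]
    simp [trq_beta]
  have hne := UpperHalfPlane.denom_ne_zero (Matrix.SpecialLinearGroup.toGL
    ((Matrix.SpecialLinearGroup.map (Int.castRingHom ℝ)) (trq_beta p q a b c d hdet j))) z
  rw [hden'] at hne ⊢
  have hβz : (trq_beta p q a b c d hdet j • z : ℍ) =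
      ofComplex (((q : ℂ) * a * w + b) / ((p : ℂ) * q * c * w + q * d)) := by
    rw [← ofComplex_apply (trq_beta p q a b c d hdet j • z)]
    congr 1
    rw [coe_specialLinearGroup_apply, hwc]
    simp [trq_beta]
    field_simp
    ring
  rw [hβz, hW w, hwc]
  have hkey : (p : ℂ) * c * z + ((p : ℂ) * c * j + q * d) =
      q * ((p : ℂ) * c * (((z : ℂ) + j) / q) + d) := by
    field_simp
    ring
  rw [hkey] at hne ⊢
  generalize (p : ℂ) * c * (((z : ℂ) + j) / q) + d = X at hne ⊢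
  have hX : X ≠ 0 := right_ne_zero_of_mul hne
  rw [zpow_neg, zpow_ofNat]
  field_simp
  rfl

theorem trq_isFiniteRelIndex (p q : ℕ) (hp : p.Prime) (hq : q.Prime) :
    (Gamma0 (p * q) : Subgroup (GL (Fin 2) ℝ)).IsFiniteRelIndex
      (Gamma0 p : Subgroup (GL (Fin 2) ℝ)) := by
  have : NeZero (p * q) := ⟨Nat.mul_ne_zero hp.ne_zero hq.ne_zero⟩
  exact Subgroup.isFiniteRelIndex_of_le_right _ (L := 𝒮ℒ) (Subgroup.map_le_range _ _)

/-- **Trace formula**: `trace_{Γ₀(pq) → Γ₀(p)} F = F + ∑_j q⁻¹ F((z + j)/q)`. -/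
theorem trq_trace_apply (p q : ℕ) (hp : p.Prime) (hq : q.Prime) (hpq : p ≠ q)
    (F : ModularForm (Gamma0 (p * q)) 2)
    (a b c d : ℤ) (hdet : (q : ℤ) * a * d - p * b * c = 1)
    (hW : ∀ z : ℍ, F (ofComplex (((q : ℂ) * a * z + b) / ((p : ℂ) * q * c * z + q * d))) =
      q * ((p : ℂ) * c * z + d) ^ 2 * F z)
    [(Gamma0 (p * q) : Subgroup (GL (Fin 2) ℝ)).IsFiniteRelIndex
      (Gamma0 p : Subgroup (GL (Fin 2) ℝ))] (z : ℍ) :
    ModularForm.trace (Gamma0 p : Subgroup (GL (Fin 2) ℝ)) F z =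
      F z + ∑ j : Fin q, (q : ℂ)⁻¹ * F (ofComplex (((z : ℂ) + ((j : ℕ) : ℤ)) / q)) := by
  rw [ModularForm.coe_trace, Finset.sum_apply]
  let e := Equiv.ofBijective _ (trq_rep_bijective p q hp hq hpq a b c d hdet)
  have hsum : ∀ (inst : Fintype (↥(Gamma0 p : Subgroup (GL (Fin 2) ℝ)) ⧸
      (Gamma0 (p * q) : Subgroup (GL (Fin 2) ℝ)).subgroupOf (Gamma0 p : Subgroup (GL (Fin 2) ℝ)))),
      (∑ x : (↥(Gamma0 p : Subgroup (GL (Fin 2) ℝ)) ⧸
        (Gamma0 (p * q) : Subgroup (GL (Fin 2) ℝ)).subgroupOf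
          (Gamma0 p : Subgroup (GL (Fin 2) ℝ))), SlashInvariantForm.quotientFunc F x z) =
        ∑ o : Option (Fin q), SlashInvariantForm.quotientFunc F (e o) z := by
    intro inst
    exact (Fintype.sum_equiv e _ _ (fun _ => rfl)).symm
  rw [hsum, Fintype.sum_option]
  congr 1
  · show SlashInvariantForm.quotientFunc F ⟦trq_rep p q a b c d hdet none⟧ z = F z
    rw [SlashInvariantForm.quotientFunc_mk]
    simp [trq_rep, trq_toH]
  · refine Finset.sum_congr rfl fun j _ => ?_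
    show SlashInvariantForm.quotientFunc F ⟦trq_rep p q a b c d hdet (some j)⟧ z = _
    rw [SlashInvariantForm.quotientFunc_mk]
    have h1 : ((trq_rep p q a b c d hdet (some j) :
        ↥(Gamma0 p : Subgroup (GL (Fin 2) ℝ))) : GL (Fin 2) ℝ)⁻¹ =
        Matrix.SpecialLinearGroup.mapGL ℝ (trq_beta p q a b c d hdet ((j : ℕ) : ℤ)) := by
      simp [trq_rep, trq_toH]
    rw [h1]
    exact trq_slash_beta p q hq.pos F a b c d hdet hW _ z

/-- Sum of the `m`-th powers of the `q`-th roots of unity. -/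
theorem trq_sum_roots (q : ℕ) (hq : 0 < q) (m : ℕ) :
    ∑ j : Fin q, (Complex.exp (2 * Real.pi * Complex.I / q) ^ ((j : ℕ))) ^ m =
      if q ∣ m then (q : ℂ) else 0 := by
  have hζ := Complex.isPrimitiveRoot_exp q hq.ne'
  set ζ := Complex.exp (2 * Real.pi * Complex.I / q) with hζdef
  have h1 : ∑ j : Fin q, (ζ ^ ((j : ℕ))) ^ m = ∑ j ∈ Finset.range q, (ζ ^ m) ^ j := by
    rw [Fin.sum_univ_eq_sum_range (fun j => (ζ ^ j) ^ m) q]
    refine Finset.sum_congr rfl fun j _ => ?_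
    rw [← pow_mul, ← pow_mul, mul_comm]
  rw [h1]
  split_ifs with hdvd
  · have h2 : ζ ^ m = 1 := (hζ.pow_eq_one_iff_dvd m).mpr hdvd
    simp [h2]
  · have h2 : ζ ^ m ≠ 1 := fun h => hdvd ((hζ.pow_eq_one_iff_dvd m).mp h)
    have h3 : (ζ ^ m - 1) * ∑ j ∈ Finset.range q, (ζ ^ m) ^ j = 0 := by
      rw [mul_geom_sum, ← pow_mul, mul_comm, pow_mul, hζ.pow_eq_one, one_pow, sub_self]
    rcases mul_eq_zero.mp h3 with h4 | h4
    · exact absurd (sub_eq_zero.mp h4) h2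
    · exact h4

/-- `U_q` on `q`-expansions: if `F = ∑ A_m 𝕢^m` then `∑_j q⁻¹ F((z + j)/q) = ∑ A_{qn} 𝕢^n`. -/
theorem trq_hasSum_U (q : ℕ) (hq : 0 < q) (F : ℍ → ℂ) (A : ℕ → ℂ)
    (hF : ∀ τ : ℍ, HasSum (fun m => A m * Function.Periodic.qParam 1 τ ^ m) (F τ)) (z : ℍ) :
    HasSum (fun n => A (q * n) * Function.Periodic.qParam 1 z ^ n)
      (∑ j : Fin q, (q : ℂ)⁻¹ * F (ofComplex (((z : ℂ) + ((j : ℕ) : ℤ)) / q))) := by
  have hq0 : (q : ℂ) ≠ 0 := Nat.cast_ne_zero.mpr hq.ne'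
  have hqR : (0 : ℝ) < q := Nat.cast_pos.mpr hq
  set x : ℂ := Complex.exp (2 * Real.pi * Complex.I * z / q) with hx
  set ζ : ℂ := Complex.exp (2 * Real.pi * Complex.I / q) with hζ
  have hxq : x ^ q = Function.Periodic.qParam 1 z := by
    rw [hx, ← Complex.exp_nat_mul, Function.Periodic.qParam]
    congr 1
    push_cast
    field_simp
  -- the expansion at each translate
  have hterm : ∀ j : Fin q, HasSum (fun m => (q : ℂ)⁻¹ * (A m * (x * ζ ^ (j : ℕ)) ^ m))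
      ((q : ℂ)⁻¹ * F (ofComplex (((z : ℂ) + ((j : ℕ) : ℤ)) / q))) := by
    intro j
    have him : 0 < (((z : ℂ) + ((j : ℕ) : ℤ)) / q).im := by
      have h1 : (((z : ℂ) + ((j : ℕ) : ℤ)) / q) =
          (((z : ℂ) + (((j : ℕ) : ℝ) : ℂ)) / ((q : ℝ) : ℂ)) := by push_cast; rfl
      rw [h1, Complex.div_ofReal_im]
      simp only [Complex.add_im, Complex.ofReal_im, add_zero]
      exact div_pos z.im_pos hqR
    have h2 := (hF (ofComplex (((z : ℂ) + ((j : ℕ) : ℤ)) / q))).mul_left ((q : ℂ)⁻¹)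
    have h3 : Function.Periodic.qParam 1 ((ofComplex (((z : ℂ) + ((j : ℕ) : ℤ)) / q) : ℍ) : ℂ) =
        x * ζ ^ (j : ℕ) := by
      rw [ofComplex_apply_of_im_pos him]
      show Function.Periodic.qParam 1 (((z : ℂ) + ((j : ℕ) : ℤ)) / q) = _
      rw [Function.Periodic.qParam, hx, hζ, ← Complex.exp_nat_mul, ← Complex.exp_add]
      congr 1
      push_cast
      field_simp
    rw [h3] at h2
    exact h2
  have hsum := hasSum_sum (s := Finset.univ) (fun j _ => hterm j)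
  -- evaluate the sum over `j`
  have hfun : (fun m => ∑ j : Fin q, (q : ℂ)⁻¹ * (A m * (x * ζ ^ (j : ℕ)) ^ m)) =
      fun m => if q ∣ m then A m * x ^ m else 0 := by
    funext m
    have h1 : ∑ j : Fin q, (q : ℂ)⁻¹ * (A m * (x * ζ ^ (j : ℕ)) ^ m) =
        (q : ℂ)⁻¹ * A m * x ^ m * ∑ j : Fin q, (ζ ^ (j : ℕ)) ^ m := by
      rw [Finset.mul_sum]
      refine Finset.sum_congr rfl fun j _ => ?_
      rw [mul_pow]
      ring
    rw [h1, hζ, trq_sum_roots q hq m]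
    split_ifs with hdvd
    · field_simp
    · simp
  rw [hfun] at hsum
  have hinj : Function.Injective (fun n : ℕ => q * n) := fun a b h =>
    Nat.eq_of_mul_eq_mul_left hq h
  have hrange : ∀ m ∉ Set.range (fun n : ℕ => q * n),
      (fun m => if q ∣ m then A m * x ^ m else 0) m = 0 := by
    intro m hm
    have : ¬ q ∣ m := fun ⟨n, hn⟩ => hm ⟨n, hn.symm⟩
    simp [this]
  have h4 := (hinj.hasSum_iff hrange).mpr hsum
  have h5 : (fun n => A (q * n) * Function.Periodic.qParam 1 z ^ n) =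
      (fun m => if q ∣ m then A m * x ^ m else 0) ∘ fun n : ℕ => q * n := by
    funext n
    simp [pow_mul, hxq]
  rw [h5]
  exact h4

/-- **TRACE module of route (II).**  A weight-2 form `F` on `Γ₀(pq)` with `F ∣ W_q = F`
(`W_q = [[q a, b], [p q c, q d]]`, `q a d - p b c = 1`) gives `Ψ = trace(F)/2` on `Γ₀(p)` with
`a_n(Ψ) = (a_n(F) + a_{qn}(F)) / 2`. -/
theorem trq_exists_trace (p q : ℕ) (hp : p.Prime) (hq : q.Prime) (hpq : p ≠ q)
    (F : ModularForm (Gamma0 (p * q)) 2)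
    (a b c d : ℤ) (hdet : (q : ℤ) * a * d - p * b * c = 1)
    (hW : ∀ z : ℍ, F (ofComplex (((q : ℂ) * a * z + b) / ((p : ℂ) * q * c * z + q * d))) =
      q * ((p : ℂ) * c * z + d) ^ 2 * F z) :
    ∃ Ψ : ModularForm (Gamma0 p) 2, ∀ n : ℕ,
      (qExpansion 1 Ψ).coeff n =
        ((qExpansion 1 F).coeff n + (qExpansion 1 F).coeff (q * n)) / 2 := by
  have := trq_isFiniteRelIndex p q hp hq
  refine ⟨(2 : ℂ)⁻¹ • ModularForm.trace (Gamma0 p : Subgroup (GL (Fin 2) ℝ)) F, fun n => ?_⟩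
  symm
  have hΓ := CongruenceSubgroup.one_mem_strictPeriods_Gamma0 p
  have hΓ' := CongruenceSubgroup.one_mem_strictPeriods_Gamma0 (p * q)
  refine ModularFormClass.qExpansion_coeff_unique
    (c := fun n => ((qExpansion 1 F).coeff n + (qExpansion 1 F).coeff (q * n)) / 2)
    one_pos hΓ (fun τ => ?_) n
  have hF : ∀ τ : ℍ, HasSum (fun m => (qExpansion 1 F).coeff m *
      Function.Periodic.qParam 1 τ ^ m) (F τ) := by
    have : Fact (IsCusp OnePoint.infty (Gamma0 (p * q) : Subgroup (GL (Fin 2) ℝ))) :=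
      ⟨Subgroup.isCusp_of_mem_strictPeriods one_pos hΓ'⟩
    exact fun τ => ModularForm.hasSum_qExpansion F one_pos hΓ' τ
  have h1 := hF τ
  have h2 := trq_hasSum_U q hq.pos F _ hF τ
  have h3 := (h1.add h2).mul_left (2 : ℂ)⁻¹
  have hΨ : ((2 : ℂ)⁻¹ • ModularForm.trace (Gamma0 p : Subgroup (GL (Fin 2) ℝ)) F) τ =
      2⁻¹ * (F τ + ∑ j : Fin q, (q : ℂ)⁻¹ * F (ofComplex (((τ : ℂ) + ((j : ℕ) : ℤ)) / q))) := by
    rw [smul_apply, trq_trace_apply p q hp hq hpq F a b c d hdet hW, smul_eq_mul]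
  rw [hΨ]
  have hfun : (fun m => (fun n => ((qExpansion 1 F).coeff n +
      (qExpansion 1 F).coeff (q * n)) / 2) m • Function.Periodic.qParam 1 (τ : ℂ) ^ m) =
      fun i => (2 : ℂ)⁻¹ * ((qExpansion 1 F).coeff i * Function.Periodic.qParam 1 (τ : ℂ) ^ i +
        (qExpansion 1 F).coeff (q * i) * Function.Periodic.qParam 1 (τ : ℂ) ^ i) := by
    funext m
    simp only [smul_eq_mul]
    ring
  rw [hfun]
  exact h3

end Fermat.Agent.S16
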