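import Fermat.Agent.S16.RepCount
import Fermat.Agent.S16.ThetaBinary
import Fermat.Agent.S16.ThetaPrime
import Fermat.Agent.S16.ThetaFormW
import Fermat.Agent.S16.TraceQ

/-!
# S16 / lower bound (II): the form `Ψ` (conditional core, helper35)

`Ψ ∈ M₂(Γ₀(p))` with constant term `1` and all other `q`-coefficients even integers, obtained as
half the trace from `Γ₀(pq)` of `F(z) = θ_q(z) θ_q(pz)` for an auxiliary prime `q ≡ 3 mod 4` with
`(p/q) = -1`.  Assembly of `ThetaPrime` (auxiliary prime), `ThetaFormW` (`W_q`-invariance),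
`TraceQ` (trace) and `RepCount` (parity of representation numbers); the two inputs that are not
used through a landed module are explicit hypotheses:

* `hmod`: the `Γ₀(q)`-transformation law of `thetaQ q` with character `d ↦ (d/q)`
  (`thetaQ_modular` of `ThetaChar`);
* `hform`: `F` is a modular form of weight `2` on `Γ₀(pq)` with coefficients `rc_R m p n`
  (`exists_thetaForm` of `ThetaForm`).
-/

set_option autoImplicit false

open UpperHalfPlane ModularForm CongruenceSubgroup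
open scoped MatrixGroups ModularForm Manifold Pointwise Real

noncomputable section

namespace Fermat.Agent.S16

/-- The imaginary part of a real Möbius transform of positive determinant is positive. -/
theorem psi_im_pos (A B C D : ℝ) (hdet : 0 < A * D - B * C) (z : ℂ) (hz : 0 < z.im) :
    0 < (((A : ℂ) * z + B) / ((C : ℂ) * z + D)).im := by
  have hden : (C : ℂ) * z + D ≠ 0 := by
    intro h
    have him := congrArg Complex.im h
    have hre := congrArg Complex.re h
    simp only [Complex.add_im, Complex.mul_im, Complex.ofReal_re, Complex.ofReal_im, zero_mul,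
      add_zero, Complex.zero_im, Complex.add_re, Complex.mul_re, sub_zero, Complex.zero_re]
      at him hre
    have hC : C = 0 := by
      rcases mul_eq_zero.mp him with h | h
      · exact h
      · exact absurd h hz.ne'
    subst hC
    rw [zero_mul, zero_add] at hre
    subst hre
    simp at hdet
  have hns : 0 < Complex.normSq ((C : ℂ) * z + D) := Complex.normSq_pos.mpr hden
  have key : (((A : ℂ) * z + B) / ((C : ℂ) * z + D)).im
      = (A * D - B * C) * z.im / Complex.normSq ((C : ℂ) * z + D) := by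
    rw [Complex.div_im]
    simp only [Complex.add_re, Complex.add_im, Complex.mul_re, Complex.mul_im,
      Complex.ofReal_re, Complex.ofReal_im]
    ring
  rw [key]
  exact div_pos (mul_pos hdet hz) hns

/-- **The form `Ψ`, for a given auxiliary prime.**  From the modular form
`F(z) = θ_q(z) θ_q(pz)` on `Γ₀(pq)` and the transformation law of `θ_q`. -/
theorem psi_of_thetaForm (p q : ℕ) (hp : p.Prime) (hq : q.Prime) (hq4 : q % 4 = 3)
    (hpq : p ≠ q) (hχ : jacobiSym (p : ℤ) q = -1) (m : ℤ) (hm : 4 * m = q + 1)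
    (hmod : ∀ {a b c d : ℤ}, a * d - b * c = 1 → (q : ℤ) ∣ c → ∀ {z : ℂ}, 0 < z.im →
      thetaQ q (((a : ℂ) * z + b) / ((c : ℂ) * z + d)) =
        ((jacobiSym d q : ℤ) : ℂ) * ((c : ℂ) * z + d) * thetaQ q z)
    (F : ModularForm (CongruenceSubgroup.Gamma0 (p * q)) 2)
    (hF : ∀ z : ℍ, F z = thetaQ q z * thetaQ q (p * z))
    (hFc : ∀ n : ℕ, (qExpansion 1 F).coeff n = (rc_R m p n : ℂ)) :
    ∃ Ψ : ModularForm (CongruenceSubgroup.Gamma0 p) 2,
      (qExpansion 1 Ψ).coeff 0 = 1 ∧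
      ∀ k : ℕ, 0 < k → ∃ z : ℤ, (qExpansion 1 Ψ).coeff k = 2 * z := by
  -- Bezout: `q u + p v = 1`
  have hcop : IsCoprime (q : ℤ) (p : ℤ) := by
    rw [Int.isCoprime_iff_gcd_eq_one]
    exact_mod_cast (Nat.coprime_primes hq hp).mpr hpq.symm
  obtain ⟨u, v, huv⟩ := hcop
  have hdet : (q : ℤ) * u * 1 - p * (-v) * 1 = 1 := by linarith
  obtain ⟨Ψ, hΨ⟩ := trq_exists_trace p q hp hq hpq F u (-v) 1 1 hdet (by
    intro z
    have him : 0 < (((q : ℂ) * (u : ℤ) * z + ((-v : ℤ) : ℂ)) /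
        ((p : ℂ) * q * ((1 : ℤ) : ℂ) * z + q * ((1 : ℤ) : ℂ))).im := by
      have h := psi_im_pos ((q : ℝ) * u) ((-v : ℤ) : ℝ) ((p : ℝ) * q * 1) ((q : ℝ) * 1)
        (by
          have h1 : ((q : ℝ) * u * (q * 1) - ((-v : ℤ) : ℝ) * ((p : ℝ) * q * 1))
              = (q : ℝ) * (((u * q + v * p : ℤ) : ℝ)) := by push_cast; ring
          rw [h1, huv]
          have : (0 : ℝ) < q := by exact_mod_cast hq.pos
          simpa using this)
        (z : ℂ) z.im_pos
      convert h using 3 <;> push_cast <;> ring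
    have hcoe : ((ofComplex (((q : ℂ) * (u : ℤ) * z + ((-v : ℤ) : ℂ)) /
        ((p : ℂ) * q * ((1 : ℤ) : ℂ) * z + q * ((1 : ℤ) : ℂ))) : ℍ) : ℂ)
        = ((q : ℂ) * (u : ℤ) * z + ((-v : ℤ) : ℂ)) /
          ((p : ℂ) * q * ((1 : ℤ) : ℂ) * z + q * ((1 : ℤ) : ℂ)) := by
      rw [ofComplex_apply_of_im_pos him]
    rw [hF, hF, hcoe]
    exact h96_thetaForm_W_of p q hq4 hmod hp.pos hχ u (-v) 1 1 hdet (z : ℂ) z.im_pos)
  obtain ⟨cf, hc0, hceven, hc⟩ := rc_coeff hq hp hpq hm
  have hcoef : ∀ n : ℕ, (qExpansion 1 Ψ).coeff n = (cf n : ℂ) := by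
    intro n
    rw [hΨ n, hFc, hFc]
    have h := hc n
    have hcast : ((q * n : ℕ) : ℤ) = (q : ℤ) * n := by push_cast; ring
    have h' : ((rc_R m p (n : ℤ) : ℕ) : ℂ) + ((rc_R m p ((q * n : ℕ) : ℤ) : ℕ) : ℂ)
        = 2 * (cf n : ℂ) := by
      rw [hcast]
      exact_mod_cast h.symm
    rw [h']
    ring
  refine ⟨Ψ, ?_, ?_⟩
  · rw [hcoef 0, hc0]
    simp
  · intro k hk
    obtain ⟨z, hz⟩ := hceven k hk
    exact ⟨z, by rw [hcoef k, hz]; push_cast; ring⟩

/-- **The form `Ψ`, conditional form.**  A weight-2 modular form on `Γ₀(p)` with constant term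
`1` and all other `q`-coefficients even integers, given `thetaQ_modular` (`hmod`) and
`exists_thetaForm` (`hform`) for all auxiliary primes. -/
theorem exists_psi_of (p : ℕ) (hp : p.Prime)
    (hmod : ∀ q : ℕ, q.Prime → q % 4 = 3 → ∀ {a b c d : ℤ}, a * d - b * c = 1 → (q : ℤ) ∣ c →
      ∀ {z : ℂ}, 0 < z.im →
      thetaQ q (((a : ℂ) * z + b) / ((c : ℂ) * z + d)) =
        ((jacobiSym d q : ℤ) : ℂ) * ((c : ℂ) * z + d) * thetaQ q z)
    (hform : ∀ q : ℕ, q.Prime → q % 4 = 3 → p ≠ q → ∀ m : ℤ, 4 * m = q + 1 →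
      ∃ F : ModularForm (CongruenceSubgroup.Gamma0 (p * q)) 2,
        (∀ z : ℍ, F z = thetaQ q z * thetaQ q (p * z)) ∧
        ∀ n : ℕ, (qExpansion 1 F).coeff n = (rc_R m p n : ℂ)) :
    ∃ Ψ : ModularForm (CongruenceSubgroup.Gamma0 p) 2,
      (qExpansion 1 Ψ).coeff 0 = 1 ∧
      ∀ k : ℕ, 0 < k → ∃ z : ℤ, (qExpansion 1 Ψ).coeff k = 2 * z := by
  obtain ⟨q, hq, hq4, hqp, hχ⟩ := h65_exists_aux_prime p hp
  have hpq : p ≠ q := hqp.symm
  obtain ⟨m, hm⟩ : ∃ m : ℤ, 4 * m = q + 1 := ⟨((q : ℤ) + 1) / 4, by omega⟩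
  obtain ⟨F, hF, hFc⟩ := hform q hq hq4 hpq m hm
  exact psi_of_thetaForm p q hp hq hq4 hpq hχ m hm (hmod q hq hq4) F hF hFc

end Fermat.Agent.S16
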