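import Fermat.Agent.S16.DExp
import Fermat.Agent.S24.KleinJOrder
import Fermat.Agent.S24.JFun
import Fermat.Agent.S28.ThetaJ

/-!
S16, upper bound at the prime `2` (the case `p ≡ ±1 mod 8`): there is no weight-two function
`Θ` on `Γ₀(N)` (`N` odd) all of whose `SL(2,ℤ)`-conjugates are `≡ c mod 8` with constants
`c² ≡ 1 mod 16` (expansions in `w = e^{2πiτ/N}` with `2`-integral algebraic coefficients).

Method: evaluation at `ρ = e^{2πi/3}`.  With `Ψ = (Θ² - E₄)/16`, `G = E₂Θ - 6DΘ = -6 ϑ₂Θ`,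
`Φ = (G² - E₄²)/16`, `Λ = ϑ₄Ψ`, the weight-zero functions `Ψ³/Δ`, `Φ³/Δ²`, `Λ²/Δ` are
`Γ₀(N)`-invariant with `2`-integral conjugate expansions, hence `2`-integral at `ρ`
(`j(ρ) = 0`, `Fermat.Agent.S28.exists_monic_of_invariant`).  Since `E₄(ρ) = 0`,
`E₆(ρ)² = -1728 Δ(ρ)` and `D E₄(ρ) = -E₆(ρ)/3`, the identity `ϑ₄(Θ²) = ϑ₄E₄ + 16 ϑ₄Ψ` at `ρ`
reads `E₆(ρ) = 48 Λ(ρ) + Θ(ρ) G(ρ)`, which forces `-1728 ∈ 256 · rhoO2`, i.e. `-27/4` would be
`2`-integral.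
-/

set_option autoImplicit false

open UpperHalfPlane ModularForm EisensteinSeries

open scoped Manifold MatrixGroups

open Fermat.Agent.S24 Fermat.Agent.S28

namespace Fermat.Agent.S16

/-! ### The ring of `2`-integral algebraic numbers -/

theorem rho_isIntegral_natCast (n : ℕ) : IsIntegral ℤ (n : ℂ) := by
  have h : IsIntegral ℤ (algebraMap ℤ ℂ (n : ℤ)) := isIntegral_algebraMap
  simpa using h

/-- The ring of `2`-integral algebraic numbers: `x` with `m x` an algebraic integer for some odd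
`m`. -/
def rhoO2 : Subring ℂ where
  carrier := {x | ∃ m : ℕ, Odd m ∧ IsIntegral ℤ ((m : ℂ) * x)}
  mul_mem' := by
    rintro x y ⟨m, hm, hx⟩ ⟨n, hn, hy⟩
    refine ⟨m * n, hm.mul hn, ?_⟩
    have h := hx.mul hy
    have e : ((m * n : ℕ) : ℂ) * (x * y) = (m : ℂ) * x * ((n : ℂ) * y) := by
      push_cast
      ring
    rw [e]
    exact h
  one_mem' := ⟨1, odd_one, by simpa using (isIntegral_one : IsIntegral ℤ (1 : ℂ))⟩
  add_mem' := by
    rintro x y ⟨m, hm, hx⟩ ⟨n, hn, hy⟩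
    refine ⟨m * n, hm.mul hn, ?_⟩
    have h := ((rho_isIntegral_natCast n).mul hx).add ((rho_isIntegral_natCast m).mul hy)
    have e : ((m * n : ℕ) : ℂ) * (x + y) = (n : ℂ) * ((m : ℂ) * x) + (m : ℂ) * ((n : ℂ) * y) := by
      push_cast
      ring
    rw [e]
    exact h
  zero_mem' := ⟨1, odd_one, by simpa using (isIntegral_zero : IsIntegral ℤ (0 : ℂ))⟩
  neg_mem' := by
    rintro x ⟨m, hm, hx⟩
    refine ⟨m, hm, ?_⟩
    have h := hx.neg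
    have e : (m : ℂ) * -x = -((m : ℂ) * x) := by ring
    rw [e]
    exact h

theorem mem_rhoO2 {x : ℂ} : x ∈ rhoO2 ↔ ∃ m : ℕ, Odd m ∧ IsIntegral ℤ ((m : ℂ) * x) := Iff.rfl

theorem rhoO2_inv_odd {m : ℕ} (hm : Odd m) : ((m : ℂ))⁻¹ ∈ rhoO2 := by
  have hm0 : (m : ℂ) ≠ 0 := by
    have : m ≠ 0 := fun h => by simp [h] at hm
    exact_mod_cast this
  refine ⟨m, hm, ?_⟩
  rw [mul_inv_cancel₀ hm0]
  exact isIntegral_one

/-- A rational number `a / 4` with `a` odd is not `2`-integral. -/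
theorem rhoO2_not_mem_quarter (a : ℤ) (ha : Odd a) : ((a : ℂ) / 4) ∉ rhoO2 := by
  rintro ⟨m, hm, h⟩
  have e : (m : ℂ) * ((a : ℂ) / 4) = algebraMap ℚ ℂ ((m : ℚ) * (a : ℚ) / 4) := by
    simp
    ring
  rw [e] at h
  have h2 : IsIntegral ℤ ((m : ℚ) * (a : ℚ) / 4) :=
    (isIntegral_algebraMap_iff (algebraMap ℚ ℂ).injective).mp h
  obtain ⟨n, hn⟩ := IsIntegrallyClosed.isIntegral_iff.mp h2
  have h3 : (4 : ℚ) * (n : ℚ) = (m : ℚ) * (a : ℚ) := by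
    have : (algebraMap ℤ ℚ n) = (n : ℚ) := rfl
    rw [this] at hn
    rw [hn]
    ring
  have h4 : (4 : ℤ) * n = (m : ℤ) * a := by exact_mod_cast h3
  have h5 : Odd ((m : ℤ) * a) := (by exact_mod_cast hm : Odd (m : ℤ)).mul ha
  rw [← h4] at h5
  exact (Int.not_odd_iff_even.mpr ⟨2 * n, by ring⟩) h5

/-- `rhoO2` is integrally closed in `ℂ`. -/
theorem rhoO2_of_isIntegral {x : ℂ} (hx : IsIntegral rhoO2 x) : x ∈ rhoO2 := by
  classical
  obtain ⟨P, hPm, hPx⟩ := hx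
  have hex : ∀ i : ℕ, ∃ m : ℕ, Odd m ∧ IsIntegral ℤ ((m : ℂ) * (P.coeff i : ℂ)) :=
    fun i => (P.coeff i).2
  choose mi hmi_odd hmi using hex
  obtain ⟨m, hm⟩ : ∃ m : ℕ, m = ∏ i ∈ P.support, mi i := ⟨_, rfl⟩
  have hm_odd : Odd m := by
    rw [hm]
    exact Finset.prod_induction _ Odd (fun a b ha hb => ha.mul hb) odd_one
      (fun i _ => hmi_odd i)
  have hcoef : ∀ i : ℕ, IsIntegral ℤ ((m : ℂ) * (P.coeff i : ℂ)) := by
    intro i
    by_cases hi : i ∈ P.support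
    · have e : m = (∏ j ∈ P.support.erase i, mi j) * mi i := by
        rw [hm, Finset.prod_erase_mul _ _ hi]
      have e2 : (m : ℂ) * (P.coeff i : ℂ) =
          ((∏ j ∈ P.support.erase i, mi j : ℕ) : ℂ) * ((mi i : ℂ) * (P.coeff i : ℂ)) := by
        rw [e]
        push_cast
        ring
      rw [e2]
      exact (rho_isIntegral_natCast _).mul (hmi i)
    · have : P.coeff i = 0 := Polynomial.notMem_support_iff.mp hi
      rw [this]
      simpa using (isIntegral_zero : IsIntegral ℤ (0 : ℂ))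
  refine ⟨m, hm_odd, ?_⟩
  -- the scaled polynomial
  let s : rhoO2 := ⟨(m : ℂ), natCast_mem rhoO2 m⟩
  have hroot : Polynomial.eval₂ (algebraMap rhoO2 ℂ) ((m : ℂ) * x) (Polynomial.scaleRoots P s) = 0 := by
    have h := Polynomial.scaleRoots_eval₂_eq_zero (algebraMap rhoO2 ℂ) (s := s) hPx
    exact h
  let Q : Polynomial ℂ := (Polynomial.scaleRoots P s).map (algebraMap rhoO2 ℂ)
  have hQm : Q.Monic := ((Polynomial.monic_scaleRoots_iff s).mpr hPm).map _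
  have hQroot : Q.eval ((m : ℂ) * x) = 0 := by
    rw [Polynomial.eval_map]
    exact hroot
  have hQcoef : ∀ i : ℕ, IsIntegral ℤ (Q.coeff i) := by
    intro i
    rw [Polynomial.coeff_map, Polynomial.coeff_scaleRoots]
    show IsIntegral ℤ ((P.coeff i : ℂ) * (m : ℂ) ^ (P.natDegree - i))
    rcases lt_trichotomy i P.natDegree with hlt | heq | hgt
    · obtain ⟨k, hk⟩ : ∃ k, P.natDegree - i = k + 1 := ⟨P.natDegree - i - 1, by omega⟩
      rw [hk, pow_succ]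
      have e : (P.coeff i : ℂ) * ((m : ℂ) ^ k * (m : ℂ)) =
          (m : ℂ) ^ k * ((m : ℂ) * (P.coeff i : ℂ)) := by ring
      rw [e]
      exact ((rho_isIntegral_natCast m).pow k).mul (hcoef i)
    · rw [heq, Nat.sub_self, pow_zero, mul_one]
      have : P.coeff P.natDegree = 1 := hPm
      rw [this]
      exact isIntegral_one
    · rw [Polynomial.coeff_eq_zero_of_natDegree_lt hgt]
      simpa using (isIntegral_zero : IsIntegral ℤ (0 : ℂ))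
  have hlift : Q ∈ Polynomial.lifts (algebraMap (integralClosure ℤ ℂ) ℂ) := by
    rw [Polynomial.lifts_iff_coeff_lifts]
    intro i
    exact ⟨⟨Q.coeff i, hQcoef i⟩, rfl⟩
  obtain ⟨q, hq, -, hqm⟩ := Polynomial.lifts_and_natDegree_eq_and_monic hlift hQm
  have hint : IsIntegral (integralClosure ℤ ℂ) ((m : ℂ) * x) := by
    refine ⟨q, hqm, ?_⟩
    rw [← Polynomial.eval_map, hq]
    exact hQroot
  exact isIntegral_trans (R := ℤ) _ hint

theorem rhoO2_of_pow_mem {x : ℂ} {n : ℕ} (hn : 0 < n) (hx : x ^ n ∈ rhoO2) : x ∈ rhoO2 := by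
  apply rhoO2_of_isIntegral
  have h : IsIntegral rhoO2 (algebraMap rhoO2 ℂ ⟨x ^ n, hx⟩) := isIntegral_algebraMap
  exact IsIntegral.of_pow hn h

/-! ### Integrality at `ρ` -/

/-- A `Γ₀(N)`-invariant function whose `SL(2,ℤ)`-translates all have `2`-integral expansions at
`i∞` takes a `2`-integral value at `ρ`. -/
theorem rho_mem_of_invariant (N : ℕ) [NeZero N] (u : ℍ → ℂ)
    (hΓ : ∀ γ ∈ CongruenceSubgroup.Gamma0 N, actFn γ u = u)
    (hexp : ∀ g : SL(2, ℤ), actFn g u ∈ expSubring N rhoO2) : u rhoH ∈ rhoO2 := by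
  obtain ⟨Q, hQm, hQ⟩ := exists_monic_of_invariant N rhoO2 u hΓ hexp
  have h := hQ rhoH
  apply rhoO2_of_isIntegral
  have hev : evalJ rhoO2 rhoH = (algebraMap rhoO2 ℂ).comp Polynomial.constantCoeff := by
    refine RingHom.ext fun P => ?_
    rw [evalJ_apply, wpA3_kleinJ_rho, ← Polynomial.coeff_zero_eq_eval_zero, Polynomial.coeff_map]
    rfl
  rw [hev, ← Polynomial.eval₂_map] at h
  exact ⟨Q.map Polynomial.constantCoeff, hQm.map _, h⟩

/-! ### The auxiliary functions attached to a weight-two function -/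

open Derivative

/-- `Ψ = (Θ² - E₄) / 16`. -/
noncomputable def rhoPsi (th : ℍ → ℂ) : ℍ → ℂ := fun τ => (th τ ^ 2 - E₄ τ) / 16

/-- `G = -6 ϑ₂ Θ = E₂ Θ - 6 D Θ`. -/
noncomputable def rhoG (th : ℍ → ℂ) : ℍ → ℂ := fun τ => -6 * serreDerivative ((2 : ℤ) : ℂ) th τ

/-- `Φ = (G² - E₄²) / 16`. -/
noncomputable def rhoPhi (th : ℍ → ℂ) : ℍ → ℂ := fun τ => (rhoG th τ ^ 2 - E₄ τ ^ 2) / 16

/-- `Λ = ϑ₄ Ψ`. -/
noncomputable def rhoLam (th : ℍ → ℂ) : ℍ → ℂ := serreDerivative ((4 : ℤ) : ℂ) (rhoPsi th)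

/-- `Ψ³ / Δ`. -/
noncomputable def rhoU1 (th : ℍ → ℂ) : ℍ → ℂ :=
  fun τ => rhoPsi th τ ^ 3 * (ModularForm.discriminant τ)⁻¹

/-- `Φ³ / Δ²`. -/
noncomputable def rhoU2 (th : ℍ → ℂ) : ℍ → ℂ :=
  fun τ => rhoPhi th τ ^ 3 * (ModularForm.discriminant τ)⁻¹ ^ 2

/-- `Λ² / Δ`. -/
noncomputable def rhoU3 (th : ℍ → ℂ) : ℍ → ℂ :=
  fun τ => rhoLam th τ ^ 2 * (ModularForm.discriminant τ)⁻¹

theorem rho_psi_mdiff {th : ℍ → ℂ} (hth : MDiff th) : MDiff (rhoPsi th) := by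
  have h1 : MDiff (fun τ : ℍ => E₄ τ) := ModularFormClass.holo E₄
  have h2 : MDiff (fun τ : ℍ => (16 : ℂ)⁻¹ * (th τ * th τ - E₄ τ)) :=
    MDifferentiable.mul mdifferentiable_const (MDifferentiable.sub (hth.mul hth) h1)
  have e : rhoPsi th = fun τ : ℍ => (16 : ℂ)⁻¹ * (th τ * th τ - E₄ τ) := by
    funext τ
    unfold rhoPsi
    ring
  rw [e]
  exact h2

/-- Value of a slash translate. -/
theorem rho_slash_apply' (F : ℍ → ℂ) (k : ℤ) (γ : SL(2, ℤ)) (z : ℍ) :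
    F (γ • z) = (F ∣[k] γ) z * denom γ z ^ k := by
  have hd : denom γ z ≠ 0 := denom_ne_zero _ z
  rw [SL_slash_apply, mul_assoc, ← zpow_add₀ hd]
  simp

theorem rho_psi_slash (th : ℍ → ℂ) (γ : SL(2, ℤ)) :
    rhoPsi th ∣[(4 : ℤ)] γ = rhoPsi (th ∣[(2 : ℤ)] γ) := by
  funext z
  have hd : denom γ z ≠ 0 := denom_ne_zero _ z
  rw [SL_slash_apply]
  unfold rhoPsi
  rw [rho_slash_apply' th 2 γ z, aj1_E4_smul]
  have e1 : denom γ z ^ (-(4 : ℤ)) = (denom γ z ^ 4)⁻¹ := by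
    rw [zpow_neg]
    norm_cast
  have e2 : denom γ z ^ (2 : ℤ) = denom γ z ^ 2 := by norm_cast
  have e3 : denom γ z ^ (4 : ℤ) = denom γ z ^ 4 := by norm_cast
  rw [e1, e2, e3]
  field_simp

theorem rho_g_slash {th : ℍ → ℂ} (hth : MDiff th) (γ : SL(2, ℤ)) :
    rhoG th ∣[(4 : ℤ)] γ = rhoG (th ∣[(2 : ℤ)] γ) := by
  funext z
  have h := congrFun (serreDerivative_slash_equivariant (k := 2) hth (γ := γ)) z
  rw [SL_slash_apply] at h ⊢
  unfold rhoG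
  rw [← h]
  norm_num
  ring

theorem rho_phi_slash {th : ℍ → ℂ} (hth : MDiff th) (γ : SL(2, ℤ)) :
    rhoPhi th ∣[(8 : ℤ)] γ = rhoPhi (th ∣[(2 : ℤ)] γ) := by
  funext z
  have hd : denom γ z ≠ 0 := denom_ne_zero _ z
  rw [SL_slash_apply]
  unfold rhoPhi
  rw [rho_slash_apply' (rhoG th) 4 γ z, rho_g_slash hth γ, aj1_E4_smul]
  have e1 : denom γ z ^ (-(8 : ℤ)) = (denom γ z ^ 8)⁻¹ := by
    rw [zpow_neg]
    norm_cast
  have e3 : denom γ z ^ (4 : ℤ) = denom γ z ^ 4 := by norm_cast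
  rw [e1, e3]
  field_simp

theorem rho_lam_slash {th : ℍ → ℂ} (hth : MDiff th) (γ : SL(2, ℤ)) :
    rhoLam th ∣[(6 : ℤ)] γ = rhoLam (th ∣[(2 : ℤ)] γ) := by
  unfold rhoLam
  rw [← rho_psi_slash th γ]
  exact serreDerivative_slash_equivariant (k := 4) (rho_psi_mdiff hth) (γ := γ)

theorem rho_disc_inv_smul (γ : SL(2, ℤ)) (z : ℍ) :
    (ModularForm.discriminant (γ • z))⁻¹ =
      (ModularForm.discriminant z)⁻¹ * (denom γ z ^ 12)⁻¹ := by
  rw [aj1_disc_smul, mul_inv, mul_comm]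
  congr 2

theorem rho_u1_smul (th : ℍ → ℂ) (γ : SL(2, ℤ)) (z : ℍ) :
    rhoU1 th (γ • z) = rhoU1 (th ∣[(2 : ℤ)] γ) z := by
  have hd : denom γ z ≠ 0 := denom_ne_zero _ z
  unfold rhoU1
  rw [rho_slash_apply' (rhoPsi th) 4 γ z, rho_psi_slash, rho_disc_inv_smul]
  have e3 : denom γ z ^ (4 : ℤ) = denom γ z ^ 4 := by norm_cast
  rw [e3]
  field_simp

theorem rho_u2_smul {th : ℍ → ℂ} (hth : MDiff th) (γ : SL(2, ℤ)) (z : ℍ) :
    rhoU2 th (γ • z) = rhoU2 (th ∣[(2 : ℤ)] γ) z := by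
  have hd : denom γ z ≠ 0 := denom_ne_zero _ z
  unfold rhoU2
  rw [rho_slash_apply' (rhoPhi th) 8 γ z, rho_phi_slash hth, rho_disc_inv_smul]
  have e3 : denom γ z ^ (8 : ℤ) = denom γ z ^ 8 := by norm_cast
  rw [e3]
  field_simp

theorem rho_u3_smul {th : ℍ → ℂ} (hth : MDiff th) (γ : SL(2, ℤ)) (z : ℍ) :
    rhoU3 th (γ • z) = rhoU3 (th ∣[(2 : ℤ)] γ) z := by
  have hd : denom γ z ≠ 0 := denom_ne_zero _ z
  unfold rhoU3
  rw [rho_slash_apply' (rhoLam th) 6 γ z, rho_lam_slash hth, rho_disc_inv_smul]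
  have e3 : denom γ z ^ (6 : ℤ) = denom γ z ^ 6 := by norm_cast
  rw [e3]
  field_simp

theorem rho_actFn_u1 (th : ℍ → ℂ) (g : SL(2, ℤ)) :
    actFn g (rhoU1 th) = rhoU1 (th ∣[(2 : ℤ)] g⁻¹) := by
  funext z
  rw [actFn_apply, rho_u1_smul]

theorem rho_actFn_u2 {th : ℍ → ℂ} (hth : MDiff th) (g : SL(2, ℤ)) :
    actFn g (rhoU2 th) = rhoU2 (th ∣[(2 : ℤ)] g⁻¹) := by
  funext z
  rw [actFn_apply, rho_u2_smul hth]

theorem rho_actFn_u3 {th : ℍ → ℂ} (hth : MDiff th) (g : SL(2, ℤ)) :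
    actFn g (rhoU3 th) = rhoU3 (th ∣[(2 : ℤ)] g⁻¹) := by
  funext z
  rw [actFn_apply, rho_u3_smul hth]


/-! ### Integrality of the translates -/

theorem rho_const_mem (N : ℕ) [NeZero N] {c : ℂ} (hc : c ∈ rhoO2) :
    (fun _ : ℍ => c) ∈ expSubring N rhoO2 :=
  ⟨HahnSeries.C c, hasWExp_const N c, h22_coeff_C_mem rhoO2 hc⟩

theorem rho_nat_mem (N : ℕ) [NeZero N] (n : ℕ) :
    (fun _ : ℍ => (n : ℂ)) ∈ expSubring N rhoO2 :=
  rho_const_mem N (natCast_mem rhoO2 n)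

/-- If `Θ' = c + 8 h` with `c² ≡ 1 mod 16` and `h` of `2`-integral expansion, the three auxiliary
weight-zero functions of `Θ'` have `2`-integral expansions. -/
theorem rho_translate_mem (N : ℕ) [NeZero N] (hN : Odd N) {c : ℂ} (hc : c ∈ rhoO2)
    (hc16 : (c ^ 2 - 1) / 16 ∈ rhoO2) {h : ℍ → ℂ} (hh : h ∈ expSubring N rhoO2) :
    rhoU1 (fun τ => c + 8 * h τ) ∈ expSubring N rhoO2 ∧
      rhoU2 (fun τ => c + 8 * h τ) ∈ expSubring N rhoO2 ∧
      rhoU3 (fun τ => c + 8 * h τ) ∈ expSubring N rhoO2 := by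
  obtain ⟨b, hb, hE4⟩ := dexp_E4 N rhoO2
  obtain ⟨a, ha, hE2⟩ := dexp_E2 N rhoO2
  have hΔ := dexp_DeltaInv N rhoO2
  have hNinv : ((N : ℂ))⁻¹ ∈ rhoO2 := rhoO2_inv_odd hN
  have hmd : MDiff h := dexp_mdiff hh
  obtain ⟨th', hth'⟩ : ∃ th' : ℍ → ℂ, th' = fun τ => c + 8 * h τ := ⟨_, rfl⟩
  rw [← hth']
  have hcm := rho_const_mem N hc
  have hc16m := rho_const_mem N hc16
  have h3 : (fun _ : ℍ => ((3 : ℂ))⁻¹) ∈ expSubring N rhoO2 := by
    have : ((3 : ℂ))⁻¹ ∈ rhoO2 := by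
      have h := rhoO2_inv_odd (m := 3) (by decide)
      simpa using h
    exact rho_const_mem N this
  -- derivative of `Θ'`
  have hDth : D th' = fun τ => 8 * D h τ := by
    have e : th' = (fun _ : ℍ => c) + (fun _ : ℍ => (8 : ℂ)) * h := by
      rw [hth']
      funext τ
      simp
    rw [e, normalizedDerivOfComplex_add _ _ mdifferentiable_const
      (MDifferentiable.mul mdifferentiable_const hmd), normalizedDerivOfComplex_const,
      normalizedDerivOfComplex_mul _ _ mdifferentiable_const hmd, normalizedDerivOfComplex_const]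
    funext τ
    simp
  have hDh : D h ∈ expSubring N rhoO2 := dexp_mem hNinv hh
  -- `Ψ`
  have hpsi_eq : rhoPsi th' = (fun _ : ℍ => (c ^ 2 - 1) / 16) + (fun _ : ℍ => c) * h +
      (fun _ : ℍ => ((4 : ℕ) : ℂ)) * (h * h) - b := by
    funext τ
    simp only [rhoPsi, hth', hE4 τ, Pi.add_apply, Pi.mul_apply, Pi.sub_apply]
    push_cast
    ring
  have hpsi : rhoPsi th' ∈ expSubring N rhoO2 := by
    rw [hpsi_eq]
    exact Subring.sub_mem _ (Subring.add_mem _ (Subring.add_mem _ hc16m (Subring.mul_mem _ hcm hh))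
      (Subring.mul_mem _ (rho_nat_mem N 4) (Subring.mul_mem _ hh hh))) hb
  -- `G`
  obtain ⟨g1, hg1⟩ : ∃ g1 : ℍ → ℂ, g1 = a * (fun _ : ℍ => c) + h +
      (fun _ : ℍ => ((8 : ℕ) : ℂ)) * (a * h) - (fun _ : ℍ => ((6 : ℕ) : ℂ)) * D h := ⟨_, rfl⟩
  have hg1m : g1 ∈ expSubring N rhoO2 := by
    rw [hg1]
    exact Subring.sub_mem _ (Subring.add_mem _ (Subring.add_mem _ (Subring.mul_mem _ ha hcm) hh)
      (Subring.mul_mem _ (rho_nat_mem N 8) (Subring.mul_mem _ ha hh)))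
      (Subring.mul_mem _ (rho_nat_mem N 6) hDh)
  have hG : ∀ τ, rhoG th' τ = c + 8 * g1 τ := by
    intro τ
    simp only [rhoG, serreDerivative_apply, hDth, hE2 τ, hg1, Pi.add_apply, Pi.mul_apply,
      Pi.sub_apply]
    rw [hth']
    push_cast
    ring
  -- `Φ`
  have hphi_eq : rhoPhi th' = (fun _ : ℍ => (c ^ 2 - 1) / 16) + (fun _ : ℍ => c) * g1 +
      (fun _ : ℍ => ((4 : ℕ) : ℂ)) * (g1 * g1) - (fun _ : ℍ => ((2 : ℕ) : ℂ)) * b -
      (fun _ : ℍ => ((16 : ℕ) : ℂ)) * (b * b) := by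
    funext τ
    simp only [rhoPhi, hG τ, hE4 τ, Pi.add_apply, Pi.mul_apply, Pi.sub_apply]
    push_cast
    ring
  have hphi : rhoPhi th' ∈ expSubring N rhoO2 := by
    rw [hphi_eq]
    exact Subring.sub_mem _ (Subring.sub_mem _ (Subring.add_mem _ (Subring.add_mem _ hc16m
      (Subring.mul_mem _ hcm hg1m)) (Subring.mul_mem _ (rho_nat_mem N 4)
      (Subring.mul_mem _ hg1m hg1m))) (Subring.mul_mem _ (rho_nat_mem N 2) hb))
      (Subring.mul_mem _ (rho_nat_mem N 16) (Subring.mul_mem _ hb hb))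
  -- `Λ`
  have hlam_eq : rhoLam th' = D (rhoPsi th') - (fun _ : ℍ => ((3 : ℂ))⁻¹) *
      (((fun _ : ℍ => ((1 : ℕ) : ℂ)) + (fun _ : ℍ => ((8 : ℕ) : ℂ)) * a) * rhoPsi th') := by
    funext τ
    simp only [rhoLam, serreDerivative_apply, hE2 τ, Pi.add_apply, Pi.mul_apply, Pi.sub_apply]
    push_cast
    ring
  have hlam : rhoLam th' ∈ expSubring N rhoO2 := by
    rw [hlam_eq]
    exact Subring.sub_mem _ (dexp_mem hNinv hpsi) (Subring.mul_mem _ h3 (Subring.mul_mem _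
      (Subring.add_mem _ (rho_nat_mem N 1) (Subring.mul_mem _ (rho_nat_mem N 8) ha)) hpsi))
  -- the three functions
  refine ⟨?_, ?_, ?_⟩
  · have e : rhoU1 th' = rhoPsi th' ^ 3 * fun τ : ℍ => (ModularForm.discriminant τ)⁻¹ := by
      funext τ
      simp [rhoU1]
    rw [e]
    exact Subring.mul_mem _ (Subring.pow_mem _ hpsi 3) hΔ
  · have e : rhoU2 th' = rhoPhi th' ^ 3 * (fun τ : ℍ => (ModularForm.discriminant τ)⁻¹) ^ 2 := by
      funext τ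
      simp [rhoU2]
    rw [e]
    exact Subring.mul_mem _ (Subring.pow_mem _ hphi 3) (Subring.pow_mem _ hΔ 2)
  · have e : rhoU3 th' = rhoLam th' ^ 2 * fun τ : ℍ => (ModularForm.discriminant τ)⁻¹ := by
      funext τ
      simp [rhoU3]
    rw [e]
    exact Subring.mul_mem _ (Subring.pow_mem _ hlam 2) hΔ


/-! ### The values at `ρ` -/

/-- `D E₄ (ρ) = -E₆(ρ) / 3` and `E₆(ρ)² = -1728 Δ(ρ)`. -/
theorem rho_D_E4 :
    D E₄ rhoH = -(E₆ rhoH) / 3 ∧ E₆ rhoH ^ 2 = -1728 * ModularForm.discriminant rhoH := by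
  have h := a3_H_eq rhoH
  unfold wpA3_H at h
  rw [wpA3_E4_rho] at h
  have hΔ := ModularForm.discriminant_eq_E₄_cube_sub_E₆_sq rhoH
  rw [wpA3_E4_rho] at hΔ
  have hne := ModularForm.discriminant_ne_zero rhoH
  have h6 : E₆ rhoH ^ 2 = -1728 * ModularForm.discriminant rhoH := by
    rw [hΔ]
    ring
  have he6 : E₆ rhoH ≠ 0 := by
    intro h0
    apply hne
    rw [hΔ, h0]
    simp
  refine ⟨?_, h6⟩
  have h1 : 3 * D E₄ rhoH * E₆ rhoH = -(E₆ rhoH ^ 2) := by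
    rw [h6]
    linear_combination h
  have h2 : (3 * D E₄ rhoH + E₆ rhoH) * E₆ rhoH = 0 := by
    linear_combination h1
  have h3 : 3 * D E₄ rhoH + E₆ rhoH = 0 := by
    rcases mul_eq_zero.mp h2 with h3 | h3
    · exact h3
    · exact absurd h3 he6
  linear_combination h3 / 3

/-- The key identity at `ρ`: `E₆(ρ) = 48 Λ(ρ) + Θ(ρ) G(ρ)`. -/
theorem rho_key {th : ℍ → ℂ} (hth : MDiff th) :
    E₆ rhoH = 48 * rhoLam th rhoH + th rhoH * rhoG th rhoH := by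
  have hE4 : MDiff (fun τ : ℍ => E₄ τ) := ModularFormClass.holo E₄
  have e : rhoPsi th = (fun _ : ℍ => ((16 : ℂ))⁻¹) * (th * th - fun τ : ℍ => E₄ τ) := by
    funext τ
    simp only [rhoPsi, Pi.mul_apply, Pi.sub_apply]
    ring
  have hD : D (rhoPsi th) rhoH =
      ((16 : ℂ))⁻¹ * (D th rhoH * th rhoH + th rhoH * D th rhoH - D E₄ rhoH) := by
    rw [e, normalizedDerivOfComplex_mul _ _ mdifferentiable_const ((hth.mul hth).sub hE4),
      normalizedDerivOfComplex_const, normalizedDerivOfComplex_sub _ _ (hth.mul hth) hE4,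
      normalizedDerivOfComplex_mul _ _ hth hth]
    simp
  have hpsi : rhoPsi th rhoH = th rhoH ^ 2 / 16 := by
    simp [rhoPsi, wpA3_E4_rho]
  have h4 := rho_D_E4.1
  simp only [rhoLam, rhoG, serreDerivative_apply, hD, hpsi, h4]
  push_cast
  ring

/-- **No weight-two form `≡ c mod 8` with `c² ≡ 1 mod 16` at all conjugates.**  Let `N` be odd
and `th : ℍ → ℂ` of weight two for `Γ₀(N)`.  If every `SL(2,ℤ)`-translate of `th` is of the form
`c + 8 h`, with `c` a `2`-integral constant such that `c² ≡ 1 mod 16` and `h` having an expansion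
in `e^{2πiτ/N}` with `2`-integral coefficients, we get a contradiction. -/
theorem rho_no_form (N : ℕ) [NeZero N] (hN : Odd N) (th : ℍ → ℂ)
    (hinv : ∀ γ : SL(2, ℤ), γ ∈ CongruenceSubgroup.Gamma0 N → th ∣[(2 : ℤ)] γ = th)
    (hconj : ∀ g : SL(2, ℤ), ∃ c ∈ rhoO2, (c ^ 2 - 1) / 16 ∈ rhoO2 ∧ ∃ h ∈ expSubring N rhoO2,
      th ∣[(2 : ℤ)] g = fun τ => c + 8 * h τ) : False := by
  -- holomorphy
  have hth : MDiff th := by
    obtain ⟨c, -, -, h, hh, e⟩ := hconj 1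
    have e1 : th ∣[(2 : ℤ)] (1 : SL(2, ℤ)) = th := by
      funext z
      rw [SL_slash_apply]
      simp
    rw [e1] at e
    rw [e]
    exact MDifferentiable.add mdifferentiable_const
      (MDifferentiable.mul mdifferentiable_const (dexp_mdiff hh))
  -- the translates are integral
  have hmem : ∀ g : SL(2, ℤ), rhoU1 (th ∣[(2 : ℤ)] g) ∈ expSubring N rhoO2 ∧
      rhoU2 (th ∣[(2 : ℤ)] g) ∈ expSubring N rhoO2 ∧ rhoU3 (th ∣[(2 : ℤ)] g) ∈ expSubring N rhoO2 := by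
    intro g
    obtain ⟨c, hc, hc16, h, hh, e⟩ := hconj g
    rw [e]
    exact rho_translate_mem N hN hc hc16 hh
  have h1 : rhoU1 th rhoH ∈ rhoO2 := by
    refine rho_mem_of_invariant N _ (fun γ hγ => ?_) (fun g => ?_)
    · rw [rho_actFn_u1, hinv γ⁻¹ (inv_mem hγ)]
    · rw [rho_actFn_u1]
      exact (hmem g⁻¹).1
  have h2 : rhoU2 th rhoH ∈ rhoO2 := by
    refine rho_mem_of_invariant N _ (fun γ hγ => ?_) (fun g => ?_)
    · rw [rho_actFn_u2 hth, hinv γ⁻¹ (inv_mem hγ)]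
    · rw [rho_actFn_u2 hth]
      exact (hmem g⁻¹).2.1
  have h3 : rhoU3 th rhoH ∈ rhoO2 := by
    refine rho_mem_of_invariant N _ (fun γ hγ => ?_) (fun g => ?_)
    · rw [rho_actFn_u3 hth, hinv γ⁻¹ (inv_mem hγ)]
    · rw [rho_actFn_u3 hth]
      exact (hmem g⁻¹).2.2
  -- values at `ρ`
  have hkey := rho_key hth
  have h6 := rho_D_E4.2
  have hδ := ModularForm.discriminant_ne_zero rhoH
  obtain ⟨x, hx⟩ : ∃ x : ℂ, x = th rhoH := ⟨_, rfl⟩
  obtain ⟨G, hG⟩ : ∃ G : ℂ, G = rhoG th rhoH := ⟨_, rfl⟩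
  obtain ⟨lam, hlam⟩ : ∃ lam : ℂ, lam = rhoLam th rhoH := ⟨_, rfl⟩
  obtain ⟨e6, he6⟩ : ∃ e6 : ℂ, e6 = E₆ rhoH := ⟨_, rfl⟩
  obtain ⟨δ, hδ'⟩ : ∃ δ : ℂ, δ = ModularForm.discriminant rhoH := ⟨_, rfl⟩
  rw [← hx, ← hG, ← hlam, ← he6] at hkey
  rw [← he6, ← hδ'] at h6
  rw [← hδ'] at hδ
  have hu1 : rhoU1 th rhoH = (x ^ 2 / 16) ^ 3 * δ⁻¹ := by
    simp [rhoU1, rhoPsi, wpA3_E4_rho, hx, hδ']
  have hu2 : rhoU2 th rhoH = (G ^ 2 / 16) ^ 3 * δ⁻¹ ^ 2 := by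
    simp [rhoU2, rhoPhi, wpA3_E4_rho, hG, hδ']
  have hu3 : rhoU3 th rhoH = lam ^ 2 * δ⁻¹ := by
    simp [rhoU3, hlam, hδ']
  rw [hu1] at h1
  rw [hu2] at h2
  rw [hu3] at h3
  obtain ⟨ϖ, hϖ⟩ := IsAlgClosed.exists_pow_nat_eq δ (n := 12) (by norm_num)
  have hϖ0 : ϖ ≠ 0 := by
    intro h0
    apply hδ
    rw [← hϖ, h0]
    simp
  have hX : x / (4 * ϖ ^ 2) ∈ rhoO2 := by
    apply rhoO2_of_pow_mem (n := 6) (by norm_num)
    have e : (x / (4 * ϖ ^ 2)) ^ 6 = (x ^ 2 / 16) ^ 3 * δ⁻¹ := by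
      rw [← hϖ]
      field_simp
      ring
    rw [e]
    exact h1
  have hG4 : G / (4 * ϖ ^ 4) ∈ rhoO2 := by
    apply rhoO2_of_pow_mem (n := 6) (by norm_num)
    have e : (G / (4 * ϖ ^ 4)) ^ 6 = (G ^ 2 / 16) ^ 3 * δ⁻¹ ^ 2 := by
      rw [← hϖ]
      field_simp
      ring
    rw [e]
    exact h2
  have hL : lam / ϖ ^ 6 ∈ rhoO2 := by
    apply rhoO2_of_pow_mem (n := 2) (by norm_num)
    have e : (lam / ϖ ^ 6) ^ 2 = lam ^ 2 * δ⁻¹ := by
      rw [← hϖ]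
      field_simp
    rw [e]
    exact h3
  have h3' : (3 : ℂ) ∈ rhoO2 := by
    exact_mod_cast natCast_mem rhoO2 3
  have ht : 3 * (lam / ϖ ^ 6) + x / (4 * ϖ ^ 2) * (G / (4 * ϖ ^ 4)) ∈ rhoO2 :=
    rhoO2.add_mem (rhoO2.mul_mem h3' hL) (rhoO2.mul_mem hX hG4)
  have ht2 := rhoO2.mul_mem ht ht
  have e : (3 * (lam / ϖ ^ 6) + x / (4 * ϖ ^ 2) * (G / (4 * ϖ ^ 4))) *
      (3 * (lam / ϖ ^ 6) + x / (4 * ϖ ^ 2) * (G / (4 * ϖ ^ 4))) = ((-27 : ℤ) : ℂ) / 4 := by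
    have e1 : 3 * (lam / ϖ ^ 6) + x / (4 * ϖ ^ 2) * (G / (4 * ϖ ^ 4)) = e6 / (16 * ϖ ^ 6) := by
      rw [hkey]
      field_simp
      ring
    rw [e1]
    have e2 : e6 / (16 * ϖ ^ 6) * (e6 / (16 * ϖ ^ 6)) = e6 ^ 2 / (256 * ϖ ^ 12) := by
      field_simp
      ring
    rw [e2, h6, hϖ]
    field_simp
    push_cast
    ring
  rw [e] at ht2
  exact rhoO2_not_mem_quarter (-27) (by decide) ht2


end Fermat.Agent.S16
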