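import Mathlib
import Fermat.Agent.S16.ThetaBinary
import Fermat.Agent.S16.ThetaSeries
import Fermat.Agent.S16.ThetaBridge

/-!
# S16 / lower bound (II), row L-T-ANALYTIC (helper65): holomorphy and growth of `thetaQ`

For `q + 1 = 4 k` the binary theta series `thetaQ q` of `ThetaBinary.lean` is holomorphic on the
upper half plane and satisfies `‖thetaQ q z‖ ≤ C (1 + (im z)⁻²)`; the same for the product
`thetaQ q z * thetaQ q (p z)`.  These are exactly the hypotheses `hdiff`, `hgrowth` of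
`exists_thetaForm_of` (`ThetaFormCore.lean`) and `hol`, `hgrowth` of `pack_exists_modularForm`.

Proof: transport the corresponding facts for `ts_th` (`ThetaSeries.lean`) along the bridge
`ts_th k = thetaQ q` (`ThetaBridge.lean`).
-/

set_option autoImplicit false

open Complex UpperHalfPlane
open scoped Manifold

namespace Fermat.Agent.S16

theorem thetaQ_differentiableAt {q k : ℕ} (hq : q + 1 = 4 * k) {z : ℂ} (hz : 0 < z.im) :
    DifferentiableAt ℂ (thetaQ q) z := by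
  have hk : (1 : ℤ) ≤ (k : ℤ) := by omega
  have hopen : IsOpen {w : ℂ | 0 < w.im} := isOpen_lt continuous_const Complex.continuous_im
  refine (ts_th_differentiableAt hk hz).congr_of_eventuallyEq ?_
  filter_upwards [hopen.mem_nhds hz] with w hw
  exact (ts_th_eq_thetaQ hq hw).symm

/-- `hdiff` of `exists_thetaForm_of`. -/
theorem thetaQ_differentiableOn {q k : ℕ} (hq : q + 1 = 4 * k) :
    DifferentiableOn ℂ (thetaQ q) {z : ℂ | 0 < z.im} :=
  fun _ hz => (thetaQ_differentiableAt hq hz).differentiableWithinAt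

/-- `hgrowth` of `exists_thetaForm_of` (with the explicit constant `24`). -/
theorem thetaQ_norm_le {q k : ℕ} (hq : q + 1 = 4 * k) {z : ℂ} (hz : 0 < z.im) :
    ‖thetaQ q z‖ ≤ 24 * (1 + (z.im)⁻¹ ^ 2) := by
  have hk : (1 : ℤ) ≤ (k : ℤ) := by omega
  have h1 := ts_th_norm_le hk hz
  rw [ts_th_eq_thetaQ hq hz] at h1
  refine h1.trans ?_
  have e : 4 / z.im = 4 * (z.im)⁻¹ := by ring
  rw [e]
  nlinarith [sq_nonneg ((z.im)⁻¹ - 1)]

theorem thetaQ_growth {q k : ℕ} (hq : q + 1 = 4 * k) :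
    ∃ C : ℝ, ∀ z : ℂ, 0 < z.im → ‖thetaQ q z‖ ≤ C * (1 + (z.im)⁻¹ ^ 2) :=
  ⟨24, fun _ hz => thetaQ_norm_le hq hz⟩

/-- `hol` of `pack_exists_modularForm` for `f z = thetaQ q z * thetaQ q (p z)`. -/
theorem thetaProd_mdiff (p : ℕ) (hp : 0 < p) {q k : ℕ} (hq : q + 1 = 4 * k) :
    MDiff (fun z : ℍ => thetaQ q (z : ℂ) * thetaQ q ((p : ℂ) * (z : ℂ))) := by
  rw [UpperHalfPlane.mdifferentiable_iff]
  intro z hz
  have hz' : 0 < z.im := hz
  have hpz : 0 < ((p : ℂ) * z).im := by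
    have : ((p : ℂ) * z).im = p * z.im := by simp
    rw [this]
    positivity
  have h1 : DifferentiableAt ℂ (fun w : ℂ => thetaQ q w * thetaQ q ((p : ℂ) * w)) z := by
    refine (thetaQ_differentiableAt hq hz').mul ?_
    exact (thetaQ_differentiableAt hq hpz).comp z (by fun_prop)
  refine h1.differentiableWithinAt.congr (fun w hw => ?_) ?_
  · have hw' : 0 < w.im := hw
    simp [Function.comp, UpperHalfPlane.ofComplex_apply_of_im_pos hw']
  · simp [Function.comp, UpperHalfPlane.ofComplex_apply_of_im_pos hz']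

/-- `hgrowth` of `pack_exists_modularForm` for `f z = thetaQ q z * thetaQ q (p z)` (`m = 4`). -/
theorem thetaProd_norm_le (p : ℕ) (hp : 0 < p) {q k : ℕ} (hq : q + 1 = 4 * k) (z : ℍ) :
    ‖thetaQ q (z : ℂ) * thetaQ q ((p : ℂ) * (z : ℂ))‖ ≤ 2048 * (1 + (z.im)⁻¹ ^ 4) := by
  have hk : (1 : ℤ) ≤ (k : ℤ) := by omega
  have hpz : 0 < ((p : ℂ) * (z : ℂ)).im := by
    have : ((p : ℂ) * (z : ℂ)).im = p * (z : ℂ).im := by simp
    rw [this]
    have := z.im_pos
    positivity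
  have h := ts_F_growth hk p hp z
  unfold ts_F at h
  rwa [ts_th_eq_thetaQ hq z.im_pos, ts_th_eq_thetaQ hq hpz] at h

theorem thetaProd_growth (p : ℕ) (hp : 0 < p) {q k : ℕ} (hq : q + 1 = 4 * k) :
    ∃ C : ℝ, ∀ z : ℍ, ‖thetaQ q (z : ℂ) * thetaQ q ((p : ℂ) * (z : ℂ))‖ ≤
      C * (1 + (z.im)⁻¹ ^ 4) :=
  ⟨2048, thetaProd_norm_le p hp hq⟩

end Fermat.Agent.S16
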