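import Fermat.Agent.S16.ThetaBinary

/-!
# The character of the binary theta series on `Γ₀(q)` (helper47)

From `thetaQ_transform` (multiplier = Gauss sum `gaussW q b d / (2 d)`, `d > 0`) we get
`thetaQ q (γ z) = (d/q) (c z + d) thetaQ q z` for `γ ∈ Γ₀(q)`, `q ≡ 3 mod 4` prime, by moving `d`
to a prime in its residue class mod `c` (Dirichlet) and quadratic reciprocity.
The evaluation of the Gauss sum at odd primes is taken as a hypothesis `GaussAtPrimes q` here
(proved in `GaussPrime.lean`).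
-/

set_option autoImplicit false

open Complex Real Finset

namespace Fermat.Agent.S16

/-- evaluation of the Gauss sum at odd primes not dividing `q` -/
def GaussAtPrimes (q : ℕ) : Prop :=
  ∀ (r : ℕ) (b : ℤ), r.Prime → r ≠ 2 → ¬ r ∣ q → ¬ (r : ℤ) ∣ b →
    gaussW q b r = 2 * (r : ℂ) * ((jacobiSym (-(q : ℤ)) r : ℤ) : ℂ)

lemma gaussW_one {q k : ℕ} (hq : q + 1 = 4 * k) (b : ℤ) : gaussW q b 1 = 2 := by
  have hqC : (q : ℂ) = 4 * k - 1 := by
    have : ((q + 1 : ℕ) : ℂ) = ((4 * k : ℕ) : ℂ) := by rw [hq]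
    push_cast at this
    linear_combination this
  have h00 : h47_ind 0 0 = 1 := by unfold h47_ind; simp
  have h11 : h47_ind 1 1 = 1 := by unfold h47_ind; simp
  have h01 : h47_ind 0 1 = 0 := by unfold h47_ind; norm_num
  have h10 : h47_ind 1 0 = 0 := by unfold h47_ind; norm_num
  unfold gaussW gF
  simp only [Finset.sum_range_succ, Finset.sum_range_zero, Nat.cast_zero, Nat.cast_one,
    Int.cast_zero, Int.cast_one, zero_add, mul_one, h00, h11, h01, h10, zero_mul, add_zero]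
  have e1 : (2 * π * I * (b * ((0 : ℂ) ^ 2 + q * 0 ^ 2) + 2 * 0 * 0 + 2 * 0 * 0) / 4) = 0 := by
    ring
  have e2 : (2 * π * I * (b * ((1 : ℂ) ^ 2 + q * 1 ^ 2) + 2 * 0 + 2 * 0) / 4) =
      2 * π * I * ((b * k : ℤ) : ℂ) := by
    rw [hqC]; push_cast; ring
  rw [e1, e2, Complex.exp_zero, h47_exp_two_pi_int]
  norm_num

/-- integer translations -/
lemma thetaQ_add_int {q k : ℕ} (hq : q + 1 = 4 * k) (n : ℤ) {z : ℂ} (hz : 0 < z.im) :
    thetaQ q (z + n) = thetaQ q z := by
  have h := thetaQ_transform hq (a := 1) (b := n) (c₁ := 0) (d := 1) one_pos (by simp) hz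
  rw [gaussW_one hq] at h
  have e : ((1 : ℤ) : ℂ) * z + (n : ℂ) = z + n := by push_cast; ring
  simpa [e] using h

/-- quadratic reciprocity in the form needed: `(-q / r) = (r / q)` for `q ≡ 3 mod 4`, `r` odd -/
lemma jacobi_neg_q {q r : ℕ} (hq4 : q % 4 = 3) (hr : r % 2 = 1) :
    jacobiSym (-(q : ℤ)) r = jacobiSym (r : ℤ) q := by
  have hrodd : Odd r := Nat.odd_iff.mpr hr
  have hqodd : Odd q := Nat.odd_iff.mpr (by omega)
  rw [jacobiSym.neg _ hrodd]
  rcases Nat.odd_mod_four_iff.mp hr with h1 | h3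
  · rw [jacobiSym.quadratic_reciprocity_one_mod_four' hqodd h1]
    have : ZMod.χ₄ (r : ZMod 4) = 1 := by
      rw [ZMod.χ₄_nat_mod_four, h1]; rfl
    rw [this, one_mul]
  · rw [jacobiSym.quadratic_reciprocity_three_mod_four hq4 h3]
    have : ZMod.χ₄ (r : ZMod 4) = -1 := by
      rw [ZMod.χ₄_nat_mod_four, h3]; rfl
    rw [this]; ring

/-- the transformation law on `Γ₀(q)`, given the Gauss sums at primes -/
theorem thetaQ_modular_of_gauss {q : ℕ} (hq : q.Prime) (hq4 : q % 4 = 3) (hG : GaussAtPrimes q)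
    {a b c d : ℤ} (hdet : a * d - b * c = 1) (hc : (q : ℤ) ∣ c)
    {z : ℂ} (hz : 0 < z.im) :
    thetaQ q ((a * z + b) / (c * z + d)) =
      ((jacobiSym d q : ℤ) : ℂ) * (c * z + d) * thetaQ q z := by
  obtain ⟨k, hk⟩ : ∃ k, q + 1 = 4 * k := ⟨(q + 1) / 4, by omega⟩
  have hqodd : Odd q := Nat.odd_iff.mpr (by omega)
  obtain ⟨c₁, rfl⟩ := hc
  by_cases hc0 : c₁ = 0
  · -- translation
    subst hc0
    have h1 : a * d = 1 := by simpa using hdet
    rcases Int.eq_one_or_neg_one_of_mul_eq_one' h1 with ⟨ha, hd⟩ | ⟨ha, hd⟩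
    · subst ha hd
      have e : (((1 : ℤ) : ℂ) * z + (b : ℂ)) / (((q : ℤ) * 0 : ℤ) * z + ((1 : ℤ) : ℂ)) = z + b := by
        push_cast; simp
      rw [e, thetaQ_add_int hk b hz]
      simp
    · subst ha hd
      have e : (((-1 : ℤ) : ℂ) * z + (b : ℂ)) / (((q : ℤ) * 0 : ℤ) * z + ((-1 : ℤ) : ℂ)) =
          z + ((-b : ℤ) : ℂ) := by
        push_cast; field_simp; ring
      rw [e, thetaQ_add_int hk (-b) hz]
      have hJ : jacobiSym (-1) q = -1 := by
        rw [jacobiSym.at_neg_one hqodd, ZMod.χ₄_nat_three_mod_four hq4]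
      rw [hJ]
      push_cast; ring
  · -- Dirichlet: a prime r = d + n * (q c₁)
    have hqc : (q : ℤ) * c₁ ≠ 0 := mul_ne_zero (Int.natCast_ne_zero.mpr hq.ne_zero) hc0
    have hcne : ((q : ℤ) * c₁).natAbs ≠ 0 := Int.natAbs_ne_zero.mpr hqc
    have hcop : IsCoprime d (((q : ℤ) * c₁).natAbs : ℤ) := by
      have h0 : IsCoprime d ((q : ℤ) * c₁) := ⟨a, -b, by linarith⟩
      rcases Int.natAbs_eq ((q : ℤ) * c₁) with h | h
      · rw [← h]; exact h0
      · have : (((q : ℤ) * c₁).natAbs : ℤ) = -((q : ℤ) * c₁) := by omega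
        rw [this]; exact h0.neg_right
    obtain ⟨r, hr2, hrp, hrd⟩ := Nat.forall_exists_prime_gt_and_zmodEq 2 hcne hcop
    -- r = d + n * (q c₁)
    have hdvd : ((q : ℤ) * c₁) ∣ (r : ℤ) - d := by
      have := (Int.modEq_iff_dvd.mp hrd.symm)
      exact (Int.natAbs_dvd.mp this)
    obtain ⟨n, hn⟩ := hdvd
    have hrd' : (r : ℤ) = d + n * ((q : ℤ) * c₁) := by linarith
    have hr0 : 0 < r := hrp.pos
    have hrodd : r % 2 = 1 := by
      rcases hrp.eq_two_or_odd with h | h
      · omega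
      · exact h
    have hdet' : a * (r : ℤ) - (b + n * a) * ((q : ℤ) * c₁) = 1 := by
      rw [hrd']; linarith
    have hrq : ¬ r ∣ q := by
      intro h
      have hrq' : r = q := (Nat.prime_dvd_prime_iff_eq hrp hq).mp h
      -- then q ∣ 1
      have h1 : (q : ℤ) ∣ 1 := by
        have : (q : ℤ) ∣ a * (r : ℤ) - (b + n * a) * ((q : ℤ) * c₁) := by
          refine dvd_sub ?_ ?_
          · rw [hrq']; exact dvd_mul_left _ _
          · exact ⟨(b + n * a) * c₁, by ring⟩
        rwa [hdet'] at this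
      have : q = 1 := by
        have := Int.eq_one_of_dvd_one (by positivity) h1
        exact_mod_cast this
      exact hq.one_lt.ne' this
    have hrb : ¬ (r : ℤ) ∣ (b + n * a) := by
      intro h
      have h1 : (r : ℤ) ∣ 1 := by
        have : (r : ℤ) ∣ a * (r : ℤ) - (b + n * a) * ((q : ℤ) * c₁) :=
          dvd_sub (dvd_mul_left _ _) (Dvd.dvd.mul_right h _)
        rwa [hdet'] at this
      have : r = 1 := by
        have := Int.eq_one_of_dvd_one (by positivity) h1
        exact_mod_cast this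
      exact hrp.one_lt.ne' this
    have hzn : 0 < (z - n).im := by
      have : z - (n : ℂ) = z + ((-(n : ℝ) : ℝ) : ℂ) := by push_cast; ring
      rw [this, h47_im_add_real]; exact hz
    have htr := thetaQ_transform hk (a := a) (b := b + n * a) (c₁ := c₁) (d := r) hr0 hdet' hzn
    rw [hG r (b + n * a) hrp (by omega) hrq hrb] at htr
    have hrC : (r : ℂ) = (d : ℂ) + n * ((q : ℂ) * c₁) := by exact_mod_cast hrd'
    have e1 : ((a : ℂ) * (z - n) + ((b + n * a : ℤ) : ℂ)) = a * z + b := by push_cast; ring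
    have e2 : ((q : ℂ) * c₁ * (z - n) + (r : ℂ)) = (((q : ℤ) * c₁ : ℤ) : ℂ) * z + (d : ℂ) := by
      rw [hrC]; push_cast; ring
    rw [e1, e2] at htr
    have e3 : thetaQ q (z - n) = thetaQ q z := by
      have := thetaQ_add_int hk (-n) hz
      rw [← this]; congr 1; push_cast; ring
    rw [htr, e3, jacobi_neg_q hq4 hrodd]
    have hJ : jacobiSym (r : ℤ) q = jacobiSym d q := by
      apply jacobiSym.mod_left'
      rw [hrd']
      have : d + n * ((q : ℤ) * c₁) = d + (q : ℤ) * (n * c₁) := by ring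
      rw [this, Int.add_mul_emod_self_left]
    rw [hJ]
    have hr' : (r : ℂ) ≠ 0 := by exact_mod_cast hr0.ne'
    field_simp

end Fermat.Agent.S16
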