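import Fermat.Agent.S16.ThetaFormMid
import Fermat.Agent.S16.ThetaChar
import Fermat.Agent.S16.GaussPrime

/-!
# S16 / lower bound (II), row L-T-FORM (helper11): `exists_thetaForm`

For primes `p ≠ q`, `q ≡ 3 mod 4`, `4 m = q + 1`: `F(z) = thetaQ q z * thetaQ q (p z)` is a
modular form of weight `2` on `Γ₀(p q)` whose `n`-th `q`-expansion coefficient is the
representation number `rc_R m p n`.  No hypotheses are left: the `Γ₀(q)`-law of `thetaQ` is
`thetaQ_modular_of_gauss` (helper47) with the Gauss sums `gaussW_prime` (helper22).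
-/

set_option autoImplicit false

open UpperHalfPlane ModularForm CongruenceSubgroup Complex
open scoped MatrixGroups ModularForm Manifold Real

noncomputable section

namespace Fermat.Agent.S16

/-- the `Γ₀(q)`-transformation law of `thetaQ`, with explicit binders -/
theorem h11_thetaQ_modular {q : ℕ} (hq : q.Prime) (hq4 : q % 4 = 3) (a b c d : ℤ)
    (hdet : a * d - b * c = 1) (hc : (q : ℤ) ∣ c) (z : ℂ) (hz : 0 < z.im) :
    thetaQ q ((a * z + b) / (c * z + d)) =
      ((jacobiSym d q : ℤ) : ℂ) * (c * z + d) * thetaQ q z := by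
  obtain ⟨k, hk⟩ : ∃ k : ℕ, q + 1 = 4 * k := ⟨(q + 1) / 4, by omega⟩
  exact thetaQ_modular_of_gauss hq hq4
    (fun r b hr hr2 hrq hb => gaussW_prime hk hr hr2 hrq hb) hdet hc hz

/-- **Row L-T-FORM.** `thetaQ q z * thetaQ q (p z)` is a modular form of weight `2` on
`Γ₀(p q)` with `q`-expansion coefficients `rc_R m p n`. -/
theorem exists_thetaForm (p q : ℕ) (hp : p.Prime) (hq : q.Prime) (hq4 : q % 4 = 3) (hpq : p ≠ q)
    (m : ℤ) (hm : 4 * m = q + 1) :
    ∃ F : ModularForm (CongruenceSubgroup.Gamma0 (p * q)) 2,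
      (∀ z : ℍ, F z = thetaQ q z * thetaQ q (p * z)) ∧
      ∀ n : ℕ, (qExpansion 1 F).coeff n = (rc_R m p n : ℂ) :=
  exists_thetaForm_of_modular p q hp.pos hq4 m hm (h11_thetaQ_modular hq hq4)

end Fermat.Agent.S16
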