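import Fermat.Agent.S16.ThetaFormCore
import Fermat.Agent.S16.ThetaBridge
import Fermat.Agent.S16.Pack

/-!
# S16 / lower bound (II), L-T-FORM (helper11): the modular form `θ_q(z) θ_q(p z)`

`exists_thetaForm_of_modular`: `F(z) = thetaQ q z * thetaQ q (p z)` is a modular form of weight
`2` on `Γ₀(p q)` with `n`-th `q`-expansion coefficient `rc_R m p n`, given only the
transformation law of `thetaQ` under `Γ₀(q)` (`hmod`, = `thetaQ_modular` of `ThetaChar.lean`).
Holomorphy, growth and the expansion come from `ThetaSeries`/`ThetaBridge`, the cusps from `Pack`.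
-/

set_option autoImplicit false

open UpperHalfPlane ModularForm CongruenceSubgroup Complex
open scoped MatrixGroups ModularForm Manifold Real

noncomputable section

namespace Fermat.Agent.S16

theorem h11_ts_F_eq_tf (p q : ℕ) (hp : 0 < p) (k : ℕ) (hk : q + 1 = 4 * k) :
    ts_F (k : ℤ) p = h11_tf p q := by
  funext τ
  unfold ts_F h11_tf
  rw [ts_th_eq_thetaQ hk τ.im_pos, ts_th_eq_thetaQ hk (h11_im_mul_pos hp τ.im_pos)]

/-- **L-T-FORM, given the `Γ₀(q)`-law of `thetaQ`.** -/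
theorem exists_thetaForm_of_modular (p q : ℕ) (hp : 0 < p) (hq4 : q % 4 = 3) (m : ℤ)
    (hm : 4 * m = q + 1)
    (hmod : ∀ (a b c d : ℤ), a * d - b * c = 1 → (q : ℤ) ∣ c → ∀ z : ℂ, 0 < z.im →
      thetaQ q ((a * z + b) / (c * z + d)) = ((jacobiSym d q : ℤ) : ℂ) * (c * z + d) * thetaQ q z) :
    ∃ F : ModularForm (Gamma0 (p * q)) 2,
      (∀ z : ℍ, F z = thetaQ q z * thetaQ q (p * z)) ∧
      ∀ n : ℕ, (qExpansion 1 F).coeff n = (rc_R m p n : ℂ) := by
  have hq0 : 0 < q := by omega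
  have : NeZero (p * q) := ⟨Nat.mul_ne_zero hp.ne' hq0.ne'⟩
  -- `m = k` with `q + 1 = 4 k`
  obtain ⟨k, hk⟩ : ∃ k : ℕ, q + 1 = 4 * k := ⟨(q + 1) / 4, by omega⟩
  have hmk : m = (k : ℤ) := by
    have : (4 : ℤ) * m = 4 * (k : ℤ) := by rw [hm]; exact_mod_cast hk
    linarith
  have hm1 : (1 : ℤ) ≤ m := by omega
  have hFeq : ts_F m p = h11_tf p q := by rw [hmk]; exact h11_ts_F_eq_tf p q hp k hk
  obtain ⟨F, hF⟩ := pack_exists_modularForm (p * q) 2 (ts_F m p) (ts_F_mdifferentiable hm1 p hp)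
    (fun γ hγ => by rw [hFeq]; exact h11_tf_slash p q hp hmod γ hγ) 2048 4
    (fun z => ts_F_growth hm1 p hp z)
  refine ⟨F, fun z => ?_, fun n => ?_⟩
  · rw [hF, hFeq]
    rfl
  · exact ts_qExpansion_coeff_Gamma0 hm1 p hp F (fun τ => by rw [hF]) n

end Fermat.Agent.S16
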