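import Mathlib
import Fermat.Agent.S16.ThetaBridge

/-!
# S16 / lower bound (II): the series facts for `thetaQ`

The exports of `ThetaSeries.lean` transported to helper47's `thetaQ` through
`ts_th_eq_thetaQ`, in the shapes consumed by `ThetaFormCore.exists_thetaForm_of`.
-/

open Complex Real

namespace Fermat.Agent.S16

theorem ts_exists_nat {q : ℕ} {m : ℤ} (hm : 4 * m = q + 1) :
    ∃ k : ℕ, m = (k : ℤ) ∧ q + 1 = 4 * k := by
  have hm0 : 0 ≤ m := by omega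
  refine ⟨m.toNat, (Int.toNat_of_nonneg hm0).symm, ?_⟩
  have : ((q + 1 : ℕ) : ℤ) = ((4 * m.toNat : ℕ) : ℤ) := by
    push_cast
    rw [Int.toNat_of_nonneg hm0]
    linarith
  exact_mod_cast this

theorem ts_one_le {q : ℕ} {m : ℤ} (hm : 4 * m = q + 1) : 1 ≤ m := by omega

/-- `thetaQ q z = ∑_{v ∈ ℤ²} exp(2πi z Q(v))`, `Q = rc_Q m`, `4 m = q + 1`. -/
theorem ts_hasSum_thetaQ {q : ℕ} {m : ℤ} (hm : 4 * m = q + 1) {z : ℂ} (hz : 0 < z.im) :
    HasSum (fun v : ℤ × ℤ => cexp (2 * π * I * z * (rc_Q m v : ℂ))) (thetaQ q z) := by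
  obtain ⟨k, rfl, hk⟩ := ts_exists_nat hm
  rw [← ts_th_eq_thetaQ hk hz]
  exact ts_hasSum (ts_one_le hm) hz

/-- `thetaQ q z * thetaQ q (p z) = ∑_n rc_R m p n * exp(2πi z n)`. -/
theorem ts_hasSum_prod {q : ℕ} {m : ℤ} (hm : 4 * m = q + 1) (p : ℕ) (hp : 0 < p) {z : ℂ}
    (hz : 0 < z.im) :
    HasSum (fun n : ℕ => (rc_R m p (n : ℤ) : ℂ) * cexp (2 * π * I * z * n))
      (thetaQ q z * thetaQ q (p * z)) := by
  obtain ⟨k, rfl, hk⟩ := ts_exists_nat hm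
  have hpz : 0 < ((p : ℂ) * z).im := by
    have : ((p : ℂ) * z).im = p * z.im := by simp
    rw [this]; positivity
  rw [← ts_th_eq_thetaQ hk hz, ← ts_th_eq_thetaQ hk hpz]
  have h := ts_hasSum_mul (ts_one_le hm) p hp hz
  have e : (fun n : ℕ => (rc_R (k : ℤ) p (n : ℤ) : ℂ) * cexp (2 * π * I * z * n)) =
      fun n : ℕ => (rc_R (k : ℤ) p (n : ℤ) : ℂ) * cexp (2 * π * I * z) ^ n := by
    funext n
    congr 1
    rw [← Complex.exp_nat_mul]
    congr 1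
    ring
  rw [e]; exact h

/-- `thetaQ q` is holomorphic on the upper half plane. -/
theorem ts_differentiableOn {q : ℕ} {m : ℤ} (hm : 4 * m = q + 1) :
    DifferentiableOn ℂ (thetaQ q) {z : ℂ | 0 < z.im} := by
  obtain ⟨k, rfl, hk⟩ := ts_exists_nat hm
  intro z hz
  have hz' : 0 < z.im := hz
  have hopen : IsOpen {w : ℂ | 0 < w.im} := isOpen_lt continuous_const Complex.continuous_im
  have h1 := ts_th_differentiableAt (ts_one_le hm) hz'
  have h2 : thetaQ q =ᶠ[nhds z] ts_th (k : ℤ) := by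
    filter_upwards [hopen.mem_nhds hz] with w hw
    exact (ts_th_eq_thetaQ hk hw).symm
  exact (h1.congr_of_eventuallyEq h2).differentiableWithinAt

/-- Growth bound for `thetaQ`. -/
theorem ts_growth {q : ℕ} {m : ℤ} (hm : 4 * m = q + 1) :
    ∃ C : ℝ, ∀ z : ℂ, 0 < z.im → ‖thetaQ q z‖ ≤ C * (1 + (z.im)⁻¹ ^ 2) := by
  obtain ⟨k, rfl, hk⟩ := ts_exists_nat hm
  refine ⟨32, fun z hz => ?_⟩
  rw [← ts_th_eq_thetaQ hk hz]
  have h := ts_th_norm_le (ts_one_le hm) hz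
  have e : 4 / z.im = 4 * (z.im)⁻¹ := by ring
  rw [e] at h
  have ht : 0 ≤ (z.im)⁻¹ := inv_nonneg.mpr hz.le
  nlinarith [sq_nonneg (1 - 2 * (z.im)⁻¹)]

end Fermat.Agent.S16
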