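import Mathlib
import Fermat.Agent.S16.ThetaCong
import Fermat.Agent.S16.LevelOneSturm

/-!
# The two expansions of a `Θ` with `ThetaCong`, modulo `ℓ^j`

`A = qExpansion 1 Θ ≡ 1` and, for the expansion `B` at the other cusp, characterised by
`B_n = -(1/p) A_{pn}` (weight two trace lemma), `B ≡ -1/p` if `ℓ ≠ p`, resp. `p B ≡ -1`.
Also: the `q`-expansions of `E₄`, `E₆`, `Δ` have coefficients in any subring of `ℂ`.
-/

set_option autoImplicit false

open UpperHalfPlane ModularForm EisensteinSeries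
open scoped MatrixGroups

namespace Fermat.Agent.S16

theorem ThetaCong.A_side {p ℓ j : ℕ} (hℓ : ℓ.Prime)
    {Θ : ModularForm ((CongruenceSubgroup.Gamma0 p).map (Matrix.SpecialLinearGroup.mapGL ℝ)) 2}
    (h : ThetaCong p ℓ j Θ) : CoeffIn (OlIdeal ℓ j) (qExpansion 1 Θ - 1) := by
  intro n
  rcases Nat.eq_zero_or_pos n with rfl | hn
  · rw [map_sub, h.1]
    simp
  · rw [map_sub, PowerSeries.coeff_one, if_neg hn.ne', sub_zero]
    exact h.coeff_mem hℓ hn

theorem ThetaCong.B_side {p ℓ j : ℕ} (hℓ : ℓ.Prime) (hp : p.Prime) (hℓp : ℓ ≠ p)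
    {Θ : ModularForm ((CongruenceSubgroup.Gamma0 p).map (Matrix.SpecialLinearGroup.mapGL ℝ)) 2}
    (h : ThetaCong p ℓ j Θ) (B : PowerSeries ℂ)
    (hB : ∀ n, B.coeff n = -(1 / (p : ℂ)) * (qExpansion 1 Θ).coeff (p * n)) :
    CoeffIn (OlIdeal ℓ j) (B - PowerSeries.C (-(1 / (p : ℂ)))) := by
  have hcop : Nat.Coprime p ℓ := (Nat.coprime_primes hp hℓ).mpr (Ne.symm hℓp)
  have hinv : -(1 / (p : ℂ)) ∈ Ol ℓ := by
    rw [one_div]
    exact (Ol ℓ).neg_mem (inv_nat_mem_Ol ℓ hcop)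
  intro n
  rcases Nat.eq_zero_or_pos n with rfl | hn
  · rw [map_sub, hB 0, mul_zero, h.1]
    simp
  · rw [map_sub, PowerSeries.coeff_C, if_neg hn.ne', sub_zero, hB n]
    exact mul_mem_OlIdeal hinv (h.coeff_mem hℓ (Nat.mul_pos hp.pos hn))

theorem ThetaCong.B_side_self {p j : ℕ} (hp : p.Prime)
    {Θ : ModularForm ((CongruenceSubgroup.Gamma0 p).map (Matrix.SpecialLinearGroup.mapGL ℝ)) 2}
    (h : ThetaCong p p j Θ) (B : PowerSeries ℂ)
    (hB : ∀ n, B.coeff n = -(1 / (p : ℂ)) * (qExpansion 1 Θ).coeff (p * n)) :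
    CoeffIn (OlIdeal p j) (PowerSeries.C (p : ℂ) * B + 1) := by
  have hp0 : (p : ℂ) ≠ 0 := by exact_mod_cast hp.ne_zero
  intro n
  rw [map_add, PowerSeries.coeff_C_mul, hB n]
  rcases Nat.eq_zero_or_pos n with rfl | hn
  · rw [mul_zero, h.1]
    have : (p : ℂ) * (-(1 / (p : ℂ)) * 1) + (PowerSeries.coeff 0) (1 : PowerSeries ℂ) = 0 := by
      simp
      field_simp
      ring
    rw [this]
    exact (OlIdeal p j).zero_mem
  · rw [PowerSeries.coeff_one, if_neg hn.ne', add_zero]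
    have : (p : ℂ) * (-(1 / (p : ℂ)) * (qExpansion 1 Θ).coeff (p * n)) =
        -(qExpansion 1 Θ).coeff (p * n) := by
      field_simp
    rw [this]
    exact (OlIdeal p j).neg_mem (h.coeff_mem hp (Nat.mul_pos hp.pos hn))

theorem coeffIn_E4 (R : Subring ℂ) : CoeffIn R.toAddSubgroup (qExpansion 1 E₄) := by
  rw [sturm_E4_qExpansion]
  exact CoeffIn.map_int R _

theorem coeffIn_E6 (R : Subring ℂ) : CoeffIn R.toAddSubgroup (qExpansion 1 E₆) := by
  rw [sturm_E6_qExpansion]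
  exact CoeffIn.map_int R _

theorem coeffIn_delta (R : Subring ℂ) :
    CoeffIn R.toAddSubgroup (qExpansion 1 CuspForm.discriminant) := by
  rw [sturm_delta_qExpansion]
  exact CoeffIn.map_int R _

/-- Explicit low coefficients of the integral series of `E₄`, `E₆`. -/
theorem sturmA_coeff_zero : sturmA.coeff 0 = 0 := by simp [sturmA]

theorem sturmA_coeff_one : sturmA.coeff 1 = 1 := by simp [sturmA]

theorem sturmA_coeff_two : sturmA.coeff 2 = 9 := by
  simp only [sturmA, PowerSeries.coeff_mk]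
  rw [if_neg (by norm_num)]
  decide

theorem sturmB_coeff_zero : sturmB.coeff 0 = 0 := by simp [sturmB]

theorem sturmB_coeff_one : sturmB.coeff 1 = 1 := by simp [sturmB]

theorem sturmB_coeff_two : sturmB.coeff 2 = 33 := by
  simp only [sturmB, PowerSeries.coeff_mk]
  rw [if_neg (by norm_num)]
  decide

end Fermat.Agent.S16
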