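/-
S16 / Key Lemma, cases (iii) (helper34): pure power-series algebra behind the `Tr(Θ²)` cases.

`A`, `B` play the role of the `q`-expansions of `Θ` and `U_p Θ` (weight 2, level `p`, `a₀ = 1`),
`s n = σ₃(n)`; the two trace identities are the `q`-expansions of
`Tr(Θ²) = (1 + 1/p) E₄` and `Tr((U_pΘ)²) = (1 + 1/p) E₄`.
* `trsq_false_three` : `A ≡ 1 mod 3`, `p ≡ 1 mod 3`            ⟹ `3 ∣ 1` in `R`;
* `trsq_false_four`  : `A ≡ 1 mod 4`, `p ≡ 1 mod 4`            ⟹ `2 ∣ 1` in `R`;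
* `trsq_false_eight` : `A ≡ 1 mod 8`, `p ≡ 1 mod 4` or `3 mod 8` ⟹ `2 ∣ 1` in `R`.
-/
import Mathlib

set_option autoImplicit false

namespace Fermat.Agent.S16

open PowerSeries

/-- coefficients of a square modulo `2`: only the diagonal term survives. -/
theorem trsq_coeff_sq {R : Type*} [CommRing R] (H : PowerSeries R) (n : ℕ) :
    ∃ Y : R, coeff n (H * H) = (if 2 ∣ n then coeff (n / 2) H ^ 2 else 0) + 2 * Y := by
  classical
  rw [PowerSeries.coeff_mul]
  obtain ⟨s, hs⟩ : ∃ s : Finset (ℕ × ℕ), s = Finset.HasAntidiagonal.antidiagonal n := ⟨_, rfl⟩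
  have hmem : ∀ x : ℕ × ℕ, x ∈ s ↔ x.1 + x.2 = n := fun x => by
    rw [hs, Finset.HasAntidiagonal.mem_antidiagonal]
  rw [← hs]
  obtain ⟨f, hf⟩ : ∃ f : ℕ × ℕ → R, f = fun x => coeff x.1 H * coeff x.2 H := ⟨_, rfl⟩
  have hf' : ∀ x, f x = coeff x.1 H * coeff x.2 H := fun x => by rw [hf]
  have hgoal : ∑ p ∈ s, coeff p.1 H * coeff p.2 H = ∑ p ∈ s, f p :=
    Finset.sum_congr rfl (fun x _ => (hf' x).symm)
  rw [hgoal]
  have h1 := Finset.sum_filter_add_sum_filter_not s (fun x : ℕ × ℕ => x.1 < x.2) f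
  have h2 := Finset.sum_filter_add_sum_filter_not (s.filter (fun x : ℕ × ℕ => ¬ x.1 < x.2))
    (fun x : ℕ × ℕ => x.2 < x.1) f
  -- the lower triangle equals the upper triangle
  have h3 : ∑ x ∈ (s.filter (fun x : ℕ × ℕ => ¬ x.1 < x.2)).filter (fun x : ℕ × ℕ => x.2 < x.1), f x
      = ∑ x ∈ s.filter (fun x : ℕ × ℕ => x.1 < x.2), f x := by
    refine Finset.sum_nbij' (fun x => (x.2, x.1)) (fun x => (x.2, x.1)) ?_ ?_ ?_ ?_ ?_
    · intro x hx
      simp only [Finset.mem_filter, hmem] at hx ⊢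
      refine ⟨by omega, hx.2⟩
    · intro x hx
      simp only [Finset.mem_filter, hmem] at hx ⊢
      refine ⟨⟨by omega, by omega⟩, hx.2⟩
    · intro x _; rfl
    · intro x _; rfl
    · intro x _; rw [hf' x, hf']; ring
  -- the diagonal
  have h4 : ∑ x ∈ (s.filter (fun x : ℕ × ℕ => ¬ x.1 < x.2)).filter (fun x : ℕ × ℕ => ¬ x.2 < x.1), f x
      = if 2 ∣ n then coeff (n / 2) H ^ 2 else 0 := by
    split_ifs with hn
    · obtain ⟨m, rfl⟩ := hn
      have : (s.filter (fun x : ℕ × ℕ => ¬ x.1 < x.2)).filter (fun x : ℕ × ℕ => ¬ x.2 < x.1)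
          = {(m, m)} := by
        ext x
        simp only [Finset.mem_filter, hmem, Finset.mem_singleton]
        constructor
        · rintro ⟨⟨h, h'⟩, h''⟩
          ext
          · show x.1 = m
            omega
          · show x.2 = m
            omega
        · rintro rfl
          refine ⟨⟨?_, ?_⟩, ?_⟩
          · show m + m = 2 * m
            omega
          · exact lt_irrefl _
          · exact lt_irrefl _
      rw [this, Finset.sum_singleton, hf']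
      rw [Nat.mul_div_cancel_left m (by norm_num : 0 < 2)]
      ring
    · apply Finset.sum_eq_zero
      intro x hx
      exfalso
      simp only [Finset.mem_filter, hmem] at hx
      apply hn
      exact ⟨x.1, by omega⟩
  refine ⟨∑ x ∈ s.filter (fun x : ℕ × ℕ => x.1 < x.2), f x, ?_⟩
  rw [← h1, ← h2, h3, h4]
  ring


/-- the cross term `p (H²)_n + (K²)_{pn}` is even when `p` is odd and `H_j = K_{pj}`. -/
theorem trsq_cross_even {R : Type*} [CommRing R] (p : ℕ) (hp : Odd p) (H K : PowerSeries R)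
    (hH : ∀ n, coeff n H = coeff (p * n) K) (n : ℕ) :
    ∃ Y : R, (p : R) * coeff n (H * H) + coeff (p * n) (K * K) = 2 * Y := by
  obtain ⟨Y1, h1⟩ := trsq_coeff_sq H n
  obtain ⟨Y2, h2⟩ := trsq_coeff_sq K (p * n)
  obtain ⟨r, hr⟩ := hp
  have hpR : (p : R) = 2 * r + 1 := by rw [hr]; push_cast; ring
  by_cases hn : 2 ∣ n
  · obtain ⟨m, rfl⟩ := hn
    have hpn : 2 ∣ p * (2 * m) := ⟨p * m, by ring⟩
    have e1 : p * (2 * m) / 2 = p * m := by
      rw [show p * (2 * m) = 2 * (p * m) by ring]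
      exact Nat.mul_div_cancel_left _ (by norm_num)
    have e2 : 2 * m / 2 = m := Nat.mul_div_cancel_left _ (by norm_num)
    rw [if_pos (Dvd.intro m rfl), e2] at h1
    rw [if_pos hpn, e1, ← hH m] at h2
    refine ⟨(r + 1) * coeff m H ^ 2 + p * Y1 + Y2, ?_⟩
    rw [h1, h2, hpR]
    ring
  · have hpn : ¬ 2 ∣ p * n := by
      intro h
      rcases (Nat.Prime.dvd_mul Nat.prime_two).mp h with h' | h'
      · rw [hr] at h'; omega
      · exact hn h'
    rw [if_neg hn] at h1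
    rw [if_neg hpn] at h2
    refine ⟨p * Y1 + Y2, ?_⟩
    rw [h1, h2]
    ring

/-- coefficients of `(1 + c H)²`. -/
theorem trsq_coeff_one_add_sq {R : Type*} [CommRing R] (c : R) (H : PowerSeries R) (n : ℕ)
    (hn : 0 < n) :
    coeff n ((1 + C c * H) * (1 + C c * H)) = 2 * c * coeff n H + c ^ 2 * coeff n (H * H) := by
  have e : (1 + C c * H) * (1 + C c * H) = 1 + C (2 * c) * H + C (c ^ 2) * (H * H) := by
    rw [map_mul, map_pow, map_ofNat]
    ring
  rw [e, map_add, map_add, coeff_C_mul, coeff_C_mul, coeff_one, if_neg hn.ne']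
  ring

/-- The trace data: `A`, `B = U_p A`, `A = U_p B`, `A₀ = 1` and the two trace identities
`(p + 1) E₄ = p A² + U_p(B²)`, `(p + 1) E₄ = p B² + U_p(A²)` in positive degrees
(`E₄ = 1 + 240 ∑ s(n) qⁿ`). -/
structure TrsqData {R : Type*} [CommRing R] (p : ℕ) (s : ℕ → R) (A B : PowerSeries R) : Prop where
  hB : ∀ n, coeff n B = coeff (p * n) A
  hA : ∀ n, coeff n A = coeff (p * n) B
  hA0 : coeff 0 A = 1
  hT : ∀ n, 0 < n →
    ((p : R) + 1) * (240 * s n) = p * coeff n (A * A) + coeff (p * n) (B * B)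
  hT' : ∀ n, 0 < n →
    ((p : R) + 1) * (240 * s n) = p * coeff n (B * B) + coeff (p * n) (A * A)

theorem TrsqData.symm {R : Type*} [CommRing R] {p : ℕ} {s : ℕ → R} {A B : PowerSeries R}
    (D : TrsqData p s A B) : TrsqData p s B A :=
  ⟨D.hA, D.hB, by rw [D.hB 0, mul_zero, D.hA0], D.hT', D.hT⟩

section Domain

variable {R : Type*} [CommRing R] [IsDomain R]

/-- normal form: `A = 1 + c H`, `B = 1 + c K` and the trace identity in terms of `H`, `K`. -/
theorem TrsqData.exists_normal {p : ℕ} {s : ℕ → R} {A B : PowerSeries R}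
    (D : TrsqData p s A B) (hp : 0 < p) (c : R) (hc0 : c ≠ 0)
    (hc : ∀ n, 0 < n → ∃ x, coeff n A = c * x) :
    ∃ H K : PowerSeries R, (∀ n, 0 < n → coeff n A = c * coeff n H) ∧
      (∀ n, 0 < n → coeff n B = c * coeff n K) ∧
      (∀ n, coeff n K = coeff (p * n) H) ∧ (∀ n, coeff n H = coeff (p * n) K) ∧
      (∀ n, 0 < n → ((p : R) + 1) * (240 * s n) =
        2 * c * ((p : R) + 1) * coeff n H +
          c ^ 2 * ((p : R) * coeff n (H * H) + coeff (p * n) (K * K))) ∧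
      (∀ n, 0 < n → ((p : R) + 1) * (240 * s n) =
        2 * c * ((p : R) + 1) * coeff n K +
          c ^ 2 * ((p : R) * coeff n (K * K) + coeff (p * n) (H * H))) := by
  classical
  choose! x hx using hc
  obtain ⟨H, hHdef⟩ : ∃ H : PowerSeries R, H = PowerSeries.mk (fun n => if n = 0 then 0 else x n) :=
    ⟨_, rfl⟩
  obtain ⟨K, hKdef⟩ : ∃ K : PowerSeries R, K = PowerSeries.mk (fun n => coeff (p * n) H) :=
    ⟨_, rfl⟩
  have hH0 : coeff 0 H = 0 := by rw [hHdef, coeff_mk, if_pos rfl]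
  have hHn : ∀ n, 0 < n → coeff n A = c * coeff n H := by
    intro n hn
    rw [hHdef, coeff_mk, if_neg hn.ne']
    exact hx n hn
  have hKH : ∀ n, coeff n K = coeff (p * n) H := by
    intro n
    rw [hKdef, coeff_mk]
  have hK0 : coeff 0 K = 0 := by rw [hKH 0, mul_zero, hH0]
  have hKn : ∀ n, 0 < n → coeff n B = c * coeff n K := by
    intro n hn
    rw [hKH n, D.hB n]
    exact hHn (p * n) (Nat.mul_pos hp hn)
  have hHK : ∀ n, coeff n H = coeff (p * n) K := by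
    intro n
    rcases Nat.eq_zero_or_pos n with rfl | hn
    · rw [mul_zero, hH0, hK0]
    · apply mul_left_cancel₀ hc0
      rw [← hHn n hn, ← hKn (p * n) (Nat.mul_pos hp hn)]
      exact D.hA n
  have hAeq : A = 1 + C c * H := by
    ext n
    rcases Nat.eq_zero_or_pos n with rfl | hn
    · rw [map_add, coeff_C_mul, hH0, D.hA0, coeff_one, if_pos rfl]; ring
    · rw [map_add, coeff_C_mul, coeff_one, if_neg hn.ne', hHn n hn]; ring
  have hBeq : B = 1 + C c * K := by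
    ext n
    rcases Nat.eq_zero_or_pos n with rfl | hn
    · rw [map_add, coeff_C_mul, hK0, D.symm.hA0, coeff_one, if_pos rfl]; ring
    · rw [map_add, coeff_C_mul, coeff_one, if_neg hn.ne', hKn n hn]; ring
  refine ⟨H, K, hHn, hKn, hKH, hHK, ?_, ?_⟩
  · intro n hn
    have h := D.hT n hn
    rw [hAeq, hBeq, trsq_coeff_one_add_sq c H n hn,
      trsq_coeff_one_add_sq c K (p * n) (Nat.mul_pos hp hn), ← hHK n] at h
    rw [h]; ring
  · intro n hn
    have h := D.hT' n hn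
    rw [hAeq, hBeq, trsq_coeff_one_add_sq c K n hn,
      trsq_coeff_one_add_sq c H (p * n) (Nat.mul_pos hp hn), ← hKH n] at h
    rw [h]; ring

variable [CharZero R]

/-- `ℓ = 3`, `p ≡ 1 mod 3`: no `A ≡ 1 mod 3`. -/
theorem trsq_false_three {p : ℕ} {s : ℕ → R} {A B : PowerSeries R} (D : TrsqData p s A B)
    (hp : p % 3 = 1) (hs1 : s 1 = 1) (hsp : s p = 1 + (p : R) ^ 3)
    (hc : ∀ n, 0 < n → ∃ x, coeff n A = 3 * x) : ∃ y : R, (1 : R) = 3 * y := by
  have hp0 : 0 < p := by omega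
  obtain ⟨t, ht⟩ : ∃ t : ℕ, p = 3 * t + 1 := ⟨p / 3, by omega⟩
  have hpR : (p : R) = 3 * t + 1 := by rw [ht]; push_cast; ring
  have h3 : (3 : R) ≠ 0 := by norm_num
  obtain ⟨H, K, -, -, hKH, -, hT, hT'⟩ := D.exists_normal hp0 3 h3 hc
  -- `s n ≡ H n` and `s n ≡ K n` modulo `3`
  have key : ∀ (H K : PowerSeries R) (n : ℕ),
      ((p : R) + 1) * (240 * s n) = 2 * 3 * ((p : R) + 1) * coeff n H +
        3 ^ 2 * ((p : R) * coeff n (H * H) + coeff (p * n) (K * K)) →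
      ∃ y : R, s n - coeff n H = 3 * y := by
    intro H K n h
    refine ⟨(p : R) * coeff n (H * H) + coeff (p * n) (K * K) - 80 * t * s n - 53 * s n +
      2 * t * coeff n H + coeff n H, ?_⟩
    apply mul_left_cancel₀ h3
    rw [hpR] at h ⊢
    linear_combination h
  obtain ⟨y1, hy1⟩ := key H K p (hT p hp0)
  obtain ⟨y2, hy2⟩ := key K H 1 (hT' 1 one_pos)
  rw [hKH 1, mul_one] at hy2
  refine ⟨y1 - y2 - 9 * t ^ 3 - 9 * t ^ 2 - 3 * t, ?_⟩
  rw [hsp] at hy1
  rw [hs1] at hy2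
  rw [hpR] at hy1
  linear_combination hy1 - hy2

/-- `ℓ = 2`: `A ≡ 1 mod 8` is impossible when `p ≡ 1 mod 4` or `p ≡ 3 mod 8`. -/
theorem trsq_false_eight {p : ℕ} {s : ℕ → R} {A B : PowerSeries R} (D : TrsqData p s A B)
    (hp : p % 4 = 1 ∨ p % 8 = 3) (hs1 : s 1 = 1) (hsp : s p = 1 + (p : R) ^ 3)
    (hc : ∀ n, 0 < n → ∃ x, coeff n A = 8 * x) : ∃ y : R, (1 : R) = 2 * y := by
  have hp0 : 0 < p := by omega
  have hodd : Odd p := by
    rw [Nat.odd_iff]; omega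
  have h2 : (2 : R) ≠ 0 := by norm_num
  have h8 : (8 : R) ≠ 0 := by norm_num
  obtain ⟨H, K, -, -, hKH, hHK, hT, hT'⟩ := D.exists_normal hp0 8 h8 hc
  -- `s n ≡ H n` and `s n ≡ K n` modulo `2`
  have key : ∀ (H K : PowerSeries R) (n : ℕ), (∀ n, coeff n H = coeff (p * n) K) →
      ((p : R) + 1) * (240 * s n) = 2 * 8 * ((p : R) + 1) * coeff n H +
        8 ^ 2 * ((p : R) * coeff n (H * H) + coeff (p * n) (K * K)) →
      ∃ y : R, s n - coeff n H = 2 * y := by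
    intro H K n hHK h
    rcases hp with hp | hp
    · obtain ⟨t, ht⟩ : ∃ t : ℕ, p = 4 * t + 1 := ⟨p / 4, by omega⟩
      have hpR : (p : R) = 4 * t + 1 := by rw [ht]; push_cast; ring
      refine ⟨(p : R) * coeff n (H * H) + coeff (p * n) (K * K) - 15 * t * s n - 7 * s n +
        t * coeff n H, ?_⟩
      have h32 : (32 : R) ≠ 0 := by norm_num
      apply mul_left_cancel₀ h32
      rw [hpR] at h ⊢
      linear_combination h
    · obtain ⟨t, ht⟩ : ∃ t : ℕ, p = 8 * t + 3 := ⟨p / 8, by omega⟩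
      have hpR : (p : R) = 8 * t + 3 := by rw [ht]; push_cast; ring
      obtain ⟨Y, hY⟩ := trsq_cross_even p hodd H K hHK n
      refine ⟨Y - 15 * t * s n - 7 * s n + t * coeff n H, ?_⟩
      have h64 : (64 : R) ≠ 0 := by norm_num
      apply mul_left_cancel₀ h64
      rw [hY] at h
      rw [hpR] at h
      linear_combination h
  obtain ⟨y1, hy1⟩ := key H K p hHK (hT p hp0)
  obtain ⟨y2, hy2⟩ := key K H 1 hKH (hT' 1 one_pos)
  rw [hKH 1, mul_one] at hy2
  obtain ⟨r, hr⟩ := hodd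
  have hpR : (p : R) = 2 * r + 1 := by rw [hr]; push_cast; ring
  refine ⟨y1 - y2 - 4 * r ^ 3 - 6 * r ^ 2 - 3 * r, ?_⟩
  rw [hsp] at hy1
  rw [hs1] at hy2
  rw [hpR] at hy1
  linear_combination hy1 - hy2

/-- `ℓ = 2`, `p ≡ 1 mod 4`: `A ≡ 1 mod 4` forces `A ≡ 1 mod 8`. -/
theorem trsq_eight_of_four {p : ℕ} {s : ℕ → R} {A B : PowerSeries R} (D : TrsqData p s A B)
    (hp : p % 4 = 1) (hc : ∀ n, 0 < n → ∃ x, coeff n A = 4 * x) :
    ∀ n, 0 < n → ∃ x, coeff n A = 8 * x := by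
  have hp0 : 0 < p := by omega
  have hodd : Odd p := by
    rw [Nat.odd_iff]; omega
  have h4 : (4 : R) ≠ 0 := by norm_num
  obtain ⟨H, K, hAH, -, -, hHK, hT, -⟩ := D.exists_normal hp0 4 h4 hc
  obtain ⟨t, ht⟩ : ∃ t : ℕ, p = 4 * t + 1 := ⟨p / 4, by omega⟩
  have hpR : (p : R) = 4 * t + 1 := by rw [ht]; push_cast; ring
  intro n hn
  obtain ⟨Y, hY⟩ := trsq_cross_even p hodd H K hHK n
  have h := hT n hn
  rw [hY] at h
  have h16 : (16 : R) ≠ 0 := by norm_num
  have e : coeff n H = 2 * (15 * (2 * t + 1) * s n - Y - t * coeff n H) := by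
    apply mul_left_cancel₀ h16
    rw [hpR] at h
    linear_combination -h
  refine ⟨15 * (2 * t + 1) * s n - Y - t * coeff n H, ?_⟩
  rw [hAH n hn]
  linear_combination 4 * e

/-- `ℓ = 2`, `p ≡ 1 mod 4`: no `A ≡ 1 mod 4`. -/
theorem trsq_false_four {p : ℕ} {s : ℕ → R} {A B : PowerSeries R} (D : TrsqData p s A B)
    (hp : p % 4 = 1) (hs1 : s 1 = 1) (hsp : s p = 1 + (p : R) ^ 3)
    (hc : ∀ n, 0 < n → ∃ x, coeff n A = 4 * x) : ∃ y : R, (1 : R) = 2 * y :=
  trsq_false_eight D (Or.inl hp) hs1 hsp (trsq_eight_of_four D hp hc)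

end Domain

/-! ### Coefficients in a subring of `ℂ` -/

section Complex

open ArithmeticFunction

/-- `σ₃(1) = 1`. -/
theorem trsq_sigma_one : sigma 3 1 = 1 := by simp

/-- `σ₃(p) = 1 + p³` for a prime `p`. -/
theorem trsq_sigma_prime {p : ℕ} (hp : p.Prime) : sigma 3 p = 1 + p ^ 3 := by
  rw [ArithmeticFunction.sigma_apply, hp.sum_divisors]
  ring

/-- restriction of complex trace data with coefficients in a subring `R` to `R`. -/
theorem TrsqData.restrict (R : Subring ℂ) {p : ℕ} {A B : PowerSeries ℂ}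
    (D : TrsqData p (fun n => ((sigma 3 n : ℕ) : ℂ)) A B) (hmem : ∀ n, coeff n A ∈ R) :
    ∃ A' B' : PowerSeries R, (∀ n, ((coeff n A' : R) : ℂ) = coeff n A) ∧
      TrsqData p (fun n => ((sigma 3 n : ℕ) : R)) A' B' := by
  obtain ⟨A', hA'⟩ : ∃ A' : PowerSeries R, A' = PowerSeries.mk (fun n => ⟨coeff n A, hmem n⟩) :=
    ⟨_, rfl⟩
  obtain ⟨B', hB'⟩ : ∃ B' : PowerSeries R, B' = PowerSeries.mk (fun n => coeff (p * n) A') :=
    ⟨_, rfl⟩
  have hcA : ∀ n, ((coeff n A' : R) : ℂ) = coeff n A := by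
    intro n; rw [hA', coeff_mk]
  have hcB : ∀ n, ((coeff n B' : R) : ℂ) = coeff n B := by
    intro n; rw [hB', coeff_mk, hcA, D.hB]
  have hmapA : PowerSeries.map R.subtype A' = A := by
    ext n; rw [coeff_map]; exact hcA n
  have hmapB : PowerSeries.map R.subtype B' = B := by
    ext n; rw [coeff_map]; exact hcB n
  have hAA : ∀ n, ((coeff n (A' * A') : R) : ℂ) = coeff n (A * A) := by
    intro n
    rw [← hmapA, ← map_mul, coeff_map]; rfl
  have hBB : ∀ n, ((coeff n (B' * B') : R) : ℂ) = coeff n (B * B) := by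
    intro n
    rw [← hmapB, ← map_mul, coeff_map]; rfl
  refine ⟨A', B', hcA, ⟨?_, ?_, ?_, ?_, ?_⟩⟩
  · intro n; rw [hB', coeff_mk]
  · intro n
    apply Subtype.ext
    rw [hcA, hcB, D.hA]
  · apply Subtype.ext
    rw [hcA, D.hA0]; rfl
  · intro n hn
    apply Subtype.ext
    have h := D.hT n hn
    push_cast
    rw [hAA, hBB]
    exact h
  · intro n hn
    apply Subtype.ext
    have h := D.hT' n hn
    push_cast
    rw [hAA, hBB]
    exact h

/-- common wrapper: from complex data with `A ≡ 1 mod c` (coefficients in `R`) to data over `R`. -/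
theorem TrsqData.restrict_dvd (R : Subring ℂ) {p : ℕ} {A B : PowerSeries ℂ}
    (D : TrsqData p (fun n => ((sigma 3 n : ℕ) : ℂ)) A B) (c : R)
    (h : ∀ n, 0 < n → ∃ x ∈ R, coeff n A = (c : ℂ) * x) :
    ∃ A' B' : PowerSeries R, TrsqData p (fun n => ((sigma 3 n : ℕ) : R)) A' B' ∧
      ∀ n, 0 < n → ∃ x : R, coeff n A' = c * x := by
  have hmem : ∀ n, coeff n A ∈ R := by
    intro n
    rcases Nat.eq_zero_or_pos n with rfl | hn
    · rw [D.hA0]; exact R.one_mem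
    · obtain ⟨x, hx, hxe⟩ := h n hn
      rw [hxe]
      exact R.mul_mem c.2 hx
  obtain ⟨A', B', hcA, D'⟩ := D.restrict R hmem
  refine ⟨A', B', D', ?_⟩
  intro n hn
  obtain ⟨x, hx, hxe⟩ := h n hn
  refine ⟨⟨x, hx⟩, Subtype.ext ?_⟩
  rw [hcA, hxe]
  rfl

/-- `ℓ = 3`, `p ≡ 1 mod 3`, complex form. -/
theorem trsq_false_three_complex (R : Subring ℂ) {p : ℕ} (hp : p.Prime) (hp3 : p % 3 = 1)
    {A B : PowerSeries ℂ} (D : TrsqData p (fun n => ((sigma 3 n : ℕ) : ℂ)) A B)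
    (h : ∀ n, 0 < n → ∃ x ∈ R, coeff n A = 3 * x) : ∃ y ∈ R, (1 : ℂ) = 3 * y := by
  have e3 : (((3 : R) : R) : ℂ) = 3 := rfl
  obtain ⟨A', B', D', hc⟩ := D.restrict_dvd R (3 : R) (by rw [e3]; exact h)
  obtain ⟨y, hy⟩ := trsq_false_three D' hp3 (by rw [trsq_sigma_one]; simp)
    (by rw [trsq_sigma_prime hp]; push_cast; ring) hc
  refine ⟨y, y.2, ?_⟩
  have := congrArg (Subtype.val) hy
  rw [← e3]
  exact this

/-- `ℓ = 2`, `p ≡ 1 mod 4` or `p ≡ 3 mod 8`, complex form. -/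
theorem trsq_false_eight_complex (R : Subring ℂ) {p : ℕ} (hp : p.Prime)
    (hp8 : p % 4 = 1 ∨ p % 8 = 3)
    {A B : PowerSeries ℂ} (D : TrsqData p (fun n => ((sigma 3 n : ℕ) : ℂ)) A B)
    (h : ∀ n, 0 < n → ∃ x ∈ R, coeff n A = 8 * x) : ∃ y ∈ R, (1 : ℂ) = 2 * y := by
  have e8 : (((8 : R) : R) : ℂ) = 8 := rfl
  have e2 : (((2 : R) : R) : ℂ) = 2 := rfl
  obtain ⟨A', B', D', hc⟩ := D.restrict_dvd R (8 : R) (by rw [e8]; exact h)
  obtain ⟨y, hy⟩ := trsq_false_eight D' hp8 (by rw [trsq_sigma_one]; simp)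
    (by rw [trsq_sigma_prime hp]; push_cast; ring) hc
  refine ⟨y, y.2, ?_⟩
  have := congrArg (Subtype.val) hy
  rw [← e2]
  exact this

/-- `ℓ = 2`, `p ≡ 1 mod 4`, complex form. -/
theorem trsq_false_four_complex (R : Subring ℂ) {p : ℕ} (hp : p.Prime) (hp4 : p % 4 = 1)
    {A B : PowerSeries ℂ} (D : TrsqData p (fun n => ((sigma 3 n : ℕ) : ℂ)) A B)
    (h : ∀ n, 0 < n → ∃ x ∈ R, coeff n A = 4 * x) : ∃ y ∈ R, (1 : ℂ) = 2 * y := by
  have e4 : (((4 : R) : R) : ℂ) = 4 := rfl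
  have e2 : (((2 : R) : R) : ℂ) = 2 := rfl
  obtain ⟨A', B', D', hc⟩ := D.restrict_dvd R (4 : R) (by rw [e4]; exact h)
  obtain ⟨y, hy⟩ := trsq_false_four D' hp4 (by rw [trsq_sigma_one]; simp)
    (by rw [trsq_sigma_prime hp]; push_cast; ring) hc
  refine ⟨y, y.2, ?_⟩
  have := congrArg (Subtype.val) hy
  rw [← e2]
  exact this

end Complex

end Fermat.Agent.S16
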