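/-
S16 / Key Lemma, cases (iii) (helper34): the `Tr(Θ²)` cases, analytic glue.

For `Θ ∈ M₂(Γ₀(p))` with `a₀ = 1` the trace to level one of `Θ²` is `(1 + 1/p) E₄`; with the
weight-2 trace lemma (`Θ|ST^b = -(1/p) (U_pΘ)((z+b)/p)`, `U_p² Θ = Θ`) this is the identity
`(p + 1) E₄ = p Θ² + U_p((U_pΘ)²)` of `q`-expansions, and the same for `U_pΘ`.  The pure algebra of
`TraceSqAlg.lean` then excludes `Θ ≡ 1 mod 3` (`p ≡ 1 mod 3`), `Θ ≡ 1 mod 4` (`p ≡ 1 mod 4`) and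
`Θ ≡ 1 mod 8` (`p ≡ 3 mod 8`).

The three facts about the trace that are consumed are packaged in `TrsqTrace p` and discharged by
helper43's `TraceLemma.lean` (`trsq_trace`).  Final exports, in the `ThetaCong` shape:
`trsq_three`, `trsq_four`, `trsq_eight`.
-/
import Mathlib
import Fermat.Prelude.Def_ModularForm_HeckeOperator
import Fermat.Prelude.Def_ModularForm_HeckeOperatorForms
import Fermat.Prelude.Def_FLTPrelim_Modularity
import Fermat.Prelude.Thm_CongruenceSubgroup_one_mem_strictPeriods_Gamma0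
import Fermat.Prelude.Thm_ModularFormClass_qCoeff_heckeU
import Fermat.Agent.S16.TraceSqAlg
import Fermat.Agent.S16.TraceLemma
import Fermat.Agent.S16.ThetaCong

set_option autoImplicit false

open UpperHalfPlane ModularForm CongruenceSubgroup EisensteinSeries
open scoped MatrixGroups ModularForm

noncomputable section

namespace Fermat.Agent.S16

/-- The three facts about the trace `Γ₀(p) → SL₂(ℤ)` used by the `Tr(Θ²)` argument. -/
structure TrsqTrace (p : ℕ) [Fact p.Prime] : Prop where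
  trace4 : ∀ (F : ModularForm (Gamma0 p) (2 + 2)) (z : ℍ),
    ModularForm.trace 𝒮ℒ F z =
      F z + ∑ b ∈ Finset.range p, (⇑F ∣[((2 : ℤ) + 2)] (ModularGroup.S * ModularGroup.T ^ b)) z
  slashST : ∀ (F : ModularForm (Gamma0 p) 2) (b : ℕ) (z : ℍ),
    (⇑F ∣[(2 : ℤ)] (ModularGroup.S * ModularGroup.T ^ b)) z =
      -(1 / (p : ℂ)) * heckeU 2 p ⇑F (heckeMatrix p b • z)
  UU : ∀ F : ModularForm (Gamma0 p) 2, heckeU 2 p (heckeU 2 p ⇑F) = ⇑F

variable {p : ℕ} [Fact p.Prime]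

/-- `q`-coefficients of `E₄`. -/
theorem trsq_E4_coeff (n : ℕ) (hn : 0 < n) :
    (qExpansion 1 E₄).coeff n = 240 * ((ArithmeticFunction.sigma 3 n : ℕ) : ℂ) := by
  rw [E_qExpansion_coeff (by norm_num) ⟨2, rfl⟩, if_neg hn.ne']
  norm_num [show bernoulli 4 = -1 / 30 by decide +kernel]

/-- `U_p Φ` as a modular form. -/
def trsqU (Φ : ModularForm (Gamma0 p) 2) : ModularForm (Gamma0 p) 2 :=
  haveI : NeZero p := ⟨(Fact.out : p.Prime).ne_zero⟩
  ModularForm.heckeULin 2 (dvd_refl p) Φ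

theorem trsqU_coe (Φ : ModularForm (Gamma0 p) 2) : ⇑(trsqU Φ) = heckeU 2 p ⇑Φ := rfl

/-- `q`-coefficients of `U_p Φ`. -/
theorem trsqU_coeff (Φ : ModularForm (Gamma0 p) 2) (n : ℕ) :
    (qExpansion 1 (trsqU Φ)).coeff n = (qExpansion 1 Φ).coeff (p * n) := by
  have hp : p.Prime := Fact.out
  have h := ModularFormClass.qCoeff_heckeU Φ (CongruenceSubgroup.one_mem_strictPeriods_Gamma0 p)
    hp.ne_zero n
  rw [coeffHeckeU_apply] at h
  rw [mul_comm]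
  exact h

/-- the function identity `Tr(Φ²) = Φ² + (1/p) U_p((U_pΦ)²)`. -/
theorem trsq_trace_apply (H : TrsqTrace p) (Φ : ModularForm (Gamma0 p) 2) (z : ℍ) :
    ModularForm.trace 𝒮ℒ (Φ.mul Φ) z =
      (Φ.mul Φ) z + (1 / (p : ℂ)) * heckeU (2 + 2) p ⇑((trsqU Φ).mul (trsqU Φ)) z := by
  have hp : p.Prime := Fact.out
  have hp0 : (p : ℂ) ≠ 0 := by exact_mod_cast hp.ne_zero
  rw [H.trace4 (Φ.mul Φ) z, heckeU_apply _ hp.ne_zero]
  congr 1
  rw [Finset.mul_sum, Finset.mul_sum]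
  refine Finset.sum_congr rfl (fun b _ => ?_)
  rw [ModularForm.coe_mul, ModularForm.mul_slash_SL2, Pi.mul_apply, H.slashST Φ b z,
    ModularForm.coe_mul, Pi.mul_apply, trsqU_coe]
  field_simp

/-- a level one form of weight `2 + 2` is its constant term times `E₄`, on coefficients. -/
theorem trsq_levelOne_coeff (G : ModularForm 𝒮ℒ (2 + 2)) (n : ℕ) :
    (qExpansion 1 G).coeff n = (qExpansion 1 G).coeff 0 * (qExpansion 1 E₄).coeff n := by
  obtain ⟨c, hc⟩ : ∃ c : ℂ, c = (qExpansion 1 G).coeff 0 := ⟨_, rfl⟩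
  obtain ⟨E', hE'⟩ : ∃ E' : ModularForm 𝒮ℒ (2 + 2), E' = mcast (by norm_num) E₄ := ⟨_, rfl⟩
  have hE'coe : (⇑E' : ℍ → ℂ) = ⇑E₄ := by rw [hE']; rfl
  have hanG := ModularFormClass.analyticAt_cuspFunction_zero G one_pos
    one_mem_strictPeriods_SL
  have hanE := ModularFormClass.analyticAt_cuspFunction_zero E' one_pos
    one_mem_strictPeriods_SL
  have hq : qExpansion 1 ⇑(G - c • E') = qExpansion 1 ⇑G - c • qExpansion 1 ⇑E₄ := by
    have e : (⇑(G - c • E') : ℍ → ℂ) = ⇑G - c • ⇑E' := rfl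
    have hanE' : AnalyticAt ℂ (cuspFunction 1 (c • (⇑E' : ℍ → ℂ))) 0 := by
      have := ModularFormClass.analyticAt_cuspFunction_zero (c • E') one_pos
        one_mem_strictPeriods_SL
      exact this
    rw [e, qExpansion_sub hanG hanE', qExpansion_smul hanE, hE'coe]
  have hD0 : (G - c • E') = 0 := by
    apply sturm_bound_levelOne
    have h12 : ((2 + 2 : ℤ).toNat / 12) = 0 := by decide
    rw [h12]
    have h1 : (1 : ℕ∞) ≤ (qExpansion 1 ⇑(G - c • E')).order := by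
      apply PowerSeries.le_order
      intro i hi
      have hi0 : i = 0 := by
        have : i < 1 := by exact_mod_cast hi
        omega
      subst hi0
      rw [hq, map_sub, PowerSeries.coeff_smul, E_qExpansion_coeff_zero (by norm_num) ⟨2, rfl⟩,
        ← hc]
      simp
    exact lt_of_lt_of_le (by norm_num) h1
  have h := congrArg (fun F : ModularForm 𝒮ℒ (2 + 2) => (qExpansion 1 ⇑F).coeff n) hD0
  rw [hq, map_sub, PowerSeries.coeff_smul] at h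
  have hz : (qExpansion 1 ⇑(0 : ModularForm 𝒮ℒ (2 + 2))).coeff n = 0 := by
    have : (⇑(0 : ModularForm 𝒮ℒ (2 + 2)) : ℍ → ℂ) = 0 := rfl
    rw [this, qExpansion_zero]
    simp
  rw [hz] at h
  rw [← hc]
  linear_combination h

/-- the coefficient identity `(p + 1) E₄ = p Φ² + U_p((U_pΦ)²)` in positive degrees. -/
theorem trsq_trace_coeff (H : TrsqTrace p) (Φ : ModularForm (Gamma0 p) 2)
    (h0 : (qExpansion 1 Φ).coeff 0 = 1) (n : ℕ) (hn : 0 < n) :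
    ((p : ℂ) + 1) * (240 * ((ArithmeticFunction.sigma 3 n : ℕ) : ℂ)) =
      p * (qExpansion 1 Φ * qExpansion 1 Φ).coeff n +
        (qExpansion 1 (trsqU Φ) * qExpansion 1 (trsqU Φ)).coeff (p * n) := by
  have hp : p.Prime := Fact.out
  have hp0 : (p : ℂ) ≠ 0 := by exact_mod_cast hp.ne_zero
  have : NeZero p := ⟨hp.ne_zero⟩
  have hper := CongruenceSubgroup.one_mem_strictPeriods_Gamma0 p
  -- the forms
  obtain ⟨F, hF⟩ : ∃ F : ModularForm (Gamma0 p) (2 + 2), F = Φ.mul Φ := ⟨_, rfl⟩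
  obtain ⟨Fs, hFs⟩ : ∃ Fs : ModularForm (Gamma0 p) (2 + 2), Fs = (trsqU Φ).mul (trsqU Φ) :=
    ⟨_, rfl⟩
  obtain ⟨W, hW⟩ : ∃ W : ModularForm (Gamma0 p) (2 + 2),
      W = ModularForm.heckeULin (2 + 2) (dvd_refl p) Fs := ⟨_, rfl⟩
  have hWcoe : (⇑W : ℍ → ℂ) = heckeU (2 + 2) p ⇑Fs := by rw [hW]; rfl
  obtain ⟨G, hG⟩ : ∃ G : ModularForm 𝒮ℒ (2 + 2), G = ModularForm.trace 𝒮ℒ F := ⟨_, rfl⟩
  -- `G = F + (1/p) W` as functions
  have hfun : (⇑G : ℍ → ℂ) = ⇑F + (1 / (p : ℂ)) • ⇑W := by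
    funext z
    rw [hG, hF, trsq_trace_apply H Φ z, Pi.add_apply, Pi.smul_apply, smul_eq_mul, hWcoe, hFs]
  -- `q`-expansions
  have hanF := ModularFormClass.analyticAt_cuspFunction_zero F one_pos hper
  have hanW := ModularFormClass.analyticAt_cuspFunction_zero W one_pos hper
  have hanW' : AnalyticAt ℂ (cuspFunction 1 ((1 / (p : ℂ)) • (⇑W : ℍ → ℂ))) 0 :=
    ModularFormClass.analyticAt_cuspFunction_zero ((1 / (p : ℂ)) • W) one_pos hper
  have hqG : qExpansion 1 ⇑G = qExpansion 1 ⇑F + (1 / (p : ℂ)) • qExpansion 1 ⇑W := by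
    rw [hfun, qExpansion_add hanF hanW', qExpansion_smul hanW]
  have hqF : qExpansion 1 ⇑F = qExpansion 1 Φ * qExpansion 1 Φ := by
    rw [hF]; exact ModularForm.qExpansion_mul one_pos hper Φ Φ
  have hqFs : qExpansion 1 ⇑Fs = qExpansion 1 (trsqU Φ) * qExpansion 1 (trsqU Φ) := by
    rw [hFs]; exact ModularForm.qExpansion_mul one_pos hper (trsqU Φ) (trsqU Φ)
  have hqW : ∀ m, (qExpansion 1 ⇑W).coeff m = (qExpansion 1 ⇑Fs).coeff (p * m) := by
    intro m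
    have h := ModularFormClass.qCoeff_heckeU Fs hper hp.ne_zero m
    rw [coeffHeckeU_apply] at h
    rw [hWcoe, mul_comm]
    exact h
  -- the constant term
  have hc0F : (qExpansion 1 ⇑F).coeff 0 = 1 := by
    rw [hqF, PowerSeries.coeff_mul]
    simp [h0]
  have hc0Fs : (qExpansion 1 ⇑Fs).coeff 0 = 1 := by
    rw [hqFs, PowerSeries.coeff_mul]
    simp [trsqU_coeff, h0]
  have hc0 : (qExpansion 1 ⇑G).coeff 0 = 1 + 1 / (p : ℂ) := by
    rw [hqG, map_add, PowerSeries.coeff_smul, hqW 0, mul_zero, hc0F, hc0Fs]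
    simp
  -- level one
  have hl := trsq_levelOne_coeff G n
  rw [hc0, trsq_E4_coeff n hn, hqG, map_add, PowerSeries.coeff_smul, hqW n, hqF, hqFs] at hl
  simp only [smul_eq_mul] at hl
  field_simp at hl
  linear_combination -hl

/-- the trace data of `Θ`. -/
theorem trsq_data (H : TrsqTrace p) (Θ : ModularForm (Gamma0 p) 2)
    (h0 : (qExpansion 1 Θ).coeff 0 = 1) :
    TrsqData p (fun n => ((ArithmeticFunction.sigma 3 n : ℕ) : ℂ)) (qExpansion 1 Θ)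
      (qExpansion 1 (trsqU Θ)) := by
  have hUU : trsqU (trsqU Θ) = Θ := by
    apply DFunLike.coe_injective
    rw [trsqU_coe, trsqU_coe]
    exact H.UU Θ
  have hB : ∀ n, (qExpansion 1 (trsqU Θ)).coeff n = (qExpansion 1 Θ).coeff (p * n) :=
    trsqU_coeff Θ
  have hA : ∀ n, (qExpansion 1 Θ).coeff n = (qExpansion 1 (trsqU Θ)).coeff (p * n) := by
    intro n
    have := trsqU_coeff (trsqU Θ) n
    rw [hUU] at this
    exact this
  have h0' : (qExpansion 1 (trsqU Θ)).coeff 0 = 1 := by rw [hB 0, mul_zero, h0]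
  refine ⟨hB, hA, h0, fun n hn => trsq_trace_coeff H Θ h0 n hn, fun n hn => ?_⟩
  have := trsq_trace_coeff H (trsqU Θ) h0' n hn
  rw [hUU] at this
  exact this

/-! ### `ℤ_(l)` and the `NoTheta` shape -/

/-- `ℤ_(l)` inside `ℂ`. -/
def trsqZl (l : ℕ) (hl : l.Prime) : Subring ℂ where
  carrier := {x | ∃ a b : ℤ, ¬ (l : ℤ) ∣ b ∧ (b : ℂ) * x = a}
  mul_mem' := by
    rintro x y ⟨a, b, hb, h⟩ ⟨a', b', hb', h'⟩
    refine ⟨a * a', b * b', ?_, ?_⟩
    · intro hd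
      rcases (Nat.prime_iff_prime_int.mp hl).dvd_or_dvd hd with h1 | h1
      · exact hb h1
      · exact hb' h1
    · push_cast; rw [← h, ← h']; ring
  one_mem' := by
    refine ⟨1, 1, ?_, by simp⟩
    intro hd
    have := Int.le_of_dvd one_pos hd
    have := hl.two_le
    omega
  add_mem' := by
    rintro x y ⟨a, b, hb, h⟩ ⟨a', b', hb', h'⟩
    refine ⟨a * b' + a' * b, b * b', ?_, ?_⟩
    · intro hd
      rcases (Nat.prime_iff_prime_int.mp hl).dvd_or_dvd hd with h1 | h1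
      · exact hb h1
      · exact hb' h1
    · push_cast; rw [← h, ← h']; ring
  zero_mem' := by
    refine ⟨0, 1, ?_, by simp⟩
    intro hd
    have := Int.le_of_dvd one_pos hd
    have := hl.two_le
    omega
  neg_mem' := by
    rintro x ⟨a, b, hb, h⟩
    exact ⟨-a, b, hb, by push_cast; rw [← h]; ring⟩

theorem trsqZl_not_dvd_one (l : ℕ) (hl : l.Prime) :
    ¬ ∃ y ∈ trsqZl l hl, (1 : ℂ) = (l : ℂ) * y := by
  rintro ⟨y, ⟨a, b, hb, h⟩, h1⟩
  apply hb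
  refine ⟨a, ?_⟩
  have : ((b : ℤ) : ℂ) = (((l : ℤ) * a : ℤ) : ℂ) := by
    push_cast
    rw [← h]
    linear_combination (b : ℂ) * h1
  exact_mod_cast this

/-- from the `NoTheta` hypothesis to the subring form. -/
theorem trsqZl_of_hyp (l : ℕ) (hl : l.Prime) (j : ℕ) (c : ℂ)
    (h : ∃ a b : ℤ, ¬ (l : ℤ) ∣ b ∧ (b : ℂ) * c = (l : ℂ) ^ j * a) :
    ∃ x ∈ trsqZl l hl, c = (l : ℂ) ^ j * x := by
  obtain ⟨a, b, hb, h⟩ := h
  have hb0 : (b : ℂ) ≠ 0 := by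
    have : b ≠ 0 := by rintro rfl; exact hb (dvd_zero _)
    exact_mod_cast this
  refine ⟨a / b, ⟨a, b, hb, by field_simp⟩, ?_⟩
  field_simp
  linear_combination h

/-- `l = 3`, `p ≡ 1 mod 3`: `NoTheta p 3 1` (given the trace facts). -/
theorem trsq_noTheta_three_of (H : TrsqTrace p) (hp3 : p % 3 = 1)
    (Θ : ModularForm (Gamma0 p) 2) (h0 : (qExpansion 1 Θ).coeff 0 = 1)
    (h : ∀ k : ℕ, 0 < k → ∃ a b : ℤ, ¬ ((3 : ℕ) : ℤ) ∣ b ∧
      (b : ℂ) * (qExpansion 1 Θ).coeff k = ((3 : ℕ) : ℂ) ^ 1 * a) : False := by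
  have hp : p.Prime := Fact.out
  have h' : ∀ n, 0 < n → ∃ x ∈ trsqZl 3 Nat.prime_three, (qExpansion 1 Θ).coeff n = 3 * x := by
    intro n hn
    obtain ⟨x, hx, hxe⟩ := trsqZl_of_hyp 3 Nat.prime_three 1 _ (h n hn)
    exact ⟨x, hx, by rw [hxe]; push_cast; ring⟩
  obtain ⟨y, hy, hy1⟩ := trsq_false_three_complex (trsqZl 3 Nat.prime_three) hp hp3
    (trsq_data H Θ h0) h'
  exact trsqZl_not_dvd_one 3 Nat.prime_three ⟨y, hy, by rw [hy1]; push_cast; ring⟩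

/-- `l = 2`, `p ≡ 1 mod 4`: `NoTheta p 2 2` (given the trace facts). -/
theorem trsq_noTheta_four_of (H : TrsqTrace p) (hp4 : p % 4 = 1)
    (Θ : ModularForm (Gamma0 p) 2) (h0 : (qExpansion 1 Θ).coeff 0 = 1)
    (h : ∀ k : ℕ, 0 < k → ∃ a b : ℤ, ¬ ((2 : ℕ) : ℤ) ∣ b ∧
      (b : ℂ) * (qExpansion 1 Θ).coeff k = ((2 : ℕ) : ℂ) ^ 2 * a) : False := by
  have hp : p.Prime := Fact.out
  have h' : ∀ n, 0 < n → ∃ x ∈ trsqZl 2 Nat.prime_two, (qExpansion 1 Θ).coeff n = 4 * x := by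
    intro n hn
    obtain ⟨x, hx, hxe⟩ := trsqZl_of_hyp 2 Nat.prime_two 2 _ (h n hn)
    exact ⟨x, hx, by rw [hxe]; push_cast; ring⟩
  obtain ⟨y, hy, hy1⟩ := trsq_false_four_complex (trsqZl 2 Nat.prime_two) hp hp4
    (trsq_data H Θ h0) h'
  exact trsqZl_not_dvd_one 2 Nat.prime_two ⟨y, hy, by rw [hy1]; push_cast; ring⟩

/-- `l = 2`, `p ≡ 3 mod 8`: `NoTheta p 2 3` (given the trace facts). -/
theorem trsq_noTheta_eight_of (H : TrsqTrace p) (hp8 : p % 8 = 3)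
    (Θ : ModularForm (Gamma0 p) 2) (h0 : (qExpansion 1 Θ).coeff 0 = 1)
    (h : ∀ k : ℕ, 0 < k → ∃ a b : ℤ, ¬ ((2 : ℕ) : ℤ) ∣ b ∧
      (b : ℂ) * (qExpansion 1 Θ).coeff k = ((2 : ℕ) : ℂ) ^ 3 * a) : False := by
  have hp : p.Prime := Fact.out
  have h' : ∀ n, 0 < n → ∃ x ∈ trsqZl 2 Nat.prime_two, (qExpansion 1 Θ).coeff n = 8 * x := by
    intro n hn
    obtain ⟨x, hx, hxe⟩ := trsqZl_of_hyp 2 Nat.prime_two 3 _ (h n hn)
    exact ⟨x, hx, by rw [hxe]; push_cast; ring⟩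
  obtain ⟨y, hy, hy1⟩ := trsq_false_eight_complex (trsqZl 2 Nat.prime_two) hp (Or.inr hp8)
    (trsq_data H Θ h0) h'
  exact trsqZl_not_dvd_one 2 Nat.prime_two ⟨y, hy, by rw [hy1]; push_cast; ring⟩

/-! ### Final statements -/

/-- the trace facts, from `TraceLemma.lean`. -/
theorem trsq_trace : TrsqTrace p :=
  ⟨fun F z => tl_trace_apply F z, fun F b z => tl_slash_ST_two' F b z,
    fun F => tl_heckeU_heckeU F⟩

/-- **Key Lemma, `l = 3`, `p ≡ 1 mod 3`**: no `Θ ≡ 1 mod 3`. -/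
theorem trsq_three (hp3 : p % 3 = 1) {Θ : ModularForm (Gamma0 p) 2} (h : ThetaCong p 3 1 Θ) :
    False :=
  trsq_noTheta_three_of trsq_trace hp3 Θ h.1
    (fun k hk => let ⟨m, a, hm, e⟩ := h.2 k hk; ⟨a, m, hm, e⟩)

/-- **Key Lemma, `l = 2`, `p ≡ 1 mod 4`**: no `Θ ≡ 1 mod 4`. -/
theorem trsq_four (hp4 : p % 4 = 1) {Θ : ModularForm (Gamma0 p) 2} (h : ThetaCong p 2 2 Θ) :
    False :=
  trsq_noTheta_four_of trsq_trace hp4 Θ h.1
    (fun k hk => let ⟨m, a, hm, e⟩ := h.2 k hk; ⟨a, m, hm, e⟩)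

/-- **Key Lemma, `l = 2`, `p ≡ 3 mod 8`**: no `Θ ≡ 1 mod 8`. -/
theorem trsq_eight (hp8 : p % 8 = 3) {Θ : ModularForm (Gamma0 p) 2} (h : ThetaCong p 2 3 Θ) :
    False :=
  trsq_noTheta_eight_of trsq_trace hp8 Θ h.1
    (fun k hk => let ⟨m, a, hm, e⟩ := h.2 k hk; ⟨a, m, hm, e⟩)

end Fermat.Agent.S16
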