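import Mathlib
import Fermat.Agent.S16.ThetaCong

/-!
# S16, upper bound, Step Δ (helper83): the arithmetic of the twisted trace identities

Pure power series arithmetic.  With `a = qExp Θ` (`a₀ = 1`, `aₙ ∈ ℓ^j Ol` for `n ≥ 1`) and
`D = Δ = ∑ τ(n) qⁿ`, the two exact identities

* `(T1)`  `p¹² · [a · D(q^p)]_m = [(U_p a) · D]_{pm}`       (from `Tr(Θ · Δ(p·)) ∈ S₁₄ = 0`)
* `(T2)`  `τ(p²) = τ(p)² - p¹¹`                              (from `Tr(Δ(p·)) ∈ S₁₂ = ℂ Δ`)

force `ℓ^j ∣ p + 1` (for a prime `ℓ ≠ p`).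
-/

set_option autoImplicit false

open PowerSeries

namespace Fermat.Agent.S16

/-- the `U_p`-series `∑ a_{pn} qⁿ`. -/
noncomputable def tt_U (p : ℕ) (a : PowerSeries ℂ) : PowerSeries ℂ :=
  PowerSeries.mk fun n => coeff (p * n) a

theorem tt_U_coeff (p : ℕ) (a : PowerSeries ℂ) (n : ℕ) : coeff n (tt_U p a) = coeff (p * n) a := by
  simp [tt_U]

/-- the coefficient `N` of `(U_p a) · D` is `D_N` modulo `ℓ^j Ol` when `a₀ = 1` and the higher
coefficients of `a` lie in `ℓ^j Ol`. -/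
theorem tt_coeff_U_mul (p l j : ℕ) (hp : 0 < p) (a : PowerSeries ℂ) (ha0 : coeff 0 a = 1)
    (hal : ∀ n, 0 < n → coeff n a ∈ OlIdeal l j) (D : PowerSeries ℤ) (N : ℕ) :
    coeff N (tt_U p a * D.map (Int.castRingHom ℂ)) - (D.coeff N : ℂ) ∈ OlIdeal l j := by
  classical
  rw [coeff_mul]
  have hmem : ((0, N) : ℕ × ℕ) ∈ Finset.HasAntidiagonal.antidiagonal N := by simp
  rw [← Finset.add_sum_erase _ _ hmem]
  have h0 : coeff (0, N).1 (tt_U p a) * coeff (0, N).2 (D.map (Int.castRingHom ℂ))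
      = (D.coeff N : ℂ) := by
    simp [tt_U_coeff, ha0]
  rw [h0, add_sub_cancel_left]
  refine AddSubgroup.sum_mem _ fun x hx => ?_
  rw [Finset.mem_erase, Finset.HasAntidiagonal.mem_antidiagonal] at hx
  have hx1 : 0 < x.1 := by
    rcases Nat.eq_zero_or_pos x.1 with h | h
    · exfalso
      apply hx.1
      have : x.2 = N := by omega
      exact Prod.ext h this
    · exact h
  rw [tt_U_coeff, coeff_map, mul_comm]
  refine mul_mem_OlIdeal ?_ (hal _ (Nat.mul_pos hp hx1))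
  simpa using intCast_mem (Ol l) (D.coeff x.2)

/-- **Step Δ, arithmetic.** -/
theorem tt_abstract (p l j : ℕ) (hp : p.Prime) (hl : l.Prime) (hlp : l ≠ p)
    (a : PowerSeries ℂ) (ha0 : coeff 0 a = 1) (hal : ∀ n, 0 < n → coeff n a ∈ OlIdeal l j)
    (D : PowerSeries ℤ) (hD0 : D.coeff 0 = 0) (hD1 : D.coeff 1 = 1)
    (hT1 : ∀ m : ℕ, (p : ℂ) ^ 12 * coeff m (a * expand p hp.ne_zero (D.map (Int.castRingHom ℂ)))
      = coeff (p * m) (tt_U p a * D.map (Int.castRingHom ℂ)))
    (hT2 : D.coeff (p * p) = D.coeff p ^ 2 - (p : ℤ) ^ 11) :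
    (l : ℤ) ^ j ∣ (p : ℤ) + 1 := by
  classical
  have hp2 := hp.two_le
  set Dc := D.map (Int.castRingHom ℂ) with hDc
  -- `m = 1`
  have h1 : coeff 1 (a * expand p hp.ne_zero Dc) = 0 := by
    rw [coeff_mul]
    refine Finset.sum_eq_zero fun x hx => ?_
    rw [Finset.HasAntidiagonal.mem_antidiagonal] at hx
    rw [coeff_expand]
    split_ifs with hd
    · have hx2 : x.2 = 0 := by
        rcases Nat.eq_zero_or_pos x.2 with h | h
        · exact h
        · have := Nat.le_of_dvd h hd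
          omega
      rw [hx2, Nat.zero_div, hDc, coeff_map, hD0]
      simp
    · rw [mul_zero]
  have e1 := hT1 1
  rw [h1, mul_zero, mul_one] at e1
  have hτp : (l : ℤ) ^ j ∣ D.coeff p := by
    apply int_mem_OlIdeal
    have := tt_coeff_U_mul p l j hp.pos a ha0 hal D p
    rw [← e1, zero_sub] at this
    have h2 := (OlIdeal l j).neg_mem this
    rwa [neg_neg] at h2
  -- `m = p`
  have hpp : coeff p (a * expand p hp.ne_zero Dc) = 1 := by
    rw [coeff_mul]
    have hmem : ((0, p) : ℕ × ℕ) ∈ Finset.HasAntidiagonal.antidiagonal p := by simp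
    rw [Finset.sum_eq_single_of_mem _ hmem]
    · rw [coeff_expand, if_pos dvd_rfl, Nat.div_self hp.pos, ha0, hDc, coeff_map, hD1]
      simp
    · intro x hx hne
      rw [Finset.HasAntidiagonal.mem_antidiagonal] at hx
      rw [coeff_expand]
      split_ifs with hd
      · have hx2 : x.2 = 0 := by
          rcases Nat.eq_zero_or_pos x.2 with h | h
          · exact h
          · exfalso
            have hle := Nat.le_of_dvd h hd
            have : x.2 = p := by omega
            apply hne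
            exact Prod.ext (by omega) this
        rw [hx2, Nat.zero_div, hDc, coeff_map, hD0]
        simp
      · rw [mul_zero]
  have e2 := hT1 p
  rw [hpp, mul_one] at e2
  have h3 := tt_coeff_U_mul p l j hp.pos a ha0 hal D (p * p)
  rw [← e2] at h3
  have h4 : (((p : ℤ) ^ 12 - D.coeff (p * p) : ℤ) : ℂ) ∈ OlIdeal l j := by
    push_cast
    exact h3
  have h5 := int_mem_OlIdeal h4
  rw [hT2] at h5
  -- `ℓ^j ∣ p^11 (p + 1)`
  have h6 : (l : ℤ) ^ j ∣ (p : ℤ) ^ 11 * ((p : ℤ) + 1) := by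
    have h7 : (l : ℤ) ^ j ∣ D.coeff p ^ 2 := dvd_trans hτp (dvd_pow_self _ (by norm_num))
    have h8 := dvd_add h5 h7
    have e : (p : ℤ) ^ 12 - (D.coeff p ^ 2 - (p : ℤ) ^ 11) + D.coeff p ^ 2
        = (p : ℤ) ^ 11 * ((p : ℤ) + 1) := by ring
    rwa [e] at h8
  have hcop : IsCoprime ((l : ℤ) ^ j) ((p : ℤ) ^ 11) := by
    apply IsCoprime.pow
    rw [Int.isCoprime_iff_gcd_eq_one, Int.gcd_natCast_natCast]
    exact (Nat.coprime_primes hl hp).mpr hlp
  exact hcop.dvd_of_dvd_mul_left h6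

end Fermat.Agent.S16
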