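import Mathlib
import Fermat.Agent.S16.TraceLemma
import Fermat.Agent.S16.TwistAlg
import Fermat.Agent.S23.T

/-!
# S16, upper bound: the generic twisted trace lemma (helper83)

For `G ∈ M₂(Γ₀(p))` and a level one form `H` of weight `k`, the trace to level one of
`G · H(p·)` is a level one form of weight `2 + k` with `q`-expansion coefficients

  `[G · H(q^p)]_m - p^(-k) · [(U_p G) · H]_{pm}`.

* `tw_V p H`           : `z ↦ H(p z)` as a modular form on `Γ₀(p)`;
* `tw_V_qExpansion`    : its `q`-expansion is `expand p (qExpansion 1 H)`;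
* `tw_fricke_V`        : its Fricke transform is `p⁻¹ H`;
* `tw_trace_coeff`     : coefficients of `Tr (G · H(p·))`;
* `tw_trace_V_coeff`   : coefficients of `Tr (H(p·))`.
-/

set_option autoImplicit false

open UpperHalfPlane ModularForm CongruenceSubgroup Matrix
open scoped MatrixGroups ModularForm

namespace Fermat.Agent.S16

noncomputable section

section V

variable {p : ℕ} [NeZero p] {k : ℤ}

/-- The slash translate `H ∣[k] diag(p, 1)`, as a modular form of level `Γ₀(p)`. -/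
def tw_VAux (p : ℕ) [NeZero p] {k : ℤ} (H : ModularForm 𝒮ℒ k) : ModularForm (Gamma0 p) k where
  toFun := ⇑H ∣[k] heckeDiagMatrix p
  slash_action_eq' γ hγ :=
    (ModularForm.translate H (heckeDiagMatrix p)).slash_action_eq' γ
      (Fermat.Agent.S23.Gamma0_le_conj p hγ)
  holo' := (ModularForm.translate H (heckeDiagMatrix p)).holo'
  bdd_at_cusps' hc :=
    (ModularForm.translate H (heckeDiagMatrix p)).bdd_at_cusps'
      (hc.mono (Fermat.Agent.S23.Gamma0_le_conj p))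

/-- The form `z ↦ H(p z)` of weight `k` and level `Γ₀(p)`. -/
def tw_V (p : ℕ) [NeZero p] {k : ℤ} (H : ModularForm 𝒮ℒ k) : ModularForm (Gamma0 p) k :=
  (((p : ℂ) ^ (k - 1))⁻¹ : ℂ) • tw_VAux p H

theorem tw_V_apply (H : ModularForm 𝒮ℒ k) (z : ℍ) :
    tw_V p H z = H (heckeDiagMatrix p • z) := by
  have hp : p ≠ 0 := NeZero.ne p
  have hp' : (p : ℂ) ≠ 0 := by exact_mod_cast hp
  show ((p : ℂ) ^ (k - 1))⁻¹ • (⇑H ∣[k] heckeDiagMatrix p) z = _
  rw [slash_heckeDiagMatrix_apply k hp, smul_eq_mul, ← mul_assoc,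
    inv_mul_cancel₀ (zpow_ne_zero _ hp'), one_mul]

theorem tw_V_hasSum (H : ModularForm 𝒮ℒ k) (τ : ℍ) :
    HasSum (fun n : ℕ => (PowerSeries.expand p (NeZero.ne p) (qExpansion 1 H)).coeff n •
      Function.Periodic.qParam 1 (τ : ℂ) ^ n) (tw_V p H τ) := by
  have hp : p ≠ 0 := NeZero.ne p
  have h := ModularForm.hasSum_qExpansion H one_pos one_mem_strictPeriods_SL
    (heckeDiagMatrix p • τ)
  rw [Fermat.Agent.S23.qParam_heckeDiagMatrix_smul, ← tw_V_apply] at h
  have hinj : Function.Injective (fun m : ℕ => p * m) :=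
    fun a b hab => Nat.eq_of_mul_eq_mul_left (Nat.pos_of_ne_zero hp) hab
  rw [← hinj.hasSum_iff]
  · convert h using 1
    funext m
    simp only [Function.comp_apply, smul_eq_mul, PowerSeries.coeff_expand_mul, pow_mul]
  · intro n hn
    have hnd : ¬ p ∣ n := fun ⟨m, hm⟩ => hn ⟨m, hm.symm⟩
    simp [PowerSeries.coeff_expand, hnd]

theorem tw_V_qExpansion (H : ModularForm 𝒮ℒ k) :
    qExpansion 1 (tw_V p H) = PowerSeries.expand p (NeZero.ne p) (qExpansion 1 H) := by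
  ext n
  exact (ModularFormClass.qExpansion_coeff_unique one_pos
    (CongruenceSubgroup.one_mem_strictPeriods_Gamma0 p) (tw_V_hasSum H) n).symm

omit [NeZero p] in
theorem tw_heckeMatrix_heckeDiag_smul (hp : p ≠ 0) (z : ℍ) :
    heckeMatrix p 0 • (heckeDiagMatrix p • z) = z := by
  apply UpperHalfPlane.ext
  rw [coe_heckeMatrix_smul hp, coe_heckeDiagMatrix_smul hp]
  have : (p : ℂ) ≠ 0 := by exact_mod_cast hp
  field_simp
  simp

omit [NeZero p] in
theorem tw_heckeDiag_S_heckeDiag_smul (hp : p ≠ 0) (z : ℍ) :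
    heckeDiagMatrix p • (ModularGroup.S • (heckeDiagMatrix p • z)) = ModularGroup.S • z := by
  apply UpperHalfPlane.ext
  rw [coe_heckeDiagMatrix_smul hp, UpperHalfPlane.modular_S_smul, UpperHalfPlane.modular_S_smul]
  show (p : ℂ) * (-((heckeDiagMatrix p • z : ℍ) : ℂ))⁻¹ = (-(z : ℂ))⁻¹
  rw [coe_heckeDiagMatrix_smul hp]
  have hp' : (p : ℂ) ≠ 0 := by exact_mod_cast hp
  have hz : (z : ℂ) ≠ 0 := UpperHalfPlane.ne_zero z
  field_simp

/-- level one forms: `H(-1/z) = z^k H(z)`. -/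
theorem tw_levelOne_S (H : ModularForm 𝒮ℒ k) (z : ℍ) :
    H (ModularGroup.S • z) = H z * (z : ℂ) ^ k := by
  have h := SlashInvariantFormClass.slash_action_eq H (ModularGroup.S : SL(2, ℤ))
    ⟨ModularGroup.S, rfl⟩
  have h2 := congrFun h z
  have h3 : (⇑H ∣[k] (ModularGroup.S : SL(2, ℤ))) z = H z := h2
  rw [SL_slash_apply, ModularGroup.denom_S] at h3
  have hz : (z : ℂ) ≠ 0 := UpperHalfPlane.ne_zero z
  rw [← h3, mul_assoc, ← zpow_add₀ hz, neg_add_cancel, zpow_zero, mul_one]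

/-- The Fricke transform of `H(p·)` is `p⁻¹ H`. -/
theorem tw_fricke_V (H : ModularForm 𝒮ℒ k) (z : ℍ) :
    tl_fricke (tw_V p H) z = (p : ℂ)⁻¹ * H z := by
  have hp : p ≠ 0 := NeZero.ne p
  have hp' : (p : ℂ) ≠ 0 := by exact_mod_cast hp
  have hz : (z : ℂ) ≠ 0 := UpperHalfPlane.ne_zero z
  rw [tl_fricke_apply, SL_slash_apply, ModularGroup.denom_S, tw_V_apply,
    tw_heckeDiag_S_heckeDiag_smul hp, tw_levelOne_S, coe_heckeDiagMatrix_smul hp, mul_zpow]
  have e1 : (z : ℂ) ^ k * (z : ℂ) ^ (-k) = 1 := by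
    rw [← zpow_add₀ hz, add_neg_cancel, zpow_zero]
  have e2 : (p : ℂ) ^ (k - 1) * (p : ℂ) ^ (-k) = (p : ℂ)⁻¹ := by
    rw [← zpow_add₀ hp', show k - 1 + -k = -1 by ring, _root_.zpow_neg_one]
  calc (p : ℂ) ^ (k - 1) * (H z * (z : ℂ) ^ k * ((p : ℂ) ^ (-k) * (z : ℂ) ^ (-k)))
      = ((p : ℂ) ^ (k - 1) * (p : ℂ) ^ (-k)) * H z * ((z : ℂ) ^ k * (z : ℂ) ^ (-k)) := by ring
    _ = (p : ℂ)⁻¹ * H z := by rw [e1, e2, mul_one]

/-- The Fricke transform of a product. -/
theorem tw_fricke_mul {k₁ k₂ : ℤ} (F₁ : ModularForm (Gamma0 p) k₁)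
    (F₂ : ModularForm (Gamma0 p) k₂) (z : ℍ) :
    tl_fricke (F₁.mul F₂) z = (p : ℂ) * tl_fricke F₁ z * tl_fricke F₂ z := by
  have hp' : (p : ℂ) ≠ 0 := by exact_mod_cast NeZero.ne p
  rw [tl_fricke_apply, tl_fricke_apply, tl_fricke_apply, ModularForm.coe_mul, mul_slash_SL2,
    Pi.mul_apply]
  have e : (p : ℂ) ^ (k₁ + k₂ - 1) = (p : ℂ) * (p : ℂ) ^ (k₁ - 1) * (p : ℂ) ^ (k₂ - 1) := by
    rw [mul_assoc, ← zpow_add₀ hp', ← zpow_one_add₀ hp']
    congr 1
    ring
  rw [e]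
  ring

end V

section trace

variable {p : ℕ} [Fact p.Prime] {k : ℤ}

/-- Coefficients of the trace to level one, in terms of the Fricke transform. -/
theorem tw_trace_coeff_fricke (F : ModularForm (Gamma0 p) k) (m : ℕ) :
    (qExpansion 1 (tl_trace F)).coeff m =
      (qExpansion 1 F).coeff m + (p : ℂ) ^ (2 - k) * (qExpansion 1 (tl_fricke F)).coeff (m * p) := by
  have hΓ := CongruenceSubgroup.one_mem_strictPeriods_Gamma0 p
  have hfun : (⇑(tl_trace F) : ℍ → ℂ) =
      ⇑F + ⇑(((p : ℂ) ^ (2 - k)) • ModularForm.heckeULin k (dvd_refl p) (tl_fricke F)) := by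
    funext z
    show ModularForm.trace 𝒮ℒ F z = _
    rw [tl_trace_eq]
    rfl
  rw [hfun, ModularForm.qExpansion_add one_pos hΓ F
    (((p : ℂ) ^ (2 - k)) • ModularForm.heckeULin k (dvd_refl p) (tl_fricke F)),
    FunLike.coe_smul,
    ModularForm.qExpansion_smul one_pos hΓ, map_add, PowerSeries.coeff_smul, smul_eq_mul]
  congr 2
  exact ModularFormClass.qCoeff_heckeU (tl_fricke F) hΓ (NeZero.ne p) m

/-- **Generic twisted trace lemma.** -/
theorem tw_trace_coeff (G : ModularForm (Gamma0 p) 2) (H : ModularForm 𝒮ℒ k) (m : ℕ) :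
    (qExpansion 1 (tl_trace (G.mul (tw_V p H)))).coeff m =
      (qExpansion 1 G * PowerSeries.expand p (NeZero.ne p) (qExpansion 1 H)).coeff m
        - (p : ℂ) ^ (-k) * (tt_U p (qExpansion 1 G) * qExpansion 1 H).coeff (p * m) := by
  have hΓ := CongruenceSubgroup.one_mem_strictPeriods_Gamma0 p
  have hp' : (p : ℂ) ≠ 0 := by exact_mod_cast NeZero.ne p
  rw [tw_trace_coeff_fricke, ModularForm.qExpansion_mul one_pos hΓ, tw_V_qExpansion]
  -- the Fricke transform of the product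
  have hfr : (⇑(tl_fricke (G.mul (tw_V p H))) : ℍ → ℂ) = ⇑(-tl_U G) * ⇑H := by
    funext z
    rw [tw_fricke_mul, tw_fricke_V, tl_fricke_eq_neg_U, Pi.mul_apply]
    field_simp
  have hq : qExpansion 1 (tl_fricke (G.mul (tw_V p H))) =
      -(tt_U p (qExpansion 1 G) * qExpansion 1 H) := by
    rw [hfr, UpperHalfPlane.qExpansion_mul
      (ModularFormClass.analyticAt_cuspFunction_zero (-tl_U G) one_pos hΓ)
      (ModularFormClass.analyticAt_cuspFunction_zero H one_pos one_mem_strictPeriods_SL),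
      FunLike.coe_neg, ModularForm.qExpansion_neg one_pos hΓ]
    have hU : qExpansion 1 (tl_U G) = tt_U p (qExpansion 1 G) := by
      ext n
      rw [tl_qExpansion_U_coeff, tt_U_coeff, mul_comm]
    rw [hU, neg_mul]
  rw [hq, map_neg, mul_comm m p]
  have e : (2 : ℤ) - (2 + k) = -k := by ring
  rw [e]
  ring

/-- Coefficients of the trace of `H(p·)`. -/
theorem tw_trace_V_coeff (H : ModularForm 𝒮ℒ k) (m : ℕ) :
    (qExpansion 1 (tl_trace (tw_V p H))).coeff m =
      (PowerSeries.expand p (NeZero.ne p) (qExpansion 1 H)).coeff m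
        + (p : ℂ) ^ (1 - k) * (qExpansion 1 H).coeff (p * m) := by
  have hp' : (p : ℂ) ≠ 0 := by exact_mod_cast NeZero.ne p
  rw [tw_trace_coeff_fricke, tw_V_qExpansion]
  have hfr : (⇑(tl_fricke (tw_V p H)) : ℍ → ℂ) = ((p : ℂ)⁻¹) • ⇑H := by
    funext z
    rw [tw_fricke_V]
    rfl
  rw [hfr, ModularForm.qExpansion_smul one_pos one_mem_strictPeriods_SL, PowerSeries.coeff_smul,
    smul_eq_mul, mul_comm m p, ← mul_assoc]
  congr 2
  rw [← _root_.zpow_neg_one, ← zpow_add₀ hp']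
  congr 1
  ring

end trace

end

end Fermat.Agent.S16
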