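import Mathlib
import Fermat.Agent.S16.TwistLemma
import Fermat.Agent.S16.LevelOneSturm

/-!
# S16, upper bound, Step Δ (helper83): no `Θ ≡ 1 mod ℓ^j` unless `ℓ^j ∣ p + 1`

For a prime `ℓ ≠ p` and `Θ ∈ M₂(Γ₀(p))` with `a₀(Θ) = 1`, `aₙ(Θ) ∈ ℓ^j Ol` (`n ≥ 1`):

* `Tr(Θ · Δ(p·))` is a level one form of weight `14` with vanishing constant term, hence zero;
  this is the identity `(T1)` of `TwistAlg`;
* `Tr(Δ(p·))` is a level one cusp form of weight `12`, hence a multiple of `Δ`; comparing the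
  coefficients of `q` and `q^p` gives `τ(p²) = τ(p)² - p¹¹`, the identity `(T2)`;
* `tt_abstract` then gives `ℓ^j ∣ p + 1`.

Main export: `tt_noTheta`.
-/

set_option autoImplicit false

open UpperHalfPlane ModularForm CongruenceSubgroup
open scoped MatrixGroups ModularForm

namespace Fermat.Agent.S16

noncomputable section

/-- `Δ` as a modular form of level one. -/
def tt_DeltaM : ModularForm 𝒮ℒ 12 := CuspForm.toModularFormₗ CuspForm.discriminant

theorem tt_DeltaM_coe : (⇑tt_DeltaM : ℍ → ℂ) = ⇑CuspForm.discriminant := rfl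

theorem tt_DeltaM_qExpansion :
    qExpansion 1 tt_DeltaM = sturmDelta.map (Int.castRingHom ℂ) := by
  rw [tt_DeltaM_coe]
  exact sturm_delta_qExpansion

/-- A level one form of weight `k = 2 + 12` with vanishing constant term vanishes. -/
theorem tt_weight_fourteen_zero (T : ModularForm 𝒮ℒ ((2 : ℤ) + 12))
    (h0 : (qExpansion 1 T).coeff 0 = 0) : qExpansion 1 T = 0 := by
  have haux : ∀ (k : ℤ) (_ : k = 2) (G : ModularForm 𝒮ℒ k), G = 0 := by
    intro k hk G
    subst hk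
    exact tl_levelOne_weight_two G
  have hz : CuspForm.discriminantEquiv (toCuspForm T h0) = 0 := haux _ (by norm_num) _
  have hT : (⇑T : ℍ → ℂ) = 0 := by
    funext z
    have h := ModularForm.discriminant_mul_discriminantEquiv_apply (toCuspForm T h0) z
    rw [hz] at h
    simpa using h.symm
  rw [hT]
  exact qExpansion_zero 1

variable {p : ℕ} [Fact p.Prime]

/-- `(T1)`: the trace of `Θ · Δ(p·)` vanishes. -/
theorem tt_T1 (Θ : ModularForm (Gamma0 p) 2) (m : ℕ) :
    (p : ℂ) ^ 12 * (qExpansion 1 Θ * PowerSeries.expand p (Fact.out : p.Prime).ne_zero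
        (sturmDelta.map (Int.castRingHom ℂ))).coeff m
      = (tt_U p (qExpansion 1 Θ) * sturmDelta.map (Int.castRingHom ℂ)).coeff (p * m) := by
  have hp : p ≠ 0 := (Fact.out : p.Prime).ne_zero
  have hp' : (p : ℂ) ≠ 0 := by exact_mod_cast hp
  have hc := tw_trace_coeff Θ tt_DeltaM
  rw [tt_DeltaM_qExpansion] at hc
  -- the constant term vanishes
  have h0 : (qExpansion 1 (tl_trace (Θ.mul (tw_V p tt_DeltaM)))).coeff 0 = 0 := by
    rw [hc 0]
    simp [PowerSeries.coeff_mul, PowerSeries.coeff_expand, sturmDelta_coeff_zero]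
  have hz := tt_weight_fourteen_zero _ h0
  have hm := hc m
  rw [hz, map_zero] at hm
  have hpz : (p : ℂ) ^ (12 : ℕ) * (p : ℂ) ^ (-(12 : ℤ)) = 1 := by
    rw [zpow_neg, ← zpow_natCast]
    exact mul_inv_cancel₀ (zpow_ne_zero _ hp')
  linear_combination (p : ℂ) ^ 12 * hm.symm +
    (tt_U p (qExpansion 1 Θ) * sturmDelta.map (Int.castRingHom ℂ)).coeff (p * m) * hpz

/-- `(T2)`: `τ(p²) = τ(p)² - p¹¹`. -/
theorem tt_T2 (p : ℕ) [Fact p.Prime] :
    sturmDelta.coeff (p * p) = sturmDelta.coeff p ^ 2 - (p : ℤ) ^ 11 := by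
  have hp : p ≠ 0 := (Fact.out : p.Prime).ne_zero
  have hp2 : 2 ≤ p := (Fact.out : p.Prime).two_le
  have hp' : (p : ℂ) ≠ 0 := by exact_mod_cast hp
  have hc := tw_trace_V_coeff (p := p) tt_DeltaM
  rw [tt_DeltaM_qExpansion] at hc
  have h0 : (qExpansion 1 (tl_trace (tw_V p tt_DeltaM))).coeff 0 = 0 := by
    rw [hc 0]
    simp [PowerSeries.coeff_expand, sturmDelta_coeff_zero]
  obtain ⟨c, hcΔ⟩ := CuspForm.exists_smul_discriminant_of_weight_eq_twelve
    (toCuspForm (tl_trace (tw_V p tt_DeltaM)) h0)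
  have hfun : (⇑(tl_trace (tw_V p tt_DeltaM)) : ℍ → ℂ) = c • ⇑CuspForm.discriminant := by
    funext z
    have := congrArg (fun f : CuspForm 𝒮ℒ 12 => f z) hcΔ
    simpa using this.symm
  have hq : qExpansion 1 (tl_trace (tw_V p tt_DeltaM)) =
      c • sturmDelta.map (Int.castRingHom ℂ) := by
    rw [hfun, ← sturm_delta_qExpansion]
    exact ModularForm.qExpansion_smul one_pos one_mem_strictPeriods_SL c CuspForm.discriminant
  -- coefficient of `q`
  have h1 := hc 1
  rw [hq] at h1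
  have hnd : ¬ p ∣ 1 := fun h => by
    have := Nat.le_of_dvd one_pos h
    omega
  simp only [PowerSeries.coeff_smul, PowerSeries.coeff_map, sturmDelta_coeff_one,
    PowerSeries.coeff_expand, hnd, if_false, mul_one, smul_eq_mul, zero_add,
    eq_intCast, Int.cast_one] at h1
  -- coefficient of `q^p`
  have hpp := hc p
  rw [hq] at hpp
  simp only [PowerSeries.coeff_smul, PowerSeries.coeff_map, PowerSeries.coeff_expand,
    dvd_refl, if_true, Nat.div_self (Nat.pos_of_ne_zero hp), sturmDelta_coeff_one,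
    smul_eq_mul, eq_intCast, Int.cast_one] at hpp
  rw [h1] at hpp
  have hz : (p : ℂ) ^ (11 : ℕ) * (p : ℂ) ^ ((1 : ℤ) - 12) = 1 := by
    have : ((1 : ℤ) - 12) = -(11 : ℤ) := by norm_num
    rw [this, zpow_neg, ← zpow_natCast]
    exact mul_inv_cancel₀ (zpow_ne_zero _ hp')
  have key : ((sturmDelta.coeff (p * p) : ℤ) : ℂ) =
      ((sturmDelta.coeff p ^ 2 - (p : ℤ) ^ 11 : ℤ) : ℂ) := by
    push_cast
    linear_combination (p : ℂ) ^ 11 * hpp.symm +
      ((sturmDelta.coeff p : ℂ) ^ 2 - (sturmDelta.coeff (p * p) : ℂ)) * hz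
  exact_mod_cast key

/-- **Step Δ.** For a prime `ℓ ≠ p` with `ℓ^j ∤ p + 1` there is no `Θ ∈ M₂(Γ₀(p))` with
`Θ ≡ 1 mod ℓ^j`. -/
theorem tt_noTheta (p l j : ℕ) [Fact p.Prime] (hl : l.Prime) (hlp : l ≠ p)
    (hnd : ¬ l ^ j ∣ p + 1) (Θ : ModularForm (Gamma0 p) 2) (h : ThetaCong p l j Θ) : False := by
  apply hnd
  have hdvd : (l : ℤ) ^ j ∣ (p : ℤ) + 1 :=
    tt_abstract p l j (Fact.out : p.Prime) hl hlp (qExpansion 1 Θ) h.1
      (fun n hn => h.coeff_mem hl hn) sturmDelta sturmDelta_coeff_zero sturmDelta_coeff_one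
      (fun m => tt_T1 Θ m) (tt_T2 p)
  exact_mod_cast hdvd

end

end Fermat.Agent.S16
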