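import Fermat.Agent.S28.InvFamily

/-!
# S16 — a "weight-0 Sturm bound" for `Γ₀(N)` (helper36)

`wz_sturm`: a `Γ₀(N)`-invariant (weight `0`) holomorphic function on `ℍ`, all of whose
`SL(2,ℤ)`-translates have (after scaling by a constant) expansions at `i∞` with coefficients in a
subring `R ⊆ ℂ`, vanishing modulo a prime ideal `I` of `R` at all exponents `≤ 0` but not
identically `0` modulo `I`, cannot exist.

`wz_Rl ℓ`, `wz_Il ℓ`: a concrete prime pair above a rational prime `ℓ` (localisation of the ring of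
algebraic integers at a maximal ideal containing `ℓ`).
-/

set_option autoImplicit false

open ModularCurve AlgebraicCurve MatrixGroups UpperHalfPlane ModularForm EisensteinSeries

open scoped Manifold

open Fermat.Agent.S24 Fermat.Agent.S28

namespace Fermat.Agent.S16

/-! ### Level one: vanishing mod `I` at non-positive exponents implies vanishing mod `I` -/

theorem wz_levelOne_aux (N : ℕ) [NeZero N] (I : AddSubgroup ℂ) (M : ℕ) :
    ∀ f : ℍ → ℂ, (∀ g : SL(2, ℤ), actFn g f = f) → ∀ L : LaurentSeries ℂ, HasWExp N f L →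
    (∀ n : ℤ, n ≤ 0 → L.coeff n ∈ I) → (∀ n : ℤ, n < -(M : ℤ) → L.coeff n = 0) →
    ∀ n : ℤ, L.coeff n ∈ I := by
  induction M with
  | zero =>
    intro f hinv L hL hI hcoeff n
    have ht := hL.tendsto (fun n hn => hcoeff n (by simpa using hn))
    have hconst := wpA4c_const_of_invariant hL.mdiff hinv ht
    have hL2 : HasWExp N f (HahnSeries.C (L.coeff 0)) := by
      rw [hconst]; exact hasWExp_const N _
    have hLC := hL.unique hL2
    by_cases hn : n = 0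
    · rw [hn]; exact hI 0 le_rfl
    · have : L.coeff n = 0 := by
        rw [hLC, HahnSeries.C_apply, HahnSeries.coeff_single_of_ne hn]
      rw [this]; exact I.zero_mem
  | succ M ih =>
    intro f hinv L hL hI hcoeff
    by_cases hc : L.coeff (-((M : ℤ) + 1)) = 0
    · apply ih f hinv L hL hI
      intro n hn
      rcases lt_or_eq_of_le (show n ≤ -((M : ℤ) + 1) by omega) with h | h
      · exact hcoeff n (by push_cast; omega)
      · rw [h]; exact hc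
    · have h1 := hL.twist 1
      rw [pow_one, hinv] at h1
      have h2 : twistL N 1 L = L := h1.unique hL
      have h3 : (N : ℤ) ∣ ((1 : ℕ) : ℤ) * (-((M : ℤ) + 1)) := wpA4c_dvd_of_twistL_eq h2 hc
      obtain ⟨e, he⟩ := h3
      have hNpos : (0 : ℤ) < N := by exact_mod_cast Nat.pos_of_ne_zero (NeZero.ne N)
      have he0 : e < 0 := by
        by_contra hcon
        have : 0 ≤ (N : ℤ) * e := mul_nonneg hNpos.le (not_lt.1 hcon)
        push_cast at he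
        omega
      obtain ⟨M', hM'⟩ : ∃ M' : ℕ, (M' : ℤ) = -e := ⟨(-e).toNat, Int.toNat_of_nonneg (by omega)⟩
      have hNM : (N : ℤ) * M' = (M : ℤ) + 1 := by
        rw [hM']
        push_cast at he
        linarith
      set c := L.coeff (-((M : ℤ) + 1)) with hcdef
      have hcI : c ∈ I := hI _ (by omega)
      have hcJ : ∀ n : ℤ, c * ((JcN N) ^ M').coeff n ∈ I := by
        intro n
        obtain ⟨z, hz⟩ := JcN_pow_coeff_int N M' n
        rw [hz, mul_comm, ← zsmul_eq_mul]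
        exact I.zsmul_mem hcI z
      have hinv' : ∀ g : SL(2, ℤ), actFn g (f + (fun _ : ℍ => -c) * kleinJ ^ M') =
          f + (fun _ : ℍ => -c) * kleinJ ^ M' := by
        intro g
        funext τ
        have e1 := congrFun (hinv g) τ
        have e2 := congrFun (wpA4c_actFn_kleinJ g) τ
        simp only [actFn_apply, Pi.add_apply, Pi.mul_apply, Pi.pow_apply] at e1 e2 ⊢
        rw [e1, e2]
      have hL' : HasWExp N (f + (fun _ : ℍ => -c) * kleinJ ^ M')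
          (L + HahnSeries.C (-c) * (JcN N) ^ M') :=
        hL.add ((hasWExp_const N (-c)).mul (wpA4c_hasWExp_pow (hasWExp_kleinJ N) M'))
      have hcoeffEq : ∀ n : ℤ, (L + HahnSeries.C (-c) * (JcN N) ^ M').coeff n =
          L.coeff n - c * ((JcN N) ^ M').coeff n := by
        intro n
        rw [HahnSeries.coeff_add, HahnSeries.C_mul_eq_smul, HahnSeries.coeff_smul, smul_eq_mul]
        ring
      have hI' : ∀ n : ℤ, n ≤ 0 → (L + HahnSeries.C (-c) * (JcN N) ^ M').coeff n ∈ I := by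
        intro n hn
        rw [hcoeffEq]
        exact I.sub_mem (hI n hn) (hcJ n)
      have hcoeff' : ∀ n : ℤ, n < -(M : ℤ) →
          (L + HahnSeries.C (-c) * (JcN N) ^ M').coeff n = 0 := by
        intro n hn
        rw [hcoeffEq]
        rcases lt_or_eq_of_le (show n ≤ -((M : ℤ) + 1) by omega) with h | h
        · rw [hcoeff n (by push_cast; omega), JcN_pow_coeff_of_lt N M' (by rw [hNM]; exact h)]
          simp
        · have h' : n = -((N : ℤ) * M') := by rw [hNM]; exact h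
          rw [h', JcN_pow_coeff_self, ← hNM] at *
          rw [hcdef]
          ring
      have key := ih _ hinv' _ hL' hI' hcoeff'
      intro n
      have := I.add_mem (key n) (hcJ n)
      rw [hcoeffEq, sub_add_cancel] at this
      exact this

/-- **Level one, modulo `I`.** If an `SL(2,ℤ)`-invariant holomorphic function has an expansion at
`i∞` whose coefficients at the exponents `≤ 0` lie in an additive subgroup `I ⊆ ℂ`, then all its
coefficients lie in `I`. -/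
theorem wz_levelOne_mem (N : ℕ) [NeZero N] (I : AddSubgroup ℂ) (f : ℍ → ℂ)
    (hinv : ∀ g : SL(2, ℤ), actFn g f = f) (L : LaurentSeries ℂ) (hL : HasWExp N f L)
    (hI : ∀ n : ℤ, n ≤ 0 → L.coeff n ∈ I) : ∀ n : ℤ, L.coeff n ∈ I := by
  by_cases hL0 : L = 0
  · intro n; rw [hL0]; simp
  · obtain ⟨M, hM⟩ : ∃ M : ℕ, -(M : ℤ) ≤ L.order :=
      ⟨(-L.order).toNat, by have := Int.self_le_toNat (-L.order); omega⟩
    exact wz_levelOne_aux N I M f hinv L hL hI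
      (fun n hn => HahnSeries.coeff_eq_zero_of_lt_order (lt_of_lt_of_le hn hM))

/-! ### Prime pairs and orders modulo `I` -/

/-- `I` is (the underlying additive group of) a prime ideal of the subring `R ⊆ ℂ`. -/
def wz_IsPrimePair (R : Subring ℂ) (I : AddSubgroup ℂ) : Prop :=
  (∀ x ∈ I, x ∈ R) ∧ (∀ r ∈ R, ∀ x ∈ I, r * x ∈ I) ∧
    (∀ a ∈ R, ∀ b ∈ R, a * b ∈ I → a ∈ I ∨ b ∈ I) ∧ (1 : ℂ) ∉ I

/-- `L` has coefficients in `R`, lying in `I` below the exponent `m`, and not at `m`. -/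
def wz_OrdAt (R : Subring ℂ) (I : AddSubgroup ℂ) (L : LaurentSeries ℂ) (m : ℤ) : Prop :=
  (∀ n, L.coeff n ∈ R) ∧ (∀ n, n < m → L.coeff n ∈ I) ∧ L.coeff m ∉ I

theorem wz_ordAt_one {R : Subring ℂ} {I : AddSubgroup ℂ} (h : wz_IsPrimePair R I) :
    wz_OrdAt R I (1 : LaurentSeries ℂ) 0 := by
  refine ⟨fun n => ?_, fun n hn => ?_, ?_⟩
  · rw [HahnSeries.coeff_one]
    split_ifs
    · exact R.one_mem
    · exact R.zero_mem
  · rw [HahnSeries.coeff_one, if_neg (by omega)]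
    exact I.zero_mem
  · rw [HahnSeries.coeff_one, if_pos rfl]
    exact h.2.2.2

theorem wz_ordAt_mul {R : Subring ℂ} {I : AddSubgroup ℂ} (h : wz_IsPrimePair R I)
    {L M : LaurentSeries ℂ} {m m' : ℤ} (hL : wz_OrdAt R I L m) (hM : wz_OrdAt R I M m') :
    wz_OrdAt R I (L * M) (m + m') := by
  obtain ⟨hIR, hRI, hprime, -⟩ := h
  obtain ⟨hLR, hLI, hLm⟩ := hL
  obtain ⟨hMR, hMI, hMm⟩ := hM
  have hterm : ∀ i j : ℤ, i + j ≤ m + m' → (i, j) ≠ (m, m') → L.coeff i * M.coeff j ∈ I := by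
    intro i j hij hne
    by_cases hi : i < m
    · rw [mul_comm]
      exact hRI _ (hMR j) _ (hLI i hi)
    · have hj : j < m' := by
        by_contra hj
        apply hne
        have : i = m := by omega
        have : j = m' := by omega
        simp [*]
      exact hRI _ (hLR i) _ (hMI j hj)
  refine ⟨h22_coeff_mul_mem R hLR hMR, fun n hn => ?_, ?_⟩
  · rw [HahnSeries.coeff_mul]
    refine I.sum_mem fun ij hij => ?_
    have hsum : ij.1 + ij.2 = n := (Finset.mem_antidiagonal.mp hij).2.2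
    refine hterm ij.1 ij.2 (by omega) ?_
    intro heq
    have h1 : ij.1 = m := congrArg Prod.fst heq
    have h2 : ij.2 = m' := congrArg Prod.snd heq
    omega
  · have hLm0 : L.coeff m ≠ 0 := fun h0 => hLm (h0 ▸ I.zero_mem)
    have hMm0 : M.coeff m' ≠ 0 := fun h0 => hMm (h0 ▸ I.zero_mem)
    have hmem : (m, m') ∈ Finset.antidiagonal L.isPWO_support M.isPWO_support (m + m') :=
      Finset.mem_antidiagonal.mpr ⟨hLm0, hMm0, rfl⟩
    rw [HahnSeries.coeff_mul, ← Finset.add_sum_erase _ _ hmem]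
    intro hcon
    have hrest : ∑ ij ∈ (Finset.antidiagonal L.isPWO_support M.isPWO_support (m + m')).erase
        (m, m'), L.coeff ij.1 * M.coeff ij.2 ∈ I := by
      refine I.sum_mem fun ij hij => ?_
      obtain ⟨hne, hij'⟩ := Finset.mem_erase.mp hij
      have hsum : ij.1 + ij.2 = m + m' := (Finset.mem_antidiagonal.mp hij').2.2
      exact hterm ij.1 ij.2 hsum.le hne
    have hmm : L.coeff m * M.coeff m' ∈ I := by
      have := I.sub_mem hcon hrest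
      rwa [add_sub_cancel_right] at this
    rcases hprime _ (hLR m) _ (hMR m') hmm with h1 | h1
    · exact hLm h1
    · exact hMm h1

theorem wz_ordAt_prod {R : Subring ℂ} {I : AddSubgroup ℂ} (h : wz_IsPrimePair R I)
    {ι : Type*} (s : Finset ι) (L : ι → LaurentSeries ℂ) (m : ι → ℤ)
    (hL : ∀ i ∈ s, wz_OrdAt R I (L i) (m i)) :
    wz_OrdAt R I (∏ i ∈ s, L i) (∑ i ∈ s, m i) := by
  classical
  induction s using Finset.induction_on with
  | empty => simpa using wz_ordAt_one h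
  | insert a s ha ih =>
    rw [Finset.prod_insert ha, Finset.sum_insert ha]
    exact wz_ordAt_mul h (hL a (Finset.mem_insert_self a s))
      (ih fun i hi => hL i (Finset.mem_insert_of_mem hi))

/-- A series with `R`-coefficients, vanishing mod `I` at exponents `≤ 0` but not identically,
has a positive order mod `I`. -/
theorem wz_exists_ordAt {R : Subring ℂ} {I : AddSubgroup ℂ} {L : LaurentSeries ℂ}
    (hR : ∀ n, L.coeff n ∈ R) (h0 : ∀ n : ℤ, n ≤ 0 → L.coeff n ∈ I) (hne : ∃ n, L.coeff n ∉ I) :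
    ∃ m : ℤ, 0 < m ∧ wz_OrdAt R I L m := by
  classical
  obtain ⟨n₀, hn₀⟩ := hne
  have hbdd : ∀ z : ℤ, L.coeff z ∉ I → (1 : ℤ) ≤ z := by
    intro z hz
    by_contra hcon
    exact hz (h0 z (by omega))
  obtain ⟨m, hm, hmin⟩ := Int.exists_least_of_bdd (P := fun z => L.coeff z ∉ I) ⟨1, hbdd⟩ ⟨n₀, hn₀⟩
  refine ⟨m, by have := hbdd m hm; omega, hR, fun n hn => ?_, hm⟩
  by_contra hcon
  have := hmin n hcon
  omega

/-! ### The coset product -/

theorem wz_hasWExp_prod (N : ℕ) [NeZero N] {ι : Type*} (s : Finset ι) (F : ι → ℍ → ℂ)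
    (L : ι → LaurentSeries ℂ) (h : ∀ i ∈ s, HasWExp N (F i) (L i)) :
    HasWExp N (∏ i ∈ s, F i) (∏ i ∈ s, L i) := by
  classical
  induction s using Finset.induction_on with
  | empty =>
    simp only [Finset.prod_empty]
    have := hasWExp_const N 1
    rwa [map_one] at this
  | insert a s ha ih =>
    rw [Finset.prod_insert ha, Finset.prod_insert ha]
    exact (h a (Finset.mem_insert_self a s)).mul (ih fun i hi => h i (Finset.mem_insert_of_mem hi))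

/-- **Weight-0 Sturm bound for `Γ₀(N)`.** -/
theorem wz_sturm (N : ℕ) [NeZero N] (R : Subring ℂ) (I : AddSubgroup ℂ)
    (hRI : wz_IsPrimePair R I) (u₀ : ℍ → ℂ)
    (hΓ : ∀ γ ∈ CongruenceSubgroup.Gamma0 N, actFn γ u₀ = u₀)
    (hexp : ∀ g : SL(2, ℤ), ∃ (s : ℂ) (L : LaurentSeries ℂ), HasWExp N (actFn g u₀) L ∧
      (∀ n, s * L.coeff n ∈ R) ∧ (∀ n : ℤ, n ≤ 0 → s * L.coeff n ∈ I) ∧
      ∃ n, s * L.coeff n ∉ I) : False := by
  classical
  have : Finite (SL(2, ℤ) ⧸ CongruenceSubgroup.Gamma0 N) :=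
    Subgroup.finite_quotient_of_finiteIndex
  let : Fintype (SL(2, ℤ) ⧸ CongruenceSubgroup.Gamma0 N) := Fintype.ofFinite _
  -- data for each coset
  have hdata : ∀ x : SL(2, ℤ) ⧸ CongruenceSubgroup.Gamma0 N, ∃ (L : LaurentSeries ℂ) (m : ℤ),
      HasWExp N (cosetFn N u₀ hΓ x) L ∧ 0 < m ∧ ∃ s : ℂ, wz_OrdAt R I (HahnSeries.C s * L) m := by
    intro x
    induction x using QuotientGroup.induction_on with
    | H g =>
      obtain ⟨s, L, hL, hR, h0, hne⟩ := hexp g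
      have hc : ∀ n, (HahnSeries.C s * L).coeff n = s * L.coeff n := by
        intro n
        rw [HahnSeries.C_mul_eq_smul, HahnSeries.coeff_smul, smul_eq_mul]
      obtain ⟨m, hm, hord⟩ := wz_exists_ordAt (R := R) (I := I) (L := HahnSeries.C s * L)
        (fun n => by rw [hc]; exact hR n) (fun n hn => by rw [hc]; exact h0 n hn)
        (by obtain ⟨n, hn⟩ := hne; exact ⟨n, by rw [hc]; exact hn⟩)
      exact ⟨L, m, hL, hm, s, hord⟩
  choose L m hL hm s hord using hdata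
  -- the product function
  set F : ℍ → ℂ := ∏ x : SL(2, ℤ) ⧸ CongruenceSubgroup.Gamma0 N, cosetFn N u₀ hΓ x with hF
  have hFexp : HasWExp N F (∏ x, L x) :=
    wz_hasWExp_prod N Finset.univ _ _ fun x _ => hL x
  have hFinv : ∀ h : SL(2, ℤ), actFn h F = F := by
    intro h
    have h1 : actFn h F = wpA5b2_actHom h F := rfl
    rw [h1, hF, map_prod]
    have : ∀ x : SL(2, ℤ) ⧸ CongruenceSubgroup.Gamma0 N,
        (wpA5b2_actHom h) (cosetFn N u₀ hΓ x) = cosetFn N u₀ hΓ (h • x) := cosetFn_act N u₀ hΓ h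
    simp only [this]
    exact Equiv.prod_comp (MulAction.toPerm h)
      (fun x : SL(2, ℤ) ⧸ CongruenceSubgroup.Gamma0 N => cosetFn N u₀ hΓ x)
  -- scale by the product of the constants
  set S : ℂ := ∏ x, s x with hS
  have hGexp : HasWExp N ((fun _ : ℍ => S) * F) (∏ x, (HahnSeries.C (s x) * L x)) := by
    have := (hasWExp_const N S).mul hFexp
    rwa [hS, map_prod, ← Finset.prod_mul_distrib] at this
  have hGinv : ∀ h : SL(2, ℤ), actFn h ((fun _ : ℍ => S) * F) = (fun _ : ℍ => S) * F := by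
    intro h
    funext τ
    have e1 := congrFun (hFinv h) τ
    simp only [actFn_apply, Pi.mul_apply] at e1 ⊢
    rw [e1]
  have hordP := wz_ordAt_prod hRI Finset.univ (fun x => HahnSeries.C (s x) * L x) m
    (fun x _ => hord x)
  have hpos : 0 < ∑ x : SL(2, ℤ) ⧸ CongruenceSubgroup.Gamma0 N, m x := by
    refine Finset.sum_pos (fun x _ => hm x) ?_
    exact ⟨((1 : SL(2, ℤ)) : SL(2, ℤ) ⧸ CongruenceSubgroup.Gamma0 N), Finset.mem_univ _⟩
  have hall := wz_levelOne_mem N I _ hGinv _ hGexp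
    (fun n hn => hordP.2.1 n (lt_of_le_of_lt hn hpos))
  exact hordP.2.2 (hall _)


/-! ### A concrete prime pair above a rational prime -/

theorem wz_span_ne_top (ℓ : ℕ) (hℓ : ℓ.Prime) :
    Ideal.span {((ℓ : ℤ) : ↥Zbar)} ≠ ⊤ := by
  intro htop
  rw [Ideal.eq_top_iff_one, Ideal.mem_span_singleton] at htop
  obtain ⟨x, hx⟩ := htop
  have hx' : (1 : ℂ) = (ℓ : ℂ) * (x : ℂ) := by
    have := congrArg (fun y : ↥Zbar => (y : ℂ)) hx
    simpa using this
  have hℓ0 : (ℓ : ℂ) ≠ 0 := Nat.cast_ne_zero.mpr hℓ.ne_zero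
  have hxv : (x : ℂ) = algebraMap ℚ ℂ ((ℓ : ℚ)⁻¹) := by
    rw [map_inv₀, map_natCast]
    field_simp
    rw [mul_comm]; exact hx'.symm
  have hint : IsIntegral ℤ (algebraMap ℚ ℂ ((ℓ : ℚ)⁻¹)) := hxv ▸ (mem_Zbar.mp x.2)
  have hint' : IsIntegral ℤ ((ℓ : ℚ)⁻¹) :=
    (isIntegral_algebraMap_iff (algebraMap ℚ ℂ).injective).mp hint
  obtain ⟨z, hz⟩ := IsIntegrallyClosed.isIntegral_iff.mp hint'
  have h1 : (z : ℚ) * ℓ = 1 := by
    have hℓq : (ℓ : ℚ) ≠ 0 := Nat.cast_ne_zero.mpr hℓ.ne_zero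
    have : (z : ℚ) = (ℓ : ℚ)⁻¹ := by simpa using hz
    rw [this]; field_simp
  have h2 : z * (ℓ : ℤ) = 1 := by exact_mod_cast h1
  have h3 : (ℓ : ℤ) ∣ 1 := Dvd.intro_left z h2
  have h4 : (ℓ : ℤ) = 1 ∨ (ℓ : ℤ) = -1 := Int.isUnit_iff.mp (isUnit_of_dvd_one h3)
  have := hℓ.one_lt
  omega

/-- A maximal ideal of the ring of algebraic integers containing `ℓ` (`⊤` if `ℓ` is not prime). -/
noncomputable def wz_max (ℓ : ℕ) : Ideal ↥Zbar :=
  open scoped Classical in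
  if h : ℓ.Prime then (Ideal.exists_le_maximal _ (wz_span_ne_top ℓ h)).choose else ⊤

theorem wz_max_isMaximal (ℓ : ℕ) (hℓ : ℓ.Prime) : (wz_max ℓ).IsMaximal := by
  rw [wz_max, dif_pos hℓ]
  exact (Ideal.exists_le_maximal _ (wz_span_ne_top ℓ hℓ)).choose_spec.1

theorem wz_prime_mem_max (ℓ : ℕ) (hℓ : ℓ.Prime) : ((ℓ : ℤ) : ↥Zbar) ∈ wz_max ℓ := by
  rw [wz_max, dif_pos hℓ]
  exact (Ideal.exists_le_maximal _ (wz_span_ne_top ℓ hℓ)).choose_spec.2
    (Ideal.subset_span rfl)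

/-- The localisation of the ring of algebraic integers at `wz_max ℓ`, inside `ℂ`. -/
noncomputable def wz_Rl (ℓ : ℕ) (hℓ : ℓ.Prime) : Subring ℂ where
  carrier := {x | ∃ s : ↥Zbar, s ∉ wz_max ℓ ∧ ∃ a : ↥Zbar, (s : ℂ) * x = a}
  mul_mem' := by
    rintro x y ⟨s, hs, a, ha⟩ ⟨t, ht, b, hb⟩
    have := (wz_max_isMaximal ℓ hℓ).isPrime
    refine ⟨s * t, fun h => (this.mem_or_mem h).elim hs ht, a * b, ?_⟩
    push_cast
    rw [← ha, ← hb]; ring
  one_mem' := ⟨1, (Ideal.ne_top_iff_one _).mp (wz_max_isMaximal ℓ hℓ).ne_top, 1, by simp⟩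
  add_mem' := by
    rintro x y ⟨s, hs, a, ha⟩ ⟨t, ht, b, hb⟩
    have := (wz_max_isMaximal ℓ hℓ).isPrime
    refine ⟨s * t, fun h => (this.mem_or_mem h).elim hs ht, t * a + s * b, ?_⟩
    push_cast
    rw [← ha, ← hb]; ring
  zero_mem' := ⟨1, (Ideal.ne_top_iff_one _).mp (wz_max_isMaximal ℓ hℓ).ne_top, 0, by simp⟩
  neg_mem' := by
    rintro x ⟨s, hs, a, ha⟩
    refine ⟨s, hs, -a, ?_⟩
    push_cast
    rw [← ha]; ring

/-- The maximal ideal of `wz_Rl ℓ`, as an additive subgroup of `ℂ`. -/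
noncomputable def wz_Il (ℓ : ℕ) (hℓ : ℓ.Prime) : AddSubgroup ℂ where
  carrier := {x | ∃ s : ↥Zbar, s ∉ wz_max ℓ ∧ ∃ a : ↥Zbar, a ∈ wz_max ℓ ∧ (s : ℂ) * x = a}
  add_mem' := by
    rintro x y ⟨s, hs, a, ham, ha⟩ ⟨t, ht, b, hbm, hb⟩
    have := (wz_max_isMaximal ℓ hℓ).isPrime
    refine ⟨s * t, fun h => (this.mem_or_mem h).elim hs ht, t * a + s * b,
      (wz_max ℓ).add_mem ((wz_max ℓ).mul_mem_left _ ham) ((wz_max ℓ).mul_mem_left _ hbm), ?_⟩
    push_cast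
    rw [← ha, ← hb]; ring
  zero_mem' := ⟨1, (Ideal.ne_top_iff_one _).mp (wz_max_isMaximal ℓ hℓ).ne_top, 0,
    (wz_max ℓ).zero_mem, by simp⟩
  neg_mem' := by
    rintro x ⟨s, hs, a, ham, ha⟩
    refine ⟨s, hs, -a, (wz_max ℓ).neg_mem ham, ?_⟩
    push_cast
    rw [← ha]; ring

theorem wz_mem_Rl {ℓ : ℕ} {hℓ : ℓ.Prime} {x : ℂ} :
    x ∈ wz_Rl ℓ hℓ ↔ ∃ s : ↥Zbar, s ∉ wz_max ℓ ∧ ∃ a : ↥Zbar, (s : ℂ) * x = a := Iff.rfl

theorem wz_mem_Il {ℓ : ℕ} {hℓ : ℓ.Prime} {x : ℂ} :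
    x ∈ wz_Il ℓ hℓ ↔ ∃ s : ↥Zbar, s ∉ wz_max ℓ ∧ ∃ a : ↥Zbar, a ∈ wz_max ℓ ∧ (s : ℂ) * x = a :=
  Iff.rfl

theorem wz_isPrimePair (ℓ : ℕ) (hℓ : ℓ.Prime) : wz_IsPrimePair (wz_Rl ℓ hℓ) (wz_Il ℓ hℓ) := by
  have hprime := (wz_max_isMaximal ℓ hℓ).isPrime
  have h1 : (1 : ↥Zbar) ∉ wz_max ℓ := (Ideal.ne_top_iff_one _).mp (wz_max_isMaximal ℓ hℓ).ne_top
  refine ⟨?_, ?_, ?_, ?_⟩
  · rintro x ⟨s, hs, a, -, ha⟩
    exact ⟨s, hs, a, ha⟩
  · rintro r ⟨s, hs, a, ha⟩ x ⟨t, ht, b, hbm, hb⟩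
    refine ⟨s * t, fun h => (hprime.mem_or_mem h).elim hs ht, a * b,
      (wz_max ℓ).mul_mem_left _ hbm, ?_⟩
    push_cast
    rw [← ha, ← hb]; ring
  · rintro x ⟨s, hs, a, ha⟩ y ⟨t, ht, b, hb⟩ ⟨r, hr, c, hcm, hc⟩
    have hkey : r * (a * b) = s * t * c := by
      apply Subtype.ext
      push_cast
      rw [← ha, ← hb, ← hc]; ring
    have hmem : r * (a * b) ∈ wz_max ℓ := hkey ▸ (wz_max ℓ).mul_mem_left _ hcm
    rcases hprime.mem_or_mem hmem with h | h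
    · exact absurd h hr
    · rcases hprime.mem_or_mem h with h | h
      · exact Or.inl ⟨s, hs, a, h, ha⟩
      · exact Or.inr ⟨t, ht, b, h, hb⟩
  · rintro ⟨s, hs, a, ham, ha⟩
    have : s = a := Subtype.ext (by simpa using ha)
    exact hs (this ▸ ham)

/-- Algebraic integers lie in `wz_Rl ℓ`. -/
theorem wz_isIntegral_mem_Rl (ℓ : ℕ) (hℓ : ℓ.Prime) {x : ℂ} (hx : IsIntegral ℤ x) :
    x ∈ wz_Rl ℓ hℓ :=
  ⟨1, (Ideal.ne_top_iff_one _).mp (wz_max_isMaximal ℓ hℓ).ne_top, ⟨x, hx⟩, by simp⟩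

theorem wz_intCast_mem_Rl (ℓ : ℕ) (hℓ : ℓ.Prime) (a : ℤ) : (a : ℂ) ∈ wz_Rl ℓ hℓ :=
  intCast_mem _ a

theorem wz_prime_mem_Il (ℓ : ℕ) (hℓ : ℓ.Prime) : (ℓ : ℂ) ∈ wz_Il ℓ hℓ :=
  ⟨1, (Ideal.ne_top_iff_one _).mp (wz_max_isMaximal ℓ hℓ).ne_top, ((ℓ : ℤ) : ↥Zbar),
    wz_prime_mem_max ℓ hℓ, by simp⟩

theorem wz_intCast_notMem_max (ℓ : ℕ) (hℓ : ℓ.Prime) {b : ℤ} (hb : ¬ (ℓ : ℤ) ∣ b) :
    ((b : ℤ) : ↥Zbar) ∉ wz_max ℓ := by
  intro hmem
  have hcop : IsCoprime (ℓ : ℤ) b :=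
    (Prime.coprime_iff_not_dvd (Nat.prime_iff_prime_int.mp hℓ)).mpr hb
  obtain ⟨u, v, huv⟩ := hcop
  have h1 : ((u : ℤ) : ↥Zbar) * ((ℓ : ℤ) : ↥Zbar) + ((v : ℤ) : ↥Zbar) * ((b : ℤ) : ↥Zbar) = 1 := by
    have := congrArg (fun z : ℤ => ((z : ℤ) : ↥Zbar)) huv
    simpa using this
  have : (1 : ↥Zbar) ∈ wz_max ℓ :=
    h1 ▸ (wz_max ℓ).add_mem ((wz_max ℓ).mul_mem_left _ (wz_prime_mem_max ℓ hℓ))
      ((wz_max ℓ).mul_mem_left _ hmem)
  exact (Ideal.ne_top_iff_one _).mp (wz_max_isMaximal ℓ hℓ).ne_top this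

/-- Integers prime to `ℓ` are not in `wz_Il ℓ`. -/
theorem wz_intCast_mem_Il_iff (ℓ : ℕ) (hℓ : ℓ.Prime) (b : ℤ) :
    (b : ℂ) ∈ wz_Il ℓ hℓ ↔ (ℓ : ℤ) ∣ b := by
  constructor
  · rintro ⟨s, hs, a, ham, ha⟩
    by_contra hb
    have hprime := (wz_max_isMaximal ℓ hℓ).isPrime
    have hsb : s * ((b : ℤ) : ↥Zbar) = a := Subtype.ext (by push_cast; simpa using ha)
    rcases hprime.mem_or_mem (hsb ▸ ham : s * ((b : ℤ) : ↥Zbar) ∈ wz_max ℓ) with h | h
    · exact hs h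
    · exact wz_intCast_notMem_max ℓ hℓ hb h
  · rintro ⟨c, rfl⟩
    have h := (wz_isPrimePair ℓ hℓ).2.1 (c : ℂ) (wz_intCast_mem_Rl ℓ hℓ c) _ (wz_prime_mem_Il ℓ hℓ)
    push_cast
    rwa [mul_comm] at h

/-- Rational numbers with denominator prime to `ℓ` lie in `wz_Rl ℓ`. -/
theorem wz_div_mem_Rl (ℓ : ℕ) (hℓ : ℓ.Prime) (a : ℤ) {b : ℤ} (hb : ¬ (ℓ : ℤ) ∣ b) :
    (a : ℂ) / (b : ℂ) ∈ wz_Rl ℓ hℓ := by
  have hb0 : (b : ℂ) ≠ 0 := by
    intro h
    apply hb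
    have : b = 0 := by exact_mod_cast h
    rw [this]; exact dvd_zero _
  refine ⟨((b : ℤ) : ↥Zbar), wz_intCast_notMem_max ℓ hℓ hb, ((a : ℤ) : ↥Zbar), ?_⟩
  push_cast
  field_simp

/-- `ℓ`-units `a / b` are not in `wz_Il ℓ`. -/
theorem wz_div_notMem_Il (ℓ : ℕ) (hℓ : ℓ.Prime) {a b : ℤ} (ha : ¬ (ℓ : ℤ) ∣ a) (hb : b ≠ 0) :
    (a : ℂ) / (b : ℂ) ∉ wz_Il ℓ hℓ := by
  intro h
  have hb0 : (b : ℂ) ≠ 0 := by exact_mod_cast hb
  have h1 := (wz_isPrimePair ℓ hℓ).2.1 (b : ℂ) (wz_intCast_mem_Rl ℓ hℓ b) _ h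
  rw [mul_div_cancel₀ _ hb0] at h1
  exact ha ((wz_intCast_mem_Il_iff ℓ hℓ a).mp h1)

/-- Elements of `wz_Rl ℓ` that are invertible in `wz_Rl ℓ` are not in `wz_Il ℓ`. -/
theorem wz_notMem_Il_of_mul_eq_one (ℓ : ℕ) (hℓ : ℓ.Prime) {x y : ℂ} (hy : y ∈ wz_Rl ℓ hℓ)
    (hxy : y * x = 1) : x ∉ wz_Il ℓ hℓ := by
  intro hx
  have := (wz_isPrimePair ℓ hℓ).2.1 y hy x hx
  rw [hxy] at this
  exact (wz_isPrimePair ℓ hℓ).2.2.2 this

end Fermat.Agent.S16
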